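/-
GATE-E / E8.SQ toric side, node (TOR-OLD) in the ABSTRACT vocabulary of GATE-L (helper29).

`S : H4OfXi.TripleSetup` = the geometric data at the triple points of level `q² ∥ N` (three
vertical valuations `W1 W2 W3` of `F`, two `A1 A2` of the field `E` of the level below, branch
points, chart ring `B` with its triple points).  `φ1 φ2 : E →+* F` = the two pull-backs (`α^*`,
`β^*`), with the reduction ROWS

  `rd1 (φ1 z) = j11 (rd1' z)`, `rd3 (φ1 z) = j13 (rd1' z)`, `rd2 (φ1 z) = j22 (rd2' z)`,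
  `rd1 (φ2 z) = j11' (rd1' z)`, `rd2 (φ2 z) = j22' (rd2' z)`, `rd3 (φ2 z) = j23' (rd2' z)`

(`α` maps the components `(C1, C2, C3)` to `(C1', C2', C1')`, `β` to `(C1', C2', C2')`).

* `pull_row`        : a row + compatible branch points ⟹ `φ z` is a unit at the upper branch with the
                      SAME branch value;
* `torOld_branch`   : **TOR-OLD, multiplicative core** (pure `XiStep.Branch` algebra).  A Kummer
                      datum `g ^ m * u = c` upstairs (`u` of branch values `1`, `c` of equal branch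
                      values) has gluing ratios `(ξ₂, ξ₃)(n) ∈ μ_m²`; if EVERY `ζ : T' → μ_m` is, up
                      to a constant, the gluing ratio of a datum of the level below (`LowDatum`,
                      = TORIC-EXIST/SURJ) and `p1 p2 : T → T'` are injective, then there are two
                      data below with `g / (φ1 g₁ * φ2 g₂)` of CONSTANT gluing ratios `(a0, b0)`;
* `torOld_U3`       : **TOR-OLD in `U3`-form**: `U2 S u`, a global datum `g ^ m * u = c ∈ B ∖ ⋃ P n`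
                      ⟹ `∃ z₁ z₂ f0, U3 S m (u / (φ1 z₁ * φ2 z₂) * f0 ^ m)`, i.e. exactly the input
                      of (H5) (`GL/Final/H5FinalK0.h5FinalK0`).
-/
import Mathlib
import Fermat.Agent.GL.Gate.H4OfXi

set_option autoImplicit false
set_option linter.unusedSectionVars false
set_option linter.unusedVariables false

namespace Fermat.Agent.GE8.SQ2.ToricOldAbs

open Fermat.Agent.GL Fermat.Agent.GL.XiStep Fermat.Agent.GL.CompBranch Fermat.Agent.GL.H4OfXi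
open Fermat.Agent.GL.XiRows

/-! ### a pull-back row at one branch -/

section PullRow

variable {F E κ κ' k : Type*} [Field F] [Field E] [Field κ] [Field κ'] [Field k]
  (V : ValuationSubring F) (r : V →+* κ) (hr : ∀ z : V, ¬ IsUnit z → r z = 0)
  (U : ValuationSubring κ) (e : U →+* k)
  (A : ValuationSubring E) (r' : A →+* κ') (hr' : ∀ z : A, ¬ IsUnit z → r' z = 0)
  (U' : ValuationSubring κ') (e' : U' →+* k)
  (φ : E →+* F) (j : κ' →+* κ)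
  (hrow : ∀ (z : E) (hz : z ∈ A), ∃ h : φ z ∈ V, r ⟨φ z, h⟩ = j (r' ⟨z, hz⟩))
  (hc : ∀ y : κ', y ∈ U' ↔ j y ∈ U)
  (hce : ∀ (y : κ') (hy : y ∈ U') (hy' : j y ∈ U), e ⟨j y, hy'⟩ = e' ⟨y, hy⟩)

include hrow hc hce in
/-- **a pull-back row**: `φ z` is a unit at the upper branch, with the same value. -/
theorem pull_row {z : E} (hz : (branch A r' hr' U' e').IsU z) :
    (branch V r hr U e).IsU (φ z) ∧
      (branch V r hr U e).ev (φ z) = (branch A r' hr' U' e').ev z := by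
  obtain ⟨hz0, ⟨hzA, hzU⟩, ⟨hziA, hziU⟩⟩ := (isU_branch_iff A r' hr' U' e').mp hz
  obtain ⟨h1, e1⟩ := hrow z hzA
  obtain ⟨h2, e2⟩ := hrow z⁻¹ hziA
  have hU1 : r ⟨φ z, h1⟩ ∈ U := by rw [e1]; exact (hc _).mp hzU
  have h2' : (φ z)⁻¹ ∈ V := by rw [← map_inv₀]; exact h2
  have hU2 : r ⟨(φ z)⁻¹, h2'⟩ ∈ U := by
    have : (⟨(φ z)⁻¹, h2'⟩ : V) = ⟨φ z⁻¹, h2⟩ := Subtype.ext (map_inv₀ φ z).symm
    rw [this, e2]
    exact (hc _).mp hziU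
  have hφ0 : φ z ≠ 0 := fun h0 => hz0 ((map_eq_zero φ).mp h0)
  refine ⟨isU_branch V r hr U e hφ0 h1 h2' hU1 hU2, ?_⟩
  rw [branch_ev V r hr U e h1 hU1, branch_ev A r' hr' U' e' hzA hzU]
  have : (⟨r ⟨φ z, h1⟩, hU1⟩ : U) = ⟨j (r' ⟨z, hzA⟩), (hc _).mp hzU⟩ := Subtype.ext e1
  rw [this]
  exact hce _ hzU _

end PullRow

/-! ### the multiplicative core -/

section Core

variable {F E k : Type*} [Field F] [Field E] [Field k] {T T' : Type*}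

/-- **a Kummer datum of the level below** with gluing ratio `ζ` up to a constant:
`g' ^ m * z = c'`, `z` of branch values `1`, `c'` a unit with equal branch values at every node,
`ev₁ g' = ζ n' * ζ₀ * ev₀ g'`. -/
def LowDatum (b' : T' → Fin 2 → Branch E k) (m : ℕ) (ζ : T' → k) (z g' c' : E) : Prop :=
  g' ^ m * z = c' ∧ (∀ n' j, (b' n' j).IsU z ∧ (b' n' j).ev z = 1) ∧
    (∀ n' j, (b' n' j).IsU c') ∧ (∀ n', (b' n' 0).ev c' = (b' n' 1).ev c') ∧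
    ∃ ζ₀ : k, ζ₀ ^ m = 1 ∧ ∀ n', (b' n' 1).ev g' = ζ n' * ζ₀ * (b' n' 0).ev g'

theorem LowDatum.isU_root {b' : T' → Fin 2 → Branch E k} {m : ℕ} (hm : m ≠ 0) {ζ : T' → k}
    {z g' c' : E} (h : LowDatum b' m ζ z g' c') : ∀ n' j, (b' n' j).IsU g' := by
  obtain ⟨hgc, hz, hc, -, -⟩ := h
  intro n' j
  have : g' ^ m = c' / z := by
    rw [← hgc, mul_div_assoc, div_self (hz n' j).1.1, mul_one]
  exact Branch.IsU.of_pow hm (this ▸ (hc n' j).div (hz n' j).1)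

/-- a function on `T'` with prescribed values along an injective map. -/
theorem exists_extend {p : T → T'} (hp : Function.Injective p) (f : T → k) {m : ℕ}
    (hf : ∀ n, f n ^ m = 1) : ∃ ζ : T' → k, (∀ n', ζ n' ^ m = 1) ∧ ∀ n, ζ (p n) = f n := by
  classical
  refine ⟨fun n' => if h : ∃ n, p n = n' then f h.choose else 1, fun n' => ?_, fun n => ?_⟩
  · by_cases h : ∃ n, p n = n'
    · simp only [dif_pos h]; exact hf _
    · simp only [dif_neg h]; exact one_pow _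
  · have h : ∃ n₀, p n₀ = p n := ⟨n, rfl⟩
    simp only [dif_pos h]
    rw [hp h.choose_spec]

/-- **TOR-OLD, multiplicative core.** -/
theorem torOld_branch (b : T → Fin 3 → Branch F k) (b' : T' → Fin 2 → Branch E k)
    (p1 p2 : T → T') (hp1 : Function.Injective p1) (hp2 : Function.Injective p2)
    (φ1 φ2 : E →+* F)
    (hφ1 : ∀ n z, (∀ j, (b' (p1 n) j).IsU z) →
      (∀ i, (b n i).IsU (φ1 z)) ∧ (b n 0).ev (φ1 z) = (b' (p1 n) 0).ev z ∧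
        (b n 1).ev (φ1 z) = (b' (p1 n) 1).ev z ∧ (b n 2).ev (φ1 z) = (b' (p1 n) 0).ev z)
    (hφ2 : ∀ n z, (∀ j, (b' (p2 n) j).IsU z) →
      (∀ i, (b n i).IsU (φ2 z)) ∧ (b n 0).ev (φ2 z) = (b' (p2 n) 0).ev z ∧
        (b n 1).ev (φ2 z) = (b' (p2 n) 1).ev z ∧ (b n 2).ev (φ2 z) = (b' (p2 n) 1).ev z)
    {m : ℕ} (hm : m ≠ 0) (Good : E → E → E → Prop)
    (hsurj : ∀ ζ : T' → k, (∀ n', ζ n' ^ m = 1) →
      ∃ z g' c' : E, Good z g' c' ∧ LowDatum b' m ζ z g' c')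
    {g u c : F} (hguc : g ^ m * u = c)
    (hu : ∀ n i, (b n i).IsU u ∧ (b n i).ev u = 1)
    (cbar : T → k) (hc : ∀ n i, (b n i).IsU c ∧ (b n i).ev c = cbar n) :
    ∃ (ζ1 ζ2 : T' → k) (z₁ g₁ c₁ z₂ g₂ c₂ : E), Good z₁ g₁ c₁ ∧ Good z₂ g₂ c₂ ∧
      LowDatum b' m ζ1 z₁ g₁ c₁ ∧ LowDatum b' m ζ2 z₂ g₂ c₂ ∧
      ∃ a0 b0 : k, a0 ^ m = 1 ∧ b0 ^ m = 1 ∧ ∀ n,
        (∀ i, (b n i).IsU (g / (φ1 g₁ * φ2 g₂))) ∧
        (b n 1).ev (g / (φ1 g₁ * φ2 g₂)) = a0 * (b n 0).ev (g / (φ1 g₁ * φ2 g₂)) ∧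
        (b n 2).ev (g / (φ1 g₁ * φ2 g₂)) = b0 * (b n 0).ev (g / (φ1 g₁ * φ2 g₂)) := by
  -- `g` is a unit at every branch, with `m`-th power `cbar`
  have hgm : ∀ n i, (b n i).IsU (g ^ m) := by
    intro n i
    have : g ^ m = c / u := by
      rw [← hguc, mul_div_assoc, div_self (hu n i).1.1, mul_one]
    rw [this]
    exact (hc n i).1.div (hu n i).1
  have hg : ∀ n i, (b n i).IsU g := fun n i => (hgm n i).of_pow hm
  have hξm : ∀ n i, ((b n i).ev g) ^ m = cbar n := by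
    intro n i
    rw [← Branch.ev_pow (hg n i), ← (hc n i).2, ← hguc,
      Branch.ev_mul_of_isU (hgm n i) (hu n i).1, (hu n i).2, mul_one]
  have hx0 : ∀ n i, (b n i).ev g ≠ 0 := fun n i => Branch.ev_ne_zero (hg n i)
  have hcbar : ∀ n, cbar n ≠ 0 := fun n => by
    rw [← (hc n 0).2]; exact Branch.ev_ne_zero (hc n 0).1
  -- the two gluing ratios
  have hr3 : ∀ n, ((b n 2).ev g / (b n 0).ev g) ^ m = 1 := fun n => by
    rw [div_pow, hξm, hξm, div_self (hcbar n)]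
  have hr2 : ∀ n, ((b n 1).ev g / (b n 0).ev g) ^ m = 1 := fun n => by
    rw [div_pow, hξm, hξm, div_self (hcbar n)]
  have hr23 : ∀ n, ((b n 1).ev g / (b n 0).ev g / ((b n 2).ev g / (b n 0).ev g)) ^ m = 1 :=
    fun n => by rw [div_pow, hr2, hr3, div_one]
  obtain ⟨ζ2, hζ2m, hζ2⟩ := exists_extend hp2 (fun n => (b n 2).ev g / (b n 0).ev g) hr3
  obtain ⟨ζ1, hζ1m, hζ1⟩ := exists_extend hp1
    (fun n => (b n 1).ev g / (b n 0).ev g / ((b n 2).ev g / (b n 0).ev g)) hr23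
  obtain ⟨z₁, g₁, c₁, hG1, hD1⟩ := hsurj ζ1 hζ1m
  obtain ⟨z₂, g₂, c₂, hG2, hD2⟩ := hsurj ζ2 hζ2m
  have hg1U := hD1.isU_root hm
  have hg2U := hD2.isU_root hm
  obtain ⟨-, -, -, -, ζ₀₁, hζ₀₁, hev1⟩ := id hD1
  obtain ⟨-, -, -, -, ζ₀₂, hζ₀₂, hev2⟩ := id hD2
  have hζ₀₁0 : ζ₀₁ ≠ 0 := fun h0 => by rw [h0, zero_pow hm] at hζ₀₁; exact zero_ne_one hζ₀₁
  have hζ₀₂0 : ζ₀₂ ≠ 0 := fun h0 => by rw [h0, zero_pow hm] at hζ₀₂; exact zero_ne_one hζ₀₂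
  refine ⟨ζ1, ζ2, z₁, g₁, c₁, z₂, g₂, c₂, hG1, hG2, hD1, hD2, (ζ₀₁ * ζ₀₂)⁻¹, ζ₀₂⁻¹, ?_, ?_,
    fun n => ?_⟩
  · rw [inv_pow, mul_pow, hζ₀₁, hζ₀₂, one_mul, inv_one]
  · rw [inv_pow, hζ₀₂, inv_one]
  · obtain ⟨hU1, e10, e11, e12⟩ := hφ1 n g₁ (fun j => hg1U (p1 n) j)
    obtain ⟨hU2, e20, e21, e22⟩ := hφ2 n g₂ (fun j => hg2U (p2 n) j)
    have hGU : ∀ i, (b n i).IsU (g / (φ1 g₁ * φ2 g₂)) := fun i =>
      (hg n i).div ((hU1 i).mul (hU2 i))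
    have hev : ∀ i, (b n i).ev (g / (φ1 g₁ * φ2 g₂)) =
        (b n i).ev g / ((b n i).ev (φ1 g₁) * (b n i).ev (φ2 g₂)) := fun i => by
      rw [Branch.ev_div (hg n i) ((hU1 i).mul (hU2 i)), Branch.ev_mul_of_isU (hU1 i) (hU2 i)]
    have h10 : (b' (p1 n) 0).ev g₁ ≠ 0 := Branch.ev_ne_zero (hg1U (p1 n) 0)
    have h20 : (b' (p2 n) 0).ev g₂ ≠ 0 := Branch.ev_ne_zero (hg2U (p2 n) 0)
    have hz1 := hζ1 n
    have hz2 := hζ2 n
    have hx00 := hx0 n 0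
    have hx02 := hx0 n 2
    have hx01 := hx0 n 1
    refine ⟨hGU, ?_, ?_⟩
    · rw [hev 1, hev 0, e10, e11, e20, e21, hev1 (p1 n), hev2 (p2 n), hz1, hz2]
      field_simp
    · rw [hev 2, hev 0, e10, e12, e20, e22, hev2 (p2 n), hz2]
      field_simp

end Core

/-! ### TOR-OLD in `U3`-form -/

section Setup

/-- an element of a valuation ring reducing to `1` has its inverse in the ring, reducing to `1`. -/
theorem res_inv_eq_one {F κ : Type*} [Field F] [Field κ] (V : ValuationSubring F) (r : V →+* κ)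
    (hr : ∀ z : V, ¬ IsUnit z → r z = 0) {z : F} (hz : z ∈ V) (h1 : r ⟨z, hz⟩ = 1) :
    ∃ h : z⁻¹ ∈ V, r ⟨z⁻¹, h⟩ = 1 := by
  have hz0 : z ≠ 0 := by
    rintro rfl
    have : r ⟨(0 : F), hz⟩ = 0 := map_zero r
    rw [this] at h1
    exact zero_ne_one h1
  have hunit : IsUnit (⟨z, hz⟩ : V) := by
    by_contra hnu
    rw [hr _ hnu] at h1
    exact zero_ne_one h1
  have hzi : z⁻¹ ∈ V := inv_mem_of_isUnit hunit
  have hmul : r ⟨z, hz⟩ * r ⟨z⁻¹, hzi⟩ = 1 := by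
    rw [← map_mul]
    have : (⟨z, hz⟩ : V) * ⟨z⁻¹, hzi⟩ = 1 := by
      apply Subtype.ext
      show z * z⁻¹ = 1
      exact mul_inv_cancel₀ hz0
    rw [this, map_one]
  refine ⟨hzi, ?_⟩
  rw [h1, one_mul] at hmul
  exact hmul

variable {F E k k1 k2 k3 k1' k2' B B' T T' : Type*} [Field F] [Field E] [Field k]
  [Field k1] [Field k2] [Field k3] [Field k1'] [Field k2'] [CommRing B] [IsDomain B]
  [Algebra B F] [IsFractionRing B F] [CommRing B'] [Algebra B' E]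
  (S : TripleSetup F E k k1 k2 k3 k1' k2' B T T')

/-- normalised at the level below: `z ∈ A_j`, `rd_j' z = 1` (`j = 1, 2`). -/
def U2' (z : E) : Prop :=
  (∃ h : z ∈ S.A1, S.rd1' ⟨z, h⟩ = 1) ∧ ∃ h : z ∈ S.A2, S.rd2' ⟨z, h⟩ = 1

theorem U2.inv {x : F} (hx : U2 S x) : U2 S x⁻¹ := by
  obtain ⟨⟨a1, b1⟩, ⟨a2, b2⟩, ⟨a3, b3⟩⟩ := hx
  exact ⟨res_inv_eq_one S.W1 S.rd1 S.hr1 a1 b1, res_inv_eq_one S.W2 S.rd2 S.hr2 a2 b2,
    res_inv_eq_one S.W3 S.rd3 S.hr3 a3 b3⟩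

/-- **the six reduction rows of the two pull-backs** `φ1 = α^*`, `φ2 = β^*`. -/
structure PullRows (φ1 φ2 : E →+* F) : Prop where
  r11 : ∀ (z : E) (hz : z ∈ S.A1), ∃ h : φ1 z ∈ S.W1, S.rd1 ⟨φ1 z, h⟩ = S.j11 (S.rd1' ⟨z, hz⟩)
  r13 : ∀ (z : E) (hz : z ∈ S.A1), ∃ h : φ1 z ∈ S.W3, S.rd3 ⟨φ1 z, h⟩ = S.j13 (S.rd1' ⟨z, hz⟩)
  r22 : ∀ (z : E) (hz : z ∈ S.A2), ∃ h : φ1 z ∈ S.W2, S.rd2 ⟨φ1 z, h⟩ = S.j22 (S.rd2' ⟨z, hz⟩)
  r11' : ∀ (z : E) (hz : z ∈ S.A1), ∃ h : φ2 z ∈ S.W1, S.rd1 ⟨φ2 z, h⟩ = S.j11' (S.rd1' ⟨z, hz⟩)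
  r22' : ∀ (z : E) (hz : z ∈ S.A2), ∃ h : φ2 z ∈ S.W2, S.rd2 ⟨φ2 z, h⟩ = S.j22' (S.rd2' ⟨z, hz⟩)
  r23' : ∀ (z : E) (hz : z ∈ S.A2), ∃ h : φ2 z ∈ S.W3, S.rd3 ⟨φ2 z, h⟩ = S.j23' (S.rd2' ⟨z, hz⟩)

variable {S} {φ1 φ2 : E →+* F} (R : PullRows S φ1 φ2)

include R in
/-- `α^*` of a normalised unit is normalised. -/
theorem U2_phi1 {z : E} (hz : U2' S z) : U2 S (φ1 z) := by
  obtain ⟨⟨h1, e1⟩, ⟨h2, e2⟩⟩ := hz
  obtain ⟨a, ha⟩ := R.r11 z h1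
  obtain ⟨b, hb⟩ := R.r22 z h2
  obtain ⟨c, hc⟩ := R.r13 z h1
  exact ⟨⟨a, by rw [ha, e1, map_one]⟩, ⟨b, by rw [hb, e2, map_one]⟩, ⟨c, by rw [hc, e1, map_one]⟩⟩

include R in
/-- `β^*` of a normalised unit is normalised. -/
theorem U2_phi2 {z : E} (hz : U2' S z) : U2 S (φ2 z) := by
  obtain ⟨⟨h1, e1⟩, ⟨h2, e2⟩⟩ := hz
  obtain ⟨a, ha⟩ := R.r11' z h1
  obtain ⟨b, hb⟩ := R.r22' z h2
  obtain ⟨c, hc⟩ := R.r23' z h2
  exact ⟨⟨a, by rw [ha, e1, map_one]⟩, ⟨b, by rw [hb, e2, map_one]⟩, ⟨c, by rw [hc, e2, map_one]⟩⟩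

include R in
/-- the branch rows of `α^*`: values `(ev₀', ev₁', ev₀')` at the node `p1 n`. -/
theorem branch_row1 (n : T) (z : E) (hz : ∀ j, (S.bE (S.p1 n) j).IsU z) :
    (∀ i, (S.bN n i).IsU (φ1 z)) ∧ (S.bN n 0).ev (φ1 z) = (S.bE (S.p1 n) 0).ev z ∧
      (S.bN n 1).ev (φ1 z) = (S.bE (S.p1 n) 1).ev z ∧
      (S.bN n 2).ev (φ1 z) = (S.bE (S.p1 n) 0).ev z := by
  have h0 := pull_row S.W1 S.rd1 S.hr1 (S.U1 n) (S.e1 n) S.A1 S.rd1' S.hr1' (S.U1' (S.p1 n))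
    (S.e1' (S.p1 n)) φ1 S.j11 R.r11 (S.c11 n) (S.c11e n) (hz 0)
  have h1 := pull_row S.W2 S.rd2 S.hr2 (S.U2 n) (S.e2 n) S.A2 S.rd2' S.hr2' (S.U2' (S.p1 n))
    (S.e2' (S.p1 n)) φ1 S.j22 R.r22 (S.c22 n) (S.c22e n) (hz 1)
  have h2 := pull_row S.W3 S.rd3 S.hr3 (S.U3 n) (S.e3 n) S.A1 S.rd1' S.hr1' (S.U1' (S.p1 n))
    (S.e1' (S.p1 n)) φ1 S.j13 R.r13 (S.c13 n) (S.c13e n) (hz 0)
  refine ⟨fun i => ?_, h0.2, h1.2, h2.2⟩
  fin_cases i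
  · exact h0.1
  · exact h1.1
  · exact h2.1

include R in
/-- the branch rows of `β^*`: values `(ev₀', ev₁', ev₁')` at the node `p2 n`. -/
theorem branch_row2 (n : T) (z : E) (hz : ∀ j, (S.bE (S.p2 n) j).IsU z) :
    (∀ i, (S.bN n i).IsU (φ2 z)) ∧ (S.bN n 0).ev (φ2 z) = (S.bE (S.p2 n) 0).ev z ∧
      (S.bN n 1).ev (φ2 z) = (S.bE (S.p2 n) 1).ev z ∧
      (S.bN n 2).ev (φ2 z) = (S.bE (S.p2 n) 1).ev z := by
  have h0 := pull_row S.W1 S.rd1 S.hr1 (S.U1 n) (S.e1 n) S.A1 S.rd1' S.hr1' (S.U1' (S.p2 n))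
    (S.e1' (S.p2 n)) φ2 S.j11' R.r11' (S.c11' n) (S.c11e' n) (hz 0)
  have h1 := pull_row S.W2 S.rd2 S.hr2 (S.U2 n) (S.e2 n) S.A2 S.rd2' S.hr2' (S.U2' (S.p2 n))
    (S.e2' (S.p2 n)) φ2 S.j22' R.r22' (S.c22' n) (S.c22e' n) (hz 1)
  have h2 := pull_row S.W3 S.rd3 S.hr3 (S.U3 n) (S.e3 n) S.A2 S.rd2' S.hr2' (S.U2' (S.p2 n))
    (S.e2' (S.p2 n)) φ2 S.j23' R.r23' (S.c23' n) (S.c23e' n) (hz 1)
  refine ⟨fun i => ?_, h0.2, h1.2, h2.2⟩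
  fin_cases i
  · exact h0.1
  · exact h1.1
  · exact h2.1

/-- an element of the chart ring outside the triple point `n` is a unit at the three branches,
with value `χ n`. -/
theorem isU_algebraMap (S : TripleSetup F E k k1 k2 k3 k1' k2' B T T') (n : T) {c : B}
    (hc : S.χ n c ≠ 0) (i : Fin 3) :
    (S.bN n i).IsU (algebraMap B F c) ∧ (S.bN n i).ev (algebraMap B F c) = S.χ n c := by
  have hc0 : algebraMap B F c ≠ 0 := by
    intro h0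
    have : c = 0 := IsFractionRing.injective B F (by rw [h0, map_zero])
    rw [this, map_zero] at hc
    exact hc rfl
  fin_cases i
  · refine ⟨⟨hc0, S.hB1 n c, ?_⟩, S.hχ1 n c⟩
    exact inv_mem_comp_of_ev_ne_zero S.W1 S.rd1 S.hr1 (S.U1 n) (S.e1 n) (S.heu1 n)
      (S.hB1 n c) (by rw [S.hχ1 n c]; exact hc)
  · refine ⟨⟨hc0, S.hB2 n c, ?_⟩, S.hχ2 n c⟩
    exact inv_mem_comp_of_ev_ne_zero S.W2 S.rd2 S.hr2 (S.U2 n) (S.e2 n) (S.heu2 n)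
      (S.hB2 n c) (by rw [S.hχ2 n c]; exact hc)
  · refine ⟨⟨hc0, S.hB3 n c, ?_⟩, S.hχ3 n c⟩
    exact inv_mem_comp_of_ev_ne_zero S.W3 S.rd3 S.hr3 (S.U3 n) (S.e3 n) (S.heu3 n)
      (S.hB3 n c) (by rw [S.hχ3 n c]; exact hc)

include R in
/-- **TOR-OLD in `U3`-form.**  `χ'`, `φ1B`, `φ2B` : the chart ring `B'` of the level below with its
node characters and the chart-level pull-backs; `hsurj` = TORIC-EXIST/SURJ of the level below;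
`happ` = the approximation input of `H4OfXi.h4_of_xi`. -/
theorem torOld_U3 {m : ℕ} (hm : m ≠ 0)
    (hp1 : Function.Injective S.p1) (hp2 : Function.Injective S.p2)
    (χ' : T' → (B' →+* k)) (φ1B φ2B : B' →+* B)
    (hφ1B : ∀ b, algebraMap B F (φ1B b) = φ1 (algebraMap B' E b))
    (hφ2B : ∀ b, algebraMap B F (φ2B b) = φ2 (algebraMap B' E b))
    (hχ1 : ∀ n b, S.χ n (φ1B b) = χ' (S.p1 n) b) (hχ2 : ∀ n b, S.χ n (φ2B b) = χ' (S.p2 n) b)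
    (Good : E → Prop)
    (hsurj : ∀ ζ : T' → k, (∀ n', ζ n' ^ m = 1) → ∃ (z g' : E) (cB : B'), Good z ∧ U2' S z ∧
      (∀ n', χ' n' cB ≠ 0) ∧ LowDatum S.bE m ζ z g' (algebraMap B' E cB))
    (happ : ∀ a0 b0 : k, a0 ^ m = 1 → b0 ^ m = 1 → ∃ f0 : F, f0 ≠ 0 ∧ U2 S (f0 ^ m) ∧
      (∀ n i, (S.bN n i).IsU f0) ∧
      ∀ n, (S.bN n 0).ev f0 = 1 ∧ (S.bN n 1).ev f0 = a0 ∧ (S.bN n 2).ev f0 = b0)
    {u g : F} {c : B} (hU2 : U2 S u) (hguc : g ^ m * u = algebraMap B F c)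
    (hcP : ∀ n, c ∉ S.P n) :
    ∃ (z₁ z₂ : E) (f0 : F), Good z₁ ∧ Good z₂ ∧ U2' S z₁ ∧ U2' S z₂ ∧ f0 ≠ 0 ∧
      U3 S m (u / (φ1 z₁ * φ2 z₂) * f0 ^ m) := by
  classical
  have hχc : ∀ n, S.χ n c ≠ 0 := fun n h0 => hcP n ((S.hχker n c).mp h0)
  have huU : ∀ n i, (S.bN n i).IsU u ∧ (S.bN n i).ev u = 1 := by
    obtain ⟨⟨a1, b1⟩, ⟨a2, b2⟩, ⟨a3, b3⟩⟩ := hU2
    intro n i
    fin_cases i
    · exact isU_of_res_eq_one S.W1 S.rd1 S.hr1 (S.U1 n) (S.e1 n) a1 b1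
    · exact isU_of_res_eq_one S.W2 S.rd2 S.hr2 (S.U2 n) (S.e2 n) a2 b2
    · exact isU_of_res_eq_one S.W3 S.rd3 S.hr3 (S.U3 n) (S.e3 n) a3 b3
  -- the multiplicative core
  obtain ⟨ζ1, ζ2, z₁, g₁, c₁, z₂, g₂, c₂, ⟨hG1, hz1, cB₁, hcB₁, rfl⟩, ⟨hG2, hz2, cB₂, hcB₂, rfl⟩,
      hD1, hD2, a0, b0, ha0, hb0, hGn⟩ :=
    torOld_branch S.bN S.bE S.p1 S.p2 hp1 hp2 φ1 φ2 (branch_row1 R) (branch_row2 R) hm
      (fun z _ c' => Good z ∧ U2' S z ∧ ∃ cB : B', (∀ n', χ' n' cB ≠ 0) ∧ c' = algebraMap B' E cB)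
      (fun ζ hζ => by
        obtain ⟨z, g', cB, h1, h2, h3, h4⟩ := hsurj ζ hζ
        exact ⟨z, g', _, ⟨h1, h2, cB, h3, rfl⟩, h4⟩)
      hguc huU (fun n => S.χ n c) (fun n i => isU_algebraMap S n (hχc n) i)
  have ha00 : a0 ≠ 0 := fun h0 => by rw [h0, zero_pow hm] at ha0; exact zero_ne_one ha0
  have hb00 : b0 ≠ 0 := fun h0 => by rw [h0, zero_pow hm] at hb0; exact zero_ne_one hb0
  obtain ⟨f0, hf00, hf0U2, hf0U, hf0ev⟩ := happ a0 b0 ha0 hb0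
  refine ⟨z₁, z₂, f0, hG1, hG2, hz1, hz2, hf00, ?_⟩
  -- notation
  obtain ⟨dB, hdB⟩ : ∃ dB : B, dB = φ1B cB₁ * φ2B cB₂ := ⟨_, rfl⟩
  have hχd : ∀ n, S.χ n dB ≠ 0 := fun n => by
    rw [hdB, map_mul, hχ1, hχ2]
    exact mul_ne_zero (hcB₁ _) (hcB₂ _)
  obtain ⟨X, hX⟩ : ∃ X : F, X = φ1 g₁ * φ2 g₂ := ⟨_, rfl⟩
  obtain ⟨Z, hZ⟩ : ∃ Z : F, Z = φ1 z₁ * φ2 z₂ := ⟨_, rfl⟩
  rw [← hX] at hGn
  rw [← hZ]
  have hXZ : X ^ m * Z = algebraMap B F dB := by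
    have e1 : φ1 g₁ ^ m * φ1 z₁ = algebraMap B F (φ1B cB₁) := by
      rw [hφ1B, ← hD1.1, map_mul, map_pow]
    have e2 : φ2 g₂ ^ m * φ2 z₂ = algebraMap B F (φ2B cB₂) := by
      rw [hφ2B, ← hD2.1, map_mul, map_pow]
    rw [hdB, map_mul, ← e1, ← e2, hX, hZ, mul_pow]
    ring
  have hxU2 : U2 S (u / Z * f0 ^ m) := by
    rw [div_eq_mul_inv]
    have hZU : U2 S Z := hZ ▸ U2.mul S (U2_phi1 R hz1) (U2_phi2 R hz2)
    exact U2.mul S (U2.mul S hU2 (U2.inv S hZU)) hf0U2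
  by_cases hT : Nonempty T
  swap
  · -- no triple point: any datum will do
    obtain ⟨⟨a, s⟩, hs⟩ := IsLocalization.surj (nonZeroDivisors B) (u / Z * f0 ^ m)
    refine ⟨hxU2, algebraMap B F s, a * (s : B) ^ (m - 1), ?_, fun n => absurd ⟨n⟩ hT,
      fun n => absurd ⟨n⟩ hT⟩
    obtain ⟨m', rfl⟩ : ∃ m', m = m' + 1 := ⟨m - 1, by omega⟩
    have hs' : u / Z * f0 ^ (m' + 1) * algebraMap B F (s : B) = algebraMap B F a := hs
    rw [Nat.add_sub_cancel, map_mul, map_pow]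
    linear_combination (algebraMap B F (s : B)) ^ m' * hs'
  obtain ⟨n0⟩ := hT
  have hd0 : algebraMap B F dB ≠ 0 := (isU_algebraMap S n0 (hχd n0) 0).1.1
  have hX0 : X ≠ 0 := by
    intro h0
    rw [h0, zero_pow hm, zero_mul] at hXZ
    exact hd0 hXZ.symm
  have hZ0 : Z ≠ 0 := by
    intro h0
    rw [h0, mul_zero] at hXZ
    exact hd0 hXZ.symm
  refine ⟨hxU2, g / X * algebraMap B F dB / f0, c * dB ^ (m - 1), ?_, ?_, ?_⟩
  · have e1 : (g / X * algebraMap B F dB / f0) ^ m * (u / Z * f0 ^ m) =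
        (g ^ m * u) * algebraMap B F dB ^ m / (X ^ m * Z) := by
      have hf0m : f0 ^ m ≠ 0 := pow_ne_zero _ hf00
      have hXm : X ^ m ≠ 0 := pow_ne_zero _ hX0
      rw [div_pow, mul_pow, div_pow]
      field_simp
    rw [e1, hguc, hXZ, map_mul, map_pow]
    obtain ⟨m', rfl⟩ : ∃ m', m = m' + 1 := ⟨m - 1, by omega⟩
    rw [Nat.add_sub_cancel, pow_succ]
    field_simp
  · intro n hmem
    rcases (S.hmax n).isPrime.mem_or_mem hmem with h | h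
    · exact hcP n h
    · exact hχd n ((S.hχker n dB).mpr ((S.hmax n).isPrime.mem_of_pow_mem _ h))
  · intro n
    obtain ⟨hGU, hG1', hG2'⟩ := hGn n
    have hdU := fun i => isU_algebraMap S n (hχd n) i
    have hg4U : ∀ i, (S.bN n i).IsU (g / X * algebraMap B F dB / f0) := fun i =>
      ((hGU i).mul (hdU i).1).div (hf0U n i)
    have hev : ∀ i, (S.bN n i).ev (g / X * algebraMap B F dB / f0) =
        (S.bN n i).ev (g / X) * S.χ n dB / (S.bN n i).ev f0 := fun i => by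
      rw [Branch.ev_div ((hGU i).mul (hdU i).1) (hf0U n i),
        Branch.ev_mul_of_isU (hGU i) (hdU i).1, (hdU i).2]
    obtain ⟨e0, e1, e2⟩ := hf0ev n
    have heq1 : (S.bN n 1).ev (g / X * algebraMap B F dB / f0) =
        (S.bN n 0).ev (g / X * algebraMap B F dB / f0) := by
      rw [hev 1, hev 0, e0, e1, hG1']
      field_simp
    have heq2 : (S.bN n 2).ev (g / X * algebraMap B F dB / f0) =
        (S.bN n 0).ev (g / X * algebraMap B F dB / f0) := by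
      rw [hev 2, hev 0, e0, e2, hG2']
      field_simp
    obtain ⟨b0', hb0'⟩ := S.hχsurj n ((S.bN n 0).ev (g / X * algebraMap B F dB / f0))
    have hne : S.χ n b0' ≠ 0 := by
      rw [hb0']; exact Branch.ev_ne_zero (hg4U 0)
    refine ⟨b0', fun hmem => hne ((S.hχker n b0').mpr hmem), ?_, ?_, ?_⟩
    · apply sub_mem_nonunits_of_ev_eq S.W1 S.rd1 S.hr1 (S.U1 n) (S.e1 n) (hg4U 0).2.1
        (S.hB1 n b0')
      rw [S.hχ1 n b0', hb0']; rfl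
    · apply sub_mem_nonunits_of_ev_eq S.W2 S.rd2 S.hr2 (S.U2 n) (S.e2 n) (hg4U 1).2.1
        (S.hB2 n b0')
      rw [S.hχ2 n b0', hb0']; exact heq1
    · apply sub_mem_nonunits_of_ev_eq S.W3 S.rd3 S.hr3 (S.U3 n) (S.e3 n) (hg4U 2).2.1
        (S.hB3 n b0')
      rw [S.hχ3 n b0', hb0']; exact heq2

end Setup

end Fermat.Agent.GE8.SQ2.ToricOldAbs
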