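/-
GATE-E / E8.SQ toric side, instantiation (J1) (helper29): the six pull-back rows
`ToricOldAbs.PullRows` at the concrete `TripleSetup` `setupK0` of GATE-L
(`GL/Final/TripleInstK0.lean`), for `φ1 = α^* = alphaK0 A (M' q) q`, `φ2 = β^* = betaK0 A (M' q) q`
— helper67's element-level squares `RowsSquares.sq11 … sq23'` + the membership tables.
-/
import Fermat.Agent.GE8.SQ2.ToricOldAbs
import Fermat.Agent.GL.Final.TripleInstK0Thm

set_option autoImplicit false
set_option linter.unusedSectionVars false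
set_option linter.unusedVariables false

noncomputable section

namespace Fermat.Agent.GE8.SQ2.InstRows

open Polynomial HahnSeries ModularCurve IsLocalRing
open Fermat.Agent.GJ.J1
open Fermat.Agent.GL.H4OfXi Fermat.Agent.GL.TripleBuild Fermat.Agent.GL.BuildInst
open Fermat.Agent.GL.BuildInstPts
open Fermat.Agent.GL.Final.TriplePoints Fermat.Agent.GL.Final.RowsInst
open Fermat.Agent.GL.Val.GaussK0 Fermat.Agent.GL.Val.SecondK0 Fermat.Agent.GL.Val.SecondK0Hall
open Fermat.Agent.GL.Val.ThirdK0 Fermat.Agent.GL.Val.CuspK0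
open Fermat.Agent.GL.Table.K0 Fermat.Agent.GK.AL
open Fermat.Agent.GL.Final.TripleInstK0
open Fermat.Agent.Common_helper32
open Fermat.Agent.GE8.SQ2.ToricOldAbs

attribute [local instance 2000] instAlgR0FullC instAlgBK0FullC instAlgR0BK0

variable (A : ValuationSubring Qb) {M' q : ℕ} [NeZero q] [NeZero M']
  (hq : q.Prime) (hqM : ¬ q ∣ M') (hA : (q : Qb) ∈ A.nonunits)
  (h2 : q = 2 → 3 ∣ M') (h3 : q = 3 → 2 ∣ M')
  (s : (R0 A)[X]) (H : SsPts A hq hqM hA s) (hv : (buildK0 A hq hqM hA s H).Hval)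

local notation "F₀" => modularFunctionFieldFullC (K0 A) (M' * q * q)
local notation "E₀" => modularFunctionFieldFullC (K0 A) (M' * q)

/-- `α^*` as a ring homomorphism. -/
abbrev phi1 (A : ValuationSubring Qb) (M' q : ℕ) [NeZero q] [NeZero M'] :
    modularFunctionFieldFullC (K0 A) (M' * q) →+* modularFunctionFieldFullC (K0 A) (M' * q * q) :=
  (alphaK0 A (M' * q) q).toRingHom

/-- `β^*` as a ring homomorphism. -/
abbrev phi2 (A : ValuationSubring Qb) (M' q : ℕ) [NeZero q] [NeZero M'] :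
    modularFunctionFieldFullC (K0 A) (M' * q) →+* modularFunctionFieldFullC (K0 A) (M' * q * q) :=
  (betaK0 A (M' * q) q).toRingHom

/-- **the six pull-back rows at `setupK0Of`** (any lift `s`, any `H`, any `hv`). -/
theorem pullRows_setupK0Of :
    PullRows (setupK0Of A hq hqM hA s H hv) (phi1 A M' q) (phi2 A M' q) where
  r11 z hz := by
    have h : alphaK0 A (M' * q) q z ∈ (R1 A M' q).Rw := (alphaK0_mem_RwK0_iff A (M' * q) q z).2 hz
    exact ⟨h, sq11 A z hz h⟩
  r13 z hz := by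
    have h : alphaK0 A (M' * q) q z ∈ (R3 A M' hq hA).Rw := (alphaK0_mem_Rw3K0_iff A hq z).2 hz
    exact ⟨h, sq13 A hq hA z hz h⟩
  r22 z hz := by
    have h : alphaK0 A (M' * q) q z ∈ (R2 A hq hqM).Rw :=
      (alphaK0_mem_Rw2QK0_iff A M' _ _ z).2 hz
    exact ⟨h, sq22 A hq hqM z hz h⟩
  r11' z hz := by
    have h : betaK0 A (M' * q) q z ∈ (R1 A M' q).Rw := (betaK0_mem_RwK0_iff A (M' * q) q z).2 hz
    exact ⟨h, sq11' A z hz h⟩
  r22' z hz := by
    have h : betaK0 A (M' * q) q z ∈ (R2 A hq hqM).Rw :=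
      (betaK0_mem_Rw2QK0_iff A M' _ _ z).2 hz
    exact ⟨h, sq22' A hq hqM z hz h⟩
  r23' z hz := by
    have h : betaK0 A (M' * q) q z ∈ (R3 A M' hq hA).Rw :=
      (betaK0_mem_Rw3K0_iff A hq hqM z).2 hz
    exact ⟨h, sq23' A hq hA hqM z hz h⟩

/-- **the six pull-back rows at `setupK0`** (the fixed lift `sK0`). -/
theorem pullRows_setupK0 (H : SsPts A hq hqM hA (sK0 A hq)) :
    PullRows (setupK0 A hq hqM hA h2 h3 H) (phi1 A M' q) (phi2 A M' q) :=
  pullRows_setupK0Of A hq hqM hA (sK0 A hq) H (hvalK0 A hq hqM hA h2 h3 (sK0 A hq) H)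

end Fermat.Agent.GE8.SQ2.InstRows
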