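/-
GATE-E / E8.SQ toric side, instantiation (J3)+(J4) (helper29): **TOR-OLD in `U3`-form at the
concrete `TripleSetup` over `K₀`** (`setupK0Of`, GATE-L), with

* the pull-back rows (`InstRows.pullRows_setupK0Of`),
* the global Kummer datum upstairs (`KummerMove.kummer_move` + `H4Loc.hloc_triple` from REG at the
  triple points: `TripleRegSetup.hreg_setupK0Of`, `hvert_setupK0Of`, `H4InstK0.hhoriz_S`),
* the approximation input `happ` (`H4Approx.happ_of_approx` + `BuildInstArm.setupK0Pts_*`)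

DISCHARGED.  Left as hypotheses: the injectivity of `p1 p2` (leaf J2) and TORIC-EXIST/SURJ of the
level below (`hsurj`, leaves E1 + J5b + J6 + J7).
-/
import Fermat.Agent.GE8.SQ2.InstRows
import Fermat.Agent.GL.Final.H4InstK0Thm

set_option autoImplicit false
set_option linter.unusedSectionVars false
set_option linter.unusedVariables false
set_option linter.style.haveILetI false

noncomputable section

namespace Fermat.Agent.GE8.SQ2.ToricOldInst

open Polynomial ModularCurve IsLocalRing AlgebraicCurve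
open Fermat.Agent.GL Fermat.Agent.GL.Chain Fermat.Agent.GL.CompBranch Fermat.Agent.GL.H4OfXi
open Fermat.Agent.GK.MultiVal
open Fermat.Agent.GL.Frame.HeightOne Fermat.Agent.GL.Frame.Kummer
open Fermat.Agent.GJ.KumGroup
open Fermat.Agent.GL.Frame.Inst
open Fermat.Agent.GL.TripleBuild Fermat.Agent.GL.BuildInst Fermat.Agent.GL.BuildInstPts
open Fermat.Agent.GL.BuildInstArm
open Fermat.Agent.GL.Final.TriplePoints Fermat.Agent.GL.Final.RowsInst
open Fermat.Agent.GL.Val.GaussK0 Fermat.Agent.GL.Val.SecondK0 Fermat.Agent.GL.Val.SecondK0Hall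
open Fermat.Agent.GL.Val.ThirdK0 Fermat.Agent.GL.Val.CuspK0
open Fermat.Agent.GL.Table.K0
open Fermat.Agent.GL.Final.TopInst Fermat.Agent.GL.Final.H4Inst Fermat.Agent.GL.Final.H4InstK0
open Fermat.Agent.GL.Val.DegBase
open Fermat.Agent.Common_helper32
open Fermat.Agent.GE8.SQ2.ToricOldAbs Fermat.Agent.GE8.SQ2.InstRows

attribute [local instance 2000] instAlgR0FullC instAlgBK0FullC instAlgR0BK0

variable (A : ValuationSubring Qb) {M' q : ℕ} [NeZero q] [NeZero M']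
  (hq : q.Prime) (hqM : ¬ q ∣ M') (hA : (q : Qb) ∈ A.nonunits) (s : (R0 A)[X])
  (H : SsPts A hq hqM hA s) (hv : (buildK0 A hq hqM hA s H).Hval)

local notation "F₀" => modularFunctionFieldFullC (K0 A) (M' * q * q)
local notation "E₀" => modularFunctionFieldFullC (K0 A) (M' * q)
local notation "k₀" => ResidueField (R0 A)
local notation "S₀" => setupK0Of A hq hqM hA s H hv

/-- **TOR-OLD in `U3`-form at the concrete `TripleSetup`.** -/
theorem torOld_setupK0Of (hsm : s.Monic) (h2 : q = 2 → 3 ∣ M') (h3 : q = 3 → 2 ∣ M')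
    {r : ℕ} (hr : r.Prime) (hrM : r ∣ M') (hr3 : r % 3 = 2) (hr4 : r % 4 = 3)
    {m1 : ℕ} (hm1 : m1 ≠ 0)
    (hp1 : Function.Injective (S₀).p1) (hp2 : Function.Injective (S₀).p2)
    (Good : E₀ → Prop)
    (hsurj : ∀ ζ : PtType (RingHom.ker (residue (R0 A))) (jB A (M' * q)) s → k₀,
      (∀ n', ζ n' ^ m1 = 1) → ∃ (z g' : E₀) (cB : BK0 A (M' * q)), Good z ∧ U2' (S₀) z ∧
        (∀ n', (buildK0 A hq hqM hA s H).χ' n' cB ≠ 0) ∧
        LowDatum (S₀).bE m1 ζ z g' (algebraMap (BK0 A (M' * q)) E₀ cB)) :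
    ∀ u2 : F₀, u2 ≠ 0 → U2 (S₀) u2 →
      (∀ P : Place Kb (FK (M' * q * q)), (m1 : ℤ) ∣ P.ord (toFN0 A (M' * q * q) u2)) →
      ∃ (z₁ z₂ : E₀) (f0 : F₀), Good z₁ ∧ Good z₂ ∧ U2' (S₀) z₁ ∧ U2' (S₀) z₂ ∧ f0 ≠ 0 ∧
        U3 (S₀) m1 (u2 / (phi1 A M' q z₁ * phi2 A M' q z₂) * f0 ^ m1) := by
  intro u2 hu20 hU2 hdiv
  haveI : IsAlgClosed k₀ := isAlgClosed_residueField_R0 A hq hA
  haveI : IsNoetherianRing (BK0 A (M' * q * q)) := isNoetherianRing_BK0 A hA (M' * q * q) hq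
  haveI : IsIntegrallyClosed (BK0 A (M' * q * q)) := isIntegrallyClosed_BK0 A hA (M' * q * q) hq
  haveI : IsFractionRing (BK0 A (M' * q * q)) F₀ := isFractionRing_BK0 A hA (M' * q * q) hq
  haveI : Finite (PtType (RingHom.ker (residue (R0 A))) (jB A (M' * q * q)) s) :=
    finite_ptType_BK0 A hA (M' * q * q) hq hsm
  -- the global Kummer datum upstairs
  have hloc := Fermat.Agent.GL.Final.H4Loc.hloc_triple (S₀) hu20 hU2
    (Fermat.Agent.GL.TripleRegSetup.hreg_setupK0Of A hq hqM hA s H hv h2 h3 hr hrM hr3 hr4)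
    ((q : ℕ) : BK0 A (M' * q * q))
    (Fermat.Agent.GL.TripleRegSetup.hvert_setupK0Of A hq hqM hA s H hv)
    (hhoriz_S A hq hA m1 u2 hu20 hdiv)
  obtain ⟨g, -, c, hgc, hcP, -⟩ := KummerMove.kummer_move
    (KummerMove.rootClosed_of_isIntegrallyClosed (B := BK0 A (M' * q * q)) (F := F₀) hm1) hm1
    (S₀).P (S₀).hmax (S₀).hinj u2 hu20 hloc
  -- TOR-OLD
  exact torOld_U3 (pullRows_setupK0Of A hq hqM hA s H hv) hm1 hp1 hp2
    (buildK0 A hq hqM hA s H).χ' (phiAlpha A (M' * q) q) (phiBeta A (M' * q) q)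
    (algebraMap_phiAlpha A (M' * q) q) (algebraMap_phiBeta A (M' * q) q)
    (buildK0 A hq hqM hA s H).hχ1 (buildK0 A hq hqM hA s H).hχ2 Good hsurj
    (Fermat.Agent.GL.H4Approx.happ_of_approx (S₀)
      (setupK0Pts_hW A hq hqM hA s H h2 h3)
      (setupK0Pts_hs1 A hq hqM hA s H h2 h3) (setupK0Pts_hs2 A hq hqM hA s H h2 h3)
      (setupK0Pts_hs3 A hq hqM hA s H h2 h3)
      (setupK0Pts_hconst1 A hq hqM hA s H h2 h3) (setupK0Pts_hconst2 A hq hqM hA s H h2 h3)
      (setupK0Pts_hconst3 A hq hqM hA s H h2 h3) hm1)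
    hU2 hgc hcP

end Fermat.Agent.GE8.SQ2.ToricOldInst
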