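/-
GATE-E / E8.SQ toric side, leaf (J5b) (helper92): **the global Kummer datum at level `M' q`.**

At the concrete `TripleSetup` over `K₀` (`setupK0Of`, GATE-L), `E₀ = K₀(X₀(M' q))`,
`B' = BK0 A (M' q)`: a normalised `z : E₀` (`U2'`) whose divisor over `ℚ̄` is divisible by `m` has
ONE global datum `g' ^ m * z = c_B`, `c_B ∈ B'` a unit at every supersingular point `n'`
(`χ' n' c_B ≠ 0`).

* `datum_of_ufd` : the abstract step, `KummerMove.kummer_move` fed by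
  `Frame.Kummer.exists_kummer_datum_of_ufd` at finitely many factorial maximal ideals;
* `ufd_node_BRingK0` : `B_R = BRingK0 N' ℓ A h` is factorial at every closed point lying on both
  components (the η-route: the `hnode` branch of `GB/A/A4/Finite.dvd_ord_finite`, at a maximal ideal
  instead of a place); `ufd_node_of_eq` its transport along `bRingK0_eq_chartRing`;
* `unitAt_vert` : a `U2'`-normalised element is a unit at the two vertical primes (the frame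
  `FrameTwo.frame_of_eq`);
* **`levelQDatum_setupK0Of`**, `levelQDatum_setupK0Thm` : the leaf.
-/
import Fermat.Agent.GE8.SQ2.ToricOldInst
import Fermat.Agent.GB.A.A4.Finite
import Fermat.Agent.GL.Thick.PlaceDictC
import Fermat.Agent.GL.AuxPrime
import Fermat.Agent.GL.Final.TripleInstK0Thm

set_option autoImplicit false
set_option linter.unusedSectionVars false
set_option linter.unusedVariables false
set_option linter.style.haveILetI false

noncomputable section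

namespace Fermat.Agent.GE8.SQ2.LevelQDatum

open Polynomial ModularCurve IsLocalRing AlgebraicCurve
open Fermat.Agent.GL Fermat.Agent.GL.Chain Fermat.Agent.GL.CompBranch Fermat.Agent.GL.H4OfXi
open Fermat.Agent.GK.MultiVal
open Fermat.Agent.GL.Frame.HeightOne Fermat.Agent.GL.Frame.Kummer
open Fermat.Agent.GJ.KumGroup
open Fermat.Agent.GL.Frame.Inst
open Fermat.Agent.GL.TripleBuild Fermat.Agent.GL.BuildInst Fermat.Agent.GL.BuildInstPts
open Fermat.Agent.GL.BuildInstArm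
open Fermat.Agent.GL.Final.TriplePoints Fermat.Agent.GL.Final.RowsInst
open Fermat.Agent.GL.Val.GaussK0 Fermat.Agent.GL.Val.SecondK0 Fermat.Agent.GL.Val.SecondK0Hall
open Fermat.Agent.GL.Val.ThirdK0 Fermat.Agent.GL.Val.CuspK0
open Fermat.Agent.GL.Table.K0
open Fermat.Agent.GL.Final.TopInst Fermat.Agent.GL.Final.H4Inst Fermat.Agent.GL.Final.H4InstK0
open Fermat.Agent.GL.Val.DegBase
open Fermat.Agent.Common_helper32
open Fermat.Agent.GE8.SQ2.ToricOldAbs Fermat.Agent.GE8.SQ2.InstRows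

/-! ### The abstract step -/

section Abs

variable {B F ι : Type*} [CommRing B] [IsDomain B] [Field F] [Algebra B F] [IsFractionRing B F]
  [IsNoetherianRing B] [IsIntegrallyClosed B] [Finite ι]

/-- **the global Kummer datum** at finitely many factorial maximal ideals. -/
theorem datum_of_ufd {m : ℕ} (hm : m ≠ 0) (P : ι → Ideal B) (hmax : ∀ i, (P i).IsMaximal)
    (hinj : Function.Injective P) (z : F) (hz0 : z ≠ 0)
    (hufd : ∀ i, ∃ _ : (P i).IsPrime, UniqueFactorizationMonoid (Localization.AtPrime (P i)))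
    (hord : ∀ 𝔭 : HtOne B, ∃ y : F, y ≠ 0 ∧ UnitAt 𝔭 (z * y ^ m)) :
    ∃ (g : F) (c : B), g ^ m * z = algebraMap B F c ∧ ∀ i, c ∉ P i := by
  have hloc : ∀ i, ∃ g : F, ∃ a s : B, a ∉ P i ∧ s ∉ P i ∧
      g ^ m * z * algebraMap B F s = algebraMap B F a := by
    intro i
    obtain ⟨hp, hu⟩ := hufd i
    exact exists_kummer_datum_of_ufd (P i) (Localization.AtPrime (P i)) m z hz0
      (fun 𝔭 _ => hord 𝔭)
  obtain ⟨g, -, c, hgc, hcP, -⟩ := KummerMove.kummer_move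
    (KummerMove.rootClosed_of_isIntegrallyClosed (B := B) (F := F) hm) hm P hmax hinj z hz0 hloc
  exact ⟨g, c, hgc, hcP⟩

end Abs

/-! ### Factoriality of `B_R` at the nodes of the special fibre -/

section Node

open Fermat.Agent.GL.KrullHeightOne
open Fermat.Agent.GL.Val.L1eLower Fermat.Agent.GL.Val.RamK0 Fermat.Agent.GL.MultiVal
open Fermat.Agent.GL.Local.InertiaField
open Fermat.Agent.GJ.J1 Fermat.Agent.GJ.J1.Val
open Fermat.Agent.GL.Frame.HorizDiv Fermat.Agent.GL.Frame.HorizHord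
open Fermat.Agent.GK.AL Fermat.Agent.GL.AL Fermat.Agent.GK.QS
open Fermat.Agent.S24_helper6
open Fermat.Agent.GL.Final.H5UnifK0
open Fermat.Agent.GB.A4.FrameTwo Fermat.Agent.GB.A4.LocalKummer Fermat.Agent.GB.A4.ChartStep
open Fermat.Agent.GB.A4.Finite
open Fermat.Agent.GL.BRingK0 Fermat.Agent.GL.BRingChart Fermat.Agent.GL.Thick
open Fermat.Agent.GL.EtaK0 Fermat.Agent.GL.EtaInstK0B Fermat.Agent.GL.EtaInstK0Aux

attribute [local instance] Fermat.Agent.GL.Frame.InstK0.algSubringFullC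

variable {A : ValuationSubring Qb} {N' : ℕ} [NeZero N'] {ℓ : ℕ} [Fact ℓ.Prime] [NeZero ℓ]
  (h : ExactDvd ℓ (N' * ℓ)) (hℓN : ¬ ℓ ∣ N') (hA : A.LiesOverPrime ℓ)

local notation "F0" => modularFunctionFieldFullC (K0 A) (N' * ℓ)

include hℓN hA in
set_option maxHeartbeats 1000000 in
/-- **`B_R` is factorial at every closed point lying on both components** (η-route, thickness
one). -/
theorem ufd_node_BRingK0 (h2 : ℓ = 2 → 3 ∣ N') (h3 : ℓ = 3 → 2 ∣ N')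
    (hν2 : nuTwo N' = 0) (hν3 : nuThree N' = 0)
    (𝔫 : Ideal (BRingK0 N' ℓ A h)) (h𝔫 : 𝔫.IsMaximal)
    (h1 : ∀ b : BRingK0 N' ℓ A h, (b : F0) ∈ (RwK0 A (N' * ℓ)).nonunits → b ∈ 𝔫)
    (hnode : ∀ b : BRingK0 N' ℓ A h,
      (b : F0) ∈ (redData2K0 A (N' * ℓ) h).Rw.nonunits → b ∈ 𝔫) :
    ∃ _ : 𝔫.IsPrime, UniqueFactorizationMonoid (Localization.AtPrime 𝔫) := by
  haveI : IsDedekindDomain (CRing N' A) :=
    Fermat.Agent.GK.SS.Modular.isDedekindDomain_CRing N' ℓ A hA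
  haveI : IsFractionRing (CRing N' A) (FresBar N' A) :=
    Fermat.Agent.GL.SmallQ.isFractionRing_CRing N' A
  haveI h𝔫p : 𝔫.IsPrime := h𝔫.isPrime
  refine ⟨h𝔫p, ?_⟩
  have hF := frame_BRingK0 h hA
  have hsurj1 := redC1K0_surjective h hℓN hA h2 h3
  have hker1 : ∀ b : BRingK0 N' ℓ A h, redC1K0 h hℓN hA b = 0 ↔
      (b : F0) ∈ (RwK0 A (N' * ℓ)).nonunits := fun b => redC1K0_eq_zero_iff h hA hℓN
  -- the image of `𝔫` on the first component
  have hkerle : RingHom.ker (redC1K0 h hℓN hA) ≤ 𝔫 := fun b hb =>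
    h1 b ((hker1 b).1 ((RingHom.mem_ker).1 hb))
  have hcomap : Ideal.comap (redC1K0 h hℓN hA) (Ideal.map (redC1K0 h hℓN hA) 𝔫) = 𝔫 := by
    rw [Ideal.comap_map_of_surjective _ hsurj1]
    refine sup_eq_left.2 ?_
    rw [← RingHom.ker_eq_comap_bot]
    exact hkerle
  have hPmax : (Ideal.map (redC1K0 h hℓN hA) 𝔫).IsMaximal := by
    rcases Ideal.map_eq_top_or_isMaximal_of_surjective _ hsurj1 h𝔫 with htop | hmax
    · exfalso
      have : 𝔫 = ⊤ := by rw [← hcomap, htop, Ideal.comap_top]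
      exact h𝔫.ne_top this
    · exact hmax
  have hPbot : Ideal.map (redC1K0 h hℓN hA) 𝔫 ≠ ⊥ :=
    Ring.ne_bot_of_isMaximal_of_not_isField hPmax
      (Fermat.Agent.GK.SS.Modular.not_isField_CRing N' A)
  obtain ⟨J', hJ, hBT, -, -, -, hmap⟩ := exists_ideal_K0 h hℓN hA h2 h3
  have hJP : J' ≤ (⟨Ideal.map (redC1K0 h hℓN hA) 𝔫, hPmax.isPrime, hPbot⟩ :
      IsDedekindDomain.HeightOneSpectrum (CRing N' A)).asIdeal := by
    rw [← hmap]
    exact Ideal.map_mono (fun b hb => hnode b ((mem_P2K0_iff h hℓN hA).1 hb))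
  obtain ⟨y, hy, c, hyg, hc⟩ := exists_lift_pow_eq_K0_B h hℓN hA h2 h3 hν2 hν3 hJ hBT
    (⟨Ideal.map (redC1K0 h hℓN hA) 𝔫, hPmax.isPrime, hPbot⟩ :
      IsDedekindDomain.HeightOneSpectrum (CRing N' A)) hJP
  have hc𝔫 : c ∉ 𝔫 := fun hc' => hc (Ideal.mem_map_of_mem _ hc')
  have hg0 := etaBK0_ne_zero h hℓN hA
  have hc0 : c ≠ 0 := fun h0 => hc𝔫 (by rw [h0]; exact Ideal.zero_mem _)
  have hy0 : y ≠ 0 := by
    intro h0
    rw [h0, zero_pow (by norm_num)] at hyg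
    exact mul_ne_zero hg0 hc0 hyg.symm
  refine ufd_node_of_frame hF (redC2K0 h hℓN hA) (redC2K0_surjective hℓN hA h2 h3)
    (fun b => ?_) 𝔫 hnode (n := 12) (by norm_num) (fun z hz => ?_)
    ((mem_P2K0_iff h hℓN hA).1 hy) hyg hc𝔫 hy0
  · rw [← mem_P2K0_iff h hℓN hA, mem_P2K0]
  · exact etaBK0_dvd_pow h hℓN hA ((mem_P2K0_iff h hℓN hA).2 hz)

include hℓN hA in
/-- transport of `ufd_node_BRingK0` along an equality of subrings -/
theorem ufd_node_of_eq (h2 : ℓ = 2 → 3 ∣ N') (h3 : ℓ = 3 → 2 ∣ N')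
    (hν2 : nuTwo N' = 0) (hν3 : nuThree N' = 0)
    (Bf : Subring F0) (hBf : BRingK0 N' ℓ A h = Bf)
    (𝔫 : Ideal Bf) (h𝔫 : 𝔫.IsMaximal)
    (h1 : ∀ b : Bf, (b : F0) ∈ (RwK0 A (N' * ℓ)).nonunits → b ∈ 𝔫)
    (hnode : ∀ b : Bf, (b : F0) ∈ (redData2K0 A (N' * ℓ) h).Rw.nonunits → b ∈ 𝔫) :
    ∃ _ : 𝔫.IsPrime, UniqueFactorizationMonoid (Localization.AtPrime 𝔫) := by
  subst hBf
  exact ufd_node_BRingK0 h hℓN hA h2 h3 hν2 hν3 𝔫 h𝔫 h1 hnode

include hA in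
/-- an element which is a unit of both vertical valuation rings is a unit at every vertical
height-one prime of a two-component frame. -/
theorem unitAt_vert {Bj : Subring F0} (hF : IsFrameTwo A (N' * ℓ) h Bj)
    [IsNoetherianRing Bj] [IsIntegrallyClosed Bj] [IsFractionRing Bj F0]
    {z : F0} (hz1 : z ∈ RwK0 A (N' * ℓ)) (hz1' : z⁻¹ ∈ RwK0 A (N' * ℓ))
    (hz2 : z ∈ (redData2K0 A (N' * ℓ) h).Rw) (hz2' : z⁻¹ ∈ (redData2K0 A (N' * ℓ) h).Rw)
    (𝔭 : HtOne Bj) (qB : Bj) (hqB : (qB : F0) = (ℓ : F0)) (h𝔭 : qB ∈ 𝔭.1) : UnitAt 𝔭 z := by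
  obtain ⟨i1, i2, i3, f, hf1, hf2, hf3⟩ := hF
  obtain ⟨i, rfl⟩ := hf3 𝔭 qB hqB h𝔭
  have hW0 : W2 A (N' * ℓ) h 0 = RwK0 A (N' * ℓ) := rfl
  have hW1 : W2 A (N' * ℓ) h 1 = (redData2K0 A (N' * ℓ) h).Rw := rfl
  unfold UnitAt
  rw [hf1 i]
  fin_cases i
  · exact ⟨hW0 ▸ hz1, hW0 ▸ hz1'⟩
  · exact ⟨hW1 ▸ hz2, hW1 ▸ hz2'⟩

end Node

/-! ### The leaf -/

section Leaf

attribute [local instance 2000] instAlgR0FullC instAlgBK0FullC instAlgR0BK0

variable (A : ValuationSubring Qb) {M' q : ℕ} [NeZero q] [NeZero M']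
  (hq : q.Prime) (hqM : ¬ q ∣ M') (hA : (q : Qb) ∈ A.nonunits) (s : (R0 A)[X])
  (H : SsPts A hq hqM hA s) (hv : (buildK0 A hq hqM hA s H).Hval)

local notation "E₀" => modularFunctionFieldFullC (K0 A) (M' * q)
local notation "k₀" => ResidueField (R0 A)
local notation "S₀" => setupK0Of A hq hqM hA s H hv

set_option synthInstance.maxHeartbeats 400000 in
set_option maxHeartbeats 3200000 in
/-- **(J5b) the level-`q` Kummer datum at the concrete `TripleSetup`.** -/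
theorem levelQDatum_setupK0Of (hsm : s.Monic) (h2 : q = 2 → 3 ∣ M') (h3 : q = 3 → 2 ∣ M')
    {r : ℕ} (hr : r.Prime) (hrM : r ∣ M') (hr3 : r % 3 = 2) (hr4 : r % 4 = 3)
    {m : ℕ} (hm : m ≠ 0) :
    ∀ z : E₀, z ≠ 0 → U2' (S₀) z →
      (∀ P : Place Kb (FK (M' * q)), (m : ℤ) ∣ P.ord (toFN0 A (M' * q) z)) →
      ∃ (g' : E₀) (cB : BK0 A (M' * q)),
        g' ^ m * z = algebraMap (BK0 A (M' * q)) E₀ cB ∧
        ∀ n' : PtType (RingHom.ker (residue (R0 A))) (jB A (M' * q)) s,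
          (buildK0 A hq hqM hA s H).χ' n' cB ≠ 0 := by
  intro z hz0 hU hdiv
  haveI : Fact q.Prime := ⟨hq⟩
  haveI : IsAlgClosed k₀ := isAlgClosed_residueField_R0 A hq hA
  haveI : IsNoetherianRing (BK0 A (M' * q)) := isNoetherianRing_BK0 A hA (M' * q) hq
  haveI : IsIntegrallyClosed (BK0 A (M' * q)) := isIntegrallyClosed_BK0 A hA (M' * q) hq
  haveI : IsFractionRing (BK0 A (M' * q)) E₀ := isFractionRing_BK0 A hA (M' * q) hq
  haveI : Finite (PtType (RingHom.ker (residue (R0 A))) (jB A (M' * q)) s) :=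
    finite_ptType_BK0 A hA (M' * q) hq hsm
  have hex : Fermat.Agent.GK.AL.ExactDvd q (M' * q) :=
    Fermat.Agent.GL.W3Table.exactDvd_level hq hqM
  -- `z` is a unit of both vertical valuation rings
  obtain ⟨⟨a1, b1⟩, ⟨a2, b2⟩⟩ := hU
  have a1' := (res_inv_eq_one (S₀).A1 (S₀).rd1' (S₀).hr1' a1 b1).1
  have a2' := (res_inv_eq_one (S₀).A2 (S₀).rd2' (S₀).hr2' a2 b2).1
  have hF : Fermat.Agent.GB.A4.FrameTwo.IsFrameTwo A (M' * q) hex (BK0 A (M' * q)) :=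
    Fermat.Agent.GB.A4.FrameTwo.frame_of_eq hA _
      (by rw [Fermat.Agent.GL.Val.OrthK0.jK0_eq_jC])
  -- the divisor condition at every height-one prime
  have hord : ∀ 𝔭 : HtOne (BK0 A (M' * q)), ∃ y : E₀, y ≠ 0 ∧ UnitAt 𝔭 (z * y ^ m) := by
    intro 𝔭
    by_cases hq𝔭 : ((q : ℕ) : BK0 A (M' * q)) ∈ 𝔭.1
    · exact hord_of_unitAt m (unitAt_vert hex hA hF a1 a1' a2 a2' 𝔭
        ((q : ℕ) : BK0 A (M' * q)) (Subring.coe_natCast _ q) hq𝔭)
    · exact hhoriz_K0 A hq hA (M' * q)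
        (fun c hc => ⟨algebraMap (R0 A) (BK0 A (M' * q)) ⟨c, hc⟩, rfl⟩)
        ((q : ℕ) : BK0 A (M' * q)) (map_natCast _ q) m z hz0 hdiv 𝔭 hq𝔭
  -- factoriality at the nodes
  have hufd : ∀ n' : PtType (RingHom.ker (residue (R0 A))) (jB A (M' * q)) s,
      ∃ _ : (ptIdeal n').IsPrime,
        UniqueFactorizationMonoid (Localization.AtPrime (ptIdeal n')) := by
    intro n'
    exact ufd_node_of_eq hex hqM hA h2 h3
      (Fermat.Agent.GL.AuxPrime.nuTwo_eq_zero_of_dvd hr hr4 hrM)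
      (Fermat.Agent.GL.AuxPrime.nuThree_eq_zero_of_dvd hr hr3 hrM)
      (BK0 A (M' * q)) (Fermat.Agent.GL.BRingChart.bRingK0_eq_chartRing hex hA)
      (ptIdeal n') (ptIdeal_isMaximal n') (H.hP1' n') (H.hP2' n')
  obtain ⟨g, c, hgc, hc⟩ := datum_of_ufd hm
    (fun n' : PtType (RingHom.ker (residue (R0 A))) (jB A (M' * q)) s => ptIdeal n')
    (fun n' => ptIdeal_isMaximal n') ptIdeal_injective z hz0 hufd hord
  exact ⟨g, c, hgc, fun n' h0 =>
    hc n' ((buildK0_χ'_eq_zero_iff A hq hqM hA s H n' c).1 h0)⟩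

/-- **(J5b) at `setupK0Thm`** (`s = sK0 A hq`, `T' = TK0' A M' hq`). -/
theorem levelQDatum_setupK0Thm (h2 : q = 2 → 3 ∣ M') (h3 : q = 3 → 2 ∣ M')
    {r : ℕ} (hr : r.Prime) (hrM : r ∣ M') (hr3 : r % 3 = 2) (hr4 : r % 4 = 3)
    {m : ℕ} (hm : m ≠ 0) :
    ∀ z : E₀, z ≠ 0 →
      U2' (Fermat.Agent.GL.Final.TripleInstK0.setupK0Thm A hq hqM hA h2 h3 hr hrM hr3 hr4) z →
      (∀ P : Place Kb (FK (M' * q)), (m : ℤ) ∣ P.ord (toFN0 A (M' * q) z)) →
      ∃ (g' : E₀) (cB : BK0 A (M' * q)),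
        g' ^ m * z = algebraMap (BK0 A (M' * q)) E₀ cB ∧
        ∀ n' : Fermat.Agent.GL.Final.TripleInstK0.TK0' A M' hq,
          (buildK0 A hq hqM hA (Fermat.Agent.GL.Final.TripleInstK0.sK0 A hq)
            (Fermat.Agent.GL.Final.TripleInstK0.ssPtsK0 A hq hqM hA h2 h3 hr hrM hr3 hr4)).χ' n' cB ≠ 0 :=
  levelQDatum_setupK0Of A hq hqM hA (Fermat.Agent.GL.Final.TripleInstK0.sK0 A hq)
    (Fermat.Agent.GL.Final.TripleInstK0.ssPtsK0 A hq hqM hA h2 h3 hr hrM hr3 hr4)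
    (Fermat.Agent.GL.Final.TripleInstK0.hvalK0 A hq hqM hA h2 h3
      (Fermat.Agent.GL.Final.TripleInstK0.sK0 A hq)
      (Fermat.Agent.GL.Final.TripleInstK0.ssPtsK0 A hq hqM hA h2 h3 hr hrM hr3 hr4))
    (Fermat.Agent.GL.Final.TripleInstK0.monic_sK0 A hq) h2 h3 hr hrM hr3 hr4 hm

end Leaf

end Fermat.Agent.GE8.SQ2.LevelQDatum
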