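/-
GATE-E / E8.2 (SQ-ii hedge of helper29, node (E1), input (C4)) — helper68.

**The torsion count of the reduction of `X₀(N)`**: for `A ∣ ℓ`, `ℓ ∤ N` (and `3 ∣ N` if `ℓ = 2`,
`2 ∣ N` if `ℓ = 3`), `𝕜 = ResidueField A`, and every `m` invertible in `𝕜`:

  `#Pic⁰(FresBar N A)[m] = #Pic⁰(F_N)[m] = m ^ (2 · dim S₂(Γ₀(N)))`.

Proof: the L-space hypotheses `LSpaceHyp` for the Gauss reduction datum `redDataBar N A`
(`GJ/S37/LSpaceGateBar`, here with a NATURAL genus), the unconditional `GJ27.torsIsoStmt` (torsion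
of `Pic⁰` is the same on the two fibres of a good-reduction frame) and the characteristic-zero
count `GH/TorsionCount.natCard_torsion`.  No Frobenius structure is needed.
-/
import Fermat.Agent.GJ27.TorsIsoFinal
import Fermat.Agent.GJ.S37.LSpaceGateBar
import Fermat.Agent.GH.TorsionCount
import Fermat.Agent.GK.Flat.SymDegreeInst

set_option autoImplicit false

open CongruenceSubgroup AlgebraicCurve ModularCurve

noncomputable section

namespace Fermat.Agent.GE8.SQ2.CountFres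

open Polynomial IntermediateField Module
open Fermat.Agent.S24 Fermat.Agent.RRh45 Fermat.Agent.GJ.J1 Fermat.Agent.GJ.J1.Val
open Fermat.Agent.GJ.J1.Haupt Fermat.Agent.GJ.J1.DiffAdapter Fermat.Agent.GJ.J1.AbsCore
open Fermat.Agent.GJ.S37LSpace Fermat.Agent.GJ.S37LSpaceGateBar

variable (N : ℕ) [NeZero N] (A : ValuationSubring Kbar)

local notation "𝕜" => IsLocalRing.ResidueField A

/-- `LSpaceHyp` for the concrete reduction datum, from a chart, with a NATURAL genus. -/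
theorem lSpaceHyp_nat_of_chart_bar {ℓ : ℕ} [Fact ℓ.Prime] (hA : A.LiesOverPrime ℓ)
    {t : FN N} (hgc : (redDataBar N A).IsGaussChart t)
    (hdeg : finrank Kbar⟮t⟯ (FN N) ≤
      finrank 𝕜⟮(redDataBar N A).red ⟨t, hgc.1⟩⟯ (FresBar N A))
    (β : A) (hβ : (redDataBar N A).res β ≠ 0)
    (hbr : PlaceBranch Kbar t (X * (X - Polynomial.C (β : Kbar))))
    (hord : ¬ (ℓ : ℤ) ∣ ((FresBar N A).val ((redDataBar N A).red ⟨t, hgc.1⟩)).order) :
    ∃ (g : ℕ) (c : ℤ), LSpaceHyp (redDataBar N A) (g : ℤ) c := by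
  have : CharP 𝕜 ℓ := charP_residue A (Fact.out : ℓ.Prime) hA
  have : IsGen Kbar (jF N) := Fermat.Agent.S24_helper62.isGen_jF N
  obtain ⟨c, hc⟩ := lSpaceHyp_of_primitives ℓ (jF N) (redDataBar N A)
    (Val.unramified A (modularFunctionFieldBar N) (hasGaussFrac_bar N A))
    hgc.1 hgc.2 hdeg β hβ hbr (FresBar N A).val hord
  exact ⟨_, c, hc⟩

/-- the L-space gate with a natural genus. -/
theorem exists_lSpaceHyp_nat {ℓ : ℕ} (hℓ : ℓ.Prime) (hℓN : ¬ ℓ ∣ N)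
    (h2 : ℓ = 2 → 3 ∣ N) (h3 : ℓ = 3 → 2 ∣ N) (hA : A.LiesOverPrime ℓ) :
    ∃ (g : ℕ) (c : ℤ), LSpaceHyp (redDataBar N A) (g : ℤ) c := by
  have : Fact ℓ.Prime := ⟨hℓ⟩
  have hcp : CharP (IsLocalRing.ResidueField A) ℓ := charP_residue A hℓ hA
  have hdegj := Fermat.Agent.GJ.J1.K18Modular.hdeg_jF N A hℓN hA
  by_cases e2 : ℓ = 2
  · have hd := h2 e2
    subst e2
    have h3' : (3 : IsLocalRing.ResidueField A) ≠ 0 := three_ne_zero_of_charP_two A
    exact lSpaceHyp_nat_of_chart_bar N A hA (isGaussChart_tThreeF N A hd)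
      (hdeg_tThreeF N A hd h3' _ hdegj) ((-27 : ℤ) : A) (res_neg27_ne_zero hℓ (by norm_num))
      (placeBranch_tThreeF_A N A hd) (hord_tThreeF N A hd hℓ _)
  by_cases e3 : ℓ = 3
  · have hd := h3 e3
    subst e3
    have h2' : (2 : IsLocalRing.ResidueField A) ≠ 0 := two_ne_zero_of_charP_three A
    exact lSpaceHyp_nat_of_chart_bar N A hA (isGaussChart_tTwoF N A hd)
      (hdeg_tTwoF N A hd h2' _ hdegj) ((-64 : ℤ) : A) (res_neg64_ne_zero hℓ (by norm_num))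
      (placeBranch_tTwoF_A N A hd) (hord_tTwoF N A hd hℓ _)
  · exact lSpaceHyp_nat_of_chart_bar N A hA (isGaussChart_jF N A) hdegj ((1728 : ℤ) : A)
      (res_1728_ne_zero hℓ e2 e3) (placeBranch_jF_A N A) (hord_jF N A hℓ _)

/-- the three Place-API instances on the reduction `FresBar N A` (generator `τ = red j`). -/
theorem instances_FresBar :
    FiniteResidues 𝕜 (FresBar N A) ∧ HasPrincipalDivisors 𝕜 (FresBar N A) ∧
      Nonempty (Place 𝕜 (FresBar N A)) := by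
  have hgen : IsGen 𝕜 (Fermat.Agent.GK.CuspSep.tauF N A) :=
    Fermat.Agent.GK.SymDegree.isGen_tauF N A
  have : IsAlgClosed 𝕜 := Fermat.Agent.GJ.ResidueAlgClosed.isAlgClosed_residueField A
  exact ⟨Fermat.Agent.GJ.FF.finiteResidues (Fermat.Agent.GK.CuspSep.tauF N A),
    Fermat.Agent.GJ.FF.PrincipalOf.hasPrincipalDivisors_gen (Fermat.Agent.GK.CuspSep.tauF N A),
    Fermat.Agent.GJ.FF.nonempty_place (Fermat.Agent.GK.CuspSep.tauF N A)⟩

variable [FiniteResidues Kbar (FN N)] [HasPrincipalDivisors Kbar (FN N)]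
  [Nonempty (Place Kbar (FN N))]
variable [FiniteResidues (IsLocalRing.ResidueField A) (FresBar N A)]
  [HasPrincipalDivisors (IsLocalRing.ResidueField A) (FresBar N A)]
  [Nonempty (Place (IsLocalRing.ResidueField A) (FresBar N A))]

/-- **good reduction preserves the torsion count**: `#Pic⁰(F_N)[m] = #Pic⁰(FresBar N A)[m]`
for `m` invertible in the residue field (any instances of the Place API). -/
theorem natCard_torsion_FN_eq_FresBar {ℓ : ℕ} (hℓ : ℓ.Prime) (hℓN : ¬ ℓ ∣ N)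
    (h2 : ℓ = 2 → 3 ∣ N) (h3 : ℓ = 3 → 2 ∣ N) (hA : A.LiesOverPrime ℓ)
    (m : ℕ) (hm : (m : 𝕜) ≠ 0) :
    Nat.card (Pic0.torsion Kbar (FN N) m) = Nat.card (Pic0.torsion 𝕜 (FresBar N A) m) := by
  have : IsAlgClosed 𝕜 := Fermat.Agent.GJ.ResidueAlgClosed.isAlgClosed_residueField A
  obtain ⟨g, c, H⟩ := exists_lSpaceHyp_nat N A hℓ hℓN h2 h3 hA
  exact Fermat.Agent.GJ27.torsIsoStmt Kbar (FN N) 𝕜 (FresBar N A) (redDataBar N A) g c H m hm

omit [FiniteResidues Kbar (FN N)] [HasPrincipalDivisors Kbar (FN N)]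
  [Nonempty (Place Kbar (FN N))] [FiniteResidues (IsLocalRing.ResidueField A) (FresBar N A)]
  [HasPrincipalDivisors (IsLocalRing.ResidueField A) (FresBar N A)]
  [Nonempty (Place (IsLocalRing.ResidueField A) (FresBar N A))] in
/-- **(C4) the torsion count of the reduction of `X₀(N)`**: for `A ∣ ℓ ∤ N` and `m` invertible in
the residue field, `#Pic⁰(FresBar N A)[m] = m ^ (2 · dim S₂(Γ₀(N)))`.  No instance binders. -/
theorem natCard_torsion_FresBar {ℓ : ℕ} (hℓ : ℓ.Prime) (hℓN : ¬ ℓ ∣ N)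
    (h2 : ℓ = 2 → 3 ∣ N) (h3 : ℓ = 3 → 2 ∣ N) (hA : A.LiesOverPrime ℓ)
    (m : ℕ) (hm : (m : 𝕜) ≠ 0) :
    Nat.card (Pic0.torsion 𝕜 (FresBar N A) m) =
      m ^ (2 * Module.finrank ℂ (CuspForm (Gamma0 N) 2)) := by
  obtain ⟨i1, i2, i3⟩ := instances_FresBar N A
  have : IsGen Kbar (jF N) := Fermat.Agent.S24_helper62.isGen_jF N
  have : FiniteResidues Kbar (FN N) := Fermat.Agent.GJ.FF.finiteResidues (jF N)
  have : HasPrincipalDivisors Kbar (FN N) :=
    Fermat.Agent.GJ.FF.PrincipalOf.hasPrincipalDivisors_gen (jF N)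
  have : Nonempty (Place Kbar (FN N)) := Fermat.Agent.GJ.FF.nonempty_place (jF N)
  have hm0 : m ≠ 0 := by
    rintro rfl
    exact hm Nat.cast_zero
  rw [← natCard_torsion_FN_eq_FresBar N A hℓ hℓN h2 h3 hA m hm]
  exact Fermat.Agent.GH.TorsionCount.natCard_torsion_JZero N m hm0

omit [FiniteResidues Kbar (FN N)] [HasPrincipalDivisors Kbar (FN N)]
  [Nonempty (Place Kbar (FN N))] [FiniteResidues (IsLocalRing.ResidueField A) (FresBar N A)]
  [HasPrincipalDivisors (IsLocalRing.ResidueField A) (FresBar N A)]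
  [Nonempty (Place (IsLocalRing.ResidueField A) (FresBar N A))] in
/-- the same at a prime power `p ^ n`, `p ≠ ℓ`. -/
theorem natCard_torsion_FresBar_pow {ℓ : ℕ} (hℓ : ℓ.Prime) (hℓN : ¬ ℓ ∣ N)
    (h2 : ℓ = 2 → 3 ∣ N) (h3 : ℓ = 3 → 2 ∣ N) (hA : A.LiesOverPrime ℓ)
    {p : ℕ} (hp : p.Prime) (hpℓ : p ≠ ℓ) (n : ℕ) :
    Nat.card (Pic0.torsion 𝕜 (FresBar N A) (p ^ n)) =
      p ^ (2 * Module.finrank ℂ (CuspForm (Gamma0 N) 2) * n) := by
  have hcp : CharP 𝕜 ℓ := charP_residue A hℓ hA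
  have hm : ((p ^ n : ℕ) : 𝕜) ≠ 0 := by
    rw [Nat.cast_pow]
    apply pow_ne_zero
    intro h0
    have hdvd : ℓ ∣ p := (CharP.cast_eq_zero_iff 𝕜 ℓ p).mp h0
    exact hpℓ ((Nat.prime_dvd_prime_iff_eq hℓ hp).mp hdvd).symm
  rw [natCard_torsion_FresBar N A hℓ hℓN h2 h3 hA (p ^ n) hm, ← pow_mul]
  congr 1
  ring

end Fermat.Agent.GE8.SQ2.CountFres
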