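/-
GATE-E / E8.2 SQ2 (helper29's hedge), input (C4) in the spelling consumed by `CountLevel` —
helper68.

**The number of Kummer classes of the reduction of `X₀(N)`**: for `A ∣ ℓ`, `ℓ ∤ N`
(`3 ∣ N` if `ℓ = 2`, `2 ∣ N` if `ℓ = 3`), `𝕜 = ResidueField A` and `m` invertible in `𝕜`,

  `#Kum_m(𝕜, FresBar N A) = m ^ (2 · dim S₂(Γ₀(N))) = m ^ (2 · genusRR ℚ̄ F_N)`,

and the same at the level `N' q` with `q ∥ N' q`, `A ∣ q` (where `FresBar (N' q) A = FresBar N' A`).

Inputs: `CountFres.natCard_torsion_FresBar` (torsion count of `Pic⁰` of the reduction), the generic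
Kummer isomorphism `GH/KummerPic.natCard_torsion_eq` (no characteristic hypothesis: constants are
the only functions without zeros and poles, and `𝕜` is algebraically closed).
-/
import Fermat.Agent.GE8.SQ2.CountFres
import Fermat.Agent.GH.KummerPic
import Fermat.Agent.GL.Genus.GenusRed
import Fermat.Agent.GF.D2.Genus

set_option autoImplicit false
set_option linter.unusedSectionVars false

open CongruenceSubgroup AlgebraicCurve ModularCurve

noncomputable section

namespace Fermat.Agent.GE8.SQ2.CountFresKum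

open Fermat.Agent.S24 Fermat.Agent.RRh45 Fermat.Agent.GJ.J1 Fermat.Agent.GJ.J1.Val
open Fermat.Agent.GJ.KumGroup Fermat.Agent.GE8.SQ2.CountFres Fermat.Agent.GJ.J1.InstGen
open Fermat.Agent.GK.AL

local notation "𝕜" => IsLocalRing.ResidueField _

/-- the number of Kummer classes only depends on the intermediate field. -/
theorem natCard_kum_congr_intermediateField {k L : Type*} [Field k] [Field L] [Algebra k L]
    {S T : IntermediateField k L} (h : S = T) (m : ℕ) :
    Nat.card (Kum k S m) = Nat.card (Kum k T m) := by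
  subst h
  rfl

section Good

variable (N : ℕ) [NeZero N] (A : ValuationSubring Kbar)

/-- **the Kummer count of the reduction**, `dim S₂` spelling. -/
theorem natCard_kum_FresBar {ℓ : ℕ} (hℓ : ℓ.Prime) (hℓN : ¬ ℓ ∣ N)
    (h2 : ℓ = 2 → 3 ∣ N) (h3 : ℓ = 3 → 2 ∣ N) (hA : A.LiesOverPrime ℓ)
    (m : ℕ) (hm : (m : IsLocalRing.ResidueField A) ≠ 0) :
    Nat.card (Kum (IsLocalRing.ResidueField A) (FresBar N A) m) =
      m ^ (2 * Module.finrank ℂ (CuspForm (Gamma0 N) 2)) := by
  obtain ⟨i1, i2, i3⟩ := instances_FresBar N A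
  have hm0 : m ≠ 0 := by
    rintro rfl
    exact hm Nat.cast_zero
  have : NeZero m := ⟨hm0⟩
  have hgen : IsGen (IsLocalRing.ResidueField A) (Fermat.Agent.GK.CuspSep.tauF N A) :=
    Fermat.Agent.GK.SymDegree.isGen_tauF N A
  have : IsAlgClosed (IsLocalRing.ResidueField A) :=
    Fermat.Agent.GJ.ResidueAlgClosed.isAlgClosed_residueField A
  rw [← Fermat.Agent.GH.KummerPic.natCard_torsion_eq m
    (fun f _ h0 => Fermat.Agent.GJ.FF.Fibre.exists_const_of_forall_ord_eq_zero'
      (Fermat.Agent.GK.CuspSep.tauF N A) h0)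
    (fun c => IsAlgClosed.exists_pow_nat_eq c (Nat.pos_of_ne_zero hm0))]
  exact natCard_torsion_FresBar N A hℓ hℓN h2 h3 hA m hm

/-- **the Kummer count of the reduction**, `genusRR` spelling. -/
theorem natCard_kum_FresBar_genusRR {ℓ : ℕ} (hℓ : ℓ.Prime) (hℓN : ¬ ℓ ∣ N)
    (h2 : ℓ = 2 → 3 ∣ N) (h3 : ℓ = 3 → 2 ∣ N) (hA : A.LiesOverPrime ℓ)
    [FiniteResidues Kbar (FN N)] [HasPrincipalDivisors Kbar (FN N)]
    [Nonempty (Place Kbar (FN N))]
    (m : ℕ) (hm : (m : IsLocalRing.ResidueField A) ≠ 0) :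
    Nat.card (Kum (IsLocalRing.ResidueField A) (FresBar N A) m) =
      m ^ (2 * (genusRR Kbar (FN N)).toNat) := by
  rw [natCard_kum_FresBar N A hℓ hℓN h2 h3 hA m hm,
    Fermat.Agent.GF.D2.Genus.genusRR_FN_eq_finrank N, Int.toNat_natCast]

end Good

section Level

variable (N' : ℕ) [NeZero N'] (q : ℕ) [hq : Fact q.Prime] [NeZero q]
variable (A : ValuationSubring Kbar) (h : ExactDvd q (N' * q))
variable (hqN : ¬ q ∣ N') (hA : A.LiesOverPrime q)

include h hqN hA in
/-- **(C4) at the semistable level `N' q`** (`q ∥ N' q`, `A ∣ q`): the reduction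
`FresBar (N' q) A` has `m ^ (2 dim S₂(Γ₀(N')))` Kummer classes modulo `m`, `m` prime to `q`. -/
theorem natCard_kum_FresBar_mul (h2 : q = 2 → 3 ∣ N') (h3 : q = 3 → 2 ∣ N')
    (m : ℕ) (hm : (m : IsLocalRing.ResidueField A) ≠ 0) :
    Nat.card (Kum (IsLocalRing.ResidueField A) (FresBar (N' * q) A) m) =
      m ^ (2 * Module.finrank ℂ (CuspForm (Gamma0 N') 2)) := by
  rw [natCard_kum_congr_intermediateField
    (Fermat.Agent.GK.QS.FresBar_mul_eq N' q A h hqN hA) m]
  exact natCard_kum_FresBar N' A hq.out hqN h2 h3 hA m hm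

include h hqN hA in
/-- the same in the `genusRR` spelling of helper29's `CountLevel`, at a prime `p ≠ q`. -/
theorem natCard_kum_FresBar_mul_prime (h2 : q = 2 → 3 ∣ N') (h3 : q = 3 → 2 ∣ N')
    [FiniteResidues Kbar (FN N')] [HasPrincipalDivisors Kbar (FN N')]
    [Nonempty (Place Kbar (FN N'))]
    {p : ℕ} (hp : p.Prime) (hpq : p ≠ q) :
    Nat.card (Kum (IsLocalRing.ResidueField A) (FresBar (N' * q) A) p) =
      p ^ (2 * (genusRR Kbar (FN N')).toNat) := by
  have hcp : CharP (IsLocalRing.ResidueField A) q := charP_residue A hq.out hA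
  have hm : ((p : ℕ) : IsLocalRing.ResidueField A) ≠ 0 := by
    intro h0
    have hdvd : q ∣ p := (CharP.cast_eq_zero_iff (IsLocalRing.ResidueField A) q p).mp h0
    exact hpq ((Nat.prime_dvd_prime_iff_eq hq.out hp).mp hdvd).symm
  rw [natCard_kum_FresBar_mul N' q A h hqN hA h2 h3 p hm,
    Fermat.Agent.GF.D2.Genus.genusRR_FN_eq_finrank N', Int.toNat_natCast]

end Level

end Fermat.Agent.GE8.SQ2.CountFresKum
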