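/-
GATE-E / E8.SQ toric side, node (E1) = TORIC-EXIST by COUNTING (helper29): STATEMENTS of the
slices + the consumer `pow_le_card_T0`.

Level `M` with `q ∥ M` (`h : ExactDvd q M`), `A ∣ q`, `p` prime (`p ≠ q`),
`V = Kum_p(F_M) = J₀(M)[p]`, `𝕜 = ResidueField A`, CASE-A vocabulary (`GB/A/FP.lean`, `GB/A3/Ob.lean`).

* `IsCstPowU v`  : `v = const · w ^ p` in `(FresBar M A)ˣ`;
* `T0`           : the TORIC classes in `K₀`-form: the classes with an inertia-FIXED representative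
                   which is a unit for both Gauss valuations and whose two reductions are
                   constants times `p`-th powers (an `AddSubgroup` of `V`);
* `S0`           : the inertia-invariant classes with vanishing obstruction (`Ob.ObZero`);
* `L2Stmt`       : `#V^I ≤ p · #S0`                       (`ν : F₀ˣ → ℤ` is additive);
* `L3Stmt`       : `#S0 ≤ (#Kum_p(𝕜, FresBar M A))² · #T0`  (A3 + A4 + the two reductions);
* `L4Stmt`       : `#V ≤ #V^I · #T0`                       (tame generator `τ`, `y ↦ τ y - y`);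
* `pow_le_card_T0` : the three slices + `#V = p^(2g')`, `#Kum_p(FresBar) = p^(2g'')`,
                   `n + 2 g'' ≤ g' + 1`  ⟹  `p^(n-1) ≤ #T0`.
-/
import Mathlib
import Fermat.Agent.GB.A3.Ob

set_option autoImplicit false
set_option linter.unusedSectionVars false

noncomputable section

namespace Fermat.Agent.GE8.SQ2.CountStmt

open ModularCurve IsLocalRing AlgebraicCurve
open Fermat.Agent.S24 Fermat.Agent.GJ.J1 Fermat.Agent.GJ.J1.Val
open Fermat.Agent.GJ.KumGroup Fermat.Agent.GJ.Kum.KumType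
open Fermat.Agent.GK.UqKronecker Fermat.Agent.GK.AL Fermat.Agent.GK.SS
open Fermat.Agent.GB.A.FP Fermat.Agent.GB.A3.Ob

variable {M : ℕ} [NeZero M] {q : ℕ} (h : ExactDvd q M) (A : ValuationSubring Kb) (p : ℕ)

/-- `v = const · w ^ p` in the residue function field. -/
def IsCstPowU (v : (FresBar M A)ˣ) : Prop :=
  ∃ (c : ResidueField A) (w : (FresBar M A)ˣ),
    ((v : (FresBar M A)ˣ) : FresBar M A) =
      algebraMap (ResidueField A) (FresBar M A) c * ((w : (FresBar M A)ˣ) : FresBar M A) ^ p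

variable {A p} in
theorem IsCstPowU.mul {v v' : (FresBar M A)ˣ} (hv : IsCstPowU A p v) (hv' : IsCstPowU A p v') :
    IsCstPowU A p (v * v') := by
  obtain ⟨c, w, e⟩ := hv
  obtain ⟨c', w', e'⟩ := hv'
  refine ⟨c * c', w * w', ?_⟩
  rw [Units.val_mul, Units.val_mul, e, e', map_mul, mul_pow]
  ring

variable {A p} in
theorem IsCstPowU.inv {v : (FresBar M A)ˣ} (hv : IsCstPowU A p v) : IsCstPowU A p v⁻¹ := by
  obtain ⟨c, w, e⟩ := hv
  refine ⟨c⁻¹, w⁻¹, ?_⟩
  rw [Units.val_inv_eq_inv_val, Units.val_inv_eq_inv_val, e, mul_inv, map_inv₀, inv_pow]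

variable (M) in
theorem isCstPowU_one : IsCstPowU (M := M) A p 1 :=
  ⟨1, 1, by rw [Units.val_one, map_one, one_pow, one_mul]⟩

/-! ### `BothUnit` and the reductions are multiplicative -/

variable {h A} in
theorem bothUnit_mul {u v : (FK M)ˣ} (hu : BothUnit h A u) (hv : BothUnit h A v) :
    BothUnit h A (u * v) := by
  obtain ⟨⟨a1, a2⟩, ⟨a3, a4⟩⟩ := hu
  obtain ⟨⟨b1, b2⟩, ⟨b3, b4⟩⟩ := hv
  refine ⟨⟨?_, ?_⟩, ⟨?_, ?_⟩⟩
  · rw [Units.val_mul]; exact mul_mem a1 b1
  · rw [mul_inv, Units.val_mul]; exact mul_mem a2 b2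
  · rw [Units.val_mul]; exact mul_mem a3 b3
  · rw [mul_inv, Units.val_mul]; exact mul_mem a4 b4

variable {h A} in
theorem bothUnit_inv {u : (FK M)ˣ} (hu : BothUnit h A u) : BothUnit h A u⁻¹ := by
  obtain ⟨⟨a1, a2⟩, ⟨a3, a4⟩⟩ := hu
  exact ⟨⟨a2, by rwa [inv_inv]⟩, ⟨a4, by rwa [inv_inv]⟩⟩

variable (M) in
theorem bothUnit_one : BothUnit (M := M) h A 1 := by
  refine ⟨⟨?_, ?_⟩, ⟨?_, ?_⟩⟩ <;> simp only [inv_one, Units.val_one] <;> exact one_mem _

variable {h A} in
theorem redUnit₁_mul {u v : (FK M)ˣ} (hu : BothUnit h A u) (hv : BothUnit h A v) :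
    redUnit₁ (bothUnit_mul hu hv) = redUnit₁ hu * redUnit₁ hv := by
  apply Units.ext
  rw [Units.val_mul]
  show (redDataBar M A).red _ = (redDataBar M A).red _ * (redDataBar M A).red _
  rw [← map_mul]
  rfl

variable {h A} in
theorem redUnit₂_mul {u v : (FK M)ˣ} (hu : BothUnit h A u) (hv : BothUnit h A v) :
    redUnit₂ (bothUnit_mul hu hv) = redUnit₂ hu * redUnit₂ hv := by
  apply Units.ext
  rw [Units.val_mul]
  show (redData2 M A h).red _ = (redData2 M A h).red _ * (redData2 M A h).red _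
  rw [← map_mul]
  rfl

variable {h A} in
theorem redUnit₁_inv {u : (FK M)ˣ} (hu : BothUnit h A u) :
    redUnit₁ (bothUnit_inv hu) = (redUnit₁ hu)⁻¹ := by
  apply Units.ext
  rfl

variable {h A} in
theorem redUnit₂_inv {u : (FK M)ˣ} (hu : BothUnit h A u) :
    redUnit₂ (bothUnit_inv hu) = (redUnit₂ hu)⁻¹ := by
  apply Units.ext
  rfl

variable (M) in
theorem redUnit₁_one : redUnit₁ (bothUnit_one M h A) = 1 := by
  apply Units.ext
  show (redDataBar M A).red _ = 1
  exact map_one _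

variable (M) in
theorem redUnit₂_one : redUnit₂ (bothUnit_one M h A) = 1 := by
  apply Units.ext
  show (redData2 M A h).red _ = 1
  exact map_one _

/-! ### the toric classes, `K₀`-form -/

/-- `u` is an inertia-fixed `p`-divisible unit, unit for both Gauss valuations, with both reductions
constants times `p`-th powers. -/
def IsTorRep (u : pDivUnits Kb (FK M) p) : Prop :=
  (∀ σ ∈ A.inertiaSubgroupIn ℚ, galUnits M σ (u : (FK M)ˣ) = (u : (FK M)ˣ)) ∧
    ∃ hu : BothUnit h A (u : (FK M)ˣ), IsCstPowU A p (redUnit₁ hu) ∧ IsCstPowU A p (redUnit₂ hu)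

/-- **the toric classes in `K₀`-form**, as a subgroup of `V = Kum_p(F_M)`. -/
def T0 : AddSubgroup (Additive (Kum Kb (FK M) p)) where
  carrier := {y | ∃ u : pDivUnits Kb (FK M) p, Additive.ofMul (Kum.mk u) = y ∧ IsTorRep h A p u}
  zero_mem' := by
    refine ⟨1, ?_, fun σ _ => map_one _, bothUnit_one M h A, ?_, ?_⟩
    · rw [map_one]; rfl
    · rw [redUnit₁_one]; exact isCstPowU_one M A p
    · rw [redUnit₂_one]; exact isCstPowU_one M A p
  add_mem' := by
    rintro _ _ ⟨u, rfl, hfu, hu, h1, h2⟩ ⟨v, rfl, hfv, hv, h1', h2'⟩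
    refine ⟨u * v, ?_, fun σ hσ => ?_, bothUnit_mul hu hv, ?_, ?_⟩
    · rw [map_mul]; rfl
    · rw [Subgroup.coe_mul, map_mul, hfu σ hσ, hfv σ hσ]
    · rw [redUnit₁_mul hu hv]; exact h1.mul h1'
    · rw [redUnit₂_mul hu hv]; exact h2.mul h2'
  neg_mem' := by
    rintro _ ⟨u, rfl, hfu, hu, h1, h2⟩
    refine ⟨u⁻¹, ?_, fun σ hσ => ?_, bothUnit_inv hu, ?_, ?_⟩
    · rw [map_inv]; rfl
    · rw [Subgroup.coe_inv, map_inv, hfu σ hσ]
    · rw [redUnit₁_inv hu]; exact h1.inv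
    · rw [redUnit₂_inv hu]; exact h2.inv

variable {h A p} in
theorem mem_T0 {y : Additive (Kum Kb (FK M) p)} :
    y ∈ T0 h A p ↔ ∃ u : pDivUnits Kb (FK M) p,
      Additive.ofMul (Kum.mk u) = y ∧ IsTorRep h A p u := Iff.rfl

variable {h A p} in
/-- toric classes are inertia-invariant. -/
theorem T0_le_invSub : ∀ y ∈ T0 h A p, y ∈ invSub (M := M) A p := by
  rintro _ ⟨u, rfl, hfu, -⟩ σ hσ
  rw [gal_mk]
  congr 2
  exact Subtype.ext (hfu σ hσ)

/-! ### the slices -/

variable (hq : q.Prime) (hA : (q : Kb) ∈ A.nonunits)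

/-- the inertia-invariant classes with vanishing obstruction. -/
def S0 : Set (Additive (Kum Kb (FK M) p)) :=
  {y | y ∈ invSub (M := M) A p ∧ ObZero h A p hq hA y}

/-- **(L2)** `#V^I ≤ p · #S0`. -/
def L2Stmt : Prop :=
  Nat.card (invSub (M := M) A p) ≤ p * Nat.card (S0 h A p hq hA)

/-- **(L3)** `#S0 ≤ (#Kum_p(𝕜, FresBar M A))² · #T0`. -/
def L3Stmt : Prop :=
  Nat.card (S0 h A p hq hA) ≤
    Nat.card (Kum (ResidueField A) (FresBar M A) p) ^ 2 * Nat.card (T0 h A p)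

/-- **(L4)** `#V ≤ #V^I · #T0`. -/
def L4Stmt : Prop :=
  Nat.card (Additive (Kum Kb (FK M) p)) ≤
    Nat.card (invSub (M := M) A p) * Nat.card (T0 h A p)

/-! ### the consumer -/

variable {h A p hq hA}

/-- **TORIC-EXIST by counting**: `p^(n-1) ≤ #T0` as soon as `n + 2 g'' ≤ g' + 1`. -/
theorem pow_le_card_T0 [Fact p.Prime] [Finite (Additive (Kum Kb (FK M) p))]
    (h2 : L2Stmt h A p hq hA) (h3 : L3Stmt h A p hq hA) (h4 : L4Stmt h A p)
    {g' g'' n : ℕ} (hV : Nat.card (Additive (Kum Kb (FK M) p)) = p ^ (2 * g'))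
    (hX : Nat.card (Kum (ResidueField A) (FresBar M A) p) = p ^ (2 * g''))
    (hg : n + 2 * g'' ≤ g' + 1) : p ^ (n - 1) ≤ Nat.card (T0 h A p) := by
  have hp : p.Prime := Fact.out
  -- `#T0` is a power of `p`
  obtain ⟨e, he⟩ : ∃ e : ℕ, Nat.card (T0 h A p) = p ^ e := by
    have hpg : IsPGroup p (Multiplicative (T0 h A p)) := by
      intro x
      refine ⟨1, ?_⟩
      rw [pow_one]
      apply Multiplicative.toAdd.injective
      rw [toAdd_pow, toAdd_one]
      apply Subtype.ext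
      rw [AddSubgroup.coe_nsmul, AddSubgroup.coe_zero]
      have : (p : ZMod p) • ((Multiplicative.toAdd x : T0 h A p) : Additive (Kum Kb (FK M) p)) = 0 := by
        rw [ZMod.natCast_self, zero_smul]
      rwa [Nat.cast_smul_eq_nsmul] at this
    obtain ⟨e, he⟩ := hpg.exists_card_eq
    exact ⟨e, by rw [← he]; exact (Nat.card_congr Multiplicative.toAdd).symm⟩
  rw [he]
  apply Nat.pow_le_pow_right hp.pos
  -- the count
  have key : p ^ (2 * g') ≤ p * (p ^ (2 * g'')) ^ 2 * (p ^ e) ^ 2 := by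
    rw [L2Stmt] at h2
    rw [L3Stmt, hX] at h3
    rw [L4Stmt, hV, he] at h4
    rw [he] at h3
    calc p ^ (2 * g') ≤ Nat.card (invSub (M := M) A p) * p ^ e := h4
      _ ≤ (p * Nat.card (S0 h A p hq hA)) * p ^ e := Nat.mul_le_mul_right _ h2
      _ ≤ (p * ((p ^ (2 * g'')) ^ 2 * p ^ e)) * p ^ e :=
          Nat.mul_le_mul_right _ (Nat.mul_le_mul_left _ h3)
      _ = p * (p ^ (2 * g'')) ^ 2 * (p ^ e) ^ 2 := by ring
  have key2 : p ^ (2 * g') ≤ p ^ (1 + 2 * (2 * g'') + 2 * e) := by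
    calc p ^ (2 * g') ≤ p * (p ^ (2 * g'')) ^ 2 * (p ^ e) ^ 2 := key
      _ = p ^ (1 + 2 * (2 * g'') + 2 * e) := by ring
  have hle := (Nat.pow_le_pow_iff_right hp.one_lt).1 key2
  omega

end Fermat.Agent.GE8.SQ2.CountStmt
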