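/-
GATE-E / E8.SQ toric side, node (ASM) of helper29's 7177 §3 — helper68.

**The counting consumer at the semistable level `N' q`, all numerical inputs evaluated**:
`q ∥ N' q`, `A ∣ q`, `p ≠ q` prime, `J'` the ideal of the nodes (`exists_ideal_K0`); the three
slices `(L2) (L3) (L4)` (in the `T0`-form of `CountStmt`) give

  `p ^ (#nodes J' - 1) ≤ #T0`.

Inputs evaluated here:
* `#V = #Kum_p(F_{N' q}) = p ^ (2 g(N' q))`     (`GH/TorsionCount.natCard_kum` + `genusRR_FN_eq_finrank`);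
* `#Kum_p(𝕜, FresBar (N' q) A) = p ^ (2 g(N'))`  (`CountFresKum.natCard_kum_FresBar_mul_prime`);
* `#nodes J' + 2 g(N') ≤ g(N' q) + 1`            (`GL/Genus/GenusRed.card_nodes_add_le` +
                                                   `GL/Reg/EtaInstK0B.hcount_CRing`).
-/
import Fermat.Agent.GE8.SQ2.CountStmt
import Fermat.Agent.GE8.SQ2.CountFresKum
import Fermat.Agent.GH.TorsionCount
import Fermat.Agent.GL.Reg.EtaInstK0B

set_option autoImplicit false
set_option linter.unusedSectionVars false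

open CongruenceSubgroup AlgebraicCurve ModularCurve

noncomputable section

namespace Fermat.Agent.GE8.SQ2.CountAsm

open Fermat.Agent.S24 Fermat.Agent.RRh45 Fermat.Agent.GJ.J1 Fermat.Agent.GJ.J1.Val
open Fermat.Agent.GJ.KumGroup Fermat.Agent.GJ.Kum.KumType Fermat.Agent.GJ.J1.InstGen
open Fermat.Agent.GK.AL Fermat.Agent.GK.QS Fermat.Agent.GK.FrobGlue Fermat.Agent.GK.CuspSep
open Fermat.Agent.GE8.SQ2.CountStmt

/-! ### `#V = p ^ (2 g)` in the `genusRR` spelling -/

section V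

variable (N : ℕ) [NeZero N]

/-- `#Kum_m(F_N) = m ^ (2 g(F_N))`, `genusRR` spelling. -/
theorem natCard_kum_genusRR [FiniteResidues Kbar (FN N)] [HasPrincipalDivisors Kbar (FN N)]
    [Nonempty (Place Kbar (FN N))] (m : ℕ) [NeZero m] :
    Nat.card (Kum Kb (FK N) m) = m ^ (2 * (genusRR Kbar (FN N)).toNat) := by
  rw [Fermat.Agent.GH.TorsionCount.natCard_kum N m,
    Fermat.Agent.GF.D2.Genus.genusRR_FN_eq_finrank N, Int.toNat_natCast]

/-- the same for the additive copy. -/
theorem natCard_additive_kum_genusRR [FiniteResidues Kbar (FN N)]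
    [HasPrincipalDivisors Kbar (FN N)] [Nonempty (Place Kbar (FN N))] (m : ℕ) [NeZero m] :
    Nat.card (Additive (Kum Kb (FK N) m)) = m ^ (2 * (genusRR Kbar (FN N)).toNat) := by
  rw [← natCard_kum_genusRR N m]
  exact Nat.card_congr Additive.toMul

/-- `V = Kum_m(F_N)` is finite. -/
theorem finite_additive_kum (m : ℕ) [NeZero m] : Finite (Additive (Kum Kb (FK N) m)) := by
  have h1 : Nat.card (Additive (Kum Kb (FK N) m)) ≠ 0 := by
    rw [Nat.card_congr (Additive.toMul (α := Kum Kb (FK N) m)),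
      Fermat.Agent.GH.TorsionCount.natCard_kum N m]
    exact pow_ne_zero _ (NeZero.ne m)
  exact Nat.finite_of_card_ne_zero h1

end V

/-! ### the genus inequality in `ℕ` -/

section Level

variable (N' : ℕ) [NeZero N'] (q : ℕ) [hqF : Fact q.Prime] [NeZero q]
variable (A : ValuationSubring Kbar) (h : ExactDvd q (N' * q))
variable (hqN : ¬ q ∣ N') (hA : A.LiesOverPrime q)

include hqN hA in
/-- **`#nodes J' + 2 g(N') ≤ g(N' q) + 1`** in `ℕ` (`toNat` of the Riemann–Roch genera),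
`hcount` evaluated. -/
theorem card_nodes_add_le_toNat (h2 : q = 2 → 3 ∣ N') (h3 : q = 3 → 2 ∣ N')
    [FiniteResidues Kbar (FN N')] [HasPrincipalDivisors Kbar (FN N')]
    [Nonempty (Place Kbar (FN N'))]
    [FiniteResidues Kbar (FN (N' * q))] [HasPrincipalDivisors Kbar (FN (N' * q))]
    [Nonempty (Place Kbar (FN (N' * q)))]
    {J' : Ideal (CRing N' A)} (hJ : fixIdeal (psiC N' q A hqN hA) ≤ J')
    (hBT : BT N' q A h = gluedAlg (psiC N' q A hqN hA) J') :
    (nodes J').ncard + 2 * (genusRR Kbar (FN N')).toNat ≤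
      (genusRR Kbar (FN (N' * q))).toNat + 1 := by
  have : IsAlgClosed (IsLocalRing.ResidueField A) :=
    Fermat.Agent.GJ.ResidueAlgClosed.isAlgClosed_residueField A
  have hg3 : IsGen (IsLocalRing.ResidueField A) (tauF (N' * q) A) :=
    Fermat.Agent.GK.SymDegree.isGen_tauF (N' * q) A
  have : FiniteResidues (IsLocalRing.ResidueField A) (FresBar (N' * q) A) :=
    Fermat.Agent.GJ.FF.finiteResidues (tauF (N' * q) A)
  have : HasPrincipalDivisors (IsLocalRing.ResidueField A) (FresBar (N' * q) A) :=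
    Fermat.Agent.GJ.FF.PrincipalOf.hasPrincipalDivisors_gen (tauF (N' * q) A)
  have : Nonempty (Place (IsLocalRing.ResidueField A) (FresBar (N' * q) A)) :=
    Fermat.Agent.GJ.FF.nonempty_place (tauF (N' * q) A)
  have h1 := Fermat.Agent.GL.Genus.card_nodes_add_le N' q A h hqN hA h2 h3 hBT
    (Fermat.Agent.GL.EtaInstK0B.hcount_CRing hqN hA hJ)
  have e1 := Fermat.Agent.GF.D2.Genus.genusRR_FN_eq_finrank N'
  have e2 := Fermat.Agent.GF.D2.Genus.genusRR_FN_eq_finrank (N' * q)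
  rw [e1, e2] at h1
  rw [e1, e2, Int.toNat_natCast, Int.toNat_natCast]
  exact_mod_cast h1

/-! ### the consumer, evaluated -/

include hqN in
/-- **(ASM) TORIC-EXIST by counting at the level `N' q`**: the three slices give
`p ^ (#nodes J' - 1) ≤ #T0`. -/
theorem pow_le_card_T0_nodes (h2 : q = 2 → 3 ∣ N') (h3 : q = 3 → 2 ∣ N')
    {J' : Ideal (CRing N' A)} (hJ : fixIdeal (psiC N' q A hqN hA) ≤ J')
    (hBT : BT N' q A h = gluedAlg (psiC N' q A hqN hA) J')
    (p : ℕ) [hpF : Fact p.Prime] (hpq : p ≠ q)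
    (hq : q.Prime) (hA' : (q : Kb) ∈ A.nonunits)
    (hL2 : L2Stmt h A p hq hA') (hL3 : L3Stmt h A p hq hA') (hL4 : L4Stmt h A p) :
    p ^ ((nodes J').ncard - 1) ≤ Nat.card (T0 h A p) := by
  have hg1 : IsGen Kbar (jF N') := Fermat.Agent.S24_helper62.isGen_jF N'
  have hg2 : IsGen Kbar (jF (N' * q)) := Fermat.Agent.S24_helper62.isGen_jF (N' * q)
  have : FiniteResidues Kbar (FN N') := Fermat.Agent.GJ.FF.finiteResidues (jF N')
  have : HasPrincipalDivisors Kbar (FN N') :=
    Fermat.Agent.GJ.FF.PrincipalOf.hasPrincipalDivisors_gen (jF N')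
  have : Nonempty (Place Kbar (FN N')) := Fermat.Agent.GJ.FF.nonempty_place (jF N')
  have : FiniteResidues Kbar (FN (N' * q)) := Fermat.Agent.GJ.FF.finiteResidues (jF (N' * q))
  have : HasPrincipalDivisors Kbar (FN (N' * q)) :=
    Fermat.Agent.GJ.FF.PrincipalOf.hasPrincipalDivisors_gen (jF (N' * q))
  have : Nonempty (Place Kbar (FN (N' * q))) := Fermat.Agent.GJ.FF.nonempty_place (jF (N' * q))
  have : NeZero p := ⟨hpF.out.ne_zero⟩
  have : Finite (Additive (Kum Kb (FK (N' * q)) p)) := finite_additive_kum (N' * q) p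
  exact pow_le_card_T0 hL2 hL3 hL4 (natCard_additive_kum_genusRR (N' * q) p)
    (Fermat.Agent.GE8.SQ2.CountFresKum.natCard_kum_FresBar_mul_prime N' q A h hqN hA h2 h3
      hpF.out hpq)
    (card_nodes_add_le_toNat N' q A h hqN hA h2 h3 hJ hBT)

include hqN in
/-- the same with the ideal of the nodes `J'` produced by `exists_ideal_K0`: there IS an ideal `J'`
with all the `K₀`-data and `p ^ (#nodes J' - 1) ≤ #T0`. -/
theorem exists_ideal_pow_le_card_T0 (h2 : q = 2 → 3 ∣ N') (h3 : q = 3 → 2 ∣ N')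
    (p : ℕ) [hpF : Fact p.Prime] (hpq : p ≠ q)
    (hq : q.Prime) (hA' : (q : Kb) ∈ A.nonunits)
    (hL2 : L2Stmt h A p hq hA') (hL3 : L3Stmt h A p hq hA') (hL4 : L4Stmt h A p) :
    ∃ J' : Ideal (CRing N' A), fixIdeal (psiC N' q A hqN hA) ≤ J' ∧
      BT N' q A h = gluedAlg (psiC N' q A hqN hA) J' ∧
      p ^ ((nodes J').ncard - 1) ≤ Nat.card (T0 h A p) := by
  obtain ⟨J', hJ, hBT, -⟩ := Fermat.Agent.GL.BRingK0.exists_ideal_K0 h hqN hA h2 h3
  exact ⟨J', hJ, hBT, pow_le_card_T0_nodes N' q A h hqN hA h2 h3 hJ hBT p hpq hq hA' hL2 hL3 hL4⟩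

end Level

end Fermat.Agent.GE8.SQ2.CountAsm
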