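/-
GATE-E / E8.2 SQ2, (C4) corollaries (helper68): finiteness of the Kummer groups of the reduction
of `X₀(N)` (the `[Finite X]` binder of `CountAbs.card_le_mul_of_sub_mem` at
`X := Kum 𝕜 (FresBar M A) p × Kum 𝕜 (FresBar M A) p`) and the cardinality of the square.
-/
import Fermat.Agent.GE8.SQ2.CountFresKum

set_option autoImplicit false
set_option linter.unusedSectionVars false

open CongruenceSubgroup AlgebraicCurve ModularCurve

noncomputable section

namespace Fermat.Agent.GE8.SQ2.CountFresFin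

open Fermat.Agent.S24 Fermat.Agent.RRh45 Fermat.Agent.GJ.J1 Fermat.Agent.GJ.J1.Val
open Fermat.Agent.GJ.KumGroup Fermat.Agent.GE8.SQ2.CountFresKum Fermat.Agent.GJ.J1.InstGen
open Fermat.Agent.GK.AL

section Good

variable (N : ℕ) [NeZero N] (A : ValuationSubring Kbar)

/-- the Kummer group of the reduction at a good level is finite. -/
theorem finite_kum_FresBar {ℓ : ℕ} (hℓ : ℓ.Prime) (hℓN : ¬ ℓ ∣ N)
    (h2 : ℓ = 2 → 3 ∣ N) (h3 : ℓ = 3 → 2 ∣ N) (hA : A.LiesOverPrime ℓ)
    (m : ℕ) (hm : (m : IsLocalRing.ResidueField A) ≠ 0) :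
    Finite (Kum (IsLocalRing.ResidueField A) (FresBar N A) m) := by
  apply Nat.finite_of_card_ne_zero
  rw [natCard_kum_FresBar N A hℓ hℓN h2 h3 hA m hm]
  apply pow_ne_zero
  rintro rfl
  exact hm Nat.cast_zero

end Good

section Level

variable (N' : ℕ) [NeZero N'] (q : ℕ) [hq : Fact q.Prime] [NeZero q]
variable (A : ValuationSubring Kbar) (h : ExactDvd q (N' * q))
variable (hqN : ¬ q ∣ N') (hA : A.LiesOverPrime q)

include h hqN hA in
/-- the Kummer group of the reduction at the semistable level `N' q` is finite. -/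
theorem finite_kum_FresBar_mul (h2 : q = 2 → 3 ∣ N') (h3 : q = 3 → 2 ∣ N')
    (m : ℕ) (hm : (m : IsLocalRing.ResidueField A) ≠ 0) :
    Finite (Kum (IsLocalRing.ResidueField A) (FresBar (N' * q) A) m) := by
  apply Nat.finite_of_card_ne_zero
  rw [natCard_kum_FresBar_mul N' q A h hqN hA h2 h3 m hm]
  apply pow_ne_zero
  rintro rfl
  exact hm Nat.cast_zero

include h hqN hA in
/-- a prime `p ≠ q` is invertible in the residue field of `A ∣ q`. -/
theorem natCast_prime_ne_zero {p : ℕ} (hp : p.Prime) (hpq : p ≠ q) :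
    ((p : ℕ) : IsLocalRing.ResidueField A) ≠ 0 := by
  have hcp : CharP (IsLocalRing.ResidueField A) q := charP_residue A hq.out hA
  intro h0
  have hdvd : q ∣ p := (CharP.cast_eq_zero_iff (IsLocalRing.ResidueField A) q p).mp h0
  exact hpq ((Nat.prime_dvd_prime_iff_eq hq.out hp).mp hdvd).symm

include h hqN hA in
/-- the same at a prime `p ≠ q`. -/
theorem finite_kum_FresBar_mul_prime (h2 : q = 2 → 3 ∣ N') (h3 : q = 3 → 2 ∣ N')
    {p : ℕ} (hp : p.Prime) (hpq : p ≠ q) :
    Finite (Kum (IsLocalRing.ResidueField A) (FresBar (N' * q) A) p) :=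
  finite_kum_FresBar_mul N' q A h hqN hA h2 h3 p (natCast_prime_ne_zero N' q A h hqN hA hp hpq)

include h hqN hA in
/-- **the cardinality of the target of the abelian-part map** `φ y = ([red₁ u_y], [red₂ u_y])`:
`#(Kum × Kum) = p ^ (4 g(F_{N'}))`. -/
theorem natCard_kum_prod (h2 : q = 2 → 3 ∣ N') (h3 : q = 3 → 2 ∣ N')
    [FiniteResidues Kbar (FN N')] [HasPrincipalDivisors Kbar (FN N')]
    [Nonempty (Place Kbar (FN N'))]
    {p : ℕ} (hp : p.Prime) (hpq : p ≠ q) :
    Nat.card (Kum (IsLocalRing.ResidueField A) (FresBar (N' * q) A) p ×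
        Kum (IsLocalRing.ResidueField A) (FresBar (N' * q) A) p) =
      (p ^ (2 * (genusRR Kbar (FN N')).toNat)) ^ 2 := by
  rw [Nat.card_prod, natCard_kum_FresBar_mul_prime N' q A h hqN hA h2 h3 hp hpq, sq]

end Level

end Fermat.Agent.GE8.SQ2.CountFresFin
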