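/-
GATE-E / E8.2 SQ2, slice (E1)-abs (helper69 for helper29, board 7024 §1 `CountAbs.lean`),
Mathlib only: the two abstract counting lemmas of the (E1) assembly.

(a) **fibre count**: `G` an additive group, `H ≤ G` finite, `S ⊆ G`, `φ : S → X` (`X` finite) with
    `φ s = φ t → s - t ∈ H`  ⟹  `#S ≤ #H * #X`:
    * `card_le_mul_of_sub_mem` (`S : Set G`), `card_le_mul_of_sub_mem'` (`S : AddSubgroup G`),
    * `card_le_mul_of_ker_le` (hom form: `f : G →+ X'`, `ker f ≤ H` ⟹ `#G ≤ #H * #X'`),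
    * `card_le_mul_of_map_sub` (`y ↦ τ y - y` form of (L4): an additive endomorphism-difference
      landing in `K`, fixed points `= H` ⟹ `#G ≤ #H * #K`).
(b) **ARITH**: `h = p ^ e`, `p^(2g') ≤ p · (p^(2g''))² · h²`, `n + 2g'' ≤ g' + 1`, `h ≤ p^(n-1)`,
    `1 ≤ n`  ⟹  `h = p^(n-1)`:
    * `arith`, and `card_eq_pow_of_arith` (for a finite `p`-torsion additive group `H`,
      e.g. a `ZMod p`-module or a subgroup of one).
-/
import Mathlib

set_option autoImplicit false

namespace Fermat.Agent.GE8.SQ2.CountAbs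

/-! ### (a) the fibre count -/

section Fibre

variable {G : Type*} [AddGroup G]

/-- **Fibre count.** `S ⊆ G`, `φ : S → X` whose fibres lie in single cosets of a finite subgroup
`H`: `#S ≤ #H * #X`. -/
theorem card_le_mul_of_sub_mem (H : AddSubgroup G) [Finite H] (S : Set G) {X : Type*} [Finite X]
    (φ : S → X)
    (hφ : ∀ s t : S, φ s = φ t → (s : G) - (t : G) ∈ H) :
    Nat.card S ≤ Nat.card H * Nat.card X := by
  classical
  -- a representative of every non-empty fibre
  have hrep : ∀ x : X, ∃ r : Option S, ∀ s : S, φ s = x → ∃ r' : S, r = some r' ∧ φ r' = x := by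
    intro x
    by_cases hx : ∃ s : S, φ s = x
    · obtain ⟨s₀, hs₀⟩ := hx
      exact ⟨some s₀, fun s _ => ⟨s₀, rfl, hs₀⟩⟩
    · exact ⟨none, fun s hs => absurd ⟨s, hs⟩ hx⟩
  choose rep hrep' using hrep
  -- the representative of the fibre of `s`
  have hrs : ∀ s : S, ∃ r' : S, rep (φ s) = some r' ∧ φ r' = φ s := fun s => hrep' (φ s) s rfl
  choose r hr hrφ using hrs
  let ψ : S → H × X := fun s => (⟨(s : G) - (r s : G), hφ s (r s) (hrφ s).symm⟩, φ s)
  have hψ : Function.Injective ψ := by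
    intro s t hst
    have h1 : (s : G) - (r s : G) = (t : G) - (r t : G) := congrArg (fun z => (z.1 : G)) hst
    have h2 : φ s = φ t := congrArg Prod.snd hst
    have h3 : r s = r t := by
      have e1 := hr s
      have e2 := hr t
      rw [h2] at e1
      exact Option.some.inj (e1.symm.trans e2)
    rw [h3] at h1
    exact Subtype.ext (sub_left_injective h1)
  calc Nat.card S ≤ Nat.card (H × X) := Nat.card_le_card_of_injective ψ hψ
    _ = Nat.card H * Nat.card X := Nat.card_prod _ _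

/-- the same with `S` an additive subgroup -/
theorem card_le_mul_of_sub_mem' (H S : AddSubgroup G) [Finite H] {X : Type*} [Finite X]
    (φ : S → X)
    (hφ : ∀ s t : S, φ s = φ t → (s : G) - (t : G) ∈ H) :
    Nat.card S ≤ Nat.card H * Nat.card X :=
  card_le_mul_of_sub_mem H (S : Set G) φ hφ

/-- the same with `S` the whole group -/
theorem card_le_mul_of_sub_mem_univ (H : AddSubgroup G) [Finite H] {X : Type*} [Finite X]
    (φ : G → X) (hφ : ∀ s t : G, φ s = φ t → s - t ∈ H) :
    Nat.card G ≤ Nat.card H * Nat.card X := by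
  have h := card_le_mul_of_sub_mem H (Set.univ : Set G) (fun s => φ s)
    (fun s t hst => hφ s t hst)
  rwa [Nat.card_congr (Equiv.Set.univ G)] at h

/-- **hom form**: an additive map whose kernel lies in a finite subgroup `H`. -/
theorem card_le_mul_of_ker_le {X' : Type*} [AddGroup X'] [Finite X'] (f : G →+ X')
    (H : AddSubgroup G) [Finite H] (hker : f.ker ≤ H) :
    Nat.card G ≤ Nat.card H * Nat.card X' :=
  card_le_mul_of_sub_mem_univ H f (fun s t hst => hker (by
    rw [AddMonoidHom.mem_ker, map_sub, hst, sub_self]))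

/-- **hom form with values in a subgroup** `K ≤ X'` (only `K` finite). -/
theorem card_le_mul_of_ker_le_of_range_le {X' : Type*} [AddGroup X'] (f : G →+ X')
    (H : AddSubgroup G) [Finite H] (hker : f.ker ≤ H) (K : AddSubgroup X') [Finite K]
    (hK : ∀ y, f y ∈ K) :
    Nat.card G ≤ Nat.card H * Nat.card K :=
  card_le_mul_of_sub_mem_univ H (fun y => (⟨f y, hK y⟩ : K)) (fun s t hst => hker (by
    have h1 : f s = f t := congrArg Subtype.val hst
    rw [AddMonoidHom.mem_ker, map_sub, h1, sub_self]))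

end Fibre

section L4

variable {G : Type*} [AddCommGroup G]

/-- **the `y ↦ τ y - y` form** (shape of (L4)): `τ` an additive endomorphism of `V'` with
`τ y - y ∈ K` for all `y` and every `τ`-fixed `y` in `H`: `#V' ≤ #H * #K`. -/
theorem card_le_mul_of_map_sub (τ : G →+ G) (H K : AddSubgroup G) [Finite H] [Finite K]
    (hK : ∀ y, τ y - y ∈ K) (hH : ∀ y, τ y = y → y ∈ H) :
    Nat.card G ≤ Nat.card H * Nat.card K :=
  card_le_mul_of_ker_le_of_range_le (τ - AddMonoidHom.id G) H
    (fun y hy => hH y (by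
      have h0 : (τ - AddMonoidHom.id G) y = 0 := hy
      rw [AddMonoidHom.sub_apply, AddMonoidHom.id_apply, sub_eq_zero] at h0
      exact h0)) K
    (fun y => by rw [AddMonoidHom.sub_apply, AddMonoidHom.id_apply]; exact hK y)

/-- the same on a `τ`-stable subgroup `V` of an ambient group. -/
theorem card_le_mul_of_map_sub_on (τ : G →+ G) (V H K : AddSubgroup G) [Finite H] [Finite K]
    (hK : ∀ y ∈ V, τ y - y ∈ K) (hH : ∀ y ∈ V, τ y = y → y ∈ H) :
    Nat.card V ≤ Nat.card H * Nat.card K :=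
  card_le_mul_of_sub_mem' H V (fun y : V => (⟨τ y - y, hK y y.2⟩ : K)) (fun s t hst => by
    have h1 : τ (s : G) - (s : G) = τ (t : G) - (t : G) := congrArg Subtype.val hst
    have h2 : τ ((s : G) - (t : G)) = (s : G) - (t : G) := by
      rw [map_sub]
      have : τ (s : G) - τ (t : G) - ((s : G) - (t : G)) = 0 := by
        have e : τ (s : G) - τ (t : G) - ((s : G) - (t : G))
            = (τ (s : G) - (s : G)) - (τ (t : G) - (t : G)) := by abel
        rw [e, h1, sub_self]
      exact sub_eq_zero.mp this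
    exact hH _ (V.sub_mem s.2 t.2) h2)

end L4

/-! ### (b) ARITH -/

/-- **ARITH.** -/
theorem arith {p g' g'' n h : ℕ} (hp : 1 < p) (hn : 1 ≤ n) (he : ∃ e : ℕ, h = p ^ e)
    (h1 : p ^ (2 * g') ≤ p * (p ^ (2 * g'')) ^ 2 * h ^ 2)
    (h2 : n + 2 * g'' ≤ g' + 1)
    (h3 : h ≤ p ^ (n - 1)) : h = p ^ (n - 1) := by
  obtain ⟨e, rfl⟩ := he
  have he1 : e ≤ n - 1 := (Nat.pow_le_pow_iff_right hp).mp h3
  have h1' : p ^ (2 * g') ≤ p ^ (1 + 4 * g'' + 2 * e) := by
    calc p ^ (2 * g') ≤ p * (p ^ (2 * g'')) ^ 2 * (p ^ e) ^ 2 := h1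
      _ = p ^ (1 + 4 * g'' + 2 * e) := by
          rw [← pow_mul, ← pow_mul, pow_add, pow_add, pow_one]
          congr 2 <;> ring_nf
  have h4 : 2 * g' ≤ 1 + 4 * g'' + 2 * e := (Nat.pow_le_pow_iff_right hp).mp h1'
  have h5 : e = n - 1 := by omega
  rw [h5]

/-- the cardinality of a finite additive group killed by `p` is a power of `p`. -/
theorem exists_card_eq_pow {H : Type*} [AddCommGroup H] [Finite H] {p : ℕ} [hp : Fact p.Prime]
    (hH : ∀ y : H, p • y = 0) : ∃ e : ℕ, Nat.card H = p ^ e := by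
  have hpg : IsPGroup p (Multiplicative H) := by
    intro y
    refine ⟨1, ?_⟩
    rw [pow_one]
    exact congrArg Multiplicative.ofAdd (hH (Multiplicative.toAdd y))
  obtain ⟨e, he⟩ := (IsPGroup.iff_card).mp hpg
  exact ⟨e, by rw [← he]; rfl⟩

/-- **ARITH for a finite group killed by `p`** (e.g. `T'[p]`, a subgroup of a `ZMod p`-module). -/
theorem card_eq_pow_of_arith {H : Type*} [AddCommGroup H] [Finite H] {p : ℕ} [hp : Fact p.Prime]
    (hH : ∀ y : H, p • y = 0) {g' g'' n : ℕ} (hn : 1 ≤ n)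
    (h1 : p ^ (2 * g') ≤ p * (p ^ (2 * g'')) ^ 2 * Nat.card H ^ 2)
    (h2 : n + 2 * g'' ≤ g' + 1)
    (h3 : Nat.card H ≤ p ^ (n - 1)) : Nat.card H = p ^ (n - 1) :=
  arith hp.out.one_lt hn (exists_card_eq_pow hH) h1 h2 h3

/-- the `ZMod p`-module form. -/
theorem card_eq_pow_of_arith_zmod {H : Type*} [AddCommGroup H] {p : ℕ} [hp : Fact p.Prime]
    [Module (ZMod p) H] [Finite H] {g' g'' n : ℕ} (hn : 1 ≤ n)
    (h1 : p ^ (2 * g') ≤ p * (p ^ (2 * g'')) ^ 2 * Nat.card H ^ 2)
    (h2 : n + 2 * g'' ≤ g' + 1)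
    (h3 : Nat.card H ≤ p ^ (n - 1)) : Nat.card H = p ^ (n - 1) :=
  card_eq_pow_of_arith (fun y => by
    have : ((p : ZMod p)) • y = 0 := by rw [ZMod.natCast_self, zero_smul]
    rwa [Nat.cast_smul_eq_nsmul] at this) hn h1 h2 h3

end Fermat.Agent.GE8.SQ2.CountAbs
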