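/-
GATE-E / E8.SQ (MP2Gate) / SQ2 hedge of helper29 (board 6958, 7024), node CountLevel **(L2)**
(helper94).

`q ∥ M`, `A | q`, `V = Kum_m(F_M)`, `V^I = FP.invSub A m`, `S₀ = {y ∈ V^I | Ob.ObZero y}` (the
invariant classes with a `K₀`-rational representative on which the two Gauss valuations agree).

* `card_le_mul_of_fibres` : abstract fibre count (`φ y = φ y' → y - y' ∈ S₀` ⟹ `#I ≤ #X · #S₀`);
* `card_le_mul_of_nu`     : abstract `ν`-count: `r : G →+ V`, `ν : G →+ ℤ`, `m V = 0`, every class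
  of `I` has a representative ⟹ `#I ≤ m · #(I ⊓ r(ker ν))` (the range of `ν` is cyclic);
* `S0`, `mem_S0_iff`       : `S₀` as an `AddSubgroup`, `y ∈ S₀ ↔ y ∈ V^I ∧ ObZero y`;
* `card_invSub_le`         : **(L2)** `#V^I ≤ m · #S₀`.
-/
import Fermat.Agent.GB.A3.Ob
import Fermat.Agent.GH.TorsionCount

set_option autoImplicit false

noncomputable section

namespace Fermat.Agent.GE8.SQ2.CountL2

/-! ### abstract counting -/

section Abstract

/-- **fibre count**: if the fibres of `φ : I → X` are contained in cosets of `S₀`, then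
`#I ≤ #X · #S₀`. -/
theorem card_le_mul_of_fibres {V X : Type*} [AddCommGroup V] [Finite X]
    (I S₀ : AddSubgroup V) [Finite S₀] (φ : I → X)
    (hφ : ∀ y y' : I, φ y = φ y' → (y : V) - (y' : V) ∈ S₀) :
    Nat.card I ≤ Nat.card X * Nat.card S₀ := by
  classical
  -- a section of `φ` on its range
  let c : X → I := fun x => if hx : ∃ y : I, φ y = x then hx.choose else 0
  have hc : ∀ y : I, φ (c (φ y)) = φ y := by
    intro y
    have hx : ∃ y' : I, φ y' = φ y := ⟨y, rfl⟩
    show φ (if hx : ∃ y' : I, φ y' = φ y then hx.choose else 0) = φ y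
    rw [dif_pos hx]
    exact hx.choose_spec
  let ψ : I → X × S₀ := fun y => (φ y, ⟨(y : V) - (c (φ y) : V), hφ y (c (φ y)) (hc y).symm⟩)
  have hψ : Function.Injective ψ := by
    intro y y' hyy'
    have h1 : φ y = φ y' := congrArg Prod.fst hyy'
    have h2 : (y : V) - (c (φ y) : V) = (y' : V) - (c (φ y') : V) :=
      congrArg (fun z : X × S₀ => ((z.2 : S₀) : V)) hyy'
    rw [h1] at h2
    exact Subtype.ext (sub_left_injective h2)
  calc Nat.card I ≤ Nat.card (X × S₀) := Nat.card_le_card_of_injective ψ hψ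
    _ = Nat.card X * Nat.card S₀ := Nat.card_prod X S₀

/-- **`ν`-count**: `V` killed by `m`, `r : G →+ V` a "class map", `ν : G →+ ℤ`; if every element
of the finite subgroup `I ≤ V` is a class, then `#I ≤ m · #(I ⊓ r (ker ν))`. -/
theorem card_le_mul_of_nu {G V : Type*} [AddCommGroup G] [AddCommGroup V] (m : ℕ) [NeZero m]
    (hmV : ∀ v : V, m • v = 0) (r : G →+ V) (ν : G →+ ℤ) (I : AddSubgroup V) [Finite I]
    (hrep : ∀ y ∈ I, ∃ g : G, r g = y) :
    Nat.card I ≤ m * Nat.card (I ⊓ ν.ker.map r : AddSubgroup V) := by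
  classical
  set S₀ : AddSubgroup V := I ⊓ ν.ker.map r with hS₀
  have : Finite S₀ :=
    Finite.of_injective (fun y : S₀ => (⟨(y : V), (inf_le_left : S₀ ≤ I) y.2⟩ : I))
      (fun a b hab => Subtype.ext (congrArg (fun z : I => (z : V)) hab))
  -- the range of `ν` is cyclic
  obtain ⟨d, hd⟩ := Int.subgroup_cyclic ν.range
  have hdiv : ∀ g : G, d ∣ ν g := by
    intro g
    have h1 : ν g ∈ ν.range := ⟨g, rfl⟩
    rw [hd, AddSubgroup.mem_closure_singleton] at h1
    obtain ⟨n, hn⟩ := h1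
    exact ⟨n, by rw [← hn, smul_eq_mul, mul_comm]⟩
  obtain ⟨gd, hgd⟩ : ∃ gd : G, ν gd = d := by
    have h1 : d ∈ ν.range := by
      rw [hd]
      exact AddSubgroup.subset_closure (Set.mem_singleton d)
    exact h1
  by_cases hd0 : d = 0
  · -- `ν = 0`
    have hν : ∀ g : G, ν g = 0 := fun g => by
      have := hdiv g
      rw [hd0] at this
      exact zero_dvd_iff.mp this
    have hle : I ≤ S₀ := by
      intro y hy
      obtain ⟨g, hg⟩ := hrep y hy
      exact ⟨hy, g, hν g, hg⟩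
    have h1 : Nat.card I ≤ Nat.card S₀ :=
      Nat.card_le_card_of_injective (fun y : I => (⟨(y : V), hle y.2⟩ : S₀))
        (fun a b hab => Subtype.ext (congrArg (fun z : S₀ => (z : V)) hab))
    calc Nat.card I ≤ 1 * Nat.card S₀ := by rw [one_mul]; exact h1
      _ ≤ m * Nat.card S₀ := Nat.mul_le_mul_right _ (Nat.one_le_iff_ne_zero.mpr (NeZero.ne m))
  · -- the general case
    choose! g hg using hrep
    let φ : I → ZMod m := fun y => ((ν (g (y : V)) / d : ℤ) : ZMod m)
    have hφ : ∀ y y' : I, φ y = φ y' → (y : V) - (y' : V) ∈ S₀ := by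
      intro y y' hyy'
      have h1 : (m : ℤ) ∣ ν (g (y : V)) / d - ν (g (y' : V)) / d :=
        (ZMod.intCast_eq_intCast_iff_dvd_sub _ _ m).mp hyy'.symm
      obtain ⟨j, hj⟩ := h1
      obtain ⟨k, hk⟩ := hdiv (g (y : V))
      obtain ⟨k', hk'⟩ := hdiv (g (y' : V))
      rw [hk, hk', Int.mul_ediv_cancel_left _ hd0, Int.mul_ediv_cancel_left _ hd0] at hj
      refine ⟨I.sub_mem y.2 y'.2, g (y : V) - g (y' : V) - ((m : ℤ) * j) • gd, ?_, ?_⟩
      · show ν (g (y : V) - g (y' : V) - ((m : ℤ) * j) • gd) = 0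
        rw [map_sub, map_sub, map_zsmul, hgd, hk, hk', smul_eq_mul, ← hj]
        ring
      · rw [map_sub, map_sub, hg _ y.2, hg _ y'.2, map_zsmul, mul_comm, mul_zsmul,
          natCast_zsmul, hmV, smul_zero, sub_zero]
    calc Nat.card I ≤ Nat.card (ZMod m) * Nat.card S₀ := card_le_mul_of_fibres I S₀ φ hφ
      _ = m * Nat.card S₀ := by rw [Nat.card_zmod]

end Abstract

/-! ### the concrete count at `q ∥ M` -/

section Concrete

open ModularCurve IsLocalRing AlgebraicCurve
open Fermat.Agent.S24 Fermat.Agent.GJ.J1 Fermat.Agent.GJ.J1.Val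
open Fermat.Agent.GJ.KumGroup Fermat.Agent.GJ.Kum.KumType
open Fermat.Agent.GK.UqKronecker Fermat.Agent.GK.AL Fermat.Agent.GK.SS
open Fermat.Agent.GB.A.FP Fermat.Agent.GB.A3.Nu Fermat.Agent.GB.A3.Ob

variable {M : ℕ} [NeZero M] {q : ℕ} (h : ExactDvd q M) (A : ValuationSubring Kb) (m : ℕ)
variable (hq : q.Prime) (hA : (q : Kb) ∈ A.nonunits)

/-- `Kum_m(F_M)` is finite (`GH/TorsionCount.natCard_kum`). -/
theorem finite_kum [NeZero m] : Finite (Kum Kb (FK M) m) := by
  apply Nat.finite_of_card_ne_zero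
  rw [Fermat.Agent.GH.TorsionCount.natCard_kum M m]
  exact pow_ne_zero _ (NeZero.ne m)

/-- the `K₀`-rational units of `F₀ = K₀(X₀(M))` whose image in `F_M` is `m`-divisible. -/
def ratDiv : Subgroup (F0 A M)ˣ := (pDivUnits Kb (FK M) m).comap (mapU (M := M) A)

/-- the class map `u₀ ↦ [u₀]` on `K₀`-rational `m`-divisible units. -/
def clsHom : Additive (ratDiv (M := M) A m) →+ Additive (Kum Kb (FK M) m) :=
  MonoidHom.toAdditive
    ((Kum.mk : pDivUnits Kb (FK M) m →* Kum Kb (FK M) m).comp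
      ((mapU (M := M) A).subgroupComap (pDivUnits Kb (FK M) m)))

theorem clsHom_apply (g : Additive (ratDiv (M := M) A m)) :
    clsHom (M := M) A m g = Additive.ofMul (Kum.mk
      (⟨mapU (M := M) A ((Additive.toMul g : ratDiv (M := M) A m) : (F0 A M)ˣ),
        (Additive.toMul g : ratDiv (M := M) A m).2⟩ : pDivUnits Kb (FK M) m)) := rfl

/-- `ν` on `K₀`-rational `m`-divisible units, additively. -/
def nuAdd : Additive (ratDiv (M := M) A m) →+ ℤ :=
  AddMonoidHom.mk'
    (fun g => nu A M h hq hA ((Additive.toMul g : ratDiv (M := M) A m) : (F0 A M)ˣ))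
    (fun _ _ => nu_mul A M h hq hA _ _)

theorem nuAdd_apply (g : Additive (ratDiv (M := M) A m)) :
    nuAdd h A m hq hA g =
      nu A M h hq hA ((Additive.toMul g : ratDiv (M := M) A m) : (F0 A M)ˣ) := rfl

/-- **`S₀`**: the `I_A`-invariant classes with vanishing obstruction. -/
def S0 : AddSubgroup (Additive (Kum Kb (FK M) m)) :=
  (invSub (M := M) A m).toAddSubgroup ⊓ (nuAdd h A m hq hA).ker.map (clsHom (M := M) A m)

theorem mem_S0_iff (y : Additive (Kum Kb (FK M) m)) :
    y ∈ S0 h A m hq hA ↔ y ∈ invSub (M := M) A m ∧ ObZero h A m hq hA y := by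
  unfold S0
  rw [AddSubgroup.mem_inf]
  refine and_congr Iff.rfl ?_
  constructor
  · rintro ⟨g, hg, rfl⟩
    exact ⟨⟨mapU (M := M) A ((Additive.toMul g : ratDiv (M := M) A m) : (F0 A M)ˣ),
      (Additive.toMul g : ratDiv (M := M) A m).2⟩,
      ((Additive.toMul g : ratDiv (M := M) A m) : (F0 A M)ˣ), rfl, rfl, hg⟩
  · rintro ⟨u, u0, hy, hu, hnu⟩
    have hmem : u0 ∈ ratDiv (M := M) A m := by
      show mapU (M := M) A u0 ∈ pDivUnits Kb (FK M) m
      rw [hu]
      exact u.2
    refine ⟨Additive.ofMul (⟨u0, hmem⟩ : ratDiv (M := M) A m), hnu, ?_⟩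
    rw [← hy, clsHom_apply]
    exact congrArg (fun v => Additive.ofMul (Kum.mk v)) (Subtype.ext hu)

theorem S0_le_invSub : S0 h A m hq hA ≤ (invSub (M := M) A m).toAddSubgroup := inf_le_left

/-- every invariant class is the class of a `K₀`-rational `m`-divisible unit
(`FP.exists_fixedRep` + `Ob.exists_mapU_of_fixed`). -/
theorem exists_clsHom_eq [NeZero m] (y : Additive (Kum Kb (FK M) m))
    (hy : y ∈ invSub (M := M) A m) : ∃ g, clsHom (M := M) A m g = y := by
  obtain ⟨u, rfl, hfix⟩ := exists_fixedRep A m y hy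
  obtain ⟨u0, hu0⟩ := exists_mapU_of_fixed A (u : (FK M)ˣ) hfix
  have hmem : u0 ∈ ratDiv (M := M) A m := by
    show mapU (M := M) A u0 ∈ pDivUnits Kb (FK M) m
    rw [hu0]
    exact u.2
  refine ⟨Additive.ofMul (⟨u0, hmem⟩ : ratDiv (M := M) A m), ?_⟩
  rw [clsHom_apply]
  exact congrArg (fun v => Additive.ofMul (Kum.mk v)) (Subtype.ext hu0)

/-- **(L2)**: `#V^{I_A} ≤ m · #S₀`. -/
theorem card_invSub_le [NeZero m] :
    Nat.card (invSub (M := M) A m) ≤ m * Nat.card (S0 h A m hq hA) := by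
  have := finite_kum (M := M) m
  have : Finite (Additive (Kum Kb (FK M) m)) := Finite.of_equiv _ Additive.ofMul
  have : Finite ((invSub (M := M) A m).toAddSubgroup) := Subtype.finite
  exact card_le_mul_of_nu m (fun v => nsmul_eq_zero v) (clsHom (M := M) A m)
    (nuAdd h A m hq hA) (invSub (M := M) A m).toAddSubgroup
    (fun y hy => exists_clsHom_eq A m y hy)

end Concrete

end Fermat.Agent.GE8.SQ2.CountL2
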