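/-
GATE-E / E8.SQ toric side, node (E1) (helper94): the slices **(L2)** and **(L3)** in helper29's
spelling `GE8/SQ2/CountStmt.lean` (`S0` a `Set`, `T0` the toric classes in `K₀`-form).

* `l2Stmt` : `CountStmt.L2Stmt h A p hq hA`   (binder-free; from `CountL2.card_invSub_le`);
* `sub_mem_T0_of_red_eq` : two inertia-fixed `BothUnit` representatives whose two reductions have
  equal classes in `Kum_p(𝕜, FresBar M A)` differ by a toric class (no root lifting: the quotient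
  of the representatives is itself a toric representative);
* `l3Stmt` : `CountStmt.L3Stmt h A p hq hA`   under (A4) `FP.NodeHyp h A p`
  (`= GB.A4.Main.nodeHyp` at the call site) and finiteness of `Kum_p(𝕜, FresBar M A)`
  (helper68 `CountFresFin.finite_kum_FresBar_mul_prime`).
-/
import Fermat.Agent.GE8.SQ2.CountStmt
import Fermat.Agent.GE8.SQ2.CountAbs
import Fermat.Agent.GE8.SQ2.CountL2

set_option autoImplicit false

noncomputable section

namespace Fermat.Agent.GE8.SQ2.CountL23Plug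

open ModularCurve IsLocalRing AlgebraicCurve
open Fermat.Agent.S24 Fermat.Agent.GJ.J1 Fermat.Agent.GJ.J1.Val
open Fermat.Agent.GJ.KumGroup Fermat.Agent.GJ.Kum.KumType
open Fermat.Agent.GK.UqKronecker Fermat.Agent.GK.AL Fermat.Agent.GK.SS
open Fermat.Agent.GB.A.FP Fermat.Agent.GB.A3.Ob
open Fermat.Agent.GE8.SQ2.CountStmt

variable {M : ℕ} [NeZero M] {q : ℕ} (h : ExactDvd q M) (A : ValuationSubring Kb) (p : ℕ)
variable (hq : q.Prime) (hA : (q : Kb) ∈ A.nonunits)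

local notation "𝕜" => ResidueField A

/-- the two spellings of `S₀` have the same cardinality. -/
theorem card_S0_eq :
    Nat.card (CountL2.S0 h A p hq hA) = Nat.card (CountStmt.S0 h A p hq hA) :=
  Nat.card_congr (Equiv.subtypeEquivRight (fun y => CountL2.mem_S0_iff h A p hq hA y))

/-- **(L2)** in the spelling of `CountStmt`. -/
theorem l2Stmt [NeZero p] : L2Stmt h A p hq hA := by
  unfold L2Stmt
  rw [← card_S0_eq]
  exact CountL2.card_invSub_le h A p hq hA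

variable {h A p} in
/-- two inertia-fixed `BothUnit` representatives whose reductions have equal Kummer classes differ
by a toric class. -/
theorem sub_mem_T0_of_red_eq (u u' : pDivUnits Kb (FK M) p)
    (hfu : ∀ σ ∈ A.inertiaSubgroupIn ℚ, galUnits M σ (u : (FK M)ˣ) = (u : (FK M)ˣ))
    (hfu' : ∀ σ ∈ A.inertiaSubgroupIn ℚ, galUnits M σ (u' : (FK M)ˣ) = (u' : (FK M)ˣ))
    (hu : BothUnit h A (u : (FK M)ˣ)) (hu' : BothUnit h A (u' : (FK M)ˣ))
    (h1 : redUnit₁ hu ∈ pDivUnits 𝕜 (FresBar M A) p)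
    (h1' : redUnit₁ hu' ∈ pDivUnits 𝕜 (FresBar M A) p)
    (h2 : redUnit₂ hu ∈ pDivUnits 𝕜 (FresBar M A) p)
    (h2' : redUnit₂ hu' ∈ pDivUnits 𝕜 (FresBar M A) p)
    (e1 : (Kum.mk ⟨redUnit₁ hu, h1⟩ : Kum 𝕜 (FresBar M A) p) = Kum.mk ⟨redUnit₁ hu', h1'⟩)
    (e2 : (Kum.mk ⟨redUnit₂ hu, h2⟩ : Kum 𝕜 (FresBar M A) p) = Kum.mk ⟨redUnit₂ hu', h2'⟩) :
    Additive.ofMul (Kum.mk u') - Additive.ofMul (Kum.mk u) ∈ T0 h A p := by
  obtain ⟨w₁, hw₁⟩ := Kum.mk_eq_mk_iff.mp e1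
  obtain ⟨w₂, hw₂⟩ := Kum.mk_eq_mk_iff.mp e2
  have hw₁' : redUnit₁ hu' = redUnit₁ hu * w₁ ^ p := hw₁
  have hw₂' : redUnit₂ hu' = redUnit₂ hu * w₂ ^ p := hw₂
  refine ⟨u' * u⁻¹, ?_, fun σ hσ => ?_, bothUnit_mul hu' (bothUnit_inv hu), ?_, ?_⟩
  · rw [map_mul, map_inv, ofMul_mul, ofMul_inv, sub_eq_add_neg]
  · rw [Subgroup.coe_mul, Subgroup.coe_inv, map_mul, map_inv, hfu σ hσ, hfu' σ hσ]
  · rw [redUnit₁_mul hu' (bothUnit_inv hu), redUnit₁_inv hu, hw₁']
    refine ⟨1, w₁, ?_⟩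
    rw [map_one, one_mul, mul_comm (redUnit₁ hu), mul_assoc, mul_inv_cancel, mul_one,
      Units.val_pow_eq_pow_val]
  · rw [redUnit₂_mul hu' (bothUnit_inv hu), redUnit₂_inv hu, hw₂']
    refine ⟨1, w₂, ?_⟩
    rw [map_one, one_mul, mul_comm (redUnit₂ hu), mul_assoc, mul_inv_cancel, mul_one,
      Units.val_pow_eq_pow_val]

/-- **(L3)** in the spelling of `CountStmt`, under (A4) `FP.NodeHyp`. -/
theorem l3Stmt [NeZero p] (hnode : NodeHyp h A p) [Finite (Kum 𝕜 (FresBar M A) p)] :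
    L3Stmt h A p hq hA := by
  classical
  unfold L3Stmt
  have := CountL2.finite_kum (M := M) p
  have : Finite (Additive (Kum Kb (FK M) p)) := Finite.of_equiv _ Additive.ofMul
  have : Finite (T0 h A p) := Subtype.finite
  -- representatives
  have key : ∀ y : CountStmt.S0 h A p hq hA, ∃ u : pDivUnits Kb (FK M) p,
      FixedRep A p (y : Additive (Kum Kb (FK M) p)) u ∧ BothUnit h A (u : (FK M)ˣ) := fun y =>
    normHyp h A p hq hA y y.2.1 y.2.2
  choose u hfix hboth using key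
  have hdiv := fun y => hnode (u y) (hfix y).2 (hboth y)
  let φ : CountStmt.S0 h A p hq hA → Kum 𝕜 (FresBar M A) p × Kum 𝕜 (FresBar M A) p := fun y =>
    (Kum.mk ⟨redUnit₁ (hboth y), (hdiv y).1⟩, Kum.mk ⟨redUnit₂ (hboth y), (hdiv y).2⟩)
  have hφ : ∀ y y' : CountStmt.S0 h A p hq hA, φ y = φ y' →
      (y : Additive (Kum Kb (FK M) p)) - (y' : Additive (Kum Kb (FK M) p)) ∈ T0 h A p := by
    intro y y' hyy'
    rw [← (hfix y).1, ← (hfix y').1]
    exact sub_mem_T0_of_red_eq (u y') (u y) (hfix y').2 (hfix y).2 (hboth y') (hboth y)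
      (hdiv y').1 (hdiv y).1 (hdiv y').2 (hdiv y).2 (congrArg Prod.fst hyy').symm
      (congrArg Prod.snd hyy').symm
  calc Nat.card (CountStmt.S0 h A p hq hA)
      ≤ Nat.card (T0 h A p) *
          Nat.card (Kum 𝕜 (FresBar M A) p × Kum 𝕜 (FresBar M A) p) :=
        CountAbs.card_le_mul_of_sub_mem (T0 h A p) (CountStmt.S0 h A p hq hA) φ hφ
    _ = _ := by rw [Nat.card_prod, sq, mul_comm]

end Fermat.Agent.GE8.SQ2.CountL23Plug
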