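/-
GATE-E / E8.2 SQ2, slice (L4) of helper29's `CountLevel` (board 7024 §1), helper69.

`M` a level, `q ∥ M` (`h : ExactDvd q M`), `A` a valuation subring of `ℚ̄` over `q`, `p ≠ q` a
prime, `V' = Kum_p(F_M)`, `K₁₂ = kerRed M A p ⊓ kerRed₂ h A p` (the toric part), `invSub A p = V'^{I_A}`
(CASE-A vocabulary, `GB/A/FP.lean`).

* `gal_pow_eq_one` : `σ^p = 1` on `Kum_p(F_M)` for `σ ∈ I_A` (semistability gate: `(σ-1)² = 0`);
* `exists_inertia_generator` : ONE `τ ∈ I_A` such that every `σ ∈ I_A` acts on `Kum_p(F_M)` as an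
  integral power of `τ` (tame inertia is pro-cyclic on the pro-`p` quotient);
* `exists_tame_fixer` : … hence `τ y = y ⟹ y ∈ invSub A p`;
* `card_kum_le` : **(L4)** `#Kum_p(F_M) ≤ #(invSub A p) * #(kerRed M A p ⊓ kerRed₂ h A p)`
  (`y ↦ τ y - y` lands in `K₁₂`, its fibres are cosets of `invSub`).
-/
import Mathlib
import Fermat.Agent.GB.A.FP
import Fermat.Agent.GB.A.A6.EigQ
import Fermat.Agent.GK.SS.AuxDescent
import Fermat.Agent.GK.SS.FibreFactsProof
import Fermat.Agent.GP.Loc.TamePQuot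
import Fermat.Agent.GE8.SQ2.CountAbs

set_option autoImplicit false
set_option linter.unusedSectionVars false

noncomputable section

namespace Fermat.Agent.GE8.SQ2.CountL4

open ModularCurve AlgebraicCurve
open Fermat.Agent.GJ Fermat.Agent.GJ.KumGroup Fermat.Agent.GJ.Kum.KumType
open Fermat.Agent.GK.UqKronecker Fermat.Agent.GK.AL Fermat.Agent.GK.Tate
open Fermat.Agent.GB.A.FP Fermat.Agent.GB.A.A6.EigQ

local notation "GQ'" => (AlgebraicClosure ℚ ≃ₐ[ℚ] AlgebraicClosure ℚ)

variable {M : ℕ} [NeZero M] {q : ℕ} (h : ExactDvd q M) (A : ValuationSubring Kb)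
  (hA : A.LiesOverPrime q) (p : ℕ) [Fact p.Prime] (hpq : p ≠ q)

include h in
/-- the semistability gate at every level `M`, prime `q ∥ M` and modulus `m` prime to `q`
(= `GZ/Unip/JZero.ssGate`, re-derived here to keep the import closure small). -/
theorem ssGate' {m : ℕ} (hqm : ¬ q ∣ m) : SSGate M q m :=
  Fermat.Agent.GK.SS.AuxDescent.ssGate_of_aux
    (fun N' _ q' m' hq' hqN' hq2' hqm' h2 h3 =>
      Fermat.Agent.GK.SS.Modular.ssGateAux N' q' m' hq' hqN' hq2' hqm' h2 h3)
    M q m h.prime h.dvd h.not_sq hqm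

/-- `(1 + n)^k = 1 + k • n` when `n² = 0`. -/
theorem one_add_pow_of_sq_zero {R : Type*} [Ring R] (n : R) (hn : n * n = 0) (k : ℕ) :
    (1 + n) ^ k = 1 + k • n := by
  induction k with
  | zero => simp
  | succ k ih =>
    rw [pow_succ, ih, mul_add, mul_one, add_mul, one_mul, smul_mul_assoc, hn, smul_zero, add_zero,
      succ_nsmul]
    abel

include h hA hpq in
/-- `σ ^ p = 1` on `Kum_p(F_M)` for `σ` in the inertia group of `A`. -/
theorem gal_pow_eq_one {σ : GQ'} (hσ : σ ∈ A.inertiaSubgroupIn ℚ) :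
    gal M p σ ^ p = 1 := by
  have hp : p.Prime := Fact.out
  have hqp : ¬ q ∣ p := fun hd => hpq ((Nat.prime_dvd_prime_iff_eq h.prime hp).1 hd).symm
  have hsq : (gal M p σ - 1) * (gal M p σ - 1) = 0 := ssGate' h hqp A hA σ hσ
  have hg : gal M p σ = 1 + (gal M p σ - 1) := by abel
  rw [hg, one_add_pow_of_sq_zero _ hsq p]
  have hpn : p • (gal M p σ - 1) = 0 := by
    refine LinearMap.ext fun x => ?_
    rw [LinearMap.smul_apply, LinearMap.zero_apply, ← Nat.cast_smul_eq_nsmul (ZMod p),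
      ZMod.natCast_self, zero_smul]
  rw [hpn, add_zero]

/-- the Galois action on `Kum_p(F_M)` as a homomorphism to the unit group. -/
def galU : GQ' →* (Module.End (ZMod p) (Additive (Kum Kb (FK M) p)))ˣ :=
  (gal M p).toHomUnits

theorem coe_galU (σ : GQ') :
    ((galU (M := M) p σ : (Module.End (ZMod p) (Additive (Kum Kb (FK M) p)))ˣ) :
      Module.End (ZMod p) (Additive (Kum Kb (FK M) p))) = gal M p σ := rfl

include h hA hpq in
/-- **ONE tame generator**: every `σ ∈ I_A` acts on `Kum_p(F_M)` as an integral power of `τ`. -/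
theorem exists_inertia_generator :
    ∃ τ ∈ A.inertiaSubgroupIn ℚ, ∀ σ ∈ A.inertiaSubgroupIn ℚ, ∃ n : ℤ,
      galU (M := M) p σ = galU (M := M) p τ ^ n := by
  have hlevel : ∃ L : IntermediateField ℚ (AlgebraicClosure ℚ), FiniteDimensional ℚ L ∧
      ∀ σ : GQ', (∀ x ∈ L, σ x = x) → galU (M := M) p σ = 1 := by
    obtain ⟨L, hL, hfix⟩ := finiteLevel_gal M p
    exact ⟨L, hL, fun σ hσ => Units.ext (by rw [coe_galU, hfix σ hσ]; rfl)⟩
  have hpg : IsPGroup p ((A.inertiaSubgroupIn ℚ).map (galU (M := M) p)) := by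
    rintro ⟨g, σ, hσ, rfl⟩
    refine ⟨1, Subtype.ext (Units.ext ?_)⟩
    show ((galU (M := M) p σ ^ p ^ 1 : (Module.End (ZMod p) (Additive (Kum Kb (FK M) p)))ˣ) :
      Module.End (ZMod p) (Additive (Kum Kb (FK M) p))) = 1
    rw [pow_one, Units.val_pow_eq_pow_val, coe_galU]
    exact gal_pow_eq_one h A hA p hpq hσ
  exact Fermat.Agent.GP.Loc.TamePQuot.exists_inertia_generator_of_isPGroup A h.prime hA
    (galU (M := M) p) hlevel p hpq hpg

include h hA hpq in
/-- **the tame fixer**: ONE `τ ∈ I_A` whose fixed classes are exactly the inertia invariants. -/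
theorem exists_tame_fixer :
    ∃ τ ∈ A.inertiaSubgroupIn ℚ, ∀ y : Additive (Kum Kb (FK M) p),
      gal M p τ y = y → y ∈ invSub (M := M) A p := by
  obtain ⟨τ, hτ, hgen⟩ := exists_inertia_generator h A hA p hpq
  refine ⟨τ, hτ, fun y hy σ hσ => ?_⟩
  obtain ⟨n, hn⟩ := hgen σ hσ
  have hfix : ∀ k : ℤ, ((galU (M := M) p τ ^ k :
      (Module.End (ZMod p) (Additive (Kum Kb (FK M) p)))ˣ) :
        Module.End (ZMod p) (Additive (Kum Kb (FK M) p))) y = y := by
    have hpos : ∀ k : ℕ, ((galU (M := M) p τ ^ k :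
        (Module.End (ZMod p) (Additive (Kum Kb (FK M) p)))ˣ) :
          Module.End (ZMod p) (Additive (Kum Kb (FK M) p))) y = y := by
      intro k
      induction k with
      | zero => simp
      | succ k ih =>
        rw [pow_succ, Units.val_mul, Module.End.mul_apply, coe_galU, hy, ih]
    have hinv : ∀ u : (Module.End (ZMod p) (Additive (Kum Kb (FK M) p)))ˣ,
        (u : Module.End (ZMod p) (Additive (Kum Kb (FK M) p))) y = y →
        ((u⁻¹ : (Module.End (ZMod p) (Additive (Kum Kb (FK M) p)))ˣ) :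
          Module.End (ZMod p) (Additive (Kum Kb (FK M) p))) y = y := by
      intro u hu
      have h1 : ((u⁻¹ : (Module.End (ZMod p) (Additive (Kum Kb (FK M) p)))ˣ) :
          Module.End (ZMod p) (Additive (Kum Kb (FK M) p)))
            ((u : Module.End (ZMod p) (Additive (Kum Kb (FK M) p))) y) = y := by
        rw [← Module.End.mul_apply, ← Units.val_mul, inv_mul_cancel, Units.val_one,
          Module.End.one_apply]
      rwa [hu] at h1
    intro k
    rcases Int.eq_nat_or_neg k with ⟨j, rfl | rfl⟩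
    · rw [zpow_natCast]; exact hpos j
    · rw [zpow_neg, zpow_natCast]; exact hinv _ (hpos j)
  have := hfix n
  rw [← hn, coe_galU] at this
  exact this

include h hA hpq in
/-- **(L4)** `#Kum_p(F_M) ≤ #V^{I_A} * #K₁₂`. -/
theorem card_kum_le :
    Nat.card (Additive (Kum Kb (FK M) p))
      ≤ Nat.card (invSub (M := M) A p) * Nat.card ↥(kerRed M A p ⊓ kerRed₂ h A p) := by
  have : Finite (Additive (Kum Kb (FK M) p)) := finite_kum
  obtain ⟨τ, hτ, hfix⟩ := exists_tame_fixer h A hA p hpq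
  have key := CountAbs.card_le_mul_of_map_sub
    ((gal M p τ : Module.End (ZMod p) (Additive (Kum Kb (FK M) p))).toAddMonoidHom)
    (invSub (M := M) A p).toAddSubgroup (kerRed M A p ⊓ kerRed₂ h A p)
    (fun y => ⟨gal_sub_mem_kerRed hτ p y, gal_sub_mem_kerRed₂ h hτ p y⟩)
    (fun y hy => hfix y hy)
  exact key

end Fermat.Agent.GE8.SQ2.CountL4
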