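/-
GATE-E / E8.SQ toric side (helper94): **the obstruction vanishes on the toric invariant classes
when `p ∤ q − 1`.**

`q ∥ M`, `A | q`, `p ≠ q` prime, `V = Kum_p(F_M)`, `K₁₂ = kerRed M A p ⊓ kerRed₂ h A p`,
`ν = ord_{w₂} − ord_{w₁}` on `F₀ˣ = K₀(X₀(M))ˣ`.

* `ordZ_gal`, `nu_gal`      : `ν` is invariant under the decomposition group of `A` (both Gauss
  valuations are `D_A`-stable, `q` is fixed);
* `exists_mapU_gal`         : `D_A` preserves the `K₀`-rational units (`I_A ◁ D_A`);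
* `mapU_wU`                 : `W_q` on `K₀`-rational units;
* `obZero_of_mem_K12`       : **`x ∈ V^{I_A} ∩ K₁₂`, `¬ p ∣ q − 1`  ⟹  `Ob.ObZero x`**.
  Proof: `φ x = −q · W_q x` (`GB/A1/FrobWAll.frobW_all'`) has the two `K₀`-rational representatives
  `φ(u₀)` (`ν = ν(u₀)`) and `(W_q u₀)^{−q}` (`ν = q ν(u₀)`, `Nu.nu_wU`); `ν mod p ν(F₀ˣ)` is well
  defined on classes (`ObWell.nu_eq_add_of_mapU_eq`), so `(q − 1) ν(u₀) ∈ p ν(F₀ˣ)`.
-/
import Fermat.Agent.GE8.SQ2.ObWell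
import Fermat.Agent.GB.A1.FrobWAll
import Fermat.Agent.Common_helper32.FrobeniusExists

set_option autoImplicit false

noncomputable section

namespace Fermat.Agent.GE8.SQ2.TorOb

open HahnSeries ModularCurve IsLocalRing AlgebraicCurve
open Fermat.Agent.S24 Fermat.Agent.GJ.J1 Fermat.Agent.GJ.J1.Val
open Fermat.Agent.GJ.KumGroup Fermat.Agent.GJ.Kum.KumType
open Fermat.Agent.GK.UqKronecker Fermat.Agent.GK.AL Fermat.Agent.GK.SS
open Fermat.Agent.GL.Val.GaussK0 Fermat.Agent.GL.Val.SecondK0 Fermat.Agent.GL.RatLiftK0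
open Fermat.Agent.GB.A.FP Fermat.Agent.GB.A3.Nu Fermat.Agent.GB.A3.Ob Fermat.Agent.GB.A3.OrdUnif
open Fermat.Agent.GE8.SQ2.ObWell

local notation "GQ" => (AlgebraicClosure ℚ ≃ₐ[ℚ] AlgebraicClosure ℚ)

variable {M : ℕ} [NeZero M] {q : ℕ} (h : ExactDvd q M) (A : ValuationSubring Kb)
variable (hq : q.Prime) (hA : (q : Kb) ∈ A.nonunits)

/-! ### the decomposition group acts on the `K₀`-rational units -/

/-- the inertia group is normalised by the decomposition group. -/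
theorem conj_mem_inertia {i τ : GQ} (hi : i ∈ A.inertiaSubgroupIn ℚ)
    (hτ : τ ∈ A.decompositionSubgroup ℚ) : τ⁻¹ * i * τ ∈ A.inertiaSubgroupIn ℚ := by
  unfold ValuationSubring.inertiaSubgroupIn at hi ⊢
  rw [Subgroup.mem_map] at hi ⊢
  obtain ⟨i', hi', hii⟩ := hi
  have hn : (A.inertiaSubgroup ℚ).Normal := by
    unfold ValuationSubring.inertiaSubgroup
    exact MonoidHom.normal_ker _
  have h1 := hn.conj_mem i' hi' (⟨τ, hτ⟩ : A.decompositionSubgroup ℚ)⁻¹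
  refine ⟨_, h1, ?_⟩
  rw [map_mul, map_mul, map_inv, inv_inv, hii]
  rfl

/-- `D_A` preserves the `K₀`-rational units. -/
theorem exists_mapU_gal {σ : GQ} (hσ : σ ∈ A.decompositionSubgroup ℚ) (u₀ : (F0 A M)ˣ) :
    ∃ v₀ : (F0 A M)ˣ, mapU (M := M) A v₀ = galUnits M σ (mapU (M := M) A u₀) := by
  apply exists_mapU_of_fixed
  intro τ hτ
  have h1 : τ * σ = σ * (σ⁻¹ * τ * σ) := by group
  have h2 : galUnits M τ (galUnits M σ (mapU (M := M) A u₀)) =
      galUnits M (τ * σ) (mapU (M := M) A u₀) := by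
    apply Units.ext
    rw [coe_galUnits, coe_galUnits, coe_galUnits, arithmeticRingAut_mul_apply]
  have h3 : galUnits M (σ * (σ⁻¹ * τ * σ)) (mapU (M := M) A u₀) =
      galUnits M σ (galUnits M (σ⁻¹ * τ * σ) (mapU (M := M) A u₀)) := by
    apply Units.ext
    rw [coe_galUnits, coe_galUnits, coe_galUnits, arithmeticRingAut_mul_apply]
  rw [h2, h1, h3, galUnits_mapU A _ (conj_mem_inertia A hτ hσ)]

omit [NeZero M] in
/-- `D_A` preserves the units of a `D_A`-stable valuation ring. -/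
theorem unitOf_gal (V : GalVal M A) {σ : GQ} (hσ : σ ∈ A.decompositionSubgroup ℚ)
    (u : (FK M)ˣ) (hu : UnitOf V.W u) : UnitOf V.W (galUnits M σ u) := by
  refine ⟨?_, ?_⟩
  · rw [coe_galUnits]
    exact V.stable σ hσ _ hu.1
  · rw [← map_inv, coe_galUnits]
    exact V.stable σ hσ _ hu.2

include hq in
/-- `ord` is `D_A`-invariant for a pair of compatible valuation rings with uniformiser `q`. -/
theorem ordZ_gal {V0 : ValuationSubring (F0 A M)} {V : ValuationSubring (FK M)}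
    (hV : ∀ x : F0 A M, x ∈ V0 ↔ mapK0Bar A M x ∈ V) (hϖ : IsUnifOf V0 (qU A M hq))
    (σ : GQ) (hT : ∀ u : (FK M)ˣ, UnitOf V u → UnitOf V (galUnits M σ u))
    (u0 v0 : (F0 A M)ˣ) (hv : mapU (M := M) A v0 = galUnits M σ (mapU (M := M) A u0)) :
    ordZ hϖ v0 = ordZ hϖ u0 := by
  rw [ordZ_eq_iff]
  have h1 : u0 * (qU A M hq ^ ordZ hϖ u0)⁻¹ ∈ V0.unitGroup := ordZ_spec hϖ u0
  have h2 := hT _ ((unitOf_mapU_iff A hV _).mpr h1)
  have hqfix : Units.map (σ : Kb →* Kb) (qB hq) = qB hq := by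
    apply Units.ext
    show σ ((q : Kb)) = (q : Kb)
    exact map_natCast σ q
  have e : galUnits M σ (mapU (M := M) A (u0 * (qU A M hq ^ ordZ hϖ u0)⁻¹)) =
      mapU (M := M) A (v0 * (qU A M hq ^ ordZ hϖ u0)⁻¹) := by
    rw [map_mul, map_mul, map_inv, map_inv, map_zpow, map_zpow, map_mul, map_inv, map_zpow,
      mapU_qU, galUnits_constB, hqfix, hv]
  rw [e] at h2
  exact (unitOf_mapU_iff A hV _).mp h2

include hq hA in
/-- **`ν` is `D_A`-invariant.** -/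
theorem nu_gal {σ : GQ} (hσ : σ ∈ A.decompositionSubgroup ℚ) (u0 v0 : (F0 A M)ˣ)
    (hv : mapU (M := M) A v0 = galUnits M σ (mapU (M := M) A u0)) :
    nu A M h hq hA v0 = nu A M h hq hA u0 := by
  unfold nu ord₁ ord₂
  rw [ordZ_gal A hq (mem_Rw1K0_iff A M) (isUnifOf₁ A M hq hA) σ
      (fun u hu => unitOf_gal A (galVal1 M A) hσ u hu) u0 v0 hv,
    ordZ_gal A hq (mem_Rw2K0_iff A M h) (isUnifOf₂ A M h hq hA) σ
      (fun u hu => unitOf_gal A (galVal2 M A h) hσ u hu) u0 v0 hv]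

/-- `W_q` on `K₀`-rational units. -/
theorem mapU_wU (u₀ : (F0 A M)ˣ) :
    mapU (M := M) A (wU A M h u₀) =
      autUnits (wAut h : FK M ≃ₐ[Kb] FK M) (mapU (M := M) A u₀) := by
  apply Units.ext
  rw [coe_mapU, coe_wU, mapK0Bar_wAutK0]
  rfl

/-! ### the main statement -/

include hq hA in
/-- **the obstruction vanishes on the toric invariant classes when `p ∤ q − 1`.** -/
theorem obZero_of_mem_K12 {p : ℕ} (hp : p.Prime) (hqp : ¬ q ∣ p) (hq1 : ¬ p ∣ q - 1)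
    (hAq : A.LiesOverPrime q) (x : Additive (Kum Kb (FK M) p))
    (hxI : x ∈ invSub (M := M) A p) (hx1 : x ∈ kerRed M A p) (hx2 : x ∈ kerRed₂ h A p) :
    ObZero h A p hq hA x := by
  have : NeZero p := ⟨hp.ne_zero⟩
  -- a `K₀`-rational representative
  obtain ⟨u, rfl, hfix⟩ := exists_fixedRep A p x hxI
  obtain ⟨u₀, hu₀⟩ := exists_mapU_of_fixed A (u : (FK M)ˣ) hfix
  -- Frobenius
  obtain ⟨φ, hφ⟩ := Fermat.Agent.Common_helper32.exists_isFrobeniusAt_of_liesOver A q hq hAq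
  have hφd : φ ∈ A.decompositionSubgroup ℚ := hφ.mem_decompositionSubgroup
  have hfw := Fermat.Agent.GB.A1.frobW_all' M q h p hqp A hAq φ hφ _ hx1 hx2
  obtain ⟨v₀, hv₀⟩ := exists_mapU_gal A hφd u₀
  have hνv : nu A M h hq hA v₀ = nu A M h hq hA u₀ := nu_gal h A hq hA hφd u₀ v₀ hv₀
  -- the two representatives of `φ x = −q W x`
  rw [gal_mk, autEnd_mk, ← ofMul_pow, ← ofMul_inv, ← map_pow, ← map_inv] at hfw
  have hfw' := Additive.ofMul.injective hfw
  obtain ⟨w, hw⟩ := Kum.mk_eq_mk_iff.mp hfw'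
  have hw' : mapU (M := M) A ((wU A M h u₀ ^ q)⁻¹) = mapU (M := M) A v₀ * w ^ p := by
    rw [hv₀, hu₀, map_inv, map_pow, mapU_wU, hu₀]
    exact hw
  obtain ⟨w₀, hw₀⟩ := nu_eq_add_of_mapU_eq h A hq hA hp.pos v₀ ((wU A M h u₀ ^ q)⁻¹) w hw'
  rw [nu_inv, nu_pow, nu_wU, hνv] at hw₀
  -- `(q − 1) a = p b`
  set a : ℤ := nu A M h hq hA u₀ with ha
  set b : ℤ := nu A M h hq hA w₀ with hb
  have hrel : ((q : ℤ) - 1) * a = p * b := by linarith
  -- Bezout
  have hcop : IsCoprime (p : ℤ) ((q : ℤ) - 1) := by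
    have h1 : Nat.Coprime p (q - 1) := (Nat.Prime.coprime_iff_not_dvd hp).mpr hq1
    have h2 : ((q - 1 : ℕ) : ℤ) = (q : ℤ) - 1 := by
      rw [Nat.cast_sub hq.one_le, Nat.cast_one]
    rw [← h2]
    exact Nat.isCoprime_iff_coprime.mpr h1
  obtain ⟨s, t, hst⟩ := hcop
  -- `a = p · ν(u₀^s w₀^t)`
  set g : (F0 A M)ˣ := u₀ ^ s * w₀ ^ t with hg
  have hνg : nu A M h hq hA g = s * a + t * b := by
    have e1 : ∀ (y : (F0 A M)ˣ) (n : ℤ), nu A M h hq hA (y ^ n) = n * nu A M h hq hA y := by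
      intro y n
      unfold nu ord₁ ord₂
      rw [ordZ_zpow, ordZ_zpow]
      ring
    rw [hg, nu_mul, e1, e1]
  have hap : a = p * nu A M h hq hA g := by
    rw [hνg]
    calc a = (s * (p : ℤ) + t * ((q : ℤ) - 1)) * a := by rw [hst, one_mul]
      _ = s * p * a + t * (((q : ℤ) - 1) * a) := by ring
      _ = s * p * a + t * (p * b) := by rw [hrel]
      _ = p * (s * a + t * b) := by ring
  -- the normalised representative
  refine ⟨⟨(u : (FK M)ˣ) * ((mapU (M := M) A g)⁻¹) ^ p,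
    mul_mem u.2 (pow_mem_pDivUnits Kb (FK M) p _)⟩, u₀ * (g ^ p)⁻¹, ?_, ?_, ?_⟩
  · exact (ofMul_mk_eq_of ((mapU (M := M) A g)⁻¹) rfl).symm
  · rw [map_mul, map_inv, map_pow, hu₀]
    show _ = (u : (FK M)ˣ) * ((mapU (M := M) A g)⁻¹) ^ p
    rw [inv_pow]
  · rw [nu_mul, nu_inv, nu_pow, ← ha, hap]
    ring

end Fermat.Agent.GE8.SQ2.TorOb
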