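/-
GATE-E / E8.SQ toric side (helper94): **`T0 = V^{I_A} ∩ K₁₂` when `p ∤ q − 1`** (`T0` =
`CountStmt.T0`, the toric classes in `K₀`-form; `K₁₂ = kerRed M A p ⊓ kerRed₂ h A p` the `ℚ̄`-form).

* `exists_cstPow_of_cprin` : generic (`RedData` + "every function is a constant times a unit"):
  if `v = u · g^p`, `u` a unit of `Rw` and `v / c` a principal unit, then
  `red u = constant · (p-th power)`;
* `mem_T0_of_obZero`       : `x ∈ V^{I_A}`, `Ob.ObZero x`, `x ∈ K₁₂`  ⟹  `x ∈ T0`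
  (so `T0 = K₁₂ ∩ S0` in general);
* `mem_T0_of_mem_K12`      : for `¬ p ∣ q − 1`: `x ∈ V^{I_A} ∩ K₁₂ ⟹ x ∈ T0`
  (`TorOb.obZero_of_mem_K12`);
* `gal_sub_mem_T0`         : hence `σ y − y ∈ T0` for every `σ ∈ I_A`, `y ∈ V`, as soon as
  `σ y − y` is inertia-invariant (`SSGate2`) — the input of `CountStmt.L4Stmt` in `T0`-form.
-/
import Fermat.Agent.GE8.SQ2.TorOb
import Fermat.Agent.GE8.SQ2.CountStmt

set_option autoImplicit false

noncomputable section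

namespace Fermat.Agent.GE8.SQ2.TorT0

open HahnSeries ModularCurve IsLocalRing AlgebraicCurve
open Fermat.Agent.S24 Fermat.Agent.GJ.J1 Fermat.Agent.GJ.J1.Val
open Fermat.Agent.GJ.KumGroup Fermat.Agent.GJ.Kum.KumType
open Fermat.Agent.GK.UqKronecker Fermat.Agent.GK.AL Fermat.Agent.GK.SS
open Fermat.Agent.GB.A.FP Fermat.Agent.GB.A3.Nu Fermat.Agent.GB.A3.Ob
open Fermat.Agent.GE8.SQ2.CountStmt Fermat.Agent.GE8.SQ2.TorOb

/-! ### generic: the reduction of a unit which is a principal unit up to a `p`-th power -/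

section Generic

variable {K F k Ft : Type*} [Field K] [Field F] [Algebra K F] [Field k] [Field Ft] [Algebra k Ft]
  (R : RedData K F k Ft)

/-- if `v = u · g ^ p` with `u` a unit of `Rw` and `c⁻¹ · v` a principal unit of `Rw`, then the
reduction of `u` is a constant times a `p`-th power. -/
theorem exists_cstPow_of_cprin
    (hunram : ∀ g : F, g ≠ 0 → ∃ d : K, d ≠ 0 ∧ algebraMap K F d * g ∈ R.Rw ∧
      (algebraMap K F d * g)⁻¹ ∈ R.Rw)
    (p : ℕ) (u v g : Fˣ) (hu : (u : F) ∈ R.Rw) (hui : ((u⁻¹ : Fˣ) : F) ∈ R.Rw)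
    (c : K) (hc : c ≠ 0) (hz : (v : F) / algebraMap K F c ∈ R.Rw)
    (hred : R.red ⟨(v : F) / algebraMap K F c, hz⟩ = 1) (hvg : v = u * g ^ p) :
    ∃ (κ : k) (w : Ftˣ),
      ((redUnit R u hu hui : Ftˣ) : Ft) = algebraMap k Ft κ * ((w : Ftˣ) : Ft) ^ p := by
  obtain ⟨d, hd, hg1, hg2⟩ := hunram (g : F) g.ne_zero
  -- `g' = d g` is a unit of `Rw`
  set g' : F := algebraMap K F d * (g : F) with hg'
  have hg'0 : g' ≠ 0 := mul_ne_zero ((map_ne_zero _).mpr hd) g.ne_zero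
  -- the constant `e = d^p c`
  set e : K := d ^ p * c with he
  have he0 : e ≠ 0 := mul_ne_zero (pow_ne_zero _ hd) hc
  -- `v / c = u · g'^p · e⁻¹`, so `e = u · g'^p · (v/c)⁻¹`
  have hvc0 : (v : F) / algebraMap K F c ≠ 0 :=
    div_ne_zero v.ne_zero ((map_ne_zero _).mpr hc)
  have hzi : ((v : F) / algebraMap K F c)⁻¹ ∈ R.Rw := by
    have hnm : (⟨(v : F) / algebraMap K F c, hz⟩ : R.Rw) ∉ IsLocalRing.maximalIdeal R.Rw := by
      rw [← R.red_eq_zero_iff, hred]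
      exact one_ne_zero
    rw [IsLocalRing.mem_maximalIdeal, mem_nonunits_iff, not_not] at hnm
    obtain ⟨y, hy⟩ := hnm.exists_right_inv
    have hy' : ((v : F) / algebraMap K F c) * (y : F) = 1 := congrArg Subtype.val hy
    rw [← eq_inv_of_mul_eq_one_right hy']
    exact y.2
  have hredi : R.red ⟨((v : F) / algebraMap K F c)⁻¹, hzi⟩ = 1 := by
    have h1 : (⟨(v : F) / algebraMap K F c, hz⟩ : R.Rw) *
        ⟨((v : F) / algebraMap K F c)⁻¹, hzi⟩ = 1 := Subtype.ext (mul_inv_cancel₀ hvc0)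
    have h2 := congrArg R.red h1
    rw [map_mul, map_one, hred, one_mul] at h2
    exact h2
  have hekey : algebraMap K F e = (u : F) * g' ^ p * ((v : F) / algebraMap K F c)⁻¹ := by
    rw [hvg, he, hg', Units.val_mul, Units.val_pow_eq_pow_val, map_mul, map_pow, mul_pow]
    have hc' : algebraMap K F c ≠ 0 := (map_ne_zero _).mpr hc
    have hu0 : (u : F) ≠ 0 := u.ne_zero
    have hg0 : (g : F) ≠ 0 := g.ne_zero
    field_simp
  have heinv : algebraMap K F e⁻¹ = ((u⁻¹ : Fˣ) : F) * (g'⁻¹) ^ p *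
      ((v : F) / algebraMap K F c) := by
    rw [map_inv₀, hekey, Units.val_inv_eq_inv_val, mul_inv, mul_inv, inv_inv, inv_pow]
  have heA : e ∈ R.A := by
    rw [R.mem_A_iff, hekey]
    exact R.Rw.mul_mem _ _ (R.Rw.mul_mem _ _ hu (pow_mem hg1 p)) hzi
  have heiA : e⁻¹ ∈ R.A := by
    rw [R.mem_A_iff, heinv]
    exact R.Rw.mul_mem _ _ (R.Rw.mul_mem _ _ hui (pow_mem hg2 p)) hz
  -- reduce `e⁻¹ = u⁻¹ g'^{-p} (v/c)`:  `red u = res(e) · red(g'⁻¹)^p`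
  have h1 : R.red ⟨algebraMap K F e, (R.mem_A_iff e).1 heA⟩ =
      R.red ⟨(u : F), hu⟩ * R.red ⟨g', hg1⟩ ^ p * R.red ⟨_, hzi⟩ := by
    rw [← map_pow, ← map_mul, ← map_mul]
    congr 1
    exact Subtype.ext hekey
  rw [hredi, mul_one, R.red_algebraMap ⟨e, heA⟩] at h1
  -- `red g'` is a unit
  have hgg : R.red ⟨g', hg1⟩ * R.red ⟨g'⁻¹, hg2⟩ = 1 := by
    rw [← map_mul]
    have : (⟨g', hg1⟩ : R.Rw) * ⟨g'⁻¹, hg2⟩ = 1 := Subtype.ext (mul_inv_cancel₀ hg'0)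
    rw [this, map_one]
  have hgg' : R.red ⟨g'⁻¹, hg2⟩ * R.red ⟨g', hg1⟩ = 1 := by rw [mul_comm]; exact hgg
  refine ⟨R.res ⟨e, heA⟩, ⟨R.red ⟨g'⁻¹, hg2⟩, R.red ⟨g', hg1⟩, hgg', hgg⟩, ?_⟩
  rw [coe_redUnit, h1]
  show R.red ⟨(u : F), hu⟩ = R.red ⟨(u : F), hu⟩ * R.red ⟨g', hg1⟩ ^ p * R.red ⟨g'⁻¹, hg2⟩ ^ p
  rw [mul_assoc, ← mul_pow, hgg, one_pow, mul_one]

end Generic

/-! ### the concrete statements -/

variable {M : ℕ} [NeZero M] {q : ℕ} (h : ExactDvd q M) (A : ValuationSubring Kb)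
variable (hq : q.Prime) (hA : (q : Kb) ∈ A.nonunits)

local notation "𝕜" => ResidueField A

variable {h A} in
/-- a `BothUnit` representative of a class of `ker r₁` has first reduction a constant times a
`p`-th power. -/
theorem isCstPowU₁_of_mem_kerRed {p : ℕ} (u : pDivUnits Kb (FK M) p)
    (hu : BothUnit h A (u : (FK M)ˣ))
    (hx : Additive.ofMul (Kum.mk u) ∈ kerRed M A p) : IsCstPowU A p (redUnit₁ hu) := by
  obtain ⟨v, ⟨c, hc, hz, hred⟩, hv⟩ := mem_kerRed.mp hx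
  obtain ⟨g, hg⟩ := Kum.mk_eq_mk_iff.mp (Additive.ofMul.injective hv).symm
  obtain ⟨κ, w, hw⟩ := exists_cstPow_of_cprin (redDataBar M A)
    (fun g hg0 => (galVal1 M A).unram g hg0) p (u : (FK M)ˣ) (v : (FK M)ˣ) g hu.1.1 hu.1.2
    c hc hz (Subtype.ext hred) hg
  exact ⟨κ, w, hw⟩

variable {h A} in
/-- a `BothUnit` representative of a class of `ker r₂` has second reduction a constant times a
`p`-th power. -/
theorem isCstPowU₂_of_mem_kerRed₂ {p : ℕ} (u : pDivUnits Kb (FK M) p)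
    (hu : BothUnit h A (u : (FK M)ˣ))
    (hx : Additive.ofMul (Kum.mk u) ∈ kerRed₂ h A p) : IsCstPowU A p (redUnit₂ hu) := by
  obtain ⟨v, ⟨c, hc, hz, hred⟩, hv⟩ := mem_kerRedW.mp hx
  obtain ⟨g, hg⟩ := Kum.mk_eq_mk_iff.mp (Additive.ofMul.injective hv).symm
  -- `W_q (v) / c = W_q (v / c)`
  have e : ((wAut h : FK M ≃ₐ[Kb] FK M) : FK M ≃+* FK M) ((v : (FK M)ˣ) : FK M) /
      algebraMap Kb (FK M) c =
      (wAut h : FK M ≃ₐ[Kb] FK M) (((v : (FK M)ˣ) : FK M) / algebraMap Kb (FK M) c) := by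
    rw [map_div₀, AlgEquiv.commutes]
    rfl
  have hz' : ((v : (FK M)ˣ) : FK M) / algebraMap Kb (FK M) c ∈ (redData2 M A h).Rw := by
    rw [mem_Rw2_iff, ← e]
    exact hz
  have hred' : (redData2 M A h).red ⟨_, hz'⟩ = 1 := by
    rw [red2_eq]
    apply Subtype.ext
    have := hred
    simp only [e] at this
    exact this
  obtain ⟨κ, w, hw⟩ := exists_cstPow_of_cprin (redData2 M A h)
    (fun g hg0 => (galVal2 M A h).unram g hg0) p (u : (FK M)ˣ) (v : (FK M)ˣ) g hu.2.1 hu.2.2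
    c hc hz' hred' hg
  exact ⟨κ, w, hw⟩

/-- **`K₁₂ ∩ S0 ⊆ T0`**: an invariant toric class (`ℚ̄`-form) with vanishing obstruction is toric in
the `K₀`-form. -/
theorem mem_T0_of_obZero {p : ℕ} [NeZero p] (x : Additive (Kum Kb (FK M) p))
    (hxI : x ∈ invSub (M := M) A p) (hob : ObZero h A p hq hA x)
    (hx1 : x ∈ kerRed M A p) (hx2 : x ∈ kerRed₂ h A p) : x ∈ T0 h A p := by
  obtain ⟨u, ⟨rfl, hfix⟩, hu⟩ := normHyp h A p hq hA x hxI hob
  exact ⟨u, rfl, hfix, hu, isCstPowU₁_of_mem_kerRed u hu hx1, isCstPowU₂_of_mem_kerRed₂ u hu hx2⟩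

include hq hA in
/-- **`V^{I_A} ∩ K₁₂ ⊆ T0` when `p ∤ q − 1`.** -/
theorem mem_T0_of_mem_K12 {p : ℕ} (hp : p.Prime) (hqp : ¬ q ∣ p) (hq1 : ¬ p ∣ q - 1)
    (hAq : A.LiesOverPrime q) (x : Additive (Kum Kb (FK M) p))
    (hxI : x ∈ invSub (M := M) A p) (hx1 : x ∈ kerRed M A p) (hx2 : x ∈ kerRed₂ h A p) :
    x ∈ T0 h A p :=
  haveI : NeZero p := ⟨hp.ne_zero⟩
  mem_T0_of_obZero h A hq hA x hxI
    (obZero_of_mem_K12 h A hq hA hp hqp hq1 hAq x hxI hx1 hx2) hx1 hx2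

include hq hA in
/-- **the input of `L4Stmt` in `T0`-form** (`p ∤ q − 1`): `σ y − y ∈ T0` for `σ ∈ I_A`, given that
`σ y − y` is inertia-invariant (`SSGate2`). -/
theorem gal_sub_mem_T0 {p : ℕ} (hp : p.Prime) (hqp : ¬ q ∣ p) (hq1 : ¬ p ∣ q - 1)
    (hAq : A.LiesOverPrime q) {σ : Kb ≃ₐ[ℚ] Kb} (hσ : σ ∈ A.inertiaSubgroupIn ℚ)
    (y : Additive (Kum Kb (FK M) p))
    (hinv : gal M p σ y - y ∈ invSub (M := M) A p) : gal M p σ y - y ∈ T0 h A p :=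
  mem_T0_of_mem_K12 h A hq hA hp hqp hq1 hAq _ hinv (gal_sub_mem_kerRed hσ p y)
    (gal_sub_mem_kerRed₂ h hσ p y)

end Fermat.Agent.GE8.SQ2.TorT0
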