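/-
GATE-E / E8.SQ toric side (helper94): the slices of helper29's TORIC SIDE v2 (board 7177) in HIS
spellings, on top of the landed files.

* `card_S0_le_T0` : **(L3'')** `#CountL2.S0 ≤ (#Kum_p(𝕜, FresBar M A))² · #T0` under `FP.NodeHyp`
  (= `CountL23Plug.l3Stmt` re-spelled with `CountL2.S0`);
* `inf_le_T0`     : **(B'')** `y ∈ kerRed → y ∈ kerRed₂ → y ∈ CountL2.S0 → y ∈ T0`
  (= `TorT0.mem_T0_of_obZero`);
* `ObLoc`         : the statement **(B-loc)**: the obstruction vanishes on `V^{I_A} ∩ K₁₂`;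
  `obLoc_of_not_dvd` : it holds when `p ∤ q − 1` (`TorOb.obZero_of_mem_K12`);
* `gal_sub_mem_invSub` : `τ y − y ∈ V^{I_A}` for helper69's tame fixer `τ` (`(τ − 1)² = 0`);
* `l4Stmt_of_obLoc` : **(L4'')** `ObLoc → CountStmt.L4Stmt h A p` (`#V ≤ #V^{I_A} · #T0`);
  `l4Stmt_of_not_dvd` : hence `L4Stmt` for `p ∤ q − 1`, binder-free;
* `pow_le_card_T0_of_obLoc` : the consumer `p^(n-1) ≤ #T0` with all three slices plugged
  (remaining inputs: `ObLoc`, `NodeHyp`, the two cardinalities and the genus inequality).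
-/
import Fermat.Agent.GE8.SQ2.CountL4
import Fermat.Agent.GE8.SQ2.CountL23Plug
import Fermat.Agent.GE8.SQ2.TorT0

set_option autoImplicit false

noncomputable section

namespace Fermat.Agent.GE8.SQ2.CountL4T

open ModularCurve IsLocalRing AlgebraicCurve
open Fermat.Agent.S24 Fermat.Agent.GJ.J1 Fermat.Agent.GJ.J1.Val
open Fermat.Agent.GJ.KumGroup Fermat.Agent.GJ.Kum.KumType
open Fermat.Agent.GK.UqKronecker Fermat.Agent.GK.AL Fermat.Agent.GK.SS Fermat.Agent.GK.Tate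
open Fermat.Agent.GB.A.FP Fermat.Agent.GB.A3.Ob
open Fermat.Agent.GE8.SQ2.CountStmt

variable {M : ℕ} [NeZero M] {q : ℕ} (h : ExactDvd q M) (A : ValuationSubring Kb) (p : ℕ)
variable (hq : q.Prime) (hA : (q : Kb) ∈ A.nonunits)

local notation "𝕜" => ResidueField A

/-- **(L3'')** in the spelling of board 7177. -/
theorem card_S0_le_T0 [NeZero p] (hnode : NodeHyp h A p) [Finite (Kum 𝕜 (FresBar M A) p)] :
    Nat.card ↥(CountL2.S0 h A p hq hA) ≤
      Nat.card (Kum 𝕜 (FresBar M A) p) ^ 2 * Nat.card ↥(T0 h A p) := by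
  rw [CountL23Plug.card_S0_eq]
  exact CountL23Plug.l3Stmt h A p hq hA hnode

/-- **(B'')** `K₁₂ ⊓ S0 ≤ T0`. -/
theorem inf_le_T0 [NeZero p] (y : Additive (Kum Kb (FK M) p)) (hy1 : y ∈ kerRed M A p)
    (hy2 : y ∈ kerRed₂ h A p) (hy : y ∈ CountL2.S0 h A p hq hA) : y ∈ T0 h A p := by
  obtain ⟨hyI, hob⟩ := (CountL2.mem_S0_iff h A p hq hA y).mp hy
  exact TorT0.mem_T0_of_obZero h A hq hA y hyI hob hy1 hy2

/-- **(B-loc)**, as a statement: the obstruction vanishes on the toric invariant classes. -/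
def ObLoc : Prop :=
  ∀ y ∈ invSub (M := M) A p, y ∈ kerRed M A p → y ∈ kerRed₂ h A p → ObZero h A p hq hA y

/-- **(B-loc) holds when `p ∤ q − 1`.** -/
theorem obLoc_of_not_dvd (hp : p.Prime) (hpq : p ≠ q) (hq1 : ¬ p ∣ q - 1) :
    ObLoc h A p hq hA := fun y hyI hy1 hy2 =>
  TorOb.obZero_of_mem_K12 h A hq hA hp
    (fun hd => hpq ((Nat.prime_dvd_prime_iff_eq hq hp).mp hd).symm) hq1 hA y hyI hy1 hy2

include h in
/-- `τ y − y` is fixed by `τ` (semistability gate), for `τ` in the inertia group. -/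
theorem gal_gal_sub (hAq : A.LiesOverPrime q) (hqp : ¬ q ∣ p) {τ : Kb ≃ₐ[ℚ] Kb}
    (hτ : τ ∈ A.inertiaSubgroupIn ℚ) (y : Additive (Kum Kb (FK M) p)) :
    gal M p τ (gal M p τ y - y) = gal M p τ y - y := by
  have h1 := CountL4.ssGate' h hqp A hAq τ hτ
  have h2 := LinearMap.congr_fun h1 y
  simp only [Module.End.mul_apply, LinearMap.sub_apply, Module.End.one_apply,
    LinearMap.zero_apply] at h2
  rw [map_sub] at h2 ⊢
  exact sub_eq_zero.mp h2

/-- **(L4'')**: `(B-loc) ⟹ L4Stmt` in `T0`-form. -/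
theorem l4Stmt_of_obLoc [Fact p.Prime] (hpq : p ≠ q) (hB : ObLoc h A p hq hA) :
    L4Stmt h A p := by
  have hp : p.Prime := Fact.out
  have : NeZero p := ⟨hp.ne_zero⟩
  have hqp : ¬ q ∣ p := fun hd => hpq ((Nat.prime_dvd_prime_iff_eq hq hp).mp hd).symm
  have : Finite (Additive (Kum Kb (FK M) p)) := Fermat.Agent.GB.A.A6.EigQ.finite_kum
  obtain ⟨τ, hτ, hfix⟩ := CountL4.exists_tame_fixer h A hA p hpq
  have hK : ∀ y : Additive (Kum Kb (FK M) p), gal M p τ y - y ∈ T0 h A p := by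
    intro y
    have hinv : gal M p τ y - y ∈ invSub (M := M) A p :=
      hfix _ (gal_gal_sub h A p hA hqp hτ y)
    exact TorT0.mem_T0_of_obZero h A hq hA _ hinv
      (hB _ hinv (gal_sub_mem_kerRed hτ p y) (gal_sub_mem_kerRed₂ h hτ p y))
      (gal_sub_mem_kerRed hτ p y) (gal_sub_mem_kerRed₂ h hτ p y)
  exact CountAbs.card_le_mul_of_map_sub
    ((gal M p τ : Module.End (ZMod p) (Additive (Kum Kb (FK M) p))).toAddMonoidHom)
    (invSub (M := M) A p).toAddSubgroup (T0 h A p) hK (fun y hy => hfix y hy)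

include hq hA in
/-- **(L4'') for `p ∤ q − 1`**, binder-free. -/
theorem l4Stmt_of_not_dvd [Fact p.Prime] (hpq : p ≠ q) (hq1 : ¬ p ∣ q - 1) : L4Stmt h A p :=
  l4Stmt_of_obLoc h A p hq hA hpq (obLoc_of_not_dvd h A p hq hA Fact.out hpq hq1)

/-- **TORIC-EXIST by counting, slices plugged**: `p^(n-1) ≤ #T0`. -/
theorem pow_le_card_T0_of_obLoc [Fact p.Prime] (hpq : p ≠ q) (hB : ObLoc h A p hq hA)
    (hnode : NodeHyp h A p) [Finite (Kum 𝕜 (FresBar M A) p)]
    {g' g'' n : ℕ} (hV : Nat.card (Additive (Kum Kb (FK M) p)) = p ^ (2 * g'))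
    (hX : Nat.card (Kum 𝕜 (FresBar M A) p) = p ^ (2 * g''))
    (hg : n + 2 * g'' ≤ g' + 1) : p ^ (n - 1) ≤ Nat.card (T0 h A p) := by
  have hp : p.Prime := Fact.out
  have : NeZero p := ⟨hp.ne_zero⟩
  have : Finite (Additive (Kum Kb (FK M) p)) := Fermat.Agent.GB.A.A6.EigQ.finite_kum
  exact pow_le_card_T0 (CountL23Plug.l2Stmt h A p hq hA) (CountL23Plug.l3Stmt h A p hq hA hnode)
    (l4Stmt_of_obLoc h A p hq hA hpq hB) hV hX hg

end Fermat.Agent.GE8.SQ2.CountL4T
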