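/-
GATE-E / E8.SQ toric side, node (B-loc) of helper29 7177, the ABSTRACT half (helper94, second
seat of helper68): **the chart step with a second-component twist**.

Twin of `GB/A/A4/ChartStep.dvd_ord_of_ufd` (helper84).  Same context: `N = N' q`, `q ∥ N`,
`F₀ = K₀(X₀(N))`, `Bj ⊂ F₀` a chart ring with the two-component frame, `ρ : Rw₁ → F̄` the reduction
along the first component, `rd : Bj → C` its restriction to the chart, `Q` a place of `F̄` containing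
`C` with centre `P`, `𝔫 = rd⁻¹ P`, `Bj_𝔫` factorial.  NEW: `u₀ ∈ F₀ˣ` is only a `w₁`-unit, and
`y₂ ∈ Bj` generates the SECOND vertical prime at `𝔫` (fraction-free form `hgen`, the output of
`LocalKummer.exists_mul_eq_of_pow`), `rd y₂ ≠ 0`, and `u₀ * y₂ ^ (-ν)` is a `w₂`-unit.  Then

  `m ∣ ord_Q (ρ u₀) − ν * ord_Q (rd y₂)`.

With transversality `ord_Q (rd y₂) = 1` at ONE node and `m ∣ ord_Q (ρ u₀)` (from `y ∈ kerRed`) this
gives `m ∣ ν`, i.e. the obstruction vanishes.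
-/
import Fermat.Agent.GB.A.A4.ChartStep

set_option autoImplicit false
set_option linter.unusedSectionVars false
set_option linter.unusedVariables false

noncomputable section

namespace Fermat.Agent.GE8.SQ2.CountObLocAbs

open ModularCurve IsLocalRing AlgebraicCurve
open Fermat.Agent.GL.KrullHeightOne Fermat.Agent.GL.Frame.HeightOne Fermat.Agent.GL.Frame.Kummer
open Fermat.Agent.GL.Val.GaussK0 Fermat.Agent.GL.Val.SecondK0 Fermat.Agent.GL.Val.L1eLower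
open Fermat.Agent.GL.Local.InertiaField
open Fermat.Agent.GJ.KumGroup
open Fermat.Agent.GL.Frame.HorizDiv Fermat.Agent.GL.Frame.HorizHord
open Fermat.Agent.GK.AL Fermat.Agent.GL.AL
open Fermat.Agent.Common_helper32
open Fermat.Agent.S24_helper6
open Fermat.Agent.GB.A4.FrameTwo Fermat.Agent.GB.A4.LocalKummer Fermat.Agent.GB.A4.ChartStep

attribute [local instance] Fermat.Agent.GL.Frame.InstK0.algSubringFullC

/-! ### integer powers of a unit of a valuation ring under a ring hom -/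

section ZPow

variable {F Fb : Type*} [Field F] [Field Fb] (W : ValuationSubring F) (ρ : W →+* Fb)

theorem map_inv_of_mem {y : F} (hy : y ∈ W) (hy' : y⁻¹ ∈ W) (hy0 : y ≠ 0) :
    ρ ⟨y⁻¹, hy'⟩ = (ρ ⟨y, hy⟩)⁻¹ := by
  have h1 : (⟨y, hy⟩ : W) * ⟨y⁻¹, hy'⟩ = 1 := Subtype.ext (mul_inv_cancel₀ hy0)
  have h2 := congrArg ρ h1
  rw [map_mul, map_one] at h2
  exact eq_inv_of_mul_eq_one_right h2

theorem zpow_mem_of_mem {y : F} (hy : y ∈ W) (hy' : y⁻¹ ∈ W) (n : ℤ) : y ^ n ∈ W := by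
  cases n with
  | ofNat n => rw [Int.ofNat_eq_natCast, zpow_natCast]; exact pow_mem hy n
  | negSucc n => rw [zpow_negSucc, ← inv_pow]; exact pow_mem hy' (n + 1)

theorem map_zpow_of_mem {y : F} (hy : y ∈ W) (hy' : y⁻¹ ∈ W) (hy0 : y ≠ 0) (n : ℤ)
    (hn : y ^ n ∈ W) : ρ ⟨y ^ n, hn⟩ = (ρ ⟨y, hy⟩) ^ n := by
  cases n with
  | ofNat n =>
    have e : (⟨y ^ (Int.ofNat n), hn⟩ : W) = ⟨y, hy⟩ ^ n := by
      apply Subtype.ext
      show y ^ (Int.ofNat n) = (((⟨y, hy⟩ : W) ^ n : W) : F)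
      rw [SubmonoidClass.coe_pow, Int.ofNat_eq_natCast, zpow_natCast]
    rw [e, map_pow, Int.ofNat_eq_natCast, zpow_natCast]
  | negSucc n =>
    have e : (⟨y ^ (Int.negSucc n), hn⟩ : W) = ⟨y⁻¹, hy'⟩ ^ (n + 1) := by
      apply Subtype.ext
      show y ^ (Int.negSucc n) = (((⟨y⁻¹, hy'⟩ : W) ^ (n + 1) : W) : F)
      rw [SubmonoidClass.coe_pow, zpow_negSucc, inv_pow]
    rw [e, map_pow, map_inv_of_mem W ρ hy hy' hy0, zpow_negSucc, inv_pow]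

end ZPow

/-! ### The twisted chart step -/

section Step

variable (A : ValuationSubring Qb) (N : ℕ) [NeZero N] {q : ℕ} (h : ExactDvd q N)
  (hA : A.LiesOverPrime q)

local notation "F0" => modularFunctionFieldFullC (K0 A) N

variable {A N h}

include hA in
/-- **the chart step with a second-component twist.** -/
theorem dvd_ord_sub_of_ufd {Bj : Subring F0} (hF : IsFrameTwo A N h Bj)
    (hR0 : ∀ c : K0 A, c ∈ R0 A → algebraMap (K0 A) F0 c ∈ Bj)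
    {k Fb C : Type*} [Field k] [Field Fb] [Algebra k Fb] [CommRing C] [IsDedekindDomain C]
    [Algebra k C] [Algebra C Fb] [IsScalarTower k C Fb] [IsFractionRing C Fb]
    (ρ : ↥(RwK0 A N) →+* Fb)
    (hρ : ∀ x : ↥(RwK0 A N), ρ x = 0 ↔ (x : F0) ∈ (RwK0 A N).nonunits)
    (rd : Bj →+* C)
    (hrd : ∀ (b : Bj) (hb : (b : F0) ∈ RwK0 A N), algebraMap C Fb (rd b) = ρ ⟨(b : F0), hb⟩)
    (Q : Place k Fb) (hQ : ContainsB C Q)
    (𝔫 : Ideal Bj) [𝔫.IsPrime] (h𝔫 : ∀ b : Bj, b ∈ 𝔫 ↔ rd b ∈ (primeOfPlace Q hQ).asIdeal)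
    [UniqueFactorizationMonoid (Localization.AtPrime 𝔫)]
    (m : ℕ) (u₀ : F0ˣ)
    (hu1 : (u₀ : F0) ∈ RwK0 A N) (hu1' : (u₀ : F0)⁻¹ ∈ RwK0 A N)
    (y₂ : Bj) (hy1 : rd y₂ ≠ 0)
    (hgen : ∀ b : Bj, (b : F0) ∈ (redData2K0 A N h).Rw.nonunits →
      ∃ s : Bj, s ∉ 𝔫 ∧ ∃ b' : Bj, s * b = y₂ * b')
    (ν : ℤ)
    (hu2 : (u₀ : F0) * (y₂ : F0) ^ (-ν) ∈ (redData2K0 A N h).Rw)
    (hu2' : ((u₀ : F0) * (y₂ : F0) ^ (-ν))⁻¹ ∈ (redData2K0 A N h).Rw)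
    (hK : Units.map (mapK0Bar A N : _ →* FK N) u₀ ∈ pDivUnits Kb (FK N) m) :
    (m : ℤ) ∣ Q.ord (ρ ⟨(u₀ : F0), hu1⟩) - ν * Q.ord (algebraMap C Fb (rd y₂)) := by
  obtain ⟨i1, i2, i3, f, hf1, hf2, hf3⟩ := hF
  have hq : q.Prime := h.prime
  -- `q ∈ Bj`
  have hqR : ((q0 A q : R0 A) : K0 A) ∈ R0 A := (q0 A q).2
  have hqB : (q : F0) ∈ Bj := by
    have := hR0 _ hqR
    rwa [Fermat.Agent.GL.Final.H5UnifK0.algebraMap_q0] at this
  -- `Bj ⊆ W₁`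
  have hBW1 : ∀ b : Bj, (b : F0) ∈ RwK0 A N := by
    intro b
    have h1 : (b : F0) ∈ V1 F0 (f 0) := algebraMap_mem_V1 (f 0) b
    rw [hf1 0] at h1
    exact h1
  have hW0 : W2 A N h 0 = RwK0 A N := rfl
  have hW1 : W2 A N h 1 = (redData2K0 A N h).Rw := rfl
  have hker : ∀ b : Bj, rd b = 0 ↔ b ∈ (f 0).1 := by
    intro b
    rw [hf2 0 b, hW0, ← hρ ⟨(b : F0), hBW1 b⟩, ← hrd b (hBW1 b),
      map_eq_zero_iff _ (IsFractionRing.injective C Fb)]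
  have hf0𝔫 : (f 0).1 ≤ 𝔫 := by
    intro b hb
    rw [h𝔫, (hker b).2 hb]
    exact Ideal.zero_mem _
  -- `y₂` is a unit of `W₁`
  have hy2f0 : y₂ ∉ (f 0).1 := fun hh => hy1 ((hker y₂).2 hh)
  have hy0 : (y₂ : F0) ≠ 0 := fun h0 => hy1 (by
    have : y₂ = 0 := Subtype.ext h0
    rw [this, map_zero])
  have hyU0 : UnitAt (f 0) ((y₂ : F0)) := unitAt_algebraMap (F := F0) hy2f0
  have hyW1 : (y₂ : F0) ∈ RwK0 A N := hBW1 y₂
  have hyW1' : (y₂ : F0)⁻¹ ∈ RwK0 A N := by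
    have := hyU0.2
    rw [hf1 0] at this
    exact this
  -- the twisted unit
  set u₁ : F0 := (u₀ : F0) * (y₂ : F0) ^ (-ν) with hu₁
  have hu₁0 : u₁ ≠ 0 := mul_ne_zero u₀.ne_zero (zpow_ne_zero _ hy0)
  have hzW : (y₂ : F0) ^ (-ν) ∈ RwK0 A N := zpow_mem_of_mem _ hyW1 hyW1' _
  have hzW' : ((y₂ : F0) ^ (-ν))⁻¹ ∈ RwK0 A N := by
    rw [← zpow_neg]
    exact zpow_mem_of_mem _ hyW1 hyW1' _
  have hu₁W : u₁ ∈ RwK0 A N := (RwK0 A N).mul_mem _ _ hu1 hzW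
  have hu₁W' : u₁⁻¹ ∈ RwK0 A N := by
    rw [hu₁, mul_inv]
    exact (RwK0 A N).mul_mem _ _ hu1' hzW'
  -- the `hord` hypothesis
  have hord : ∀ 𝔭 : HtOne Bj, 𝔭.1 ≤ 𝔫 → ∃ z : F0, z ≠ 0 ∧ UnitAt 𝔭 (u₁ * z ^ m) := by
    intro 𝔭 h𝔭𝔫
    by_cases h0 : 𝔭 = f 0
    · subst h0
      refine hord_of_unitAt m ?_
      unfold UnitAt
      rw [hf1 0]
      exact ⟨hu₁W, hu₁W'⟩
    by_cases h1 : 𝔭 = f 1
    · subst h1
      refine hord_of_unitAt m ?_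
      unfold UnitAt
      rw [hf1 1]
      exact ⟨hu2, hu2'⟩
    -- horizontal
    have hq𝔭 : (⟨(q : F0), hqB⟩ : Bj) ∉ 𝔭.1 := by
      intro hq𝔭
      obtain ⟨i, hi⟩ := hf3 𝔭 ⟨(q : F0), hqB⟩ rfl hq𝔭
      fin_cases i
      · exact h0 hi.symm
      · exact h1 hi.symm
    have hy𝔭 : y₂ ∉ 𝔭.1 := by
      intro hmem
      apply h1
      symm
      apply HtOne.eq_of_le
      intro b hb
      obtain ⟨s, hs, b', hb'⟩ := hgen b (hW1 ▸ (hf2 1 b).1 hb)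
      have h2 : s * b ∈ 𝔭.1 := by
        rw [hb']
        exact 𝔭.1.mul_mem_right _ hmem
      exact (𝔭.2.1.mem_or_mem h2).resolve_left fun hs' => hs (h𝔭𝔫 hs')
    obtain ⟨z, hz0, hz⟩ := hord_horizontal A N m u₀ hK 𝔭 (by
      refine algebraMap_K0_mem_of_baseRing A hq hA (algebraMap (K0 A) F0) (V1 F0 𝔭) ?_ ?_
      · intro c hc
        exact algebraMap_mem_V1 𝔭 ⟨_, hR0 c hc⟩
      · have h1 := inv_algebraMap_mem_V1 (F := F0) 𝔭 hq𝔭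
        have e : algebraMap Bj F0 (⟨(q : F0), hqB⟩ : Bj) = (q : F0) := rfl
        rw [e] at h1
        exact h1)
    refine ⟨z, hz0, ?_⟩
    have hyU : UnitAt 𝔭 ((y₂ : F0)) := unitAt_algebraMap (F := F0) hy𝔭
    have e : u₁ * z ^ m = ((u₀ : F0) * z ^ m) * (y₂ : F0) ^ (-ν) := by
      rw [hu₁]; ring
    rw [e]
    exact hz.mul (hyU.zpow _)
  -- the Kummer datum
  obtain ⟨g₁, c, s, hc, hs, hgcs⟩ := exists_kummer_datum_of_ufd 𝔫 (Localization.AtPrime 𝔫) m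
    u₁ hu₁0 hord
  have hsW : (s : F0) ∈ RwK0 A N := hBW1 s
  have hcW : (c : F0) ∈ RwK0 A N := hBW1 c
  have hs' : (s : F0)⁻¹ ∈ RwK0 A N := by
    refine inv_mem_of_not_mem_nonunits _ hsW fun hh => hs (hf0𝔫 ((hf2 0 s).2 (hW0 ▸ hh)))
  have hc' : (c : F0)⁻¹ ∈ RwK0 A N := by
    refine inv_mem_of_not_mem_nonunits _ hcW fun hh => hc (hf0𝔫 ((hf2 0 c).2 (hW0 ▸ hh)))
  have hs0 : (s : F0) ≠ 0 := fun h0 => hs (by
    have : s = 0 := Subtype.ext h0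
    rw [this]; exact Ideal.zero_mem _)
  have hc0 : (c : F0) ≠ 0 := fun h0 => hc (by
    have : c = 0 := Subtype.ext h0
    rw [this]; exact Ideal.zero_mem _)
  obtain ⟨g, hgcs', hg0, hgW, hgW'⟩ : ∃ g : F0, g ^ m * u₁ * (s : F0) = (c : F0) ∧
      g ≠ 0 ∧ g ∈ RwK0 A N ∧ g⁻¹ ∈ RwK0 A N := by
    by_cases hm : m = 0
    · refine ⟨1, ?_, one_ne_zero, (RwK0 A N).one_mem, by rw [inv_one]; exact (RwK0 A N).one_mem⟩
      have := hgcs
      rw [hm, pow_zero] at this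
      rw [hm, pow_zero]
      exact this
    · have hg0 : g₁ ≠ 0 := by
        intro h0
        have := hgcs
        rw [h0, zero_pow hm, zero_mul, zero_mul] at this
        exact hc0 this.symm
      refine ⟨g₁, hgcs, hg0, ?_⟩
      refine unit_of_pow_mul (RwK0 A N) hm (a := u₁ * (s : F0)) (c := (c : F0))
        (mul_ne_zero hu₁0 hs0) hc0 ((RwK0 A N).mul_mem _ _ hu₁W hsW) ?_ hcW hc' ?_
      · rw [mul_inv]
        exact (RwK0 A N).mul_mem _ _ hu₁W' hs'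
      · rw [← mul_assoc]
        exact hgcs
  -- apply `ρ`
  have hprod : (⟨g, hgW⟩ : ↥(RwK0 A N)) ^ m *
      (⟨(u₀ : F0), hu1⟩ * ⟨(y₂ : F0) ^ (-ν), hzW⟩) * ⟨(s : F0), hBW1 s⟩ =
      ⟨(c : F0), hBW1 c⟩ := Subtype.ext hgcs'
  have hρeq := congrArg ρ hprod
  rw [map_mul, map_mul, map_mul, map_pow, ← hrd s (hBW1 s), ← hrd c (hBW1 c),
    map_zpow_of_mem (RwK0 A N) ρ hyW1 hyW1' hy0 (-ν) hzW, ← hrd y₂ hyW1] at hρeq
  have hub : ρ ⟨(u₀ : F0), hu1⟩ ≠ 0 := by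
    rw [Ne, hρ]
    exact not_mem_nonunits_of_mem _ u₀.ne_zero hu1 hu1'
  have hgb : ρ ⟨g, hgW⟩ ≠ 0 := by
    rw [Ne, hρ]
    exact not_mem_nonunits_of_mem _ hg0 hgW hgW'
  have hyb : algebraMap C Fb (rd y₂) ≠ 0 := by
    rw [Ne, map_eq_zero_iff _ (IsFractionRing.injective C Fb)]
    exact hy1
  have hd := dvd_ord_of_datum Q hQ (fun hh => hs ((h𝔫 s).2 hh)) (fun hh => hc ((h𝔫 c).2 hh))
    (mul_ne_zero hub (zpow_ne_zero _ hyb)) hgb hρeq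
  rw [Place.ord_mul _ hub (zpow_ne_zero _ hyb), Place.ord_zpow] at hd
  have e : Q.ord (ρ ⟨(u₀ : F0), hu1⟩) - ν * Q.ord (algebraMap C Fb (rd y₂)) =
      Q.ord (ρ ⟨(u₀ : F0), hu1⟩) + -ν * Q.ord (algebraMap C Fb (rd y₂)) := by ring
  rw [e]
  exact hd

end Step

end Fermat.Agent.GE8.SQ2.CountObLocAbs
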