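/-
GATE-E / E8.SQ toric side (helper94): **the obstruction `ν mod p·ν(F₀ˣ)` is well defined on
classes** (`q ∥ M`, `A | q`, `K₀ = ℚ̄^{I_A}`, `F₀ = K₀(X₀(M))`, `ν = ord_{w₂} − ord_{w₁}` on `F₀ˣ`,
`GB/A3/Nu.lean`).

* `exists_const_of_pow_eq_one` : a `p`-th root of unity of `F_M` is a constant of `ℚ̄`;
* `galUnits_constB`            : the Galois action on constants;
* `exists_const_mul_mapU_of_pow` : **Kummer descent**: `w ∈ F_Mˣ` with `w^p ∈ F₀ˣ` is
  `c · w₀`, `c ∈ ℚ̄ˣ`, `w₀ ∈ F₀ˣ` (divide by the leading coefficient of the `q`-expansion);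
* `exists_constU_of_mapU_eq_constB` : a `K₀`-rational unit which is a constant of `ℚ̄` is a
  constant of `K₀`;
* `nu_eq_add_of_mapU_eq`       : **well-definedness**: `u₀' = u₀ · w^p` in `F_Mˣ` with
  `u₀ u₀' ∈ F₀ˣ`  ⟹  `ν(u₀') = ν(u₀) + p · ν(w₀)` for some `w₀ ∈ F₀ˣ`.
-/
import Fermat.Agent.GB.A3.Ob

set_option autoImplicit false

noncomputable section

namespace Fermat.Agent.GE8.SQ2.ObWell

open HahnSeries ModularCurve IsLocalRing AlgebraicCurve
open Fermat.Agent.S24 Fermat.Agent.GJ.J1 Fermat.Agent.GJ.J1.Val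
open Fermat.Agent.GJ.KumGroup Fermat.Agent.GJ.Kum.KumType
open Fermat.Agent.GK.UqKronecker Fermat.Agent.GK.AL Fermat.Agent.GK.SS
open Fermat.Agent.GL.Val.GaussK0 Fermat.Agent.GL.Val.SecondK0 Fermat.Agent.GL.RatLiftK0
open Fermat.Agent.GB.A.FP Fermat.Agent.GB.A3.Nu Fermat.Agent.GB.A3.Ob

variable {M : ℕ} [NeZero M] {q : ℕ} (h : ExactDvd q M) (A : ValuationSubring Kb)
variable (hq : q.Prime) (hA : (q : Kb) ∈ A.nonunits)

omit [NeZero M] in
/-- a root of unity of `F_M` is a constant. -/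
theorem exists_const_of_pow_eq_one {p : ℕ} (hp : 0 < p) (y : FK M) (hy : y ^ p = 1) :
    ∃ ζ : Kb, y = algebraMap Kb (FK M) ζ := by
  have hint : IsIntegral Kb y := by
    refine ⟨Polynomial.X ^ p - Polynomial.C 1, Polynomial.monic_X_pow_sub_C (1 : Kb) hp.ne', ?_⟩
    rw [Polynomial.eval₂_sub, Polynomial.eval₂_pow, Polynomial.eval₂_X, Polynomial.eval₂_C, hy,
      map_one, sub_self]
  have hdeg := IsAlgClosed.degree_eq_one_of_irreducible Kb (minpoly.irreducible hint)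
  obtain ⟨ζ, hζ⟩ := minpoly.mem_range_of_degree_eq_one Kb y hdeg
  exact ⟨ζ, hζ.symm⟩

/-- the Galois action on the constants. -/
theorem galUnits_constB (σ : Kb ≃ₐ[ℚ] Kb) (c : Kbˣ) :
    galUnits M σ (constB (M := M) c) = constB (M := M) (Units.map (σ : Kb →* Kb) c) := by
  apply Units.ext
  rw [coe_galUnits, coe_constB, coe_constB, arithmeticRingAut_algebraMap]
  rfl

theorem constB_injective : Function.Injective (constB (M := M)) := by
  intro c d hcd
  apply Units.ext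
  have h1 : ((constB (M := M) c : (FK M)ˣ) : FK M) = ((constB (M := M) d : (FK M)ˣ) : FK M) := by
    rw [hcd]
  rw [coe_constB, coe_constB] at h1
  exact (algebraMap Kb (FK M)).injective h1

omit [NeZero M] in
theorem constB_mul (c d : Kbˣ) : constB (M := M) (c * d) = constB (M := M) c * constB (M := M) d :=
  map_mul _ c d

omit [NeZero M] in
theorem constB_pow (c : Kbˣ) (n : ℕ) : constB (M := M) (c ^ n) = constB (M := M) c ^ n :=
  map_pow _ c n

/-- **Kummer descent**: if `w ^ p` is `K₀`-rational then `w` is a constant times a `K₀`-rational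
unit. -/
theorem exists_const_mul_mapU_of_pow {p : ℕ} (hp : 0 < p) (w : (FK M)ˣ) (z₀ : (F0 A M)ˣ)
    (hw : w ^ p = mapU (M := M) A z₀) :
    ∃ (c : Kbˣ) (w₀ : (F0 A M)ˣ), w = constB (M := M) c * mapU (M := M) A w₀ := by
  -- the leading coefficient
  set s : LaurentSeries Kb := ((w : FK M) : LaurentSeries Kb) with hs
  have hs0 : s ≠ 0 := by
    intro h0
    exact w.ne_zero (Subtype.ext h0)
  set c0 : Kb := s.coeff s.order with hc0
  have hc00 : c0 ≠ 0 := fun h0 => hs0 (HahnSeries.coeff_order_eq_zero.mp h0)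
  set c : Kbˣ := Units.mk0 c0 hc00 with hc
  -- `σ w = ζ_σ w`
  have hζ : ∀ σ ∈ A.inertiaSubgroupIn ℚ, ∃ ζ : Kbˣ, galUnits M σ w = constB (M := M) ζ * w := by
    intro σ hσ
    have h1 : (galUnits M σ w) ^ p = w ^ p := by
      rw [← map_pow, hw]
      exact galUnits_mapU A σ hσ z₀
    have h2 : (((galUnits M σ w * w⁻¹ : (FK M)ˣ)) : FK M) ^ p = 1 := by
      rw [← Units.val_pow_eq_pow_val, mul_pow, inv_pow, h1, mul_inv_cancel, Units.val_one]
    obtain ⟨ζ, hζ⟩ := exists_const_of_pow_eq_one hp _ h2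
    have hζ0 : ζ ≠ 0 := by
      rintro rfl
      rw [map_zero] at hζ
      exact (galUnits M σ w * w⁻¹).ne_zero hζ
    refine ⟨Units.mk0 ζ hζ0, ?_⟩
    have h3 : galUnits M σ w * w⁻¹ = constB (M := M) (Units.mk0 ζ hζ0) :=
      Units.ext (by rw [hζ, coe_constB, Units.val_mk0])
    rw [← h3, inv_mul_cancel_right]
  -- the action on the leading coefficient
  have hcoef : ∀ σ ∈ A.inertiaSubgroupIn ℚ, ∀ ζ : Kbˣ,
      galUnits M σ w = constB (M := M) ζ * w → σ c0 = (ζ : Kb) * c0 := by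
    intro σ hσ ζ hζw
    have h1 := congrArg (fun u : (FK M)ˣ => (((u : FK M) : LaurentSeries Kb)).coeff s.order) hζw
    simp only [coe_galUnits, Units.val_mul, coe_constB] at h1
    have h2 : (((arithmeticRingAut (modularFunctionFieldFull M) σ (w : FK M) : FK M)) :
        LaurentSeries Kb) = coeffMap (σ : Kb →+* Kb) s := rfl
    have h3 : ((algebraMap Kb (FK M) (ζ : Kb) * (w : FK M) : FK M) : LaurentSeries Kb) =
        HahnSeries.single 0 (ζ : Kb) * s := by
      rw [← algebraMap_laurentSeries_eq_single]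
      rfl
    rw [h2, h3, coeffMap_coeff] at h1
    rw [show (HahnSeries.single (0 : ℤ) (ζ : Kb) * s).coeff s.order = (ζ : Kb) * s.coeff s.order
      from by
        have := HahnSeries.coeff_single_mul_add (r := (ζ : Kb)) (x := s) (a := s.order) (b := 0)
        rwa [add_zero] at this] at h1
    exact h1
  -- `w / c` is fixed by inertia
  have hfix : ∀ σ ∈ A.inertiaSubgroupIn ℚ,
      galUnits M σ (w * (constB (M := M) c)⁻¹) = w * (constB (M := M) c)⁻¹ := by
    intro σ hσ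
    obtain ⟨ζ, hζw⟩ := hζ σ hσ
    have hσc := hcoef σ hσ ζ hζw
    have h1 : Units.map (σ : Kb →* Kb) c = ζ * c := by
      apply Units.ext
      rw [Units.val_mul]
      exact hσc
    rw [map_mul, map_inv, galUnits_constB, h1, hζw, constB_mul, mul_inv]
    rw [mul_comm (constB (M := M) ζ) w, mul_assoc, ← mul_assoc (constB (M := M) ζ),
      mul_inv_cancel, one_mul]
  obtain ⟨w₀, hw₀⟩ := exists_mapU_of_fixed A (w * (constB (M := M) c)⁻¹) hfix
  refine ⟨c, w₀, ?_⟩
  rw [hw₀, mul_comm w, ← mul_assoc, mul_inv_cancel, one_mul]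

/-- a `K₀`-rational unit which is a constant of `ℚ̄` is a constant of `K₀`. -/
theorem exists_constU_of_mapU_eq_constB (k₀ : (F0 A M)ˣ) (d : Kbˣ)
    (hk : mapU (M := M) A k₀ = constB (M := M) d) :
    ∃ c₀ : (K0 A)ˣ, k₀ = constU A M c₀ := by
  -- `d` is fixed by inertia
  have hfix : ∀ σ ∈ A.inertiaSubgroupIn ℚ, σ (d : Kb) = (d : Kb) := by
    intro σ hσ
    have h1 := galUnits_mapU A σ hσ k₀
    rw [hk, galUnits_constB] at h1
    exact congrArg (fun u : Kbˣ => (u : Kb)) (constB_injective h1)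
  obtain ⟨a, ha⟩ := (mem_range_ι0_iff A (d : Kb)).mpr hfix
  have ha0 : a ≠ 0 := by
    rintro rfl
    rw [map_zero] at ha
    exact d.ne_zero ha.symm
  refine ⟨Units.mk0 a ha0, ?_⟩
  apply Units.ext
  apply mapK0Bar_injective A M
  rw [← coe_mapU, hk, coe_constB, coe_constU, Units.val_mk0, mapK0Bar_algebraMap, ha]

include hq hA in
/-- **well-definedness of `ν mod p · ν(F₀ˣ)` on classes**. -/
theorem nu_eq_add_of_mapU_eq {p : ℕ} (hp : 0 < p) (u₀ u₀' : (F0 A M)ˣ) (w : (FK M)ˣ)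
    (hw : mapU (M := M) A u₀' = mapU (M := M) A u₀ * w ^ p) :
    ∃ w₀ : (F0 A M)ˣ, nu A M h hq hA u₀' = nu A M h hq hA u₀ + p * nu A M h hq hA w₀ := by
  have hz : w ^ p = mapU (M := M) A (u₀' * u₀⁻¹) := by
    rw [map_mul, map_inv, hw, mul_comm (mapU (M := M) A u₀), mul_inv_cancel_right]
  obtain ⟨c, w₀, hcw⟩ := exists_const_mul_mapU_of_pow A hp w (u₀' * u₀⁻¹) hz
  -- the constant part is `K₀`-rational
  have hk : mapU (M := M) A (u₀' * u₀⁻¹ * (w₀ ^ p)⁻¹) = constB (M := M) (c ^ p) := by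
    rw [map_mul (mapU (M := M) A) (u₀' * u₀⁻¹), ← hz, hcw, mul_pow, map_inv, map_pow, constB_pow,
      mul_inv_cancel_right]
  obtain ⟨c₀, hc₀⟩ := exists_constU_of_mapU_eq_constB A _ _ hk
  refine ⟨w₀, ?_⟩
  have e : u₀' = u₀ * (constU A M c₀ * w₀ ^ p) := by
    rw [← hc₀, inv_mul_cancel_right, mul_comm u₀', mul_inv_cancel_left]
  rw [e, nu_mul, nu_mul, nu_const A M h hq hA c₀, nu_pow, zero_add]

end Fermat.Agent.GE8.SQ2.ObWell
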