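/-
GATE-E / E8.SQ toric side, node (B-loc) of helper29 7177, half (Z) (helper94, second seat of
helper68): **from `p ∣ ν` to `ObZero`**, and the `w₁`-unit normalisation of a fixed representative.

`q ∥ M`, `A | q`, `K₀ = ℚ̄^{I_A}`, `F₀ = K₀(X₀(M))`, `ν = ord_{w₂} − ord_{w₁}` (`GB/A3/Nu`).

* `nu_zpow`, `ord₁_qU`, `ord₂_qU`, `ordZ_pos_iff`;
* `obZero_of_dvd_nu` : a class with a `K₀`-rational representative `u₀`, `p ∣ ν(u₀)`, and SOME
  `w ∈ F₀ˣ` with `ν(w) = 1`  ⟹  `ObZero` (replace `u₀` by `u₀ · w^{-ν(u₀)}`, a `p`-th power twist);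
* `exists_rep_ord₁_zero` : every inertia-invariant class has a `K₀`-rational representative `u₀`
  with `ord_{w₁}(u₀) = 0` (divide by a power of `q`, a `p`-th power of `ℚ̄`);
* `mem_of_ord₁_zero` : `ord_{w₁}(u₀) = 0` ⟹ `u₀, u₀⁻¹ ∈ Rw₁`;
* `nu_eq_ord₂_of_ord₁_zero`.
-/
import Fermat.Agent.GE8.SQ2.ObWell

set_option autoImplicit false

noncomputable section

namespace Fermat.Agent.GE8.SQ2.CountObZ

open HahnSeries ModularCurve IsLocalRing AlgebraicCurve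
open Fermat.Agent.S24 Fermat.Agent.GJ.J1 Fermat.Agent.GJ.J1.Val
open Fermat.Agent.GJ.KumGroup Fermat.Agent.GJ.Kum.KumType
open Fermat.Agent.GK.UqKronecker Fermat.Agent.GK.AL Fermat.Agent.GK.SS
open Fermat.Agent.GL.Val.GaussK0 Fermat.Agent.GL.Val.SecondK0 Fermat.Agent.GL.RatLiftK0
open Fermat.Agent.GB.A.FP Fermat.Agent.GB.A3.Nu Fermat.Agent.GB.A3.Ob Fermat.Agent.GB.A3.OrdUnif
open Fermat.Agent.GE8.SQ2.ObWell

/-! ### generic: positivity of `ordZ` -/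

section Generic

variable {F : Type*} [Field F] {V : ValuationSubring F} {ϖ : Fˣ}

/-- `0 < ord x ↔ x ∈ 𝔪_V`. -/
theorem ordZ_pos_iff (h : IsUnifOf V ϖ) (x : Fˣ) : 0 < ordZ h x ↔ (x : F) ∈ V.nonunits := by
  constructor
  · intro hpos
    have h1 : (x : F) ∈ V := (ordZ_nonneg_iff h x).mp hpos.le
    have h2 : x ∉ V.unitGroup := fun hu => by
      rw [← ordZ_eq_zero_iff h] at hu
      omega
    rw [ValuationSubring.mem_nonunits_iff]
    have h3 : V.valuation (x : F) ≤ 1 := (V.valuation_le_one_iff _).mpr h1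
    exact lt_of_le_of_ne h3 fun h4 => h2 ((V.mem_unitGroup_iff x).mpr h4)
  · intro hx
    have h1 : (x : F) ∈ V := V.nonunits_subset hx
    have h2 : 0 ≤ ordZ h x := (ordZ_nonneg_iff h x).mpr h1
    have h3 : ordZ h x ≠ 0 := fun h0 => by
      have hu := (ordZ_eq_zero_iff h x).mp h0
      have h4 := (V.mem_unitGroup_iff x).mp hu
      have h5 := (ValuationSubring.mem_nonunits_iff V).mp hx
      rw [h4] at h5
      exact lt_irrefl _ h5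
    omega

end Generic

variable {M : ℕ} [NeZero M] {q : ℕ} (h : ExactDvd q M) (A : ValuationSubring Kb)
variable (hq : q.Prime) (hA : (q : Kb) ∈ A.nonunits)

theorem ord₁_qU : ord₁ A M hq hA (qU A M hq) = 1 := ordZ_unif _

theorem ord₂_qU : ord₂ A M h hq hA (qU A M hq) = 1 := ordZ_unif _

theorem nu_zpow (y : (F0 A M)ˣ) (n : ℤ) :
    nu A M h hq hA (y ^ n) = n * nu A M h hq hA y := by
  unfold nu ord₁ ord₂
  rw [ordZ_zpow, ordZ_zpow]
  ring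

/-- `ord₁ u₀ = 0` ⟹ `u₀` is a unit of `Rw₁`. -/
theorem mem_of_ord₁_zero (u₀ : (F0 A M)ˣ) (h0 : ord₁ A M hq hA u₀ = 0) :
    (u₀ : F0 A M) ∈ RwK0 A M ∧ (u₀ : F0 A M)⁻¹ ∈ RwK0 A M := by
  have hu : u₀ ∈ (RwK0 A M).unitGroup := (ordZ_eq_zero_iff _ u₀).mp h0
  have h1 := (unitOf_iff_mem_unitGroup (RwK0 A M) u₀).mpr hu
  exact ⟨h1.1, by rw [← Units.val_inv_eq_inv_val]; exact h1.2⟩

theorem nu_eq_ord₂_of_ord₁_zero (u₀ : (F0 A M)ˣ) (h0 : ord₁ A M hq hA u₀ = 0) :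
    nu A M h hq hA u₀ = ord₂ A M h hq hA u₀ := by
  unfold nu
  rw [h0, sub_zero]

/-! ### (Z) -/

/-- **(Z)**: `p ∣ ν(u₀)` for a `K₀`-rational representative, and `ν` takes the value `1`
⟹ `ObZero`. -/
theorem obZero_of_dvd_nu {p : ℕ} (u : pDivUnits Kb (FK M) p) (u₀ : (F0 A M)ˣ)
    (hu₀ : mapU (M := M) A u₀ = (u : (FK M)ˣ)) (w : (F0 A M)ˣ)
    (hw : nu A M h hq hA w = 1) (hd : (p : ℤ) ∣ nu A M h hq hA u₀) :
    ObZero h A p hq hA (Additive.ofMul (Kum.mk u)) := by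
  obtain ⟨k, hk⟩ := hd
  set g : (F0 A M)ˣ := w ^ k with hg
  have hνg : nu A M h hq hA g = k := by rw [hg, nu_zpow, hw, mul_one]
  refine ⟨⟨(u : (FK M)ˣ) * ((mapU (M := M) A g)⁻¹) ^ p,
    mul_mem u.2 (pow_mem_pDivUnits Kb (FK M) p _)⟩, u₀ * (g ^ p)⁻¹, ?_, ?_, ?_⟩
  · exact (ofMul_mk_eq_of ((mapU (M := M) A g)⁻¹) rfl).symm
  · rw [map_mul, map_inv, map_pow, hu₀]
    show _ = (u : (FK M)ˣ) * ((mapU (M := M) A g)⁻¹) ^ p
    rw [inv_pow]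
  · rw [nu_mul, nu_inv, nu_pow, hνg, hk]
    ring

/-! ### the `w₁`-unit normalisation -/

include hq hA in
/-- every invariant class has a `K₀`-rational representative which is a `w₁`-unit. -/
theorem exists_rep_ord₁_zero {p : ℕ} [NeZero p] (y : Additive (Kum Kb (FK M) p))
    (hy : y ∈ invSub (M := M) A p) :
    ∃ (u : pDivUnits Kb (FK M) p) (u₀ : (F0 A M)ˣ), Additive.ofMul (Kum.mk u) = y ∧
      mapU (M := M) A u₀ = (u : (FK M)ˣ) ∧ ord₁ A M hq hA u₀ = 0 := by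
  obtain ⟨u, rfl, hfix⟩ := exists_fixedRep A p y hy
  obtain ⟨u₀, hu₀⟩ := exists_mapU_of_fixed A (u : (FK M)ˣ) hfix
  set a : ℤ := ord₁ A M hq hA u₀ with ha
  -- `q^{-a}` is a `p`-th power of `ℚ̄`
  obtain ⟨w, hw⟩ := exists_constB_pow (M := M) (m := p) ((qB hq ^ a)⁻¹)
  refine ⟨⟨(u : (FK M)ˣ) * w ^ p, mul_mem u.2 (pow_mem_pDivUnits Kb (FK M) p _)⟩,
    u₀ * (qU A M hq ^ a)⁻¹, ?_, ?_, ?_⟩
  · exact (ofMul_mk_eq_of w rfl).symm
  · rw [map_mul, map_inv, map_zpow, hu₀, mapU_qU]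
    show _ = (u : (FK M)ˣ) * w ^ p
    rw [hw]
    congr 1
    unfold constB
    rw [map_inv, map_zpow]
  · unfold ord₁
    rw [ordZ_mul, ordZ_inv, ordZ_zpow, ordZ_unif]
    show a + -(a * 1) = 0
    ring

end Fermat.Agent.GE8.SQ2.CountObZ
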