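/-
GATE-E / E8.SQ toric side, node (B-loc) of helper29 7177 (helper94, second seat of helper68):
**the obstruction vanishes on the toric invariant classes, from ONE transversal node.**

Level `N' ℓ`, `ℓ ∤ N'`, `A | ℓ`.  `Q` a place of the first component `FresBar N' A` containing
`CRing N' A`, `P` its centre, `𝔫 = redC1K0⁻¹ P` a NODE of the chart `B_R = BRingK0 N' ℓ A h`
(`hnode`), with `B_𝔫` factorial, `y₂ ∈ B_R` a local generator at `𝔫` of the second vertical prime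
(`hgen`, fraction-free) and TRANSVERSALITY `ord_Q (red₁ y₂) = 1`.  Then for every `p`:

* `dvd_ord_rho1_of_mem_kerRed` : a `w₁`-unit `K₀`-rational representative `u₀` of a class of
  `kerRed` has `p ∣ ord_Q (red₁ u₀)` at EVERY place `Q` (its reduction is `const · p-th power`);
* `ord₂_eq_one_of_gen`         : `ord_{w₂} y₂ = 1`;
* `dvd_nu_of_node`             : `p ∣ ν(u₀)`  (`CountObLocAbs.dvd_ord_sub_of_ufd`);
* `obZero_of_node`             : `y ∈ V^{I_A} ∩ kerRed ⟹ ObZero y` (`CountObZ.obZero_of_dvd_nu`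
  with `w := y₂`);
* `obLoc_of_node`              : `CountL4T.ObLoc`.
-/
import Fermat.Agent.GE8.SQ2.CountObLocAbs
import Fermat.Agent.GE8.SQ2.CountObZ
import Fermat.Agent.GE8.SQ2.CountL4T
import Fermat.Agent.GB.A.A4.Finite

set_option autoImplicit false
set_option linter.unusedSectionVars false
set_option linter.unusedVariables false

noncomputable section

namespace Fermat.Agent.GE8.SQ2.CountObLocNode

open ModularCurve IsLocalRing AlgebraicCurve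
open Fermat.Agent.GL.KrullHeightOne Fermat.Agent.GL.Frame.HeightOne Fermat.Agent.GL.Frame.Kummer
open Fermat.Agent.GL.Val.GaussK0 Fermat.Agent.GL.Val.SecondK0 Fermat.Agent.GL.Val.L1eLower
open Fermat.Agent.GL.Local.InertiaField
open Fermat.Agent.GJ.KumGroup Fermat.Agent.GJ.Kum.KumType Fermat.Agent.GJ.J1 Fermat.Agent.GJ.J1.Val
open Fermat.Agent.GK.AL Fermat.Agent.GL.AL Fermat.Agent.GK.QS Fermat.Agent.GK.UqKronecker
open Fermat.Agent.Common_helper32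
open Fermat.Agent.S24_helper6
open Fermat.Agent.GL.Final.H5UnifK0
open Fermat.Agent.GB.A4.FrameTwo Fermat.Agent.GB.A4.LocalKummer Fermat.Agent.GB.A4.ChartStep
open Fermat.Agent.GB.A4.Finite
open Fermat.Agent.GB.A.FP Fermat.Agent.GB.A3.Nu Fermat.Agent.GB.A3.Ob Fermat.Agent.GB.A3.OrdUnif
open Fermat.Agent.GL.BRingK0 Fermat.Agent.GL.BRingChart
open Fermat.Agent.GE8.SQ2.CountObLocAbs Fermat.Agent.GE8.SQ2.CountObZ

attribute [local instance] Fermat.Agent.GL.Frame.InstK0.algSubringFullC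

/-! ### constants have order zero -/

theorem ord_const_eq_zero {K F : Type*} [Field K] [Field F] [Algebra K F] (v : Place K F) {c : K}
    (hc : c ≠ 0) : v.ord (algebraMap K F c) = 0 := by
  have h1 := v.algebraMap_mem' c
  have h2 := v.algebraMap_mem' c⁻¹
  let u : v.toValuationSubringˣ :=
    ⟨⟨_, h1⟩, ⟨_, h2⟩, Subtype.ext (by simp [hc]), Subtype.ext (by simp [hc])⟩
  exact v.ord_coe_unit u

/-! ### the reduction of a `w₁`-unit representative of a class of `kerRed` -/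

section Red

variable {M : ℕ} [NeZero M] (A : ValuationSubring Kb)

local notation "𝕜" => IsLocalRing.ResidueField A

/-- a `w₁`-unit representative of a class of `ker r₁` has first reduction a constant times a
`p`-th power. -/
theorem exists_cstPow_of_mem_kerRed {p : ℕ} (u : pDivUnits Kb (FK M) p)
    (hu : ((u : (FK M)ˣ) : FK M) ∈ (redDataBar M A).Rw)
    (hu' : (((u : (FK M)ˣ)⁻¹ : (FK M)ˣ) : FK M) ∈ (redDataBar M A).Rw)
    (hx : Additive.ofMul (Kum.mk u) ∈ kerRed M A p) :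
    ∃ (κ : 𝕜) (w : (FresBar M A)ˣ), κ ≠ 0 ∧
      (redDataBar M A).red ⟨((u : (FK M)ˣ) : FK M), hu⟩ =
        algebraMap 𝕜 (FresBar M A) κ * ((w : (FresBar M A)ˣ) : FresBar M A) ^ p := by
  obtain ⟨v, ⟨c, hc, hz, hred⟩, hv⟩ := mem_kerRed.mp hx
  obtain ⟨g, hg⟩ := Kum.mk_eq_mk_iff.mp (Additive.ofMul.injective hv).symm
  obtain ⟨κ, w, hw⟩ := Fermat.Agent.GE8.SQ2.TorT0.exists_cstPow_of_cprin (redDataBar M A)
    (fun g hg0 => (Fermat.Agent.GK.SS.galVal1 M A).unram g hg0) p (u : (FK M)ˣ) (v : (FK M)ˣ) g hu hu'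
    c hc hz (Subtype.ext hred) hg
  rw [coe_redUnit] at hw
  refine ⟨κ, w, ?_, hw⟩
  rintro rfl
  rw [map_zero, zero_mul] at hw
  have h0 : (⟨((u : (FK M)ˣ) : FK M), hu⟩ : (redDataBar M A).Rw) ∈
      IsLocalRing.maximalIdeal (redDataBar M A).Rw := by
    rw [← (redDataBar M A).red_eq_zero_iff]; exact hw
  rw [IsLocalRing.mem_maximalIdeal, mem_nonunits_iff] at h0
  apply h0
  refine ⟨⟨⟨_, hu⟩, ⟨_, hu'⟩, Subtype.ext ?_, Subtype.ext ?_⟩, rfl⟩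
  · show ((u : (FK M)ˣ) : FK M) * (((u : (FK M)ˣ)⁻¹ : (FK M)ˣ) : FK M) = 1
    rw [← Units.val_mul, mul_inv_cancel, Units.val_one]
  · show (((u : (FK M)ˣ)⁻¹ : (FK M)ˣ) : FK M) * ((u : (FK M)ˣ) : FK M) = 1
    rw [← Units.val_mul, inv_mul_cancel, Units.val_one]

end Red

/-! ### the local generator of the second vertical prime is a `w₂`-uniformiser -/

section Gen

variable {A : ValuationSubring Qb} {N : ℕ} [NeZero N] {q : ℕ} {h : ExactDvd q N}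
  (hq : q.Prime) (hA : (q : Qb) ∈ A.nonunits)

local notation "F0g" => modularFunctionFieldFullC (K0 A) N

include hq hA in
/-- **`ord_{w₂} y₂ = 1`** for a local generator `y₂` of the second vertical prime at a node `𝔫`. -/
theorem ord₂_eq_one_of_gen {Bj : Subring F0g} (hF : IsFrameTwo A N h Bj)
    (hR0 : ∀ c : K0 A, c ∈ R0 A → algebraMap (K0 A) F0g c ∈ Bj)
    (𝔫 : Ideal Bj)
    (hnode : ∀ b : Bj, (b : F0g) ∈ (redData2K0 A N h).Rw.nonunits → b ∈ 𝔫)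
    (y₂ : Bj) (hy₂ : (y₂ : F0g) ∈ (redData2K0 A N h).Rw.nonunits)
    (hgen : ∀ b : Bj, (b : F0g) ∈ (redData2K0 A N h).Rw.nonunits →
      ∃ s : Bj, s ∉ 𝔫 ∧ ∃ b' : Bj, s * b = y₂ * b')
    (hy0 : (y₂ : F0g) ≠ 0) :
    ord₂ A N h hq hA (Units.mk0 (y₂ : F0g) hy0) = 1 := by
  obtain ⟨i1, i2, i3, f, hf1, hf2, hf3⟩ := hF
  have hW1 : W2 A N h 1 = (redData2K0 A N h).Rw := rfl
  have hBW2 : ∀ b : Bj, (b : F0g) ∈ (redData2K0 A N h).Rw := by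
    intro b
    have h1 : (b : F0g) ∈ V1 F0g (f 1) := algebraMap_mem_V1 (f 1) b
    rw [hf1 1] at h1
    exact h1
  -- `q ∈ Bj`, a nonunit of `W₂`
  have hqR : ((q0 A q : R0 A) : K0 A) ∈ R0 A := (q0 A q).2
  have hqB : (qF A N (q := q)) ∈ Bj := hR0 _ hqR
  have hqnu : (qF A N (q := q)) ∈ (redData2K0 A N h).Rw.nonunits :=
    (isUnifOf₂ A N h hq hA).mem_nonunits
  obtain ⟨s, hs, b', hb'⟩ := hgen ⟨qF A N (q := q), hqB⟩ hqnu
  have hb'F : (s : F0g) * qF A N (q := q) = (y₂ : F0g) * (b' : F0g) := congrArg Subtype.val hb'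
  have hs0 : (s : F0g) ≠ 0 := fun h0 => hs (by
    have : s = 0 := Subtype.ext h0
    rw [this]; exact Ideal.zero_mem _)
  have hb0 : (b' : F0g) ≠ 0 := by
    intro h0
    rw [h0, mul_zero] at hb'F
    exact (mul_ne_zero hs0 (qF_ne_zero A N hq)) hb'F
  have hU : Units.mk0 (s : F0g) hs0 * qU A N hq = Units.mk0 (y₂ : F0g) hy0 * Units.mk0 (b' : F0g) hb0 :=
    Units.ext hb'F
  have hord := congrArg (ord₂ A N h hq hA) hU
  unfold ord₂ at hord ⊢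
  rw [ordZ_mul, ordZ_mul, ordZ_unif] at hord
  have h1 : 0 ≤ ordZ (isUnifOf₂ A N h hq hA) (Units.mk0 (s : F0g) hs0) :=
    (ordZ_nonneg_iff _ _).mpr (hBW2 s)
  have h2 : ¬ 0 < ordZ (isUnifOf₂ A N h hq hA) (Units.mk0 (s : F0g) hs0) := fun hpos =>
    hs (hnode s ((ordZ_pos_iff _ _).mp hpos))
  have h3 : 0 ≤ ordZ (isUnifOf₂ A N h hq hA) (Units.mk0 (b' : F0g) hb0) :=
    (ordZ_nonneg_iff _ _).mpr (hBW2 b')
  have h4 : 0 < ordZ (isUnifOf₂ A N h hq hA) (Units.mk0 (y₂ : F0g) hy0) :=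
    (ordZ_pos_iff _ _).mpr hy₂
  omega

end Gen

/-! ### the node -/

section Node

open Fermat.Agent.GL.Thick Fermat.Agent.GL.EtaK0 Fermat.Agent.GL.EtaInstK0B
  Fermat.Agent.GL.EtaInstK0Aux

variable {A : ValuationSubring Qb} {N' : ℕ} [NeZero N'] {ℓ : ℕ} [Fact ℓ.Prime] [NeZero ℓ]
  (h : ExactDvd ℓ (N' * ℓ)) (hℓN : ¬ ℓ ∣ N') (hA : A.LiesOverPrime ℓ)

local notation "F0'" => modularFunctionFieldFullC (K0 A) (N' * ℓ)
local notation "kA" => IsLocalRing.ResidueField A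

/-- **`p ∣ ord_Q (red₁ u₀)` at every place**, for a `w₁`-unit `K₀`-rational representative of a
class of `kerRed`. -/
theorem dvd_ord_rho1_of_mem_kerRed {p : ℕ} (u : pDivUnits Kb (FK (N' * ℓ)) p)
    (u₀ : (F0 A (N' * ℓ))ˣ) (hu₀ : mapU (M := N' * ℓ) A u₀ = (u : (FK (N' * ℓ))ˣ))
    (hu1 : (u₀ : F0') ∈ RwK0 A (N' * ℓ)) (hu1' : (u₀ : F0')⁻¹ ∈ RwK0 A (N' * ℓ))
    (hx : Additive.ofMul (Kum.mk u) ∈ kerRed (N' * ℓ) A p)
    (Q : Place kA (FresBar N' A)) :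
    (p : ℤ) ∣ Q.ord (Fermat.Agent.GB.A4.Finite.rho1 hℓN hA ⟨(u₀ : F0'), hu1⟩) := by
  have hu : ((u : (FK (N' * ℓ))ˣ) : FK (N' * ℓ)) ∈ (redDataBar (N' * ℓ) A).Rw := by
    rw [← hu₀, coe_mapU]
    exact (Fermat.Agent.GL.Val.SecondK0.mem_Rw1K0_iff A (N' * ℓ) _).1 hu1
  have hu' : (((u : (FK (N' * ℓ))ˣ)⁻¹ : (FK (N' * ℓ))ˣ) : FK (N' * ℓ)) ∈
      (redDataBar (N' * ℓ) A).Rw := by
    rw [← hu₀, ← map_inv, coe_mapU, Units.val_inv_eq_inv_val]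
    exact (Fermat.Agent.GL.Val.SecondK0.mem_Rw1K0_iff A (N' * ℓ) _).1 hu1'
  obtain ⟨κ, w, hκ, hw⟩ := exists_cstPow_of_mem_kerRed A u hu hu' hx
  have e1 : rho1K0 A (N' * ℓ) ⟨(u₀ : F0'), hu1⟩ =
      (redDataBar (N' * ℓ) A).red ⟨((u : (FK (N' * ℓ))ˣ) : FK (N' * ℓ)), hu⟩ := by
    rw [rho1K0_apply]
    congr 1
    apply Subtype.ext
    show mapK0Bar A (N' * ℓ) (u₀ : F0') = ((u : (FK (N' * ℓ))ˣ) : FK (N' * ℓ))
    rw [← hu₀, coe_mapU]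
  rw [Fermat.Agent.GB.A4.Finite.rho1_apply, e1, hw, map_mul, map_pow, AlgHom.commutes]
  have hw0 : fresIncl N' ℓ A hℓN hA ((w : (FresBar (N' * ℓ) A)ˣ) : FresBar (N' * ℓ) A) ≠ 0 := by
    intro h0
    exact w.ne_zero ((map_eq_zero_iff _ (fresIncl N' ℓ A hℓN hA).toRingHom.injective).mp h0)
  have hκ0 : algebraMap kA (FresBar N' A) κ ≠ 0 := by
    rw [Ne, map_eq_zero_iff _ (algebraMap kA (FresBar N' A)).injective]
    exact hκ
  rw [Place.ord_mul _ hκ0 (pow_ne_zero _ hw0), ord_const_eq_zero Q hκ, zero_add, ← zpow_natCast,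
    Place.ord_zpow]
  exact dvd_mul_right _ _

variable [IsDedekindDomain (CRing N' A)] [IsFractionRing (CRing N' A) (FresBar N' A)]

include hA in
/-- **(B-loc) at one transversal node, class form.** -/
theorem obZero_of_node (hq : ℓ.Prime) (hA' : (ℓ : Qb) ∈ A.nonunits)
    (Q : Place kA (FresBar N' A)) (hQ : ContainsB (CRing N' A) Q)
    (𝔫 : Ideal (BRingK0 N' ℓ A h)) [𝔫.IsPrime]
    (h𝔫 : ∀ b : BRingK0 N' ℓ A h, b ∈ 𝔫 ↔
      redC1K0 h hℓN hA b ∈ (primeOfPlace Q hQ).asIdeal)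
    [UniqueFactorizationMonoid (Localization.AtPrime 𝔫)]
    (hnode : ∀ b : BRingK0 N' ℓ A h,
      (b : F0') ∈ (redData2K0 A (N' * ℓ) h).Rw.nonunits → b ∈ 𝔫)
    (y₂ : BRingK0 N' ℓ A h) (hy₂ : (y₂ : F0') ∈ (redData2K0 A (N' * ℓ) h).Rw.nonunits)
    (hgen : ∀ b : BRingK0 N' ℓ A h, (b : F0') ∈ (redData2K0 A (N' * ℓ) h).Rw.nonunits →
      ∃ s : BRingK0 N' ℓ A h, s ∉ 𝔫 ∧ ∃ b' : BRingK0 N' ℓ A h, s * b = y₂ * b')
    (htr : Q.ord (((redC1K0 h hℓN hA y₂ : CRing N' A)) : FresBar N' A) = 1)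
    {p : ℕ} [NeZero p] (y : Additive (Kum Kb (FK (N' * ℓ)) p))
    (hyI : y ∈ invSub (M := N' * ℓ) A p) (hy1 : y ∈ kerRed (N' * ℓ) A p) :
    ObZero h A p hq hA' y := by
  have hF := frame_BRingK0 h hA
  have hR0 : ∀ c : K0 A, c ∈ R0 A → algebraMap (K0 A) F0' c ∈ BRingK0 N' ℓ A h :=
    fun c hc => algebraMap_mem_BRingK0 N' ℓ A h ⟨c, hc⟩
  -- the normalised representative
  obtain ⟨u, u₀, rfl, hu₀, h0⟩ := exists_rep_ord₁_zero A hq hA' y hyI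
  obtain ⟨hu1, hu1'⟩ := mem_of_ord₁_zero A hq hA' u₀ h0
  have hd1 := dvd_ord_rho1_of_mem_kerRed hℓN hA u u₀ hu₀ hu1 hu1' hy1 Q
  -- `y₂ ≠ 0`, `red₁ y₂ ≠ 0`
  have hrd1 : redC1K0 h hℓN hA y₂ ≠ 0 := by
    intro h0'
    rw [h0'] at htr
    have : Q.ord ((0 : CRing N' A) : FresBar N' A) = 0 := Place.ord_zero Q
    omega
  have hy0 : (y₂ : F0') ≠ 0 := by
    intro h0'
    apply hrd1
    have : y₂ = 0 := Subtype.ext h0'
    rw [this, map_zero]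
  -- `ord₂ y₂ = 1`, `ord₁ y₂ = 0`
  have hyo2 := ord₂_eq_one_of_gen (h := h) hq hA' hF hR0 𝔫 hnode y₂ hy₂ hgen hy0
  have hyo1 : ord₁ A (N' * ℓ) hq hA' (Units.mk0 (y₂ : F0') hy0) = 0 := by
    obtain ⟨i1, i2, i3, f, hf1, hf2, hf3⟩ := hF
    have hW0 : W2 A (N' * ℓ) h 0 = RwK0 A (N' * ℓ) := rfl
    have hyW : (y₂ : F0') ∈ RwK0 A (N' * ℓ) := by
      have h1 : (y₂ : F0') ∈ V1 F0' (f 0) := algebraMap_mem_V1 (f 0) y₂
      rw [hf1 0] at h1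
      exact h1
    unfold ord₁
    have h1 : 0 ≤ ordZ (isUnifOf₁ A (N' * ℓ) hq hA') (Units.mk0 (y₂ : F0') hy0) :=
      (ordZ_nonneg_iff _ _).mpr hyW
    have h2 : ¬ 0 < ordZ (isUnifOf₁ A (N' * ℓ) hq hA') (Units.mk0 (y₂ : F0') hy0) := fun hpos =>
      hrd1 ((redC1K0_eq_zero_iff h hA hℓN).mpr ((ordZ_pos_iff _ _).mp hpos))
    omega
  -- the twisted unit
  set ν : ℤ := ord₂ A (N' * ℓ) h hq hA' u₀ with hν
  have hunit : u₀ * (Units.mk0 (y₂ : F0') hy0) ^ (-ν) ∈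
      (redData2K0 A (N' * ℓ) h).Rw.unitGroup := by
    apply (ordZ_eq_zero_iff (isUnifOf₂ A (N' * ℓ) h hq hA') _).mp
    have e2 : ordZ (isUnifOf₂ A (N' * ℓ) h hq hA') (Units.mk0 (y₂ : F0') hy0) = 1 := hyo2
    have e3 : ordZ (isUnifOf₂ A (N' * ℓ) h hq hA') u₀ = ν := rfl
    rw [ordZ_mul, ordZ_zpow, e2, e3]
    ring
  have hUO := (unitOf_iff_mem_unitGroup _ _).mpr hunit
  have ecoe : ((u₀ * (Units.mk0 (y₂ : F0') hy0) ^ (-ν) : (F0 A (N' * ℓ))ˣ) : F0') =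
      (u₀ : F0') * (y₂ : F0') ^ (-ν) := by
    rw [Units.val_mul, Units.val_zpow_eq_zpow_val, Units.val_mk0]
  have hu2 : (u₀ : F0') * (y₂ : F0') ^ (-ν) ∈ (redData2K0 A (N' * ℓ) h).Rw := by
    rw [← ecoe]; exact hUO.1
  have hu2' : ((u₀ : F0') * (y₂ : F0') ^ (-ν))⁻¹ ∈ (redData2K0 A (N' * ℓ) h).Rw := by
    rw [← ecoe, ← Units.val_inv_eq_inv_val]; exact hUO.2
  have hK : Units.map (mapK0Bar A (N' * ℓ) : _ →* FK (N' * ℓ)) u₀ ∈
      pDivUnits Kb (FK (N' * ℓ)) p := by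
    have : Units.map (mapK0Bar A (N' * ℓ) : _ →* FK (N' * ℓ)) u₀ = (u : (FK (N' * ℓ))ˣ) := hu₀
    rw [this]
    exact u.2
  have key := dvd_ord_sub_of_ufd hA hF hR0 (Fermat.Agent.GB.A4.Finite.rho1 hℓN hA)
    (rho1_eq_zero_iff hℓN hA) (redC1K0 h hℓN hA) (fun b hb => coe_redC1K0 h hℓN hA b hb) Q hQ
    𝔫 h𝔫 p u₀ hu1 hu1' y₂ hrd1 hgen ν hu2 hu2' hK
  have htr' : Q.ord (algebraMap (CRing N' A) (FresBar N' A) (redC1K0 h hℓN hA y₂)) = 1 := htr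
  rw [htr', mul_one] at key
  have hdν : (p : ℤ) ∣ ν := by
    obtain ⟨k1, hk1⟩ := hd1
    obtain ⟨k2, hk2⟩ := key
    exact ⟨k1 - k2, by linarith⟩
  -- conclusion
  have hνu : nu A (N' * ℓ) h hq hA' u₀ = ν := nu_eq_ord₂_of_ord₁_zero h A hq hA' u₀ h0
  have hνy : nu A (N' * ℓ) h hq hA' (Units.mk0 (y₂ : F0') hy0) = 1 := by
    unfold nu
    rw [hyo2, hyo1, sub_zero]
  exact obZero_of_dvd_nu h A hq hA' u u₀ hu₀ _ hνy (hνu ▸ hdν)

include hA in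
/-- **(B-loc) at one transversal node**: `CountL4T.ObLoc`. -/
theorem obLoc_of_node (hq : ℓ.Prime) (hA' : (ℓ : Qb) ∈ A.nonunits)
    (Q : Place kA (FresBar N' A)) (hQ : ContainsB (CRing N' A) Q)
    (𝔫 : Ideal (BRingK0 N' ℓ A h)) [𝔫.IsPrime]
    (h𝔫 : ∀ b : BRingK0 N' ℓ A h, b ∈ 𝔫 ↔
      redC1K0 h hℓN hA b ∈ (primeOfPlace Q hQ).asIdeal)
    [UniqueFactorizationMonoid (Localization.AtPrime 𝔫)]
    (hnode : ∀ b : BRingK0 N' ℓ A h,
      (b : F0') ∈ (redData2K0 A (N' * ℓ) h).Rw.nonunits → b ∈ 𝔫)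
    (y₂ : BRingK0 N' ℓ A h) (hy₂ : (y₂ : F0') ∈ (redData2K0 A (N' * ℓ) h).Rw.nonunits)
    (hgen : ∀ b : BRingK0 N' ℓ A h, (b : F0') ∈ (redData2K0 A (N' * ℓ) h).Rw.nonunits →
      ∃ s : BRingK0 N' ℓ A h, s ∉ 𝔫 ∧ ∃ b' : BRingK0 N' ℓ A h, s * b = y₂ * b')
    (htr : Q.ord (((redC1K0 h hℓN hA y₂ : CRing N' A)) : FresBar N' A) = 1)
    (p : ℕ) [NeZero p] :
    Fermat.Agent.GE8.SQ2.CountL4T.ObLoc h A p hq hA' := fun y hyI hy1 _ =>
  obZero_of_node h hℓN hA hq hA' Q hQ 𝔫 h𝔫 hnode y₂ hy₂ hgen htr y hyI hy1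

end Node

end Fermat.Agent.GE8.SQ2.CountObLocNode
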