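/-
GATE-E / E8.SQ toric side, node (B-loc) of helper29 7177, final (helper94, second seat of
helper68): **`ObLoc` at level `N' ℓ`, binder-free** (modulo the four side conditions of CASE A4).

* `le_ord_iff_mem_pow` : `n ≤ ord_Q b ↔ b ∈ P ^ n` (`P` the centre of `Q` on the Dedekind ring `C`);
* `ord_eq_one_of_pow`  : TRANSVERSALITY, abstract: `g ∈ P^n`, `g ∣ t^n` with `t ∈ P ∖ P²`,
  `x^n = g c`, `c ∉ P`  ⟹  `ord_Q x = 1`;
* `exists_node`        : a node exists (`(pH(j~)) = J'^12` has `(ℓ − 1) ψ(N') > 0` prime factors);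
* `obLoc_fin`          : `CountL4T.ObLoc h A p hq hA'` (every `p`).
-/
import Fermat.Agent.GE8.SQ2.CountObLocNode
import Fermat.Agent.GL.Thick.PlaceDictC
import Fermat.Agent.GK.Flat.GenusIneq

set_option autoImplicit false
set_option linter.unusedSectionVars false
set_option linter.unusedVariables false

noncomputable section

namespace Fermat.Agent.GE8.SQ2.CountObLocFin

open ModularCurve IsLocalRing AlgebraicCurve IsDedekindDomain
open Fermat.Agent.GL.KrullHeightOne Fermat.Agent.GL.Frame.HeightOne Fermat.Agent.GL.Frame.Kummer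
open Fermat.Agent.GL.Val.GaussK0 Fermat.Agent.GL.Val.SecondK0
open Fermat.Agent.GL.Local.InertiaField
open Fermat.Agent.GJ.KumGroup Fermat.Agent.GJ.Kum.KumType Fermat.Agent.GJ.J1 Fermat.Agent.GJ.J1.Val
open Fermat.Agent.GK.AL Fermat.Agent.GL.AL Fermat.Agent.GK.UqKronecker
open Fermat.Agent.Common_helper32
open Fermat.Agent.S24_helper6
open Fermat.Agent.GB.A4.FrameTwo Fermat.Agent.GB.A4.LocalKummer Fermat.Agent.GB.A4.ChartStep
open Fermat.Agent.GB.A4.Finite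
open Fermat.Agent.GL.BRingK0 Fermat.Agent.GL.BRingChart
open Fermat.Agent.GE8.SQ2.CountObLocNode

attribute [local instance] Fermat.Agent.GL.Frame.InstK0.algSubringFullC

/-! ### `ord_Q` and the powers of the centre -/

section Ord

variable {k Fb C : Type*} [Field k] [Field Fb] [Algebra k Fb] [CommRing C] [IsDedekindDomain C]
  [Algebra k C] [Algebra C Fb] [IsScalarTower k C Fb] [IsFractionRing C Fb]

/-- `n ≤ ord_Q b ↔ b ∈ P ^ n`. -/
theorem le_ord_iff_mem_pow (Q : Place k Fb) (hQ : ContainsB C Q) {b : C} (hb : b ≠ 0) (n : ℕ) :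
    (n : ℤ) ≤ Q.ord (algebraMap C Fb b) ↔ b ∈ (primeOfPlace Q hQ).asIdeal ^ n := by
  rw [ord_eq_of_containsB Q hQ, HeightOneSpectrum.valuation_of_algebraMap,
    ← HeightOneSpectrum.intValuation_le_pow_iff_mem, le_neg,
    WithZero.log_le_iff_le_exp (HeightOneSpectrum.intValuation_ne_zero _ b hb)]

/-- **transversality, abstract.** -/
theorem ord_eq_one_of_pow (Q : Place k Fb) (hQ : ContainsB C Q) {n : ℕ} (hn : n ≠ 0)
    {g t x c : C} (hg0 : g ≠ 0) (hgP : g ∈ (primeOfPlace Q hQ).asIdeal ^ n)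
    (ht : t ∈ (primeOfPlace Q hQ).asIdeal) (ht2 : t ∉ (primeOfPlace Q hQ).asIdeal ^ 2)
    (hgt : g ∣ t ^ n) (hx : x ^ n = g * c) (hc : c ∉ (primeOfPlace Q hQ).asIdeal) :
    Q.ord (algebraMap C Fb x) = 1 := by
  have hinj : Function.Injective (algebraMap C Fb) := IsFractionRing.injective C Fb
  have ht0 : t ≠ 0 := fun h0 => ht2 (h0 ▸ Ideal.zero_mem _)
  have hc0 : c ≠ 0 := fun h0 => hc (h0 ▸ Ideal.zero_mem _)
  have hx0 : x ≠ 0 := by
    intro h0
    rw [h0, zero_pow hn] at hx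
    exact mul_ne_zero hg0 hc0 hx.symm
  -- `ord t = 1`
  have hot : Q.ord (algebraMap C Fb t) = 1 := by
    have h1 : ((1 : ℕ) : ℤ) ≤ Q.ord (algebraMap C Fb t) :=
      (le_ord_iff_mem_pow Q hQ ht0 1).mpr (by rw [pow_one]; exact ht)
    have h2 : ¬ ((2 : ℕ) : ℤ) ≤ Q.ord (algebraMap C Fb t) := fun h =>
      ht2 ((le_ord_iff_mem_pow Q hQ ht0 2).mp h)
    push_cast at h1 h2
    omega
  -- `ord g = n`
  obtain ⟨d, hd⟩ := hgt
  have hd0 : d ≠ 0 := by
    rintro rfl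
    rw [mul_zero] at hd
    exact pow_ne_zero n ht0 hd
  have hog : Q.ord (algebraMap C Fb g) = n := by
    have h1 : (n : ℤ) ≤ Q.ord (algebraMap C Fb g) := (le_ord_iff_mem_pow Q hQ hg0 n).mpr hgP
    have h2 : ((0 : ℕ) : ℤ) ≤ Q.ord (algebraMap C Fb d) :=
      (le_ord_iff_mem_pow Q hQ hd0 0).mpr (by rw [pow_zero, Ideal.one_eq_top]; trivial)
    have h3 := congrArg (fun z => Q.ord (algebraMap C Fb z)) hd
    simp only [map_mul, map_pow] at h3
    rw [← zpow_natCast, Place.ord_zpow, hot,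
      Place.ord_mul _ ((map_ne_zero_iff _ hinj).mpr hg0) ((map_ne_zero_iff _ hinj).mpr hd0)] at h3
    push_cast at h2
    omega
  -- `n · ord x = n`
  have h4 := congrArg (fun z => Q.ord (algebraMap C Fb z)) hx
  simp only [map_mul, map_pow] at h4
  rw [← zpow_natCast, Place.ord_zpow,
    Place.ord_mul _ ((map_ne_zero_iff _ hinj).mpr hg0) ((map_ne_zero_iff _ hinj).mpr hc0), hog,
    ord_algebraMap_eq_zero Q hQ hc, add_zero] at h4
  have hn' : (n : ℤ) ≠ 0 := by exact_mod_cast hn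
  have h5 : (n : ℤ) * Q.ord (algebraMap C Fb x) = (n : ℤ) * 1 := by rw [mul_one]; exact h4
  exact mul_left_cancel₀ hn' h5

end Ord

/-! ### the concrete node -/

section Fin

open Polynomial UniqueFactorizationMonoid
open Fermat.Agent.GK.QS Fermat.Agent.GK.FrobGlue
open Fermat.Agent.GL.Thick Fermat.Agent.GL.EtaK0 Fermat.Agent.GL.Eta Fermat.Agent.GL.EtaInstK0B
  Fermat.Agent.GL.EtaInstK0Aux Fermat.Agent.GL.SmallQ

variable {A : ValuationSubring Qb} {N' : ℕ} [NeZero N'] {ℓ : ℕ} [Fact ℓ.Prime] [NeZero ℓ]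
  (h : ExactDvd ℓ (N' * ℓ)) (hℓN : ¬ ℓ ∣ N') (hA : A.LiesOverPrime ℓ)

local notation "F0'" => modularFunctionFieldFullC (K0 A) (N' * ℓ)
local notation "kA" => IsLocalRing.ResidueField A

include hA in
/-- **a node exists**: the ideal `J'` of the nodes is proper. -/
theorem ideal_ne_top (h2 : ℓ = 2 → 3 ∣ N') (h3 : ℓ = 3 → 2 ∣ N')
    (hν2 : nuTwo N' = 0) (hν3 : nuThree N' = 0)
    {J' : Ideal (CRing N' A)} (hJ : fixIdeal (psiC N' ℓ A hℓN hA) ≤ J')
    (hBT : BT N' ℓ A h = gluedAlg (psiC N' ℓ A hℓN hA) J') : J' ≠ ⊤ := by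
  have : IsDedekindDomain (CRing N' A) :=
    Fermat.Agent.GK.SS.Modular.isDedekindDomain_CRing N' ℓ A hA
  intro htop
  have hspan := span_ssPolyAll_eq_pow_B h hℓN hA h2 h3 hν2 hν3 hJ hBT
  have hcard := Fermat.Agent.GL.Thick.CountB.card_zeros_ssPolyAll (N' := N') (ℓ := ℓ) (A := A)
    hℓN hA
  rw [hspan, htop, Ideal.top_pow, ← Ideal.one_eq_top, normalizedFactors_one,
    Multiset.card_zero] at hcard
  have hℓ : 2 ≤ ℓ := (Fact.out : ℓ.Prime).two_le
  have hψ : 0 < dedekindPsi N' :=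
    Fermat.Agent.GK.Flat.GenusIneq.dedekindPsi_pos' (Nat.pos_of_ne_zero (NeZero.ne N'))
  have : 0 < (ℓ - 1) * dedekindPsi N' := Nat.mul_pos (by omega) hψ
  omega

include hℓN hA in
/-- **(B-loc), level `N' ℓ`, every `p`.** -/
theorem obLoc_fin (h2 : ℓ = 2 → 3 ∣ N') (h3 : ℓ = 3 → 2 ∣ N')
    (hν2 : nuTwo N' = 0) (hν3 : nuThree N' = 0)
    (hq : ℓ.Prime) (hA' : (ℓ : Qb) ∈ A.nonunits) (p : ℕ) [NeZero p] :
    Fermat.Agent.GE8.SQ2.CountL4T.ObLoc h A p hq hA' := by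
  have : IsDedekindDomain (CRing N' A) :=
    Fermat.Agent.GK.SS.Modular.isDedekindDomain_CRing N' ℓ A hA
  have : IsFractionRing (CRing N' A) (FresBar N' A) :=
    Fermat.Agent.GL.SmallQ.isFractionRing_CRing N' A
  have : CharP kA ℓ := charP_residue A Fact.out hA
  obtain ⟨J', hJ, hBT, -, -, -, hmap⟩ := exists_ideal_K0 h hℓN hA h2 h3
  -- a node
  obtain ⟨P, hPmax, hJP⟩ := Ideal.exists_le_maximal J' (ideal_ne_top h hℓN hA h2 h3 hν2 hν3 hJ hBT)
  have hg0 : aeval (jtC N' A) (ssPolyAll ℓ kA) ≠ 0 := aeval_jtC_ne_zero (ssPolyAll_ne_zero ℓ kA)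
  have hgJ : aeval (jtC N' A) (ssPolyAll ℓ kA) ∈ J' := ssPolyAll_mem_ideal hℓN hA hBT
  have hP0 : P ≠ ⊥ := fun h0 => hg0 ((Submodule.mem_bot _).mp (h0 ▸ hJP hgJ))
  set v : HeightOneSpectrum (CRing N' A) := ⟨P, hPmax.isPrime, hP0⟩ with hv
  have hJv : J' ≤ v.asIdeal := hJP
  set Q : Place kA (FresBar N' A) := placeOfPrime v with hQdef
  have hQ : ContainsB (CRing N' A) Q := containsB_placeOfPrime v
  have hPQ : primeOfPlace Q hQ = v := primeOfPlace_placeOfPrime v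
  have hPQ' : (primeOfPlace Q hQ).asIdeal = P := by rw [hPQ]
  -- the local generator
  obtain ⟨y, hy, c, hyg, hc⟩ := exists_lift_pow_eq_K0_B h hℓN hA h2 h3 hν2 hν3 hJ hBT v hJv
  have hge0 := etaBK0_ne_zero h hℓN hA
  have hc0 : c ≠ 0 := fun h0 => hc (by rw [h0, map_zero]; exact Ideal.zero_mem _)
  have hy0 : y ≠ 0 := by
    intro h0
    rw [h0, zero_pow (by norm_num)] at hyg
    exact mul_ne_zero hge0 hc0 hyg.symm
  -- the closed point of the chart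
  have hF := frame_BRingK0 h hA
  have hvp : v.asIdeal.IsPrime := v.isPrime
  set 𝔫 : Ideal (BRingK0 N' ℓ A h) := Ideal.comap (redC1K0 h hℓN hA) v.asIdeal with h𝔫def
  have h𝔫p : 𝔫.IsPrime := Ideal.comap_isPrime _ _
  have h𝔫 : ∀ b : BRingK0 N' ℓ A h, b ∈ 𝔫 ↔
      redC1K0 h hℓN hA b ∈ (primeOfPlace Q hQ).asIdeal := by
    intro b
    rw [hPQ]
    exact Iff.rfl
  have hnode : ∀ b : BRingK0 N' ℓ A h,
      (b : F0') ∈ (redData2K0 A (N' * ℓ) h).Rw.nonunits → b ∈ 𝔫 := by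
    intro b hb
    have hb2 : b ∈ P2K0 h hℓN hA := (mem_P2K0_iff h hℓN hA).2 hb
    have : redC1K0 h hℓN hA b ∈ J' := by
      rw [← hmap]
      exact Ideal.mem_map_of_mem _ hb2
    exact hJv this
  have hc𝔫 : c ∉ 𝔫 := hc
  have hufd : UniqueFactorizationMonoid (Localization.AtPrime 𝔫) := by
    refine ufd_node_of_frame hF (redC2K0 h hℓN hA) (redC2K0_surjective hℓN hA h2 h3)
      (fun b => ?_) 𝔫 hnode (n := 12) (by norm_num) (fun z hz => ?_)
      ((mem_P2K0_iff h hℓN hA).1 hy) hyg hc𝔫 hy0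
    · rw [← mem_P2K0_iff h hℓN hA, mem_P2K0]
    · exact etaBK0_dvd_pow h hℓN hA ((mem_P2K0_iff h hℓN hA).2 hz)
  have hgen : ∀ b : BRingK0 N' ℓ A h, (b : F0') ∈ (redData2K0 A (N' * ℓ) h).Rw.nonunits →
      ∃ s : BRingK0 N' ℓ A h, s ∉ 𝔫 ∧ ∃ b' : BRingK0 N' ℓ A h, s * b = y * b' := by
    obtain ⟨i1, i2, i3, -⟩ := hF
    intro b hb
    exact exists_mul_eq_of_pow (F := F0') 𝔫 (P := P2K0 h hℓN hA) (n := 12) (by norm_num)
      (fun z hz => etaBK0_dvd_pow h hℓN hA hz) hy hyg hc𝔫 ((mem_P2K0_iff h hℓN hA).2 hb)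
  -- transversality
  obtain ⟨t, htJ, ht2⟩ : ∃ t ∈ J', t ∉ P ^ 2 := by
    have := not_ideal_le_sq hℓN hA hJ P hPmax
    exact SetLike.not_le_iff_exists.mp this
  have htr : Q.ord (((redC1K0 h hℓN hA y : CRing N' A)) : FresBar N' A) = 1 := by
    refine ord_eq_one_of_pow Q hQ (n := 12) (by norm_num)
      (g := aeval (jtC N' A) (ssPolyAll ℓ kA)) (t := t) (c := redC1K0 h hℓN hA c) hg0 ?_ ?_ ?_
      (ssPolyAll_dvd_pow_of_mem_ideal hℓN hA hBT htJ) ?_ ?_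
    · rw [hPQ']
      exact ssPolyAll_mem_pow_twelve_B h hℓN hA h2 h3 hν2 hν3 hJ hBT hJv
    · rw [hPQ']
      exact hJP htJ
    · rw [hPQ']
      exact ht2
    · rw [← map_pow, hyg, map_mul, Fermat.Agent.GL.EtaInstK0.redC1K0_etaBK0]
    · rw [hPQ']
      exact hc
  exact obLoc_of_node h hℓN hA hq hA' Q hQ 𝔫 h𝔫 hnode y ((mem_P2K0_iff h hℓN hA).1 hy) hgen htr p

end Fin

end Fermat.Agent.GE8.SQ2.CountObLocFin
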