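/-
GATE-E / E8.SQ toric side, node (E1) = TORIC-EXIST by COUNTING, **binder-free** (helper94).

Level `N' q`, `q ∤ N'`, `A | q`, `p ≠ q` prime, the four side conditions of CASE A4.  All three
slices of helper29's `CountStmt.pow_le_card_T0` are discharged:

* `(L2)` `CountL23Plug.l2Stmt`;
* `(L3)` `CountL23Plug.l3Stmt` with `GB/A/A4/Main.nodeHyp` and `CountFresFin`;
* `(L4)` `CountL4T.l4Stmt_of_obLoc` with `(B-loc) = CountObLocFin.obLoc_fin`;

and the numerical inputs by helper68's `CountAsm.pow_le_card_T0_nodes`: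

  `pow_le_card_T0_fin : p ^ (#nodes J' − 1) ≤ #T0`.
-/
import Fermat.Agent.GE8.SQ2.CountObLocFin
import Fermat.Agent.GE8.SQ2.CountAsm
import Fermat.Agent.GE8.SQ2.CountFresFin
import Fermat.Agent.GE8.SQ2.CountL23Plug
import Fermat.Agent.GB.A.A4.Main

set_option autoImplicit false
set_option linter.unusedSectionVars false
set_option linter.unusedVariables false

noncomputable section

namespace Fermat.Agent.GE8.SQ2.CountFin

open CongruenceSubgroup ModularCurve IsLocalRing AlgebraicCurve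
open Fermat.Agent.S24 Fermat.Agent.RRh45 Fermat.Agent.GK.CuspSep Fermat.Agent.GJ.J1.InstGen
open Fermat.Agent.GJ.KumGroup Fermat.Agent.GJ.Kum.KumType Fermat.Agent.GJ.J1 Fermat.Agent.GJ.J1.Val
open Fermat.Agent.GK.AL Fermat.Agent.GK.QS Fermat.Agent.GK.FrobGlue
open Fermat.Agent.GE8.SQ2.CountStmt

variable (N' : ℕ) [NeZero N'] (q : ℕ) [hqF : Fact q.Prime] [NeZero q]
variable (A : ValuationSubring Kbar) (h : ExactDvd q (N' * q))
variable (hqN : ¬ q ∣ N') (hA : A.LiesOverPrime q)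

include hqN hA in
/-- the three slices at level `N' q`. -/
theorem slices (h2 : q = 2 → 3 ∣ N') (h3 : q = 3 → 2 ∣ N')
    (hν2 : nuTwo N' = 0) (hν3 : nuThree N' = 0)
    (p : ℕ) [hpF : Fact p.Prime] (hpq : p ≠ q) (hq : q.Prime) (hA' : (q : Kb) ∈ A.nonunits) :
    L2Stmt h A p hq hA' ∧ L3Stmt h A p hq hA' ∧ L4Stmt h A p := by
  have : NeZero p := ⟨hpF.out.ne_zero⟩
  have : Finite (Kum (IsLocalRing.ResidueField A) (FresBar (N' * q) A) p) :=
    Fermat.Agent.GE8.SQ2.CountFresFin.finite_kum_FresBar_mul_prime N' q A h hqN hA h2 h3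
      hpF.out hpq
  refine ⟨Fermat.Agent.GE8.SQ2.CountL23Plug.l2Stmt h A p hq hA',
    Fermat.Agent.GE8.SQ2.CountL23Plug.l3Stmt h A p hq hA'
      (Fermat.Agent.GB.A4.Main.nodeHyp h hqN hA h2 h3 hν2 hν3 p),
    Fermat.Agent.GE8.SQ2.CountL4T.l4Stmt_of_obLoc h A p hq hA' hpq
      (Fermat.Agent.GE8.SQ2.CountObLocFin.obLoc_fin h hqN hA h2 h3 hν2 hν3 hq hA' p)⟩

include hqN hA in
/-- **TORIC-EXIST by counting, binder-free**: `p ^ (#nodes J' − 1) ≤ #T0`. -/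
theorem pow_le_card_T0_fin (h2 : q = 2 → 3 ∣ N') (h3 : q = 3 → 2 ∣ N')
    (hν2 : nuTwo N' = 0) (hν3 : nuThree N' = 0)
    {J' : Ideal (CRing N' A)} (hJ : fixIdeal (psiC N' q A hqN hA) ≤ J')
    (hBT : BT N' q A h = gluedAlg (psiC N' q A hqN hA) J')
    (p : ℕ) [hpF : Fact p.Prime] (hpq : p ≠ q) (hq : q.Prime) (hA' : (q : Kb) ∈ A.nonunits) :
    p ^ ((nodes J').ncard - 1) ≤ Nat.card (T0 h A p) := by
  obtain ⟨hL2, hL3, hL4⟩ := slices N' q A h hqN hA h2 h3 hν2 hν3 p hpq hq hA'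
  exact Fermat.Agent.GE8.SQ2.CountAsm.pow_le_card_T0_nodes N' q A h hqN hA h2 h3 hJ hBT p hpq
    hq hA' hL2 hL3 hL4

include hqN hA in
/-- the same with the ideal of the nodes produced by `exists_ideal_K0`. -/
theorem exists_ideal_pow_le_card_T0_fin (h2 : q = 2 → 3 ∣ N') (h3 : q = 3 → 2 ∣ N')
    (hν2 : nuTwo N' = 0) (hν3 : nuThree N' = 0)
    (p : ℕ) [hpF : Fact p.Prime] (hpq : p ≠ q) (hq : q.Prime) (hA' : (q : Kb) ∈ A.nonunits) :
    ∃ J' : Ideal (CRing N' A), fixIdeal (psiC N' q A hqN hA) ≤ J' ∧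
      BT N' q A h = gluedAlg (psiC N' q A hqN hA) J' ∧
      p ^ ((nodes J').ncard - 1) ≤ Nat.card (T0 h A p) := by
  obtain ⟨J', hJ, hBT, -⟩ := Fermat.Agent.GL.BRingK0.exists_ideal_K0 h hqN hA h2 h3
  exact ⟨J', hJ, hBT, pow_le_card_T0_fin N' q A h hqN hA h2 h3 hν2 hν3 hJ hBT p hpq hq hA'⟩

end Fermat.Agent.GE8.SQ2.CountFin
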