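/-
GATE-E / E8.SQ toric side, leaf (J7a) of helper29's 7257 — helper9.

**The supersingular points of the chart ring of level `N' q` inject into the nodes of the glueing
ideal**: `q ∥ N' q`, `A ∣ q`, `B' = BK0 A (N' q) = chartRing R₀ j` (`= BRingK0 N' q A h`),
`T' = TK0' A N' hq` the closed points of the special fibre of `B'` at which the lifted
supersingular polynomial `sK0(j)` vanishes, `C = CRing N' A`, `J'` the ideal of the nodes
(`BRingK0.exists_ideal_K0`: `fixIdeal Ψ ≤ J'`, `BT = gluedAlg Ψ J'`). Then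

  `Nat.card (TK0' A N' hq) ≤ (nodes J').ncard`.

The map is `n' ↦ red₁ (n')` (`nodeOf`): `n'` contains both vertical primes `P'₁ = ker red₁`,
`P'₂ = ker red₂` (helper47 `ClassifyK0Ker.hker_lower`), so `red₁ (n')` is a maximal ideal of `C`
(`red₁` onto, `ker red₁ ≤ n'`) containing `red₁ (P'₂) = J'`, and `n' = red₁⁻¹ (red₁ n')`.

* `comapPt`, `isMaximal_comapPt`, `P1K0_le_comapPt`, `P2K0_le_comapPt`;
* `nodeOf`, `nodeOf_mem_nodes`, `nodeOf_injective`;
* `finite_nodes_CRing`;
* **`card_TK0'_le_ncard_nodes`**, and the `∃ J'` form `exists_ideal_card_le`.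
-/
import Fermat.Agent.GL.Final.TripleInstK0Thm
import Fermat.Agent.GL.Frame.ClassifyK0Ker
import Fermat.Agent.GL.Reg.EtaInstK0B

set_option autoImplicit false
set_option linter.unusedSectionVars false
set_option linter.style.haveILetI false

noncomputable section

namespace Fermat.Agent.GE8.SQ2.NodesCard

open Polynomial HahnSeries ModularCurve IsLocalRing
open Fermat.Agent.S28 Fermat.Agent.S24 Fermat.Agent.S24_helper62
open Fermat.Agent.GJ.J1 Fermat.Agent.GJ.J1.Val
open Fermat.Agent.GK.AL Fermat.Agent.GK.QS Fermat.Agent.GK.FrobGlue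
open Fermat.Agent.GL.Val.GaussK0 Fermat.Agent.GL.Val.SecondK0 Fermat.Agent.GL.Val.DegBase
open Fermat.Agent.GL.Val.OrthK0
open Fermat.Agent.GL.BRingK0 Fermat.Agent.GL.BRingChart Fermat.Agent.GL.Thick
open Fermat.Agent.GL.Eta Fermat.Agent.GL.SmallQ
open Fermat.Agent.GL.BuildInst Fermat.Agent.GL.BuildInstPts
open Fermat.Agent.GL.Final.TriplePoints Fermat.Agent.GL.Final.TripleInstK0
open Fermat.Agent.Common_helper32

attribute [local instance 2000] instAlgR0FullC instAlgBK0FullC instAlgR0BK0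

variable (N' : ℕ) [NeZero N'] (q : ℕ) [hqF : Fact q.Prime] [NeZero q]
variable (A : ValuationSubring Kbar) (h : ExactDvd q (N' * q))
variable (hqN : ¬ q ∣ N') (hA : A.LiesOverPrime q)

local notation "kA" => IsLocalRing.ResidueField A
local notation "Fq" => modularFunctionFieldFullC (K0 A) (N' * q)

/-- the point `n'` of `B' = chartRing R₀ j` seen in `BRingK0 N' q A h` -/
def comapPt (hq : q.Prime) (n' : TK0' A N' hq) : Ideal (BRingK0 N' q A h) :=
  (ptIdeal n').comap ((bRingK0Equiv h hA : BRingK0 N' q A h ≃+* BK0 A (N' * q)) :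
    BRingK0 N' q A h →+* BK0 A (N' * q))

theorem mem_comapPt (hq : q.Prime) (n' : TK0' A N' hq) (y : BRingK0 N' q A h) :
    y ∈ comapPt N' q A h hA hq n' ↔ bRingK0Equiv h hA y ∈ ptIdeal n' := Iff.rfl

theorem isMaximal_comapPt (hq : q.Prime) (n' : TK0' A N' hq) :
    (comapPt N' q A h hA hq n').IsMaximal :=
  haveI := ptIdeal_isMaximal n'
  Ideal.comap_isMaximal_of_surjective _ (bRingK0Equiv h hA).surjective

theorem comapPt_injective (hq : q.Prime) :
    Function.Injective (comapPt N' q A h hA hq) := by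
  intro n₁ n₂ h12
  apply ptIdeal_injective
  exact Ideal.comap_injective_of_surjective _ (bRingK0Equiv h hA).surjective h12

include hqN in
/-- **both vertical primes lie in every supersingular point** (helper47 `hker_lower`) -/
theorem vert_le_comapPt (h2 : q = 2 → 3 ∣ N') (h3 : q = 3 → 2 ∣ N') (hq : q.Prime)
    (n' : TK0' A N' hq) :
    P1K0 (h := h) hqN hA ≤ comapPt N' q A h hA hq n' ∧
      P2K0 h hqN hA ≤ comapPt N' q A h hA hq n' := by
  haveI : CharP (IsLocalRing.ResidueField (R0 A)) q := charP_k0 A hq hA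
  have hs' := Fermat.Agent.GL.Frame.ClassifyK0Ker.map_resR0_of_map_residue A hA
    (sK0_map A hq hA)
  obtain ⟨hk1, hk2⟩ :=
    Fermat.Agent.GL.Frame.ClassifyK0Ker.hker_lower A N' h hqN hA h2 h3 hs' n'
  refine ⟨fun y hy => ?_, fun y hy => ?_⟩
  · rw [mem_comapPt]
    apply hk1
    rw [coe_bRingK0Equiv]
    exact (Fermat.Agent.GL.Frame.ClassifyC4K0.mem_P1K0_iff h hqN hA).1 hy
  · rw [mem_comapPt]
    apply hk2
    rw [coe_bRingK0Equiv]
    exact (mem_P2K0_iff h hqN hA).1 hy

/-- the node of `C` below a supersingular point: `red₁ (n')` -/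
def nodeOf (hq : q.Prime) (n' : TK0' A N' hq) : Ideal (CRing N' A) :=
  (comapPt N' q A h hA hq n').map (redC1K0 h hqN hA)

include hqN in
theorem comap_nodeOf (h2 : q = 2 → 3 ∣ N') (h3 : q = 3 → 2 ∣ N') (hq : q.Prime)
    (n' : TK0' A N' hq) :
    (nodeOf N' q A h hqN hA hq n').comap (redC1K0 h hqN hA) = comapPt N' q A h hA hq n' := by
  rw [nodeOf, Ideal.comap_map_of_surjective _ (redC1K0_surjective h hqN hA h2 h3)]
  exact sup_eq_left.2 (vert_le_comapPt N' q A h hqN hA h2 h3 hq n').1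

include hqN in
theorem nodeOf_injective (h2 : q = 2 → 3 ∣ N') (h3 : q = 3 → 2 ∣ N') (hq : q.Prime) :
    Function.Injective (nodeOf N' q A h hqN hA hq) := by
  intro n₁ n₂ h12
  apply comapPt_injective N' q A h hA hq
  rw [← comap_nodeOf N' q A h hqN hA h2 h3 hq n₁, ← comap_nodeOf N' q A h hqN hA h2 h3 hq n₂,
    h12]

include hqN in
/-- `red₁ (n')` is a node -/
theorem nodeOf_mem_nodes (h2 : q = 2 → 3 ∣ N') (h3 : q = 3 → 2 ∣ N') (hq : q.Prime)
    {J' : Ideal (CRing N' A)}
    (hBT : BT N' q A h = gluedAlg (psiC N' q A hqN hA) J') (n' : TK0' A N' hq) :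
    nodeOf N' q A h hqN hA hq n' ∈ nodes J' := by
  obtain ⟨h1, h2'⟩ := vert_le_comapPt N' q A h hqN hA h2 h3 hq n'
  have hsurj := redC1K0_surjective h hqN hA h2 h3
  haveI := isMaximal_comapPt N' q A h hA hq n'
  refine ⟨?_, ?_⟩
  · rcases Ideal.map_eq_top_or_isMaximal_of_surjective (redC1K0 h hqN hA) hsurj
      (isMaximal_comapPt N' q A h hA hq n') with htop | hmax
    · exfalso
      have hc := comap_nodeOf N' q A h hqN hA h2 h3 hq n'
      rw [nodeOf, htop, Ideal.comap_top] at hc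
      exact (isMaximal_comapPt N' q A h hA hq n').ne_top hc.symm
    · exact hmax
  · rw [← map_P2K0_eq h hqN hA hBT]
    exact Ideal.map_mono h2'

include hqN hA in
/-- the set of nodes is finite -/
theorem finite_nodes_CRing {J' : Ideal (CRing N' A)}
    (hBT : BT N' q A h = gluedAlg (psiC N' q A hqN hA) J') : (nodes J').Finite := by
  haveI : IsDedekindDomain (CRing N' A) :=
    Fermat.Agent.GK.SS.Modular.isDedekindDomain_CRing N' q A hA
  haveI : CharP kA q := charP_residue A Fact.out hA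
  have hJ0 : J' ≠ ⊥ := fun h0 =>
    aeval_jtC_ne_zero (ssPolyAll_ne_zero q kA)
      ((Submodule.mem_bot _).mp (h0 ▸ ssPolyAll_mem_ideal hqN hA hBT))
  exact finite_nodes (Fermat.Agent.GK.SS.Modular.not_isField_CRing N' A) hJ0

include hqN in
/-- **(J7a)**: `#T' ≤ #nodes`. -/
theorem card_TK0'_le_ncard_nodes (h2 : q = 2 → 3 ∣ N') (h3 : q = 3 → 2 ∣ N') (hq : q.Prime)
    {J' : Ideal (CRing N' A)}
    (hBT : BT N' q A h = gluedAlg (psiC N' q A hqN hA) J') :
    Nat.card (TK0' A N' hq) ≤ (nodes J').ncard := by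
  haveI : Finite ↥(nodes J') := (finite_nodes_CRing N' q A h hqN hA hBT).to_subtype
  rw [← Nat.card_coe_set_eq]
  refine Nat.card_le_card_of_injective
    (fun n' => (⟨nodeOf N' q A h hqN hA hq n',
      nodeOf_mem_nodes N' q A h hqN hA h2 h3 hq hBT n'⟩ : ↥(nodes J'))) ?_
  intro n₁ n₂ h12
  exact nodeOf_injective N' q A h hqN hA h2 h3 hq (congrArg Subtype.val h12)

include hqN in
/-- the `∃ J'` form, with the `J'` of `BRingK0.exists_ideal_K0` -/
theorem exists_ideal_card_le (h2 : q = 2 → 3 ∣ N') (h3 : q = 3 → 2 ∣ N') (hq : q.Prime) :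
    ∃ J' : Ideal (CRing N' A), fixIdeal (psiC N' q A hqN hA) ≤ J' ∧
      BT N' q A h = gluedAlg (psiC N' q A hqN hA) J' ∧
      Nat.card (TK0' A N' hq) ≤ (nodes J').ncard := by
  obtain ⟨J', hJ, hBT, -⟩ := exists_ideal_K0 h hqN hA h2 h3
  exact ⟨J', hJ, hBT, card_TK0'_le_ncard_nodes N' q A h hqN hA h2 h3 hq hBT⟩

end Fermat.Agent.GE8.SQ2.NodesCard
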