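/-
GATE-E (S59) / E8.2 SQ / TOR-OLD leaf (J7b) of helper29 (board 7257) — helper99.

Level `M = M' q` with `q ∤ M'`, `A ∣ q`, `K₀ = ℚ̄^{I_A}`, `E₀ = K₀(X₀(M' q))`.

**Every toric class `y ∈ CountStmt.T0 h A p` (level `M' q`) is the class of `mapU z` for a
`K₀`-rational unit `z ∈ E₀ˣ` which is NORMALISED at the two Gauss valuations:
`rd₁' z = 1 = rd₂' z`, i.e. `ToricOldAbs.U2' S z` at `S := setupK0Thm …`.**

Route (= helper21's `ApproxSharp`/`Approx3K0`, one level down, two valuations):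
* `exists_red_one_two`          : ABSTRACT — two incomparable reduction data, `red_i u = V_i ^ m`,
                                  `V_i ≠ 0` ⟹ `u · β⁻¹ ^ m` has both reductions `1`;
* `exists_FresK0_of_mem_FresBar`: `q ∥ N` ⟹ `FresBar N A = (k₀ → 𝕜)_* FresK0 A N`
                                  (both are the function field of `X₀(N / q)`);
* `powRed₁_of_isCstPow`, `powRed₂_of_isCstPow` : a `K₀`-rational unit whose `ℚ̄`-reduction is a
                                  constant times a `p`-th power has `K₀`-reduction a nonzero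
                                  `p`-th power of `FresK0` (`𝕜` algebraically closed);
* `exists_normalised_rep`       : level `N`, `q ∥ N`: `y ∈ T0` ⟹ `y = [mapU z]`,
                                  `red₁^{K₀} z = 1 = red₂^{K₀} z`;
* `exists_U2'_of_mem_T0`        : the same at `setupK0Thm` in `U2'`-form  (= (J7b));
* `exists_U2'_of_mem_T0_setupK0Of` : the same at `setupK0Of` (any `s`, `H`, `hv`).
-/
import Fermat.Agent.GE8.SQ2.CountStmt
import Fermat.Agent.GE8.SQ2.ToricOldAbs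
import Fermat.Agent.GL.Final.TripleInstK0Thm
import Fermat.Agent.GL.Val.ResK0
import Fermat.Agent.GL.Chain.OneModRad
import Fermat.Agent.GB.A.Desc.ResDeg
import Fermat.Agent.GJ.J1.ResidueAlgClosed

set_option autoImplicit false
set_option linter.unusedSectionVars false
set_option linter.unusedVariables false

noncomputable section

namespace Fermat.Agent.GE8.SQ2.NormT0

open HahnSeries ModularCurve IsLocalRing AlgebraicCurve
open Fermat.Agent.S24 Fermat.Agent.S24_helper62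
open Fermat.Agent.GJ.J1 Fermat.Agent.GJ.J1.Val
open Fermat.Agent.GJ.KumGroup Fermat.Agent.GJ.Kum.KumType
open Fermat.Agent.GK.UqKronecker Fermat.Agent.GK.AL Fermat.Agent.GK.SS Fermat.Agent.GK.MultiVal
open Fermat.Agent.GK.Val.BaseChange
open Fermat.Agent.GL.Val.GaussK0 Fermat.Agent.GL.Val.SecondK0
open Fermat.Agent.GB.A.FP Fermat.Agent.GB.A3.Nu Fermat.Agent.GB.A3.Ob
open Fermat.Agent.GE8.SQ2.CountStmt
open Fermat.Agent.Common_helper32

/-! ### the abstract two-valuation approximation step -/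

section Abstract

variable {K F : Type*} [Field K] [Field F] [Algebra K F]
  {k1 k2 Ft1 Ft2 : Type*} [Field k1] [Field k2] [Field Ft1] [Field Ft2]
  [Algebra k1 Ft1] [Algebra k2 Ft2]

theorem red_ker_iff {k Ft : Type*} [Field k] [Field Ft] [Algebra k Ft] (R : RedData K F k Ft)
    (x : R.Rw) : R.red x = 0 ↔ R.Rw.valuation (x : F) < 1 := by
  rw [R.red_eq_zero_iff, ValuationSubring.valuation_lt_one_iff]

/-- **two incomparable reduction data**: a common unit whose two reductions are nonzero `m`-th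
powers becomes `≡ 1` at both places after division by an `m`-th power. -/
theorem exists_red_one_two (R1 : RedData K F k1 Ft1) (R2 : RedData K F k2 Ft2)
    (hW : Incomparable ![R1.Rw, R2.Rw]) (m : ℕ) {u : F}
    (h1 : u ∈ R1.Rw) (h2 : u ∈ R2.Rw)
    {V1 : Ft1} {V2 : Ft2} (hV1 : V1 ≠ 0) (hV2 : V2 ≠ 0)
    (e1 : R1.red ⟨u, h1⟩ = V1 ^ m) (e2 : R2.red ⟨u, h2⟩ = V2 ^ m) :
    ∃ β : F, β ≠ 0 ∧
      ∃ (g1 : u * β⁻¹ ^ m ∈ R1.Rw) (g2 : u * β⁻¹ ^ m ∈ R2.Rw),
        R1.red ⟨u * β⁻¹ ^ m, g1⟩ = 1 ∧ R2.red ⟨u * β⁻¹ ^ m, g2⟩ = 1 := by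
  obtain ⟨a1, ha1⟩ := R1.red_surjective V1
  obtain ⟨a2, ha2⟩ := R2.red_surjective V2
  obtain ⟨β, hx1, hx2⟩ := exists_approx hW ![(a1 : F), (a2 : F)] (by
    intro i
    fin_cases i
    · exact a1.2
    · exact a2.2)
  have b1 : β ∈ R1.Rw := (R1.Rw.valuation_le_one_iff _).mp (hx1 0)
  have b2 : β ∈ R2.Rw := (R2.Rw.valuation_le_one_iff _).mp (hx1 1)
  have r1 : R1.red ⟨β, b1⟩ = V1 := by
    rw [Fermat.Agent.GL.Chain.red_eq_of_sub_lt R1.red (red_ker_iff R1) b1 a1.2 (hx2 0)]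
    exact ha1
  have r2 : R2.red ⟨β, b2⟩ = V2 := by
    rw [Fermat.Agent.GL.Chain.red_eq_of_sub_lt R2.red (red_ker_iff R2) b2 a2.2 (hx2 1)]
    exact ha2
  have v1 : R1.Rw.valuation β = 1 :=
    Fermat.Agent.GL.Chain.valuation_eq_one_of_red_ne_zero R1.red (red_ker_iff R1) ⟨β, b1⟩
      (by rw [r1]; exact hV1)
  have v2 : R2.Rw.valuation β = 1 :=
    Fermat.Agent.GL.Chain.valuation_eq_one_of_red_ne_zero R2.red (red_ker_iff R2) ⟨β, b2⟩
      (by rw [r2]; exact hV2)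
  have hβ0 : β ≠ 0 := by
    rintro rfl
    rw [map_zero] at v1
    exact zero_ne_one v1
  have i1 : β⁻¹ ∈ R1.Rw := (R1.Rw.valuation_le_one_iff _).mp (by rw [map_inv₀, v1, inv_one])
  have i2 : β⁻¹ ∈ R2.Rw := (R2.Rw.valuation_le_one_iff _).mp (by rw [map_inv₀, v2, inv_one])
  refine ⟨β, hβ0, R1.Rw.mul_mem _ _ h1 (pow_mem i1 m), R2.Rw.mul_mem _ _ h2 (pow_mem i2 m), ?_, ?_⟩
  · exact Fermat.Agent.GL.Chain.red_mul_inv_pow R1.red h1 b1 i1 _ hβ0 hV1 r1 e1
  · exact Fermat.Agent.GL.Chain.red_mul_inv_pow R2.red h2 b2 i2 _ hβ0 hV2 r2 e2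

end Abstract

/-! ### the residue field at `q ∥ N` is `K₀`-rational -/

section Descent

variable (A : ValuationSubring Kb) (N : ℕ) [NeZero N] {q : ℕ} (h : ExactDvd q N)

local notation "F₀" => modularFunctionFieldFullC (K0 A) N
local notation "k₀" => ResidueField (R0 A)
local notation "𝕜" => ResidueField A

include h in
/-- **`FresBar N A = (k₀ → 𝕜)_* FresK0 A N`** at `q ∥ N` (both are the function field of
`X₀(N / q)` over the residue field). -/
theorem exists_FresK0_of_mem_FresBar (hA : A.LiesOverPrime q) (V : FresBar N A) :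
    ∃ V₀ : FresK0 A N, coeffMap (resMapK0 A) (V₀ : LaurentSeries k₀) = (V : LaurentSeries 𝕜) := by
  have hq : q.Prime := h.prime
  have hNq : N / q * q = N := Nat.div_mul_cancel h.dvd
  have hpos : N / q ≠ 0 := by
    intro h0
    rw [h0, zero_mul] at hNq
    exact NeZero.ne N hNq.symm
  have : NeZero (N / q) := ⟨hpos⟩
  have h1 : (V : LaurentSeries 𝕜) ∈ modularFunctionFieldFullC 𝕜 (N / q) := by
    have h0 : ∀ v : LaurentSeries 𝕜, v ∈ FresBar N A →
        v ∈ modularFunctionFieldFullC 𝕜 (N / q) := by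
      intro v hv
      rw [Fermat.Agent.GB.A.Desc.ResDeg.FresBar_eq_fullC_of_exactDvd A h hA (N / q) hNq.symm] at hv
      exact hv
    exact h0 _ V.2
  have h2 := coeffMap_mem_fullC ((resEquivK0 A hq hA).symm.toRingHom) (N / q) h1
  rw [← Fermat.Agent.GL.Val.ResK0.FresK0_eq_fullC_exact A N hA h] at h2
  refine ⟨⟨_, h2⟩, ?_⟩
  show coeffMap (resMapK0 A) (coeffMap ((resEquivK0 A hq hA).symm.toRingHom) (V : LaurentSeries 𝕜))
    = _
  rw [coeffMap_coeffMap]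
  have h3 : (resMapK0 A).comp ((resEquivK0 A hq hA).symm.toRingHom) = RingHom.id _ := by
    ext z
    exact (resEquivK0 A hq hA).apply_symm_apply z
  rw [h3, coeffMap_id]

/-- a constant times a `p`-th power of units of `FresBar` is a `p`-th power (`𝕜` is algebraically
closed). -/
theorem exists_pow_of_isCstPowU {p : ℕ} (hp : 0 < p) {v : (FresBar N A)ˣ}
    (hv : IsCstPowU A p v) : ∃ V : FresBar N A, V ≠ 0 ∧ ((v : (FresBar N A)ˣ) : FresBar N A) = V ^ p := by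
  have : IsAlgClosed (ResidueField A) :=
    Fermat.Agent.GJ.ResidueAlgClosed.isAlgClosed_residueField A
  obtain ⟨c, w, e⟩ := hv
  obtain ⟨b, hb⟩ := IsAlgClosed.exists_pow_nat_eq c hp
  refine ⟨algebraMap 𝕜 (FresBar N A) b * (w : FresBar N A), ?_, ?_⟩
  · intro h0
    have h1 : ((v : (FresBar N A)ˣ) : FresBar N A) ≠ 0 := v.ne_zero
    apply h1
    rw [e, ← hb, map_pow, ← mul_pow, h0, zero_pow hp.ne']
  · rw [e, ← hb, map_pow, mul_pow]

include h in
/-- **the `K₀`-level step for `w₁`.** -/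
theorem powRed₁_of_isCstPow (hA : A.LiesOverPrime q) {p : ℕ} (hp : 0 < p)
    (x₀ : F₀) (hx₀ : x₀ ∈ RwK0 A N) (hx : mapK0Bar A N x₀ ∈ (redDataBar N A).Rw)
    {V : FresBar N A} (hV : V ≠ 0) (e : (redDataBar N A).red ⟨mapK0Bar A N x₀, hx⟩ = V ^ p) :
    ∃ V₀ : FresK0 A N, V₀ ≠ 0 ∧ (redDataK0 A N).red ⟨x₀, hx₀⟩ = V₀ ^ p := by
  obtain ⟨V₀, hV₀⟩ := exists_FresK0_of_mem_FresBar A N h hA V
  refine ⟨V₀, ?_, ?_⟩
  · rintro rfl
    apply hV
    apply Subtype.ext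
    rw [← hV₀]
    exact map_zero _
  · apply Subtype.ext
    apply coeffMap_injective _ (resMapK0 A).injective
    rw [← coe_red1K0 A N x₀ hx₀ hx, e]
    show ((V ^ p : FresBar N A) : LaurentSeries 𝕜) =
      coeffMap (resMapK0 A) ((V₀ ^ p : FresK0 A N) : LaurentSeries k₀)
    rw [SubmonoidClass.coe_pow, SubmonoidClass.coe_pow, map_pow, hV₀]

include h in
/-- **the `K₀`-level step for `w₂ = w₁ ∘ W_q`.** -/
theorem powRed₂_of_isCstPow (hA : A.LiesOverPrime q) {p : ℕ} (hp : 0 < p)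
    (x₀ : F₀) (hx₀ : x₀ ∈ (redData2K0 A N h).Rw) (hx : mapK0Bar A N x₀ ∈ (redData2 N A h).Rw)
    {V : FresBar N A} (hV : V ≠ 0) (e : (redData2 N A h).red ⟨mapK0Bar A N x₀, hx⟩ = V ^ p) :
    ∃ V₀ : FresK0 A N, V₀ ≠ 0 ∧ (redData2K0 A N h).red ⟨x₀, hx₀⟩ = V₀ ^ p := by
  obtain ⟨V₀, hV₀⟩ := exists_FresK0_of_mem_FresBar A N h hA V
  refine ⟨V₀, ?_, ?_⟩
  · rintro rfl
    apply hV
    apply Subtype.ext
    rw [← hV₀]
    exact map_zero _
  · apply Subtype.ext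
    apply coeffMap_injective _ (resMapK0 A).injective
    rw [← coe_red2K0 A N h x₀ hx₀ hx, e]
    show ((V ^ p : FresBar N A) : LaurentSeries 𝕜) =
      coeffMap (resMapK0 A) ((V₀ ^ p : FresK0 A N) : LaurentSeries k₀)
    rw [SubmonoidClass.coe_pow, SubmonoidClass.coe_pow, map_pow, hV₀]

include h in
/-- the two Gauss valuation rings over `K₀` are incomparable. -/
theorem incomparable_two_K0 (hA : A.LiesOverPrime q) :
    Incomparable ![(redDataK0 A N).Rw, (redData2K0 A N h).Rw] := by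
  intro i j hij hle
  fin_cases i <;> fin_cases j
  · exact hij rfl
  · exact not_Rw1K0_le_Rw2K0 A N h hA hle
  · exact not_Rw2K0_le_Rw1K0 A N h hA hle
  · exact hij rfl

/-- **normalised `K₀`-rational representatives of the toric classes** (level `N`, `q ∥ N`):
every `y ∈ T0` is the class of `mapU z`, `z ∈ F₀ˣ`, with `red₁^{K₀} z = 1 = red₂^{K₀} z`. -/
theorem exists_normalised_rep (hA : A.LiesOverPrime q) {p : ℕ} (hp : 0 < p)
    {y : Additive (Kum Kb (FK N) p)} (hy : y ∈ T0 h A p) :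
    ∃ (u : pDivUnits Kb (FK N) p) (z : (F0 A N)ˣ),
      Additive.ofMul (Kum.mk u) = y ∧ mapU (M := N) A z = (u : (FK N)ˣ) ∧
      (∃ hz : ((z : (F0 A N)ˣ) : F0 A N) ∈ (redDataK0 A N).Rw,
        (redDataK0 A N).red ⟨(z : F0 A N), hz⟩ = 1) ∧
      ∃ hz : ((z : (F0 A N)ˣ) : F0 A N) ∈ (redData2K0 A N h).Rw,
        (redData2K0 A N h).red ⟨(z : F0 A N), hz⟩ = 1 := by
  obtain ⟨u, hyu, hfix, hu, hc1, hc2⟩ := hy
  obtain ⟨u0, hmap⟩ := exists_mapU_of_fixed A (u : (FK N)ˣ) hfix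
  have hmapc : mapK0Bar A N (u0 : F0 A N) = ((u : (FK N)ˣ) : FK N) := by
    rw [← coe_mapU, hmap]
  -- membership over `K₀`
  have m1 : (u0 : F0 A N) ∈ RwK0 A N := (mem_Rw1K0_iff A N _).2 (by rw [hmapc]; exact hu.1.1)
  have m2 : (u0 : F0 A N) ∈ (redData2K0 A N h).Rw :=
    (mem_Rw2K0_iff A N h _).2 (by rw [hmapc]; exact hu.2.1)
  have m1' : mapK0Bar A N (u0 : F0 A N) ∈ (redDataBar N A).Rw := by rw [hmapc]; exact hu.1.1
  have m2' : mapK0Bar A N (u0 : F0 A N) ∈ (redData2 N A h).Rw := by rw [hmapc]; exact hu.2.1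
  -- the reductions are `p`-th powers
  obtain ⟨V1, hV1, e1⟩ := exists_pow_of_isCstPowU A N hp hc1
  obtain ⟨V2, hV2, e2⟩ := exists_pow_of_isCstPowU A N hp hc2
  have e1' : (redDataBar N A).red ⟨mapK0Bar A N (u0 : F0 A N), m1'⟩ = V1 ^ p := by
    rw [← e1]
    show _ = (redDataBar N A).red ⟨((u : (FK N)ˣ) : FK N), hu.1.1⟩
    congr 1
    exact Subtype.ext hmapc
  have e2' : (redData2 N A h).red ⟨mapK0Bar A N (u0 : F0 A N), m2'⟩ = V2 ^ p := by
    rw [← e2]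
    show _ = (redData2 N A h).red ⟨((u : (FK N)ˣ) : FK N), hu.2.1⟩
    congr 1
    exact Subtype.ext hmapc
  obtain ⟨W1, hW1, f1⟩ := powRed₁_of_isCstPow A N h hA hp (u0 : F0 A N) m1 m1' hV1 e1'
  obtain ⟨W2, hW2, f2⟩ := powRed₂_of_isCstPow A N h hA hp (u0 : F0 A N) m2 m2' hV2 e2'
  -- approximation over `K₀`
  obtain ⟨β, hβ, g1, g2, r1, r2⟩ := exists_red_one_two (redDataK0 A N) (redData2K0 A N h)
    (incomparable_two_K0 A N h hA) p m1 m2 hW1 hW2 f1 f2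
  let βU : (F0 A N)ˣ := Units.mk0 β hβ
  let bU : (FK N)ˣ := mapU (M := N) A βU
  let w : pDivUnits Kb (FK N) p := ⟨bU⁻¹ ^ p, pow_mem_pDivUnits Kb (FK N) p bU⁻¹⟩
  refine ⟨u * w, u0 * βU⁻¹ ^ p, ?_, ?_, ⟨g1, r1⟩, ⟨g2, r2⟩⟩
  · rw [← hyu]
    exact (ofMul_mk_eq_of (u := u) (v := u * w) bU⁻¹ rfl).symm
  · rw [map_mul, map_pow, map_inv, hmap]
    rfl

end Descent

/-! ### the plug: `U2'`-form at the concrete `TripleSetup` over `K₀` -/

section Plug

open Polynomial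
open Fermat.Agent.GL.H4OfXi Fermat.Agent.GL.TripleBuild Fermat.Agent.GL.BuildInst
open Fermat.Agent.GL.BuildInstPts
open Fermat.Agent.GL.Final.TripleInstK0 Fermat.Agent.GL.Final.RowsInst
open Fermat.Agent.GL.Final.TriplePoints
open Fermat.Agent.GL.Table.K0
open Fermat.Agent.GE8.SQ2.ToricOldAbs

attribute [local instance 2000] instAlgR0FullC instAlgBK0FullC instAlgR0BK0

variable (A : ValuationSubring Kb) {M' q : ℕ} [NeZero q] [NeZero M']
  (hq : q.Prime) (hqM : ¬ q ∣ M') (hA : (q : Kb) ∈ A.nonunits)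
  (h2 : q = 2 → 3 ∣ M') (h3 : q = 3 → 2 ∣ M')
  {r : ℕ} (hr : r.Prime) (hrM : r ∣ M') (hr3 : r % 3 = 2) (hr4 : r % 4 = 3)

local notation "E₀" => modularFunctionFieldFullC (K0 A) (M' * q)

/-- **(J7b) at `setupK0Of`** (any lift `s`, any `H`, any `hv`): every toric class of level `M' q`
is the class of `mapU z` with `z` normalised at the two lower valuations. -/
theorem exists_U2'_of_mem_T0_setupK0Of (s : (R0 A)[X]) (H : SsPts A hq hqM hA s)
    (hv : (buildK0 A hq hqM hA s H).Hval) {p : ℕ} (hp : 0 < p)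
    {y : Additive (Kum Kb (FK (M' * q)) p)}
    (hy : y ∈ T0 (Fermat.Agent.GL.W3Table.exactDvd_level hq hqM) A p) :
    ∃ (u : pDivUnits Kb (FK (M' * q)) p) (z : (F0 A (M' * q))ˣ),
      Additive.ofMul (Kum.mk u) = y ∧ mapU (M := M' * q) A z = (u : (FK (M' * q))ˣ) ∧
      U2' (setupK0Of A hq hqM hA s H hv) ((z : (F0 A (M' * q))ˣ) : E₀) := by
  obtain ⟨u, z, hyu, hmap, ⟨hz1, e1⟩, ⟨hz2, e2⟩⟩ :=
    exists_normalised_rep A (M' * q) (Fermat.Agent.GL.W3Table.exactDvd_level hq hqM) hA hp hy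
  exact ⟨u, z, hyu, hmap, ⟨hz1, e1⟩, ⟨hz2, e2⟩⟩

/-- **(J7b)** of board 7257: every `y ∈ CountStmt.T0 h A p` (level `M' q`) is the class of
`mapU z` for a unit `z` of `E₀ = K₀(X₀(M' q))` with `U2' S z`, `S := setupK0Thm …`. -/
theorem exists_U2'_of_mem_T0 {p : ℕ} (hp : 0 < p)
    {y : Additive (Kum Kb (FK (M' * q)) p)}
    (hy : y ∈ T0 (Fermat.Agent.GL.W3Table.exactDvd_level hq hqM) A p) :
    ∃ (u : pDivUnits Kb (FK (M' * q)) p) (z : (F0 A (M' * q))ˣ),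
      Additive.ofMul (Kum.mk u) = y ∧ mapU (M := M' * q) A z = (u : (FK (M' * q))ˣ) ∧
      U2' (setupK0Thm A hq hqM hA h2 h3 hr hrM hr3 hr4) ((z : (F0 A (M' * q))ˣ) : E₀) :=
  exists_U2'_of_mem_T0_setupK0Of A hq hqM hA (sK0 A hq)
    (ssPtsK0 A hq hqM hA h2 h3 hr hrM hr3 hr4)
    (hvalK0 A hq hqM hA h2 h3 (sK0 A hq) (ssPtsK0 A hq hqM hA h2 h3 hr hrM hr3 hr4)) hp hy

/-- the place-divisibility input of (J5b), from a representative `mapU z = u`, `u` a `p`-divisible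
unit (`toFN0 = mapK0Bar`). -/
theorem dvd_ord_toFN0_of_mapU {N : ℕ} [NeZero N] {p : ℕ} (u : pDivUnits Kb (FK N) p)
    (z : (F0 A N)ˣ) (hmap : mapU (M := N) A z = (u : (FK N)ˣ)) (P : Place Kb (FK N)) :
    (p : ℤ) ∣ P.ord (Fermat.Agent.GL.Val.CuspK0.toFN0 A N ((z : (F0 A N)ˣ) : F0 A N)) := by
  have h1 : Fermat.Agent.GL.Val.CuspK0.toFN0 A N ((z : (F0 A N)ˣ) : F0 A N) =
      ((u : (FK N)ˣ) : FK N) := by
    rw [Fermat.Agent.GL.W3.toFN0_eq_mapK0Bar, ← coe_mapU, hmap]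
  rw [h1]
  exact u.2 P

/-- **(J7b), count form**: the same with the two side conditions the count consumes — `z ≠ 0` and
the place-divisibility hypothesis of (J5b) `LevelQDatum`. -/
theorem exists_U2'_of_mem_T0_ord {p : ℕ} (hp : 0 < p)
    {y : Additive (Kum Kb (FK (M' * q)) p)}
    (hy : y ∈ T0 (Fermat.Agent.GL.W3Table.exactDvd_level hq hqM) A p) :
    ∃ (u : pDivUnits Kb (FK (M' * q)) p) (z : (F0 A (M' * q))ˣ),
      Additive.ofMul (Kum.mk u) = y ∧ mapU (M := M' * q) A z = (u : (FK (M' * q))ˣ) ∧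
      U2' (setupK0Thm A hq hqM hA h2 h3 hr hrM hr3 hr4) ((z : (F0 A (M' * q))ˣ) : E₀) ∧
      ((z : (F0 A (M' * q))ˣ) : E₀) ≠ 0 ∧
      ∀ P : Place Kb (FK (M' * q)), (p : ℤ) ∣
        P.ord (Fermat.Agent.GL.Val.CuspK0.toFN0 A (M' * q) ((z : (F0 A (M' * q))ˣ) : E₀)) := by
  obtain ⟨u, z, hyu, hmap, hU⟩ :=
    exists_U2'_of_mem_T0 A hq hqM hA h2 h3 hr hrM hr3 hr4 hp hy
  exact ⟨u, z, hyu, hmap, hU, z.ne_zero, dvd_ord_toFN0_of_mapU A u z hmap⟩

end Plug

end Fermat.Agent.GE8.SQ2.NormT0
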