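/-
GATE-E (S59) / E8.2 SQ / TOR-OLD leaf (J2) of helper29 (board 7257) — helper99.

`Function.Injective S.p1 ∧ Function.Injective S.p2` for the concrete `TripleSetup`
`S := setupK0Thm A hq hqM hA h2 h3 hr hrM hr3 hr4` over `K₀` at a good level
(`GL/Final/TripleInstK0Thm`): a triple point `n` of level `M' q q` is determined by the node
`p1 n` (resp. `p2 n`) of level `M' q` below it.

* ABSTRACT (`GL/Gate/H4OfXi.TripleSetup` only):
  - `chi_ne_zero_iff₁/₂` : `χ n b ≠ 0 ↔ rd_i b ≠ 0 ∧ (rd_i b)⁻¹ ∈ U_i n` — the point `P n = ker χ n`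
    is determined by the branch ring `U_i n` alone (`hχ_i`, `heu_i`, `hχker`);
  - `p1_injective` : `j11` surjective ⟹ `p1` injective (`U1 n = j11 '' U1' (p1 n)` by `c11`, then
    `hinj`);
  - `p2_injective` : `j22'` surjective ⟹ `p2` injective (second component, `c22'`).
* PLUG: at `setupK0Thm`, `j11 = j22' = fresInclC` is bijective (`RowsInst.pi_split`):
  `p1_injective_setupK0Thm`, `p2_injective_setupK0Thm`, `pInj_setupK0Thm`.
-/
import Fermat.Agent.GL.Final.TripleInstK0Thm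

set_option autoImplicit false
set_option linter.unusedSectionVars false
set_option linter.unusedVariables false

noncomputable section

namespace Fermat.Agent.GE8.SQ2.PInj

open Fermat.Agent.GL Fermat.Agent.GL.CompBranch Fermat.Agent.GL.H4OfXi

section Abstract

variable {F E k k1 k2 k3 k1' k2' B T T' : Type*} [Field F] [Field E] [Field k]
  [Field k1] [Field k2] [Field k3] [Field k1'] [Field k2'] [CommRing B] [Algebra B F]
  (S : TripleSetup F E k k1 k2 k3 k1' k2' B T T')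

/-- abstract core: for a ring hom `e : U →+* k` from a valuation subring of `κ` into a field which
detects units (`e y ≠ 0 → y⁻¹ ∈ U`): `e y ≠ 0 ↔ y ≠ 0 ∧ y⁻¹ ∈ U`. -/
theorem ev_ne_zero_iff {κ : Type*} [Field κ] (U : ValuationSubring κ) (e : U →+* k)
    (heu : ∀ (y : κ) (hy : y ∈ U), e ⟨y, hy⟩ ≠ 0 → y⁻¹ ∈ U) (y : κ) (hy : y ∈ U) :
    e ⟨y, hy⟩ ≠ 0 ↔ y ≠ 0 ∧ y⁻¹ ∈ U := by
  constructor
  · intro hne
    refine ⟨?_, heu y hy hne⟩
    rintro rfl
    apply hne
    have : (⟨0, hy⟩ : U) = 0 := rfl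
    rw [this, map_zero]
  · rintro ⟨h0, hinv⟩ hzero
    have h1 : (⟨y, hy⟩ : U) * ⟨y⁻¹, hinv⟩ = 1 := Subtype.ext (mul_inv_cancel₀ h0)
    have h2 := congrArg e h1
    rw [map_mul, hzero, zero_mul, map_one] at h2
    exact zero_ne_one h2

/-- the character `χ n` is determined by the FIRST branch ring `U1 n`. -/
theorem chi_ne_zero_iff₁ (n : T) (b : B) (h : algebraMap B F b ∈ S.W1) :
    S.χ n b ≠ 0 ↔ S.rd1 ⟨algebraMap B F b, h⟩ ≠ 0 ∧ (S.rd1 ⟨algebraMap B F b, h⟩)⁻¹ ∈ S.U1 n := by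
  obtain ⟨hz, hU⟩ := (mem_comp S.W1 S.rd1 S.hr1 (S.U1 n)).mp (S.hB1 n b)
  have hχ := S.hχ1 n b
  rw [branch_ev S.W1 S.rd1 S.hr1 (S.U1 n) (S.e1 n) hz hU] at hχ
  rw [← hχ]
  exact ev_ne_zero_iff (S.U1 n) (S.e1 n) (S.heu1 n) _ hU

/-- the character `χ n` is determined by the SECOND branch ring `U2 n`. -/
theorem chi_ne_zero_iff₂ (n : T) (b : B) (h : algebraMap B F b ∈ S.W2) :
    S.χ n b ≠ 0 ↔ S.rd2 ⟨algebraMap B F b, h⟩ ≠ 0 ∧ (S.rd2 ⟨algebraMap B F b, h⟩)⁻¹ ∈ S.U2 n := by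
  obtain ⟨hz, hU⟩ := (mem_comp S.W2 S.rd2 S.hr2 (S.U2 n)).mp (S.hB2 n b)
  have hχ := S.hχ2 n b
  rw [branch_ev S.W2 S.rd2 S.hr2 (S.U2 n) (S.e2 n) hz hU] at hχ
  rw [← hχ]
  exact ev_ne_zero_iff (S.U2 n) (S.e2 n) (S.heu2 n) _ hU

/-- equal first branch rings ⟹ equal triple points. -/
theorem eq_of_U1_eq {n m : T} (hU : ∀ z : k1, z ∈ S.U1 n ↔ z ∈ S.U1 m) : n = m := by
  apply S.hinj
  ext b
  rw [← S.hχker n b, ← S.hχker m b]
  have hW : algebraMap B F b ∈ S.W1 :=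
    ((mem_comp S.W1 S.rd1 S.hr1 (S.U1 n)).mp (S.hB1 n b)).1
  have h1 := chi_ne_zero_iff₁ S n b hW
  have h2 := chi_ne_zero_iff₁ S m b hW
  rw [hU] at h1
  exact not_iff_not.mp (h1.trans h2.symm)

/-- equal second branch rings ⟹ equal triple points. -/
theorem eq_of_U2_eq {n m : T} (hU : ∀ z : k2, z ∈ S.U2 n ↔ z ∈ S.U2 m) : n = m := by
  apply S.hinj
  ext b
  rw [← S.hχker n b, ← S.hχker m b]
  have hW : algebraMap B F b ∈ S.W2 :=
    ((mem_comp S.W2 S.rd2 S.hr2 (S.U2 n)).mp (S.hB2 n b)).1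
  have h1 := chi_ne_zero_iff₂ S n b hW
  have h2 := chi_ne_zero_iff₂ S m b hW
  rw [hU] at h1
  exact not_iff_not.mp (h1.trans h2.symm)

/-- **`p1` is injective** as soon as `j11` is surjective. -/
theorem p1_injective (hj : Function.Surjective S.j11) : Function.Injective S.p1 := by
  intro n m hnm
  apply eq_of_U1_eq S
  intro z
  obtain ⟨y, rfl⟩ := hj z
  rw [← S.c11 n y, ← S.c11 m y, hnm]

/-- **`p2` is injective** as soon as `j22'` is surjective. -/
theorem p2_injective (hj : Function.Surjective S.j22') : Function.Injective S.p2 := by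
  intro n m hnm
  apply eq_of_U2_eq S
  intro z
  obtain ⟨y, rfl⟩ := hj z
  rw [← S.c22' n y, ← S.c22' m y, hnm]

/-- variants through the other rows (not needed at `setupK0Thm`, recorded for symmetry). -/
theorem p1_injective_of_j22 (hj : Function.Surjective S.j22) : Function.Injective S.p1 := by
  intro n m hnm
  apply eq_of_U2_eq S
  intro z
  obtain ⟨y, rfl⟩ := hj z
  rw [← S.c22 n y, ← S.c22 m y, hnm]

theorem p2_injective_of_j11' (hj : Function.Surjective S.j11') : Function.Injective S.p2 := by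
  intro n m hnm
  apply eq_of_U1_eq S
  intro z
  obtain ⟨y, rfl⟩ := hj z
  rw [← S.c11' n y, ← S.c11' m y, hnm]

end Abstract

section Plug

open Fermat.Agent.GL.Final.TripleInstK0 Fermat.Agent.GL.Final.RowsInst
open Fermat.Agent.GL.Table.K0 Fermat.Agent.GL.Val.GaussK0

/-- `ℚ̄`. -/
local notation "Qb" => AlgebraicClosure ℚ

variable (A : ValuationSubring Qb) {M' q : ℕ} [NeZero q] [NeZero M']
  (hq : q.Prime) (hqM : ¬ q ∣ M') (hA : (q : Qb) ∈ A.nonunits)
  (h2 : q = 2 → 3 ∣ M') (h3 : q = 3 → 2 ∣ M')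
  {r : ℕ} (hr : r.Prime) (hrM : r ∣ M') (hr3 : r % 3 = 2) (hr4 : r % 4 = 3)

/-- **(J2), first half**: `p1` of `setupK0Thm` is injective. -/
theorem p1_injective_setupK0Thm :
    Function.Injective (setupK0Thm A hq hqM hA h2 h3 hr hrM hr3 hr4).p1 :=
  p1_injective _ (pi_split A hq hqM hA).1.2

/-- **(J2), second half**: `p2` of `setupK0Thm` is injective. -/
theorem p2_injective_setupK0Thm :
    Function.Injective (setupK0Thm A hq hqM hA h2 h3 hr hrM hr3 hr4).p2 :=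
  p2_injective _ (pi_split A hq hqM hA).1.2

/-- **(J2)** of board 7257, verbatim. -/
theorem pInj_setupK0Thm :
    Function.Injective (setupK0Thm A hq hqM hA h2 h3 hr hrM hr3 hr4).p1 ∧
      Function.Injective (setupK0Thm A hq hqM hA h2 h3 hr hrM hr3 hr4).p2 :=
  ⟨p1_injective_setupK0Thm A hq hqM hA h2 h3 hr hrM hr3 hr4,
    p2_injective_setupK0Thm A hq hqM hA h2 h3 hr hrM hr3 hr4⟩

end Plug

end Fermat.Agent.GE8.SQ2.PInj
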