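/-
GATE-E / E8.SQ toric side, COUNT glue (helper29): the Kummer group `Kum K F p` inside
`Fˣ / (Fˣ)^p`, and the comparison of cardinalities used by `SurjAbs.exists_lowDatum_of_count`.

* `powQ F p`            : `Fˣ ⧸ (Fˣ)^p`;
* `clF`                 : the class map `Fˣ →* powQ F p`, `clF_eq_one_iff`, `clF_eq_iff`;
* `card_le_card_range`  : a set `X` of Kummer classes all of whose elements are classes of values
                          `c d` of a homomorphism `c : D →* Fˣ` with `p`-divisible values has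
                          `#X ≤ #range (clF ∘ c)`;
* `eq_pow_of_pow_eq_pow`: `y ^ q = v ^ p`, `p, q` coprime ⟹ `y` is a `p`-th power.
-/
import Mathlib
import Fermat.Agent.GJ.J2.EigIface

set_option autoImplicit false
set_option linter.unusedSectionVars false

noncomputable section

namespace Fermat.Agent.GE8.SQ2.KumRange

open AlgebraicCurve Fermat.Agent.GJ.KumGroup

variable (K : Type*) {F : Type*} [Field K] [Field F] [Algebra K F] (p : ℕ)

/-- `Fˣ ⧸ (Fˣ)^p`. -/
abbrev powQ (F : Type*) [Field F] (p : ℕ) : Type _ := Fˣ ⧸ (powMonoidHom p : Fˣ →* Fˣ).range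

/-- the class map. -/
def clF (F : Type*) [Field F] (p : ℕ) : Fˣ →* powQ F p :=
  QuotientGroup.mk' (powMonoidHom p : Fˣ →* Fˣ).range

variable {p}

theorem clF_eq_one_iff {u : Fˣ} : clF F p u = 1 ↔ ∃ w : Fˣ, w ^ p = u := by
  show (QuotientGroup.mk u : powQ F p) = 1 ↔ _
  rw [QuotientGroup.eq_one_iff]
  rfl

theorem clF_eq_iff {u v : Fˣ} : clF F p u = clF F p v ↔ ∃ w : Fˣ, v = u * w ^ p := by
  show (QuotientGroup.mk u : powQ F p) = QuotientGroup.mk v ↔ _
  rw [QuotientGroup.eq]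
  constructor
  · rintro ⟨w, hw⟩
    refine ⟨w, ?_⟩
    have h : w ^ p = u⁻¹ * v := hw
    rw [h, mul_inv_cancel_left]
  · rintro ⟨w, hw⟩
    refine ⟨w, ?_⟩
    show w ^ p = u⁻¹ * v
    rw [hw, inv_mul_cancel_left]

/-- **the comparison of cardinalities.** -/
theorem card_le_card_range {D : Type*} [Group D] (c : D →* Fˣ)
    (hc : ∀ d, c d ∈ pDivUnits K F p) [Finite (Kum K F p)]
    (X : Set (Additive (Kum K F p)))
    (hX : ∀ y ∈ X, ∃ d : D, Additive.ofMul (Kum.mk ⟨c d, hc d⟩) = y) :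
    Nat.card X ≤ Nat.card ((clF F p).comp c).range := by
  classical
  have hch : ∀ r : ((clF F p).comp c).range, ∃ d : D, clF F p (c d) = (r : powQ F p) := by
    rintro ⟨_, d, rfl⟩
    exact ⟨d, rfl⟩
  choose dOf hdOf using hch
  let g : ((clF F p).comp c).range → Additive (Kum K F p) := fun r =>
    Additive.ofMul (Kum.mk ⟨c (dOf r), hc (dOf r)⟩)
  have hg : Function.Injective g := by
    intro r r' hrr
    have h1 : Kum.mk (⟨c (dOf r), hc (dOf r)⟩ : pDivUnits K F p) =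
        Kum.mk ⟨c (dOf r'), hc (dOf r')⟩ := Additive.ofMul.injective hrr
    obtain ⟨w, hw⟩ := Kum.mk_eq_mk_iff.mp h1
    apply Subtype.ext
    rw [← hdOf r, ← hdOf r']
    exact clF_eq_iff.mpr ⟨w, hw⟩
  have : Finite (Additive (Kum K F p)) := inferInstanceAs (Finite (Kum K F p))
  have : Finite ((clF F p).comp c).range := Finite.of_injective g hg
  have hsub : X ⊆ Set.range g := by
    intro y hy
    obtain ⟨d, rfl⟩ := hX y hy
    refine ⟨⟨clF F p (c d), d, rfl⟩, ?_⟩
    show Additive.ofMul (Kum.mk _) = Additive.ofMul (Kum.mk _)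
    congr 1
    refine Kum.mk_eq_mk_iff.mpr ?_
    have := hdOf ⟨clF F p (c d), d, rfl⟩
    obtain ⟨w, hw⟩ := clF_eq_iff.mp this
    exact ⟨w, hw⟩
  calc Nat.card X ≤ Nat.card (Set.range g) := Nat.card_mono (Set.toFinite _) hsub
    _ = Nat.card ((clF F p).comp c).range := Nat.card_range_of_injective hg

/-- `y ^ q = v ^ p` with `p`, `q` coprime ⟹ `y` is a `p`-th power. -/
theorem eq_pow_of_pow_eq_pow {G : Type*} [CommGroup G] {p q : ℕ} (hpq : Nat.Coprime p q)
    {y v : G} (h : y ^ q = v ^ p) : ∃ w : G, w ^ p = y := by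
  have hb : (p : ℤ) * Nat.gcdA p q + (q : ℤ) * Nat.gcdB p q = 1 := by
    have := Nat.gcd_eq_gcd_ab p q
    rw [hpq.gcd_eq_one] at this
    exact_mod_cast this.symm
  refine ⟨y ^ (Nat.gcdA p q) * v ^ (Nat.gcdB p q), ?_⟩
  have h1 : (y ^ (Nat.gcdA p q) * v ^ (Nat.gcdB p q)) ^ p =
      y ^ ((p : ℤ) * Nat.gcdA p q) * (v ^ p) ^ (Nat.gcdB p q) := by
    rw [mul_pow, ← zpow_natCast (y ^ _), ← zpow_mul, ← zpow_natCast (v ^ _), ← zpow_mul,
      ← zpow_natCast v, ← zpow_mul, mul_comm (Nat.gcdA p q) (p : ℤ),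
      mul_comm (Nat.gcdB p q) (p : ℤ)]
  rw [h1, ← h, ← zpow_natCast y q, ← zpow_mul, ← zpow_add, hb, zpow_one]

end Fermat.Agent.GE8.SQ2.KumRange
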