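/-
GATE-E / E8.SQ toric side, node (E1) = TORIC-EXIST, the ABSTRACT step "XI-INJ + COUNT ⟹ SURJ"
(helper29).

* `surjective_of_ker_le_of_card_le` : group theory.  `f : D →* H`, `c : D →* K`, `H` finite,
  `ker f ≤ ker c` (XI-INJ) and `#H ≤ #(range c)` (COUNT) ⟹ `f` is surjective.
* `Dat m 𝒢 𝒮`  : the GROUP of Kummer data of the level below: pairs `(z, g)` of units of `E` with
  `z ∈ 𝒢` (the normalised `m`-divisible units) and `g ^ m * z ∈ 𝒮` (the semi-local units at the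
  nodes);
* `xi`            : the gluing ratio `Dat →* (T' → kˣ)`, `(z, g) ↦ (n' ↦ ev₁ g / ev₀ g)`, with values
  in the `m`-torsion `muT T' k m`;
* `exists_lowDatum_of_count` : XI-INJ (`xi d` constant ⟹ `cl z = 1`) + COUNT
  (`#(muT / constants) ≤ #cl(Dat)`) ⟹ every `ζ : T' → μ_m(k)` is, up to a constant, the gluing
  ratio of a datum: the `hsurj` input of `ToricOldAbs.torOld_branch`.
-/
import Mathlib
import Fermat.Agent.GE8.SQ2.ToricOldAbs

set_option autoImplicit false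
set_option linter.unusedSectionVars false
set_option linter.unusedVariables false

namespace Fermat.Agent.GE8.SQ2.SurjAbs

open Fermat.Agent.GL Fermat.Agent.GL.XiStep Fermat.Agent.GE8.SQ2.ToricOldAbs

/-! ### group theory -/

/-- **XI-INJ + COUNT ⟹ SURJ.** -/
theorem surjective_of_ker_le_of_card_le {D H K : Type*} [Group D] [Group H] [Group K] [Finite H]
    (f : D →* H) (c : D →* K) (hker : f.ker ≤ c.ker) (hcard : Nat.card H ≤ Nat.card c.range) :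
    Function.Surjective f := by
  classical
  -- `D ⧸ ker f ↠ D ⧸ ker c`
  have e1 : (D ⧸ f.ker) ≃* f.range := QuotientGroup.quotientKerEquivRange f
  have e2 : (D ⧸ c.ker) ≃* c.range := QuotientGroup.quotientKerEquivRange c
  have : Finite f.range := Finite.of_injective _ Subtype.val_injective
  have : Finite (D ⧸ f.ker) := Finite.of_equiv _ e1.symm.toEquiv
  let π : (D ⧸ f.ker) →* (D ⧸ c.ker) := QuotientGroup.map f.ker c.ker (MonoidHom.id D) hker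
  have hπ : Function.Surjective π := by
    intro x
    obtain ⟨d, rfl⟩ := QuotientGroup.mk_surjective x
    exact ⟨QuotientGroup.mk d, rfl⟩
  have h1 : Nat.card (D ⧸ c.ker) ≤ Nat.card (D ⧸ f.ker) := Nat.card_le_card_of_surjective π hπ
  have h2 : Nat.card c.range ≤ Nat.card f.range := by
    rw [← Nat.card_congr e1.toEquiv, ← Nat.card_congr e2.toEquiv]
    exact h1
  have h3 : Nat.card H ≤ Nat.card f.range := hcard.trans h2
  have h4 : f.range = ⊤ := by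
    apply Subgroup.eq_top_of_le_card
    exact h3
  exact MonoidHom.range_eq_top.mp h4

/-! ### the group of data and the gluing ratio -/

section Data

variable {E k : Type*} [Field E] [Field k] {T' : Type*}
  (b' : T' → Fin 2 → Branch E k) (m : ℕ) (𝒢 𝒮 : Subgroup Eˣ)

/-- the group of Kummer data of the level below. -/
def Dat : Subgroup (Eˣ × Eˣ) where
  carrier := {d | d.1 ∈ 𝒢 ∧ d.2 ^ m * d.1 ∈ 𝒮}
  one_mem' := by
    refine ⟨𝒢.one_mem, ?_⟩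
    show (1 : Eˣ) ^ m * 1 ∈ 𝒮
    rw [one_pow, one_mul]
    exact 𝒮.one_mem
  mul_mem' := by
    rintro ⟨z, g⟩ ⟨z', g'⟩ ⟨h1, h2⟩ ⟨h1', h2'⟩
    refine ⟨𝒢.mul_mem h1 h1', ?_⟩
    show (g * g') ^ m * (z * z') ∈ 𝒮
    have : (g * g') ^ m * (z * z') = (g ^ m * z) * (g' ^ m * z') := by
      rw [mul_pow]; exact mul_mul_mul_comm _ _ _ _
    rw [this]
    exact 𝒮.mul_mem h2 h2'
  inv_mem' := by
    rintro ⟨z, g⟩ ⟨h1, h2⟩
    refine ⟨𝒢.inv_mem h1, ?_⟩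
    show g⁻¹ ^ m * z⁻¹ ∈ 𝒮
    have : g⁻¹ ^ m * z⁻¹ = (g ^ m * z)⁻¹ := by
      rw [inv_pow, mul_inv]
    rw [this]
    exact 𝒮.inv_mem h2

variable {b' m 𝒢 𝒮}
variable (h𝒢 : ∀ z ∈ 𝒢, ∀ n' j, (b' n' j).IsU ((z : Eˣ) : E) ∧ (b' n' j).ev ((z : Eˣ) : E) = 1)
  (h𝒮 : ∀ c ∈ 𝒮, (∀ n' j, (b' n' j).IsU ((c : Eˣ) : E)) ∧
    ∀ n', (b' n' 0).ev ((c : Eˣ) : E) = (b' n' 1).ev ((c : Eˣ) : E))
  (hm : m ≠ 0)

include h𝒢 h𝒮 hm in
/-- the root of a datum is a unit at the two branches of every node. -/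
theorem isU_root {d : Eˣ × Eˣ} (hd : d ∈ Dat m 𝒢 𝒮) (n' : T') (j : Fin 2) :
    (b' n' j).IsU ((d.2 : Eˣ) : E) := by
  obtain ⟨h1, h2⟩ := hd
  have e : ((d.2 : Eˣ) : E) ^ m = ((d.2 ^ m * d.1 : Eˣ) : E) / ((d.1 : Eˣ) : E) := by
    rw [Units.val_mul, Units.val_pow_eq_pow_val, mul_div_assoc, div_self d.1.ne_zero, mul_one]
  exact Branch.IsU.of_pow hm (e ▸ ((h𝒮 _ h2).1 n' j).div (h𝒢 _ h1 n' j).1)

include h𝒢 h𝒮 hm in
/-- a datum is a `LowDatum` for its own gluing ratio. -/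
theorem lowDatum_of_mem {d : Eˣ × Eˣ} (hd : d ∈ Dat m 𝒢 𝒮) :
    LowDatum b' m (fun n' => (b' n' 1).ev ((d.2 : Eˣ) : E) / (b' n' 0).ev ((d.2 : Eˣ) : E))
      ((d.1 : Eˣ) : E) ((d.2 : Eˣ) : E) (((d.2 ^ m * d.1 : Eˣ) : Eˣ) : E) := by
  refine ⟨by rw [Units.val_mul, Units.val_pow_eq_pow_val], h𝒢 _ hd.1, (h𝒮 _ hd.2).1,
    (h𝒮 _ hd.2).2, 1, one_pow _, fun n' => ?_⟩
  have h0 := Branch.ev_ne_zero (isU_root h𝒢 h𝒮 hm hd n' 0)
  field_simp

/-- the `m`-torsion of `T' → kˣ`. -/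
def muT (T' k : Type*) [Field k] (m : ℕ) : Subgroup (T' → kˣ) where
  carrier := {f | ∀ n', f n' ^ m = 1}
  one_mem' := fun n' => one_pow _
  mul_mem' := by
    intro f f' hf hf' n'
    show (f n' * f' n') ^ m = 1
    rw [mul_pow, hf n', hf' n', one_mul]
  inv_mem' := by
    intro f hf n'
    show (f n')⁻¹ ^ m = 1
    rw [inv_pow, hf n', inv_one]

/-- the constant functions in `muT`. -/
def cstT (T' k : Type*) [Field k] (m : ℕ) : Subgroup (muT T' k m) where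
  carrier := {f | ∃ a : kˣ, ∀ n', (f : T' → kˣ) n' = a}
  one_mem' := ⟨1, fun n' => rfl⟩
  mul_mem' := by
    rintro f f' ⟨a, ha⟩ ⟨a', ha'⟩
    exact ⟨a * a', fun n' => by
      show (f : T' → kˣ) n' * (f' : T' → kˣ) n' = a * a'
      rw [ha, ha']⟩
  inv_mem' := by
    rintro f ⟨a, ha⟩
    exact ⟨a⁻¹, fun n' => by
      show ((f : T' → kˣ) n')⁻¹ = a⁻¹
      rw [ha]⟩

include h𝒢 h𝒮 hm in
/-- the value of the gluing ratio, as a unit of `k`. -/
theorem ratio_pow {d : Eˣ × Eˣ} (hd : d ∈ Dat m 𝒢 𝒮) (n' : T') :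
    ((b' n' 1).ev ((d.2 : Eˣ) : E) / (b' n' 0).ev ((d.2 : Eˣ) : E)) ^ m = 1 := by
  have hU := isU_root h𝒢 h𝒮 hm hd n'
  have hz := h𝒢 _ hd.1 n'
  have hc := h𝒮 _ hd.2
  have key : ∀ j, ((b' n' j).ev ((d.2 : Eˣ) : E)) ^ m =
      (b' n' j).ev (((d.2 ^ m * d.1 : Eˣ) : Eˣ) : E) := fun j => by
    rw [Units.val_mul, Units.val_pow_eq_pow_val,
      Branch.ev_mul_of_isU ((hU j).pow m) (hz j).1, (hz j).2, mul_one, Branch.ev_pow (hU j)]
  rw [div_pow, key 1, key 0, (hc.2 n'), div_self (Branch.ev_ne_zero (hc.1 n' 1))]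

/-- **the gluing ratio** `(z, g) ↦ (n' ↦ ev₁ g / ev₀ g)`. -/
noncomputable def xi : Dat m 𝒢 𝒮 →* muT T' k m where
  toFun d := ⟨fun n' => Units.mk0
      ((b' n' 1).ev ((d.1.2 : Eˣ) : E) / (b' n' 0).ev ((d.1.2 : Eˣ) : E))
      (div_ne_zero (Branch.ev_ne_zero (isU_root h𝒢 h𝒮 hm d.2 n' 1))
        (Branch.ev_ne_zero (isU_root h𝒢 h𝒮 hm d.2 n' 0))),
    fun n' => Units.ext (by
      rw [Units.val_pow_eq_pow_val, Units.val_mk0, Units.val_one]
      exact ratio_pow h𝒢 h𝒮 hm d.2 n')⟩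
  map_one' := by
    apply Subtype.ext
    funext n'
    apply Units.ext
    show (b' n' 1).ev ((1 : Eˣ) : E) / (b' n' 0).ev ((1 : Eˣ) : E) = 1
    rw [Units.val_one, (b' n' 1).ev_one, (b' n' 0).ev_one, div_one]
  map_mul' := by
    intro d d'
    apply Subtype.ext
    funext n'
    apply Units.ext
    show (b' n' 1).ev ((d.1.2 * d'.1.2 : Eˣ) : E) / (b' n' 0).ev ((d.1.2 * d'.1.2 : Eˣ) : E) =
      (b' n' 1).ev ((d.1.2 : Eˣ) : E) / (b' n' 0).ev ((d.1.2 : Eˣ) : E) *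
        ((b' n' 1).ev ((d'.1.2 : Eˣ) : E) / (b' n' 0).ev ((d'.1.2 : Eˣ) : E))
    rw [Units.val_mul,
      Branch.ev_mul_of_isU (isU_root h𝒢 h𝒮 hm d.2 n' 1) (isU_root h𝒢 h𝒮 hm d'.2 n' 1),
      Branch.ev_mul_of_isU (isU_root h𝒢 h𝒮 hm d.2 n' 0) (isU_root h𝒢 h𝒮 hm d'.2 n' 0),
      mul_div_mul_comm]

theorem xi_apply (d : Dat m 𝒢 𝒮) (n' : T') :
    ((((xi h𝒢 h𝒮 hm d : muT T' k m) : T' → kˣ) n' : kˣ) : k) =
      (b' n' 1).ev ((d.1.2 : Eˣ) : E) / (b' n' 0).ev ((d.1.2 : Eˣ) : E) := rfl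

include h𝒢 h𝒮 hm in
/-- **XI-INJ + COUNT ⟹ SURJ**: every `ζ : T' → μ_m(k)` is, up to a constant, the gluing ratio of a
datum of the level below. -/
theorem exists_lowDatum_of_count {K : Type*} [Group K] (cl : Eˣ →* K)
    [Finite (muT T' k m ⧸ cstT T' k m)]
    (hinj : ∀ d : Dat m 𝒢 𝒮, xi h𝒢 h𝒮 hm d ∈ cstT T' k m → cl d.1.1 = 1)
    (hcount : Nat.card (muT T' k m ⧸ cstT T' k m) ≤
      Nat.card ((cl.comp ((MonoidHom.fst Eˣ Eˣ).comp (Dat m 𝒢 𝒮).subtype)).range))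
    (ζ : T' → k) (hζ : ∀ n', ζ n' ^ m = 1) :
    ∃ z g' c' : Eˣ, z ∈ 𝒢 ∧ c' ∈ 𝒮 ∧ LowDatum b' m ζ (z : E) (g' : E) (c' : E) := by
  classical
  have hζ0 : ∀ n', ζ n' ≠ 0 := fun n' h0 => by
    have := hζ n'
    rw [h0, zero_pow hm] at this
    exact zero_ne_one this
  -- `ζ` as an element of the quotient
  let ζU : muT T' k m := ⟨fun n' => Units.mk0 (ζ n') (hζ0 n'), fun n' => Units.ext (by
    rw [Units.val_pow_eq_pow_val, Units.val_mk0, Units.val_one]; exact hζ n')⟩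
  let f : Dat m 𝒢 𝒮 →* (muT T' k m ⧸ cstT T' k m) :=
    (QuotientGroup.mk' (cstT T' k m)).comp (xi h𝒢 h𝒮 hm)
  let c : Dat m 𝒢 𝒮 →* K := cl.comp ((MonoidHom.fst Eˣ Eˣ).comp (Dat m 𝒢 𝒮).subtype)
  have hker : f.ker ≤ c.ker := by
    intro d hd
    rw [MonoidHom.mem_ker] at hd ⊢
    have h1 : xi h𝒢 h𝒮 hm d ∈ cstT T' k m := by
      have : (QuotientGroup.mk' (cstT T' k m)) (xi h𝒢 h𝒮 hm d) = 1 := hd
      rwa [QuotientGroup.mk'_apply, QuotientGroup.eq_one_iff] at this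
    exact hinj d h1
  have hsurj := surjective_of_ker_le_of_card_le f c hker hcount
  obtain ⟨d, hd⟩ := hsurj (QuotientGroup.mk' (cstT T' k m) ζU)
  -- `xi d = ζU * const`
  have h2 : (xi h𝒢 h𝒮 hm d)⁻¹ * ζU ∈ cstT T' k m := by
    have : (QuotientGroup.mk' (cstT T' k m)) (xi h𝒢 h𝒮 hm d) =
        (QuotientGroup.mk' (cstT T' k m)) ζU := hd
    rw [QuotientGroup.mk'_apply, QuotientGroup.mk'_apply] at this
    exact QuotientGroup.eq.mp this
  obtain ⟨a, ha⟩ := h2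
  obtain ⟨e1, e2, e3, e4, -⟩ := lowDatum_of_mem h𝒢 h𝒮 hm d.2
  refine ⟨d.1.1, d.1.2, d.1.2 ^ m * d.1.1, d.2.1, d.2.2, e1, e2, e3, e4, ?_⟩
  by_cases hT : Nonempty T'
  swap
  · exact ⟨1, one_pow _, fun n' => absurd ⟨n'⟩ hT⟩
  obtain ⟨n0⟩ := hT
  have hval : ∀ n', ((b' n' 1).ev ((d.1.2 : Eˣ) : E) / (b' n' 0).ev ((d.1.2 : Eˣ) : E))⁻¹ * ζ n' =
      (a : k) := fun n' => by
    have := congrArg Units.val (ha n')
    exact this
  have ham : (a : k) ^ m = 1 := by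
    rw [← hval n0, mul_pow, inv_pow, ratio_pow h𝒢 h𝒮 hm d.2 n0, hζ n0, inv_one, one_mul]
  refine ⟨(a : k)⁻¹, by rw [inv_pow, ham, inv_one], fun n' => ?_⟩
  have h0 := Branch.ev_ne_zero (isU_root h𝒢 h𝒮 hm d.2 n' 0)
  have h1 := Branch.ev_ne_zero (isU_root h𝒢 h𝒮 hm d.2 n' 1)
  have ha0 : (a : k) ≠ 0 := a.ne_zero
  have hz0 := hζ0 n'
  rw [← hval n']
  field_simp

end Data

/-! ### the size of `muT / constants` -/

section Card

variable (T' k : Type*) [Field k] (m : ℕ)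

/-- `muT ≃ (T' → μ_m(k))`. -/
def muTEquiv : muT T' k m ≃ (T' → rootsOfUnity m k) where
  toFun f n' := ⟨(f : T' → kˣ) n', (mem_rootsOfUnity m _).mpr (f.2 n')⟩
  invFun f := ⟨fun n' => (f n' : kˣ), fun n' => (mem_rootsOfUnity m _).mp (f n').2⟩
  left_inv f := rfl
  right_inv f := rfl

/-- `constants ≃ μ_m(k)` when there is a node. -/
noncomputable def cstTEquiv [Nonempty T'] : cstT T' k m ≃ rootsOfUnity m k where
  toFun f := ⟨((f : muT T' k m) : T' → kˣ) (Classical.arbitrary T'),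
    (mem_rootsOfUnity m _).mpr ((f : muT T' k m).2 _)⟩
  invFun a := ⟨⟨fun _ => (a : kˣ), fun _ => (mem_rootsOfUnity m _).mp a.2⟩, (a : kˣ), fun _ => rfl⟩
  left_inv f := by
    obtain ⟨a, ha⟩ := f.2
    apply Subtype.ext
    apply Subtype.ext
    funext n'
    show ((f : muT T' k m) : T' → kˣ) (Classical.arbitrary T') = ((f : muT T' k m) : T' → kˣ) n'
    rw [ha, ha]
  right_inv a := rfl

/-- **`#(muT / constants) ≤ m ^ (#T' - 1)`.** -/
theorem card_quot_le [Finite T'] [NeZero m] :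
    Nat.card (muT T' k m ⧸ cstT T' k m) ≤ m ^ (Nat.card T' - 1) := by
  classical
  have hμ : Nat.card (rootsOfUnity m k) ≤ m := card_rootsOfUnity k m
  have : Finite (muT T' k m) := Finite.of_equiv _ (muTEquiv T' k m).symm
  have hμpos : 0 < Nat.card (rootsOfUnity m k) := Nat.card_pos
  have hmu : Nat.card (muT T' k m) = Nat.card (rootsOfUnity m k) ^ Nat.card T' := by
    rw [Nat.card_congr (muTEquiv T' k m), Nat.card_fun]
  by_cases hT : Nonempty T'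
  swap
  · -- no node: `muT` is trivial
    have : Nat.card (muT T' k m) = 1 := by
      have h0 : Nat.card T' = 0 := by
        rw [Nat.card_eq_zero]
        exact Or.inl (not_nonempty_iff.mp hT)
      rw [hmu, h0, pow_zero]
    have h1 : Nat.card (muT T' k m ⧸ cstT T' k m) ≤ Nat.card (muT T' k m) :=
      Nat.card_le_card_of_surjective _ (QuotientGroup.mk'_surjective (cstT T' k m))
    calc Nat.card (muT T' k m ⧸ cstT T' k m) ≤ 1 := this ▸ h1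
      _ ≤ m ^ (Nat.card T' - 1) := Nat.one_le_pow _ _ (NeZero.pos m)
  have := hT
  have hc : Nat.card (cstT T' k m) = Nat.card (rootsOfUnity m k) :=
    Nat.card_congr (cstTEquiv T' k m)
  have hL := Subgroup.card_eq_card_quotient_mul_card_subgroup (cstT T' k m)
  rw [hmu, hc] at hL
  have hTpos : 0 < Nat.card T' := Nat.card_pos
  obtain ⟨n, hn⟩ : ∃ n, Nat.card T' = n + 1 := ⟨Nat.card T' - 1, by omega⟩
  rw [hn, pow_succ] at hL
  have h2 : Nat.card (muT T' k m ⧸ cstT T' k m) = Nat.card (rootsOfUnity m k) ^ n :=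
    (Nat.eq_of_mul_eq_mul_right hμpos hL).symm
  rw [h2, hn, Nat.add_sub_cancel]
  exact Nat.pow_le_pow_left hμ n

instance finite_quot [Finite T'] [NeZero m] : Finite (muT T' k m ⧸ cstT T' k m) := by
  have : Finite (muT T' k m) := Finite.of_equiv _ (muTEquiv T' k m).symm
  infer_instance

end Card


end Fermat.Agent.GE8.SQ2.SurjAbs
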