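/-
GATE-E / E8.SQ toric side, node (J6) XI-INJ + the SURJ assembly, ABSTRACT half (helper29).

Vocabulary of `GE8/SQ2/ToricOldAbs.lean` (`S : H4OfXi.TripleSetup`, `PullRows S φ1 φ2`) and of
`GE8/SQ2/SurjAbs.lean` (`Dat`, `xi`, `exists_lowDatum_of_count`).

* `U2'.one / mul / inv`      : the normalised units of the level below form a group;
* `lowU S Good`              : `𝒢 = {z | Good z ∧ U2' S z}` as a subgroup of `Eˣ`;
* `semiU χ'`                 : `𝒮` = the quotients `a / s` of elements of the chart ring `B'` which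
                               are units at every node (`χ' n' a ≠ 0`, `χ' n' s ≠ 0`);
* `h𝒢_lowU`, `h𝒮_semiU`      : the two hypotheses `h𝒢 h𝒮` of `SurjAbs` for these groups;
* `exists_chartDatum`        : a datum `g' ^ m * z = a / s` is a datum `(g' s) ^ m * z = a s^(m-1)`
                               with the SAME gluing ratio;
* `xiInj_U3`                 : **XI-INJ, `U3`-form**: a datum of the level below whose gluing ratio
                               is CONSTANT pulls back along `φ1 = α^*` to the input of (H5):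
                               `∃ f0 ≠ 0, U3 S m (φ1 z * f0 ^ m)`;
* `hsurj_of_count`           : XI-INJ (as `cl z = 1`) + COUNT ⟹ the hypothesis `hsurj` of
                               `ToricOldAbs.torOld_U3` / `ToricOldInst.torOld_setupK0Of`.
-/
import Mathlib
import Fermat.Agent.GE8.SQ2.SurjAbs

set_option autoImplicit false
set_option linter.unusedSectionVars false
set_option linter.unusedVariables false

namespace Fermat.Agent.GE8.SQ2.XiInjAbs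

open Fermat.Agent.GL Fermat.Agent.GL.XiStep Fermat.Agent.GL.CompBranch Fermat.Agent.GL.H4OfXi
open Fermat.Agent.GL.XiRows
open Fermat.Agent.GE8.SQ2.ToricOldAbs Fermat.Agent.GE8.SQ2.SurjAbs

section Setup

variable {F E k k1 k2 k3 k1' k2' B B' T T' : Type*} [Field F] [Field E] [Field k]
  [Field k1] [Field k2] [Field k3] [Field k1'] [Field k2'] [CommRing B]
  [Algebra B F] [CommRing B'] [Algebra B' E]
  (S : TripleSetup F E k k1 k2 k3 k1' k2' B T T')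

/-! ### the normalised units of the level below -/

theorem U2'.one : U2' S (1 : E) :=
  ⟨⟨S.A1.one_mem, map_one S.rd1'⟩, ⟨S.A2.one_mem, map_one S.rd2'⟩⟩

variable {S} in
theorem U2'.mul {x y : E} (hx : U2' S x) (hy : U2' S y) : U2' S (x * y) := by
  obtain ⟨⟨a1, b1⟩, ⟨a2, b2⟩⟩ := hx
  obtain ⟨⟨c1, d1⟩, ⟨c2, d2⟩⟩ := hy
  refine ⟨⟨S.A1.mul_mem _ _ a1 c1, ?_⟩, ⟨S.A2.mul_mem _ _ a2 c2, ?_⟩⟩
  · have : (⟨x * y, S.A1.mul_mem _ _ a1 c1⟩ : S.A1) = ⟨x, a1⟩ * ⟨y, c1⟩ := rfl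
    rw [this, map_mul, b1, d1, one_mul]
  · have : (⟨x * y, S.A2.mul_mem _ _ a2 c2⟩ : S.A2) = ⟨x, a2⟩ * ⟨y, c2⟩ := rfl
    rw [this, map_mul, b2, d2, one_mul]

variable {S} in
theorem U2'.inv {x : E} (hx : U2' S x) : U2' S x⁻¹ := by
  obtain ⟨⟨a1, b1⟩, ⟨a2, b2⟩⟩ := hx
  exact ⟨res_inv_eq_one S.A1 S.rd1' S.hr1' a1 b1, res_inv_eq_one S.A2 S.rd2' S.hr2' a2 b2⟩

variable {S} in
/-- a normalised unit is a unit of value `1` at the two branches of every node. -/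
theorem U2'.isU {z : E} (hz : U2' S z) (n' : T') (j : Fin 2) :
    (S.bE n' j).IsU z ∧ (S.bE n' j).ev z = 1 := by
  obtain ⟨⟨a1, b1⟩, ⟨a2, b2⟩⟩ := hz
  fin_cases j
  · exact isU_of_res_eq_one S.A1 S.rd1' S.hr1' (S.U1' n') (S.e1' n') a1 b1
  · exact isU_of_res_eq_one S.A2 S.rd2' S.hr2' (S.U2' n') (S.e2' n') a2 b2

/-- `𝒢 = {z | Good z ∧ U2' S z}`, for a multiplicative predicate `Good`. -/
def lowU (Good : Subgroup Eˣ) : Subgroup Eˣ where
  carrier := {z | z ∈ Good ∧ U2' S ((z : Eˣ) : E)}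
  one_mem' := ⟨Good.one_mem, by rw [Units.val_one]; exact U2'.one S⟩
  mul_mem' := by
    rintro z z' ⟨h1, h2⟩ ⟨h1', h2'⟩
    exact ⟨Good.mul_mem h1 h1', by rw [Units.val_mul]; exact U2'.mul h2 h2'⟩
  inv_mem' := by
    rintro z ⟨h1, h2⟩
    exact ⟨Good.inv_mem h1, by rw [Units.val_inv_eq_inv_val]; exact U2'.inv h2⟩

theorem mem_lowU {Good : Subgroup Eˣ} {z : Eˣ} :
    z ∈ lowU S Good ↔ z ∈ Good ∧ U2' S ((z : Eˣ) : E) := Iff.rfl

theorem h𝒢_lowU (Good : Subgroup Eˣ) : ∀ z ∈ lowU S Good, ∀ n' j,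
    (S.bE n' j).IsU ((z : Eˣ) : E) ∧ (S.bE n' j).ev ((z : Eˣ) : E) = 1 :=
  fun z hz n' j => U2'.isU hz.2 n' j

/-! ### the semilocal units of the chart ring of the level below -/

/-- the quotients `a / s` of elements of `B'` which do not vanish at any node. -/
def semiU (E : Type*) [Field E] [Algebra B' E] (χ' : T' → (B' →+* k)) : Subgroup Eˣ where
  carrier := {c | ∃ a s : B', (∀ n', χ' n' a ≠ 0) ∧ (∀ n', χ' n' s ≠ 0) ∧
    ((c : Eˣ) : E) * algebraMap B' E s = algebraMap B' E a}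
  one_mem' := ⟨1, 1, fun n' => by rw [map_one]; exact one_ne_zero,
    fun n' => by rw [map_one]; exact one_ne_zero, by rw [Units.val_one, one_mul]⟩
  mul_mem' := by
    rintro c c' ⟨a, s, ha, hs, e⟩ ⟨a', s', ha', hs', e'⟩
    refine ⟨a * a', s * s', fun n' => ?_, fun n' => ?_, ?_⟩
    · rw [map_mul]; exact mul_ne_zero (ha n') (ha' n')
    · rw [map_mul]; exact mul_ne_zero (hs n') (hs' n')
    · rw [Units.val_mul, map_mul, map_mul, ← e, ← e']; ring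
  inv_mem' := by
    rintro c ⟨a, s, ha, hs, e⟩
    refine ⟨s, a, hs, ha, ?_⟩
    rw [Units.val_inv_eq_inv_val, ← e]
    field_simp

variable (χ' : T' → (B' →+* k))
  (hS' : ∀ n' j (b : B'), χ' n' b ≠ 0 →
    (S.bE n' j).IsU (algebraMap B' E b) ∧ (S.bE n' j).ev (algebraMap B' E b) = χ' n' b)

include hS' in
theorem h𝒮_semiU : ∀ c ∈ semiU E χ', (∀ n' j, (S.bE n' j).IsU ((c : Eˣ) : E)) ∧
    ∀ n', (S.bE n' 0).ev ((c : Eˣ) : E) = (S.bE n' 1).ev ((c : Eˣ) : E) := by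
  rintro c ⟨a, s, ha, hs, e⟩
  have hs0 : ∀ n', algebraMap B' E s ≠ 0 := fun n' => (hS' n' 0 s (hs n')).1.1
  have hc : ∀ n' : T', ((c : Eˣ) : E) = algebraMap B' E a / algebraMap B' E s := fun n' => by
    rw [← e, mul_div_assoc, div_self (hs0 n'), mul_one]
  refine ⟨fun n' j => ?_, fun n' => ?_⟩
  · rw [hc n']
    exact (hS' n' j a (ha n')).1.div (hS' n' j s (hs n')).1
  · rw [hc n', Branch.ev_div (hS' n' 0 a (ha n')).1 (hS' n' 0 s (hs n')).1,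
      Branch.ev_div (hS' n' 1 a (ha n')).1 (hS' n' 1 s (hs n')).1,
      (hS' n' 0 a (ha n')).2, (hS' n' 0 s (hs n')).2, (hS' n' 1 a (ha n')).2,
      (hS' n' 1 s (hs n')).2]

include hS' in
/-- a datum with `g' ^ m * z = a / s` is a datum with `(g' s) ^ m * z = a s ^ (m - 1)`, of the SAME
branch ratios. -/
theorem exists_chartDatum {m : ℕ} (hm : m ≠ 0) {z g' c' : E} (hgz : g' ^ m * z = c')
    (hgU : ∀ n' j, (S.bE n' j).IsU g')
    {a s : B'} (ha : ∀ n', χ' n' a ≠ 0) (hs : ∀ n', χ' n' s ≠ 0)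
    (e : c' * algebraMap B' E s = algebraMap B' E a) :
    ∃ (g'' : E) (cB : B'), g'' ^ m * z = algebraMap B' E cB ∧ (∀ n', χ' n' cB ≠ 0) ∧
      (∀ n' j, (S.bE n' j).IsU g'') ∧
      ∀ n' j, (S.bE n' j).ev g'' = (S.bE n' j).ev g' * χ' n' s := by
  refine ⟨g' * algebraMap B' E s, a * s ^ (m - 1), ?_, fun n' => ?_, fun n' j => ?_,
    fun n' j => ?_⟩
  · obtain ⟨m', rfl⟩ : ∃ m', m = m' + 1 := ⟨m - 1, by omega⟩
    rw [Nat.add_sub_cancel, map_mul, map_pow, ← e, ← hgz]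
    ring
  · rw [map_mul, map_pow]
    exact mul_ne_zero (ha n') (pow_ne_zero _ (hs n'))
  · exact (hgU n' j).mul (hS' n' j s (hs n')).1
  · rw [Branch.ev_mul_of_isU (hgU n' j) (hS' n' j s (hs n')).1, (hS' n' j s (hs n')).2]

/-! ### XI-INJ + COUNT ⟹ `hsurj` -/

include hS' in
/-- **the hypothesis `hsurj` of `torOld_U3`** from XI-INJ (`hinj`) and the COUNT (`hcount`), for
`𝒢 = lowU S Good`, `𝒮 = semiU E χ'`. -/
theorem hsurj_of_count {m : ℕ} (hm : m ≠ 0) (Good : Subgroup Eˣ)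
    {K : Type*} [Group K] (cl : Eˣ →* K)
    [Finite (muT T' k m ⧸ cstT T' k m)]
    (hinj : ∀ d : Dat m (lowU S Good) (semiU E χ'),
      xi (h𝒢_lowU S Good) (h𝒮_semiU S χ' hS') hm d ∈ cstT T' k m → cl d.1.1 = 1)
    (hcount : Nat.card (muT T' k m ⧸ cstT T' k m) ≤
      Nat.card ((cl.comp ((MonoidHom.fst Eˣ Eˣ).comp
        (Dat m (lowU S Good) (semiU E χ')).subtype)).range))
    (ζ : T' → k) (hζ : ∀ n', ζ n' ^ m = 1) :
    ∃ (z g' : E) (cB : B'), (∃ zu : Eˣ, zu ∈ Good ∧ (zu : E) = z) ∧ U2' S z ∧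
      (∀ n', χ' n' cB ≠ 0) ∧ LowDatum S.bE m ζ z g' (algebraMap B' E cB) := by
  obtain ⟨z, g', c', hz, ⟨a, s, ha, hs, e⟩, hD⟩ :=
    exists_lowDatum_of_count (h𝒢_lowU S Good) (h𝒮_semiU S χ' hS') hm cl hinj hcount ζ hζ
  have hgU := hD.isU_root hm
  obtain ⟨hgz, hzU, hcU, hceq, ζ₀, hζ₀, hrat⟩ := hD
  obtain ⟨g'', cB, h1, h2, h3, h4⟩ := exists_chartDatum S χ' hS' hm hgz hgU ha hs e
  refine ⟨(z : E), g'', cB, ⟨z, hz.1, rfl⟩, hz.2, h2, h1, hzU,
    fun n' j => (hS' n' j cB (h2 n')).1, fun n' => ?_, ζ₀, hζ₀, fun n' => ?_⟩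
  · rw [(hS' n' 0 cB (h2 n')).2, (hS' n' 1 cB (h2 n')).2]
  · rw [h4 n' 1, h4 n' 0, hrat n']
    ring

/-! ### XI-INJ in `U3`-form -/

variable [IsDomain B] [IsFractionRing B F]
variable {S} {φ1 φ2 : E →+* F} (R : PullRows S φ1 φ2)

include R in
/-- **XI-INJ, `U3`-form.**  A Kummer datum `g' ^ m * z = cB` of the level below (`z` normalised,
`cB ∈ B'` a unit at every node) whose gluing ratio `ev₁ g' / ev₀ g'` is a CONSTANT `a` pulls back
along `φ1 = α^*` to a normalised unit with trivial gluing, after the constant correction `f0` of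
reductions `(1, a, 1)`. -/
theorem xiInj_U3 {m : ℕ} (hm : m ≠ 0) (φ1B : B' →+* B)
    (hφ1B : ∀ b, algebraMap B F (φ1B b) = φ1 (algebraMap B' E b))
    (hχ1 : ∀ n b, S.χ n (φ1B b) = χ' (S.p1 n) b)
    (happ : ∀ a0 b0 : k, a0 ^ m = 1 → b0 ^ m = 1 → ∃ f0 : F, f0 ≠ 0 ∧ U2 S (f0 ^ m) ∧
      (∀ n i, (S.bN n i).IsU f0) ∧
      ∀ n, (S.bN n 0).ev f0 = 1 ∧ (S.bN n 1).ev f0 = a0 ∧ (S.bN n 2).ev f0 = b0)
    {z g' : E} {cB : B'} (hz : U2' S z) (hgz : g' ^ m * z = algebraMap B' E cB)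
    (hcB : ∀ n', χ' n' cB ≠ 0) (hgU : ∀ n' j, (S.bE n' j).IsU g')
    {a : k} (ha : a ^ m = 1) (hratio : ∀ n', (S.bE n' 1).ev g' = a * (S.bE n' 0).ev g') :
    ∃ f0 : F, f0 ≠ 0 ∧ U2 S (f0 ^ m) ∧ U3 S m (φ1 z * f0 ^ m) := by
  have ha0 : a ≠ 0 := fun h0 => by rw [h0, zero_pow hm] at ha; exact zero_ne_one ha
  obtain ⟨f0, hf00, hf0U2, hf0U, hf0ev⟩ := happ a 1 ha (one_pow _)
  refine ⟨f0, hf00, hf0U2, U2.mul S (U2_phi1 R hz) hf0U2, φ1 g' / f0, φ1B cB, ?_, ?_, ?_⟩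
  · rw [hφ1B, ← hgz, map_mul, map_pow, div_pow]
    have hf0m : f0 ^ m ≠ 0 := pow_ne_zero _ hf00
    field_simp
  · intro n hmem
    have := (S.hχker n (φ1B cB)).mpr hmem
    rw [hχ1] at this
    exact hcB _ this
  · intro n
    obtain ⟨hXU, hX0, hX1, hX2⟩ := branch_row1 R n g' (fun j => hgU (S.p1 n) j)
    obtain ⟨e0, e1, e2⟩ := hf0ev n
    have hgU' : ∀ i, (S.bN n i).IsU (φ1 g' / f0) := fun i => (hXU i).div (hf0U n i)
    have hev : ∀ i, (S.bN n i).ev (φ1 g' / f0) = (S.bN n i).ev (φ1 g') / (S.bN n i).ev f0 :=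
      fun i => Branch.ev_div (hXU i) (hf0U n i)
    have heq1 : (S.bN n 1).ev (φ1 g' / f0) = (S.bN n 0).ev (φ1 g' / f0) := by
      rw [hev 1, hev 0, e0, e1, hX0, hX1, hratio]
      field_simp
    have heq2 : (S.bN n 2).ev (φ1 g' / f0) = (S.bN n 0).ev (φ1 g' / f0) := by
      rw [hev 2, hev 0, e0, e2, hX0, hX2]
    obtain ⟨b0', hb0'⟩ := S.hχsurj n ((S.bN n 0).ev (φ1 g' / f0))
    have hne : S.χ n b0' ≠ 0 := by
      rw [hb0']; exact Branch.ev_ne_zero (hgU' 0)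
    refine ⟨b0', fun hmem => hne ((S.hχker n b0').mpr hmem), ?_, ?_, ?_⟩
    · apply sub_mem_nonunits_of_ev_eq S.W1 S.rd1 S.hr1 (S.U1 n) (S.e1 n) (hgU' 0).2.1
        (S.hB1 n b0')
      rw [S.hχ1 n b0', hb0']; rfl
    · apply sub_mem_nonunits_of_ev_eq S.W2 S.rd2 S.hr2 (S.U2 n) (S.e2 n) (hgU' 1).2.1
        (S.hB2 n b0')
      rw [S.hχ2 n b0', hb0']; exact heq1
    · apply sub_mem_nonunits_of_ev_eq S.W3 S.rd3 S.hr3 (S.U3 n) (S.e3 n) (hgU' 2).2.1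
        (S.hB3 n b0')
      rw [S.hχ3 n b0', hb0']; exact heq2

end Setup

end Fermat.Agent.GE8.SQ2.XiInjAbs
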