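/-
GATE-E / E8.SQ toric side, node (J6) XI-INJ + the SURJ assembly at the concrete `TripleSetup` over
`K₀` (helper29).

* `hS'_setupK0Of`        : the elements of the chart ring `BK0 A (M' q)` which do not vanish at a
                           node are units at its two branches, of value `χ'`;
* `xiInj_U3_setupK0Of`   : `XiInjAbs.xiInj_U3` at `setupK0Of` (rows, `happ` discharged);
* `normAlong_alphaB_alphaB_of_dvd` : `Norm (α u) = u ^ q` for `q ∣ N`;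
* `xiInj_setupK0Thm`     : **XI-INJ at level `M' q`**: a Kummer datum of the level `M' q` with
                           CONSTANT gluing ratio has a `p`-th power as its unit
                           (`α^*` + (H5) `h5FinalK0` + `α_* α^* = q`, `p ≠ q`);
* `hsurj_setupK0Thm`     : **the hypothesis `hsurj` of `ToricOldInst.torOld_setupK0Of`** from a set
                           `X` of Kummer classes of level `M' q`, of size `≥ p ^ (#nodes − 1)`, all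
                           of whose elements carry a Kummer datum (leaves (E1) count + J5b + J7).
-/
import Fermat.Agent.GE8.SQ2.XiInjAbs
import Fermat.Agent.GE8.SQ2.KumRange
import Fermat.Agent.GE8.SQ2.ToricOldInst
import Fermat.Agent.GL.Final.H5FinalK0
import Fermat.Agent.GK.UQ.Degree
import Fermat.Agent.GK.UTr.KumAlpha
import Fermat.Agent.GB.A3.Ob
import Fermat.Agent.GJ.J2.Tower.DescM

set_option autoImplicit false
set_option linter.unusedSectionVars false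
set_option linter.unusedVariables false
set_option linter.style.haveILetI false

noncomputable section

namespace Fermat.Agent.GE8.SQ2.XiInjInst

open Polynomial ModularCurve IsLocalRing AlgebraicCurve
open Fermat.Agent.GL Fermat.Agent.GL.Chain Fermat.Agent.GL.CompBranch Fermat.Agent.GL.H4OfXi
open Fermat.Agent.GL.XiStep
open Fermat.Agent.GK.MultiVal
open Fermat.Agent.GL.Frame.HeightOne Fermat.Agent.GL.Frame.Kummer
open Fermat.Agent.GJ.KumGroup
open Fermat.Agent.GL.Frame.Inst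
open Fermat.Agent.GL.TripleBuild Fermat.Agent.GL.BuildInst Fermat.Agent.GL.BuildInstPts
open Fermat.Agent.GL.BuildInstArm
open Fermat.Agent.GL.Final.TriplePoints Fermat.Agent.GL.Final.RowsInst
open Fermat.Agent.GL.Val.GaussK0 Fermat.Agent.GL.Val.SecondK0 Fermat.Agent.GL.Val.SecondK0Hall
open Fermat.Agent.GL.Val.ThirdK0 Fermat.Agent.GL.Val.CuspK0
open Fermat.Agent.GL.Table.K0
open Fermat.Agent.GL.Final.TopInst Fermat.Agent.GL.Final.H4Inst Fermat.Agent.GL.Final.H4InstK0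
open Fermat.Agent.GL.Final.TripleInstK0
open Fermat.Agent.GL.Val.DegBase
open Fermat.Agent.Common_helper32
open Fermat.Agent.GE8.SQ2.ToricOldAbs Fermat.Agent.GE8.SQ2.InstRows
open Fermat.Agent.GE8.SQ2.SurjAbs Fermat.Agent.GE8.SQ2.XiInjAbs Fermat.Agent.GE8.SQ2.KumRange
open Fermat.Agent.GK.UTr Fermat.Agent.GK.UQ Fermat.Agent.GJ.HN
open Fermat.Agent.GB.A3.Ob
open Fermat.Agent.GJ.HInputs Fermat.Agent.S24

attribute [local instance 2000] instAlgR0FullC instAlgBK0FullC instAlgR0BK0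

variable (A : ValuationSubring Qb) {M' q : ℕ} [NeZero q] [NeZero M']
  (hq : q.Prime) (hqM : ¬ q ∣ M') (hA : (q : Qb) ∈ A.nonunits)

local notation "F₀" => modularFunctionFieldFullC (K0 A) (M' * q * q)
local notation "E₀" => modularFunctionFieldFullC (K0 A) (M' * q)
local notation "k₀" => ResidueField (R0 A)

/-! ### at `setupK0Of` -/

section General

variable (s : (R0 A)[X]) (H : SsPts A hq hqM hA s) (hv : (buildK0 A hq hqM hA s H).Hval)

local notation "S₀" => setupK0Of A hq hqM hA s H hv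
local notation "D₀" => buildK0 A hq hqM hA s H

/-- the elements of the chart ring of level `M' q` which do not vanish at a node are units at its
two branches, of value `χ'`. -/
theorem hS'_setupK0Of (h2 : q = 2 → 3 ∣ M') (h3 : q = 3 → 2 ∣ M') :
    ∀ n' (j : Fin 2) (b : BK0 A (M' * q)), (D₀).χ' n' b ≠ 0 →
      ((S₀).bE n' j).IsU (algebraMap (BK0 A (M' * q)) E₀ b) ∧
        ((S₀).bE n' j).ev (algebraMap (BK0 A (M' * q)) E₀ b) = (D₀).χ' n' b := by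
  intro n' j b hb
  haveI : IsFractionRing (BK0 A (M' * q)) E₀ := isFractionRing_BK0 A hA (M' * q) hq
  have hb0 : algebraMap (BK0 A (M' * q)) E₀ b ≠ 0 := by
    intro h0
    have : b = 0 := IsFractionRing.injective (BK0 A (M' * q)) E₀ (by rw [h0, map_zero])
    rw [this, map_zero] at hb
    exact hb rfl
  fin_cases j
  · refine ⟨⟨hb0, setupK0Pts_hB1' A hq hqM hA s H h2 h3 n' b, ?_⟩,
      setupK0Pts_hχ1' A hq hqM hA s H h2 h3 n' b⟩
    exact inv_mem_comp_of_ev_ne_zero (S₀).A1 (S₀).rd1' (S₀).hr1' ((S₀).U1' n') ((S₀).e1' n')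
      (setupK0Pts_heu1' A hq hqM hA s H h2 h3 n') (setupK0Pts_hB1' A hq hqM hA s H h2 h3 n' b)
      (fun h0 => hb ((setupK0Pts_hχ1' A hq hqM hA s H h2 h3 n' b).symm.trans h0))
  · refine ⟨⟨hb0, setupK0Pts_hB2' A hq hqM hA s H h2 h3 n' b, ?_⟩,
      setupK0Pts_hχ2' A hq hqM hA s H h2 h3 n' b⟩
    exact inv_mem_comp_of_ev_ne_zero (S₀).A2 (S₀).rd2' (S₀).hr2' ((S₀).U2' n') ((S₀).e2' n')
      (setupK0Pts_heu2' A hq hqM hA s H h2 h3 n') (setupK0Pts_hB2' A hq hqM hA s H h2 h3 n' b)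
      (fun h0 => hb ((setupK0Pts_hχ2' A hq hqM hA s H h2 h3 n' b).symm.trans h0))

/-- **XI-INJ in `U3`-form at the concrete `TripleSetup`.** -/
theorem xiInj_U3_setupK0Of (h2 : q = 2 → 3 ∣ M') (h3 : q = 3 → 2 ∣ M')
    {m1 : ℕ} (hm1 : m1 ≠ 0) {z g' : E₀} {cB : BK0 A (M' * q)}
    (hz : U2' (S₀) z) (hgz : g' ^ m1 * z = algebraMap (BK0 A (M' * q)) E₀ cB)
    (hcB : ∀ n', (D₀).χ' n' cB ≠ 0) (hgU : ∀ n' j, ((S₀).bE n' j).IsU g')
    {a : k₀} (ha : a ^ m1 = 1)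
    (hratio : ∀ n', ((S₀).bE n' 1).ev g' = a * ((S₀).bE n' 0).ev g') :
    ∃ f0 : F₀, f0 ≠ 0 ∧ U2 (S₀) (f0 ^ m1) ∧ U3 (S₀) m1 (phi1 A M' q z * f0 ^ m1) := by
  haveI : IsAlgClosed k₀ := isAlgClosed_residueField_R0 A hq hA
  haveI : IsFractionRing (BK0 A (M' * q * q)) F₀ := isFractionRing_BK0 A hA (M' * q * q) hq
  exact xiInj_U3 (D₀).χ' (pullRows_setupK0Of A hq hqM hA s H hv) hm1
    (phiAlpha A (M' * q) q) (algebraMap_phiAlpha A (M' * q) q) (D₀).hχ1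
    (Fermat.Agent.GL.H4Approx.happ_of_approx (S₀)
      (setupK0Pts_hW A hq hqM hA s H h2 h3)
      (setupK0Pts_hs1 A hq hqM hA s H h2 h3) (setupK0Pts_hs2 A hq hqM hA s H h2 h3)
      (setupK0Pts_hs3 A hq hqM hA s H h2 h3)
      (setupK0Pts_hconst1 A hq hqM hA s H h2 h3) (setupK0Pts_hconst2 A hq hqM hA s H h2 h3)
      (setupK0Pts_hconst3 A hq hqM hA s H h2 h3) hm1)
    hz hgz hcB hgU ha hratio

end General

/-! ### `α_* α^* = q` for `q ∣ N` -/

/-- `Norm_{F_{Nq}/F_N} (α u) = u ^ q` for a prime `q ∣ N`. -/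
theorem normAlong_alphaB_alphaB_of_dvd {N q : ℕ} [NeZero N] [NeZero q] (hq : q.Prime)
    (hqN : q ∣ N) (u : FK N) : normAlong (alphaB N q) (alphaB N q u) = u ^ q := by
  letI := algebraAlong (alphaB N q)
  have h1 : alphaB N q u = algebraMap (FK N) (FK (N * q)) u := rfl
  show Algebra.norm (FK N) (alphaB N q u) = u ^ q
  rw [h1, Algebra.norm_algebraMap, finrank_alphaB_of_dvd hq hqN]

/-- `α^*` of a unit is a `p`-th power only if the unit is (`p ≠ q`, `q ∣ N`). -/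
theorem exists_pow_eq_of_alphaUnits {N q p : ℕ} [NeZero N] [NeZero q] (hq : q.Prime)
    (hqN : q ∣ N) (hpq : Nat.Coprime p q) {y : (FK N)ˣ} {v : (FK (N * q))ˣ}
    (h : alphaUnits N q y = v ^ p) : ∃ w : (FK N)ˣ, w ^ p = y := by
  refine eq_pow_of_pow_eq_pow hpq (v := normUnits N q v) ?_
  rw [← map_pow, ← h]
  apply Units.ext
  rw [Units.val_pow_eq_pow_val, coe_normUnits, coe_alphaUnits,
    normAlong_alphaB_alphaB_of_dvd hq hqN]

/-! ### the groups `Good` and the class map -/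

section Defs

variable (M' q) (p : ℕ)

/-- `Good`: the `K₀`-rational units of level `M' q` whose divisor over `ℚ̄` is divisible by `p`. -/
def goodU : Subgroup (modularFunctionFieldFullC (K0 A) (M' * q))ˣ :=
  (pDivUnits Kb (FK (M' * q)) p).comap (mapU (M := M' * q) A)

variable {M' q p} in
theorem mem_goodU {z : (modularFunctionFieldFullC (K0 A) (M' * q))ˣ} :
    z ∈ goodU A M' q p ↔ mapU (M := M' * q) A z ∈ pDivUnits Kb (FK (M' * q)) p := Iff.rfl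

/-- the class map `E₀ˣ → F_{M'q}ˣ / p`-th powers. -/
def clU : (modularFunctionFieldFullC (K0 A) (M' * q))ˣ →* powQ (FK (M' * q)) p :=
  (clF (FK (M' * q)) p).comp (mapU (M := M' * q) A)

end Defs

/-! ### at `setupK0Thm` -/

section Thm

variable (h2 : q = 2 → 3 ∣ M') (h3 : q = 3 → 2 ∣ M')
  {r : ℕ} (hr : r.Prime) (hrM : r ∣ M') (hr3 : r % 3 = 2) (hr4 : r % 4 = 3)

local notation "S₁" => setupK0Thm A hq hqM hA h2 h3 hr hrM hr3 hr4
local notation "D₁" => buildK0 A hq hqM hA (sK0 A hq) (ssPtsK0 A hq hqM hA h2 h3 hr hrM hr3 hr4)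

/-- **XI-INJ at level `M' q`.** -/
theorem xiInj_setupK0Thm {p : ℕ} (hp : p.Prime) (hqp : q ≠ p)
    {z : (E₀)ˣ} {g' : E₀} {cB : BK0 A (M' * q)}
    (hzG : mapU (M := M' * q) A z ∈ pDivUnits Kb (FK (M' * q)) p)
    (hz : U2' (S₁) ((z : (E₀)ˣ) : E₀))
    (hgz : g' ^ p * ((z : (E₀)ˣ) : E₀) = algebraMap (BK0 A (M' * q)) E₀ cB)
    (hcB : ∀ n', (D₁).χ' n' cB ≠ 0) (hgU : ∀ n' j, ((S₁).bE n' j).IsU g')
    {a : k₀} (ha : a ^ p = 1)
    (hratio : ∀ n', ((S₁).bE n' 1).ev g' = a * ((S₁).bE n' 0).ev g') :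
    ∃ w : (FK (M' * q))ˣ, w ^ p = mapU (M := M' * q) A z := by
  have hcop : Nat.Coprime p q := (Nat.coprime_primes hp hq).mpr (Ne.symm hqp)
  obtain ⟨f0, hf00, -, hU3⟩ := xiInj_U3_setupK0Of A hq hqM hA (sK0 A hq)
    (ssPtsK0 A hq hqM hA h2 h3 hr hrM hr3 hr4)
    (hvalK0 A hq hqM hA h2 h3 (sK0 A hq) (ssPtsK0 A hq hqM hA h2 h3 hr hrM hr3 hr4))
    h2 h3 hp.ne_zero hz hgz hcB hgU ha hratio
  have hφz0 : phi1 A M' q ((z : (E₀)ˣ) : E₀) ≠ 0 := fun h0 =>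
    z.ne_zero ((map_eq_zero (phi1 A M' q)).mp h0)
  have hu30 : phi1 A M' q ((z : (E₀)ˣ) : E₀) * f0 ^ p ≠ 0 :=
    mul_ne_zero hφz0 (pow_ne_zero _ hf00)
  -- `toFN0 (α z) = α (toFN0 z)`
  have hα : toFN0 A (M' * q * q) (phi1 A M' q ((z : (E₀)ˣ) : E₀)) =
      alphaB (M' * q) q ((mapU (M := M' * q) A z : (FK (M' * q))ˣ) : FK (M' * q)) := by
    rw [Fermat.Agent.GL.W3.toFN0_eq_mapK0Bar]
    exact mapK0Bar_alphaK0 A (M' * q) q _
  have hf0' : toFN0 A (M' * q * q) f0 ≠ 0 := fun h0 =>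
    hf00 ((map_eq_zero (toFN0 A (M' * q * q))).mp h0)
  have hdiv : ∀ P : Place Kb (FK (M' * q * q)),
      (p : ℤ) ∣ P.ord (toFN0 A (M' * q * q) (phi1 A M' q ((z : (E₀)ˣ) : E₀) * f0 ^ p)) := by
    intro P
    rw [map_mul, map_pow, Place.ord_mul _ (by rw [hα]; exact (alphaUnits (M' * q) q _).ne_zero)
      (pow_ne_zero _ hf0'), hα]
    refine dvd_add (alphaUnits_mem (M' * q) q p _ hzG P) ?_
    rw [← zpow_natCast, Place.ord_zpow]
    exact dvd_mul_right _ _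
  obtain ⟨w, hw0, hw⟩ := Fermat.Agent.GL.Final.H5Final.h5FinalK0 A hq hqM hA h2 h3 hr hrM hr3 hr4
    hp.ne_zero hcop _ hu30 hU3 hdiv
  rw [map_mul, map_pow, hα] at hw
  refine exists_pow_eq_of_alphaUnits hq (Dvd.intro_left M' rfl) hcop
    (v := Units.mk0 w hw0 / Units.mk0 _ hf0') ?_
  apply Units.ext
  rw [coe_alphaUnits, div_pow, Units.val_div_eq_div_val, Units.val_pow_eq_pow_val,
    Units.val_pow_eq_pow_val, Units.val_mk0, Units.val_mk0, ← hw,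
    mul_div_assoc, div_self (pow_ne_zero _ hf0'), mul_one]

/-- **XI-INJ, the hypothesis `hinj` of `SurjAbs.exists_lowDatum_of_count`.** -/
theorem hinj_setupK0Thm {p : ℕ} (hp : p.Prime) (hqp : q ≠ p) :
    ∀ d : Dat p (lowU (S₁) (goodU A M' q p)) (semiU E₀ (D₁).χ'),
      xi (h𝒢_lowU (S₁) (goodU A M' q p))
        (h𝒮_semiU (S₁) (D₁).χ' (hS'_setupK0Of A hq hqM hA (sK0 A hq)
          (ssPtsK0 A hq hqM hA h2 h3 hr hrM hr3 hr4)
          (hvalK0 A hq hqM hA h2 h3 (sK0 A hq) (ssPtsK0 A hq hqM hA h2 h3 hr hrM hr3 hr4)) h2 h3))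
        hp.ne_zero d ∈ cstT (TK0' A M' hq) k₀ p → clU A M' q p d.1.1 = 1 := by
  intro d hd
  have hS' := hS'_setupK0Of A hq hqM hA (sK0 A hq)
    (ssPtsK0 A hq hqM hA h2 h3 hr hrM hr3 hr4)
    (hvalK0 A hq hqM hA h2 h3 (sK0 A hq) (ssPtsK0 A hq hqM hA h2 h3 hr hrM hr3 hr4)) h2 h3
  have h𝒢 := h𝒢_lowU (S₁) (goodU A M' q p)
  have h𝒮 := h𝒮_semiU (S₁) (D₁).χ' hS'
  have hgU := SurjAbs.isU_root h𝒢 h𝒮 hp.ne_zero d.2
  obtain ⟨a₀, ha₀⟩ := hd
  obtain ⟨⟨z, g'⟩, ⟨hzG, hzU2⟩, ⟨a, s, ha, hs, e⟩⟩ := d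
  have hgz : ((g' : (E₀)ˣ) : E₀) ^ p * ((z : (E₀)ˣ) : E₀) = (((g' ^ p * z : (E₀)ˣ) : (E₀)ˣ) : E₀) := by
    rw [Units.val_mul, Units.val_pow_eq_pow_val]
  obtain ⟨g'', cB, h1, h2', h3', h4⟩ :=
    exists_chartDatum (S₁) (D₁).χ' hS' hp.ne_zero hgz hgU ha hs e
  -- the ratio of `g'`
  have hrat : ∀ n', ((S₁).bE n' 1).ev ((g' : (E₀)ˣ) : E₀) =
      (a₀ : k₀) * ((S₁).bE n' 0).ev ((g' : (E₀)ˣ) : E₀) := by
    intro n'
    have h0 := Branch.ev_ne_zero (hgU n' 0)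
    have := congrArg Units.val (ha₀ n')
    rw [xi_apply] at this
    rw [← this]
    field_simp
  have hrat'' : ∀ n', ((S₁).bE n' 1).ev g'' = (a₀ : k₀) * ((S₁).bE n' 0).ev g'' := by
    intro n'
    rw [h4 n' 1, h4 n' 0, hrat n']
    ring
  show clF (FK (M' * q)) p (mapU (M := M' * q) A z) = 1
  rw [clF_eq_one_iff]
  by_cases hT : Nonempty (TK0' A M' hq)
  · obtain ⟨n0⟩ := hT
    have ha₀p : (a₀ : k₀) ^ p = 1 := by
      have h0 := Branch.ev_ne_zero (hgU n0 0)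
      have := SurjAbs.ratio_pow h𝒢 h𝒮 hp.ne_zero
        (d := (z, g')) ⟨⟨hzG, hzU2⟩, ⟨a, s, ha, hs, e⟩⟩ n0
      rw [hrat n0, mul_div_assoc, div_self h0, mul_one] at this
      exact this
    exact xiInj_setupK0Thm A hq hqM hA h2 h3 hr hrM hr3 hr4 hp hqp hzG hzU2 h1 h2' h3' ha₀p hrat''
  · exact xiInj_setupK0Thm A hq hqM hA h2 h3 hr hrM hr3 hr4 hp hqp hzG hzU2 h1 h2' h3'
      (a := 1) (one_pow _) (fun n' => absurd ⟨n'⟩ hT)

/-- **the hypothesis `hsurj` of `ToricOldInst.torOld_setupK0Of` at `setupK0Thm`**, from a set `X` of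
Kummer classes of level `M' q` of size `≥ p ^ (#nodes − 1)` all of whose elements are classes of
normalised `K₀`-rational units carrying a Kummer datum in the chart ring. -/
theorem hsurj_setupK0Thm {p : ℕ} (hp : p.Prime) (hqp : q ≠ p)
    (X : Set (Additive (Kum Kb (FK (M' * q)) p)))
    (hXcard : p ^ (Nat.card (TK0' A M' hq) - 1) ≤ Nat.card X)
    (hXdat : ∀ y ∈ X, ∃ (z : (E₀)ˣ)
      (hzG : mapU (M := M' * q) A z ∈ pDivUnits Kb (FK (M' * q)) p),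
      Additive.ofMul (Kum.mk ⟨mapU (M := M' * q) A z, hzG⟩) = y ∧
        U2' (S₁) ((z : (E₀)ˣ) : E₀) ∧
        ∃ (g' : E₀) (cB : BK0 A (M' * q)),
          g' ^ p * ((z : (E₀)ˣ) : E₀) = algebraMap (BK0 A (M' * q)) E₀ cB ∧
            ∀ n', (D₁).χ' n' cB ≠ 0) :
    ∀ ζ : TK0' A M' hq → k₀, (∀ n', ζ n' ^ p = 1) →
      ∃ (z g' : E₀) (cB : BK0 A (M' * q)),
        (∀ P : Place Kb (FK (M' * q)), (p : ℤ) ∣ P.ord (toFN0 A (M' * q) z)) ∧ U2' (S₁) z ∧
        (∀ n', (D₁).χ' n' cB ≠ 0) ∧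
        LowDatum (S₁).bE p ζ z g' (algebraMap (BK0 A (M' * q)) E₀ cB) := by
  intro ζ hζ
  haveI : NeZero p := ⟨hp.ne_zero⟩
  haveI : Finite (TK0' A M' hq) := finite_TK0' A hq hA
  haveI : Finite (Kum Kb (FK (M' * q)) p) := Fermat.Agent.GJ.KumTower.finite_kum_Q (M' * q) p
  have hS' := hS'_setupK0Of A hq hqM hA (sK0 A hq)
    (ssPtsK0 A hq hqM hA h2 h3 hr hrM hr3 hr4)
    (hvalK0 A hq hqM hA h2 h3 (sK0 A hq) (ssPtsK0 A hq hqM hA h2 h3 hr hrM hr3 hr4)) h2 h3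
  have hcount : Nat.card (muT (TK0' A M' hq) k₀ p ⧸ cstT (TK0' A M' hq) k₀ p) ≤
      Nat.card (((clU A M' q p).comp ((MonoidHom.fst (E₀)ˣ (E₀)ˣ).comp
        (Dat p (lowU (S₁) (goodU A M' q p)) (semiU E₀ (D₁).χ')).subtype)).range) := by
    refine (card_quot_le (TK0' A M' hq) k₀ p).trans (hXcard.trans ?_)
    refine card_le_card_range Kb
      (c := (mapU (M := M' * q) A).comp ((MonoidHom.fst (E₀)ˣ (E₀)ˣ).comp
        (Dat p (lowU (S₁) (goodU A M' q p)) (semiU E₀ (D₁).χ')).subtype))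
      (fun d => d.2.1.1) X ?_
    intro y hy
    obtain ⟨z, hzG, rfl, hzU, g', cB, hgz, hcB⟩ := hXdat y hy
    by_cases hT : Nonempty (TK0' A M' hq)
    · obtain ⟨n0⟩ := hT
      have hg0 : g' ≠ 0 := by
        rintro rfl
        rw [zero_pow hp.ne_zero, zero_mul] at hgz
        have hc0 : cB = 0 := by
          haveI : IsFractionRing (BK0 A (M' * q)) E₀ := isFractionRing_BK0 A hA (M' * q) hq
          exact IsFractionRing.injective (BK0 A (M' * q)) E₀ (by rw [← hgz, map_zero])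
        exact hcB n0 (by rw [hc0, map_zero])
      refine ⟨⟨(z, Units.mk0 g' hg0), ⟨⟨hzG, hzU⟩, ⟨cB, 1, hcB,
        fun n' => by rw [map_one]; exact one_ne_zero, ?_⟩⟩⟩, rfl⟩
      rw [map_one, mul_one, Units.val_mul, Units.val_pow_eq_pow_val, Units.val_mk0]
      exact hgz
    · exact ⟨⟨(z, 1), ⟨⟨hzG, hzU⟩, ⟨0, 0, fun n' => absurd ⟨n'⟩ hT, fun n' => absurd ⟨n'⟩ hT,
        by rw [map_zero, mul_zero]⟩⟩⟩, rfl⟩
  obtain ⟨z, g', cB, ⟨zu, hzu, rfl⟩, h2', h3', h4'⟩ :=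
    hsurj_of_count (S₁) (D₁).χ' hS' hp.ne_zero (goodU A M' q p) (clU A M' q p)
      (hinj_setupK0Thm A hq hqM hA h2 h3 hr hrM hr3 hr4 hp hqp) hcount ζ hζ
  refine ⟨_, g', cB, fun P => ?_, h2', h3', h4'⟩
  rw [Fermat.Agent.GL.W3.toFN0_eq_mapK0Bar]
  exact hzu P

end Thm

end Fermat.Agent.GE8.SQ2.XiInjInst
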