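/-
GATE-E / E8.SQ toric side, node (J8) = THE TOP of (TOR-OLD) (helper29).

`Stmt.TorOldStmt isTor3` (an inertia-invariant toric class of level `L' q` is `α^* x₁ + β^* x₂`)
from ONE input, the COUNT + DATUM package of the level below (`SurjInput`):

  a set `X` of Kummer classes of level `M' q` (`L' = M' q`) with `p ^ (#nodes − 1) ≤ #X`, every
  element of which is the class of a NORMALISED `K₀`-rational unit `z` (`U2'`) carrying a Kummer
  datum `g' ^ p * z = cB` in the chart ring, `cB` a unit at every node.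

Chain: `Approx3K0.isU2K0_of_isTor3` (helper21; entry into the `TripleSetup`) →
`ToricOldInst.torOld_setupK0Of` (TOR-OLD in `U3`-form; `PInj.pInj_setupK0Thm` helper99;
`XiInjInst.hsurj_setupK0Thm` = XI-INJ + COUNT ⟹ SURJ) → (H5) `H5Final.h5FinalK0` → classes.
-/
import Fermat.Agent.GE8.SQ2.XiInjInst
import Fermat.Agent.GE8.SQ2.PInj
import Fermat.Agent.GE8.SQ.Approx3K0
import Fermat.Agent.GK.UTr.KumBeta

set_option autoImplicit false
set_option linter.unusedSectionVars false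
set_option linter.unusedVariables false
set_option linter.style.haveILetI false

noncomputable section

namespace Fermat.Agent.GE8.SQ2.TorOldTop

open Polynomial ModularCurve IsLocalRing AlgebraicCurve
open Fermat.Agent.GL Fermat.Agent.GL.Chain Fermat.Agent.GL.CompBranch Fermat.Agent.GL.H4OfXi
open Fermat.Agent.GL.XiStep
open Fermat.Agent.GJ.KumGroup Fermat.Agent.GJ.Kum.KumType
open Fermat.Agent.GL.TripleBuild Fermat.Agent.GL.BuildInst Fermat.Agent.GL.BuildInstPts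
open Fermat.Agent.GL.Final.TriplePoints Fermat.Agent.GL.Final.RowsInst
open Fermat.Agent.GL.Val.GaussK0 Fermat.Agent.GL.Val.SecondK0 Fermat.Agent.GL.Val.SecondK0Hall
open Fermat.Agent.GL.Val.ThirdK0 Fermat.Agent.GL.Val.CuspK0
open Fermat.Agent.GL.Table.K0
open Fermat.Agent.GL.Final.TripleInstK0
open Fermat.Agent.Common_helper32
open Fermat.Agent.GE8.SQ2.ToricOldAbs Fermat.Agent.GE8.SQ2.InstRows
open Fermat.Agent.GE8.SQ2.XiInjInst Fermat.Agent.GE8.SQ2.ToricOldInst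
open Fermat.Agent.GK.UTr Fermat.Agent.GK.UQ
open Fermat.Agent.GB.A3.Ob Fermat.Agent.GB.A
open Fermat.Agent.GE8.SQ.Stmt Fermat.Agent.GE8.SQ.Approx3K0
open Fermat.Agent.GL.Final.GeomGate Fermat.Agent.GL.AL

attribute [local instance 2000] instAlgR0FullC instAlgBK0FullC instAlgR0BK0

section Level

variable (A : ValuationSubring Qb) {M' q : ℕ} [NeZero q] [NeZero M']
  (hq : q.Prime) (hqM : ¬ q ∣ M') (hA : (q : Qb) ∈ A.nonunits)
  (h2 : q = 2 → 3 ∣ M') (h3 : q = 3 → 2 ∣ M')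
  {r : ℕ} (hr : r.Prime) (hrM : r ∣ M') (hr3 : r % 3 = 2) (hr4 : r % 4 = 3)

local notation "F₀" => modularFunctionFieldFullC (K0 A) (M' * q * q)
local notation "E₀" => modularFunctionFieldFullC (K0 A) (M' * q)
local notation "k₀" => ResidueField (R0 A)
local notation "S₁" => setupK0Thm A hq hqM hA h2 h3 hr hrM hr3 hr4
local notation "D₁" => buildK0 A hq hqM hA (sK0 A hq) (ssPtsK0 A hq hqM hA h2 h3 hr hrM hr3 hr4)

/-- **the COUNT + DATUM input of the level `M' q`**: a set of Kummer classes of size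
`≥ p ^ (#nodes − 1)`, all classes of normalised `K₀`-rational units with a chart Kummer datum. -/
def SurjInput (p : ℕ) : Prop :=
  ∃ X : Set (Additive (Kum Kb (FK (M' * q)) p)),
    p ^ (Nat.card (TK0' A M' hq) - 1) ≤ Nat.card X ∧
    ∀ y ∈ X, ∃ (z : (E₀)ˣ)
      (hzG : mapU (M := M' * q) A z ∈ pDivUnits Kb (FK (M' * q)) p),
      Additive.ofMul (Kum.mk ⟨mapU (M := M' * q) A z, hzG⟩) = y ∧
        U2' (S₁) ((z : (E₀)ˣ) : E₀) ∧
        ∃ (g' : E₀) (cB : BK0 A (M' * q)),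
          g' ^ p * ((z : (E₀)ˣ) : E₀) = algebraMap (BK0 A (M' * q)) E₀ cB ∧
            ∀ n', (D₁).χ' n' cB ≠ 0

/-- a commutative group identity. -/
theorem comm_id {G : Type*} [CommGroup G] (a u f : G) : a = u * (f / (u / a * f)) := by
  rw [mul_comm (u / a) f, ← div_div, div_self', one_div, inv_div, mul_div_cancel]

/-- a normalised unit of the level below is nonzero. -/
theorem ne_zero_of_U2' {z : E₀} (hz : U2' (S₁) z) : z ≠ 0 := by
  rintro rfl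
  obtain ⟨⟨h1, e1⟩, -⟩ := hz
  have : (S₁).rd1' ⟨(0 : E₀), h1⟩ = 0 := map_zero _
  rw [this] at e1
  exact zero_ne_one e1

/-- **(TOR-OLD) at level `M' q²`, `K₀`-entry.** -/
theorem torOld_of_surj {p : ℕ} [Fact p.Prime] (hqp : q ≠ p)
    (hS : SurjInput A hq hqM hA h2 h3 hr hrM hr3 hr4 p)
    {u : pDivUnits Kb (FK (M' * q * q)) p} {u₀ : F₀}
    (hmap : mapK0Bar A (M' * q * q) u₀ = ((u : (FK (M' * q * q))ˣ) : FK (M' * q * q)))
    (hU2 : U2 (S₁) u₀) :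
    ∃ x₁ x₂ : Additive (Kum Kb (FK (M' * q)) p),
      Additive.ofMul (Kum.mk u) = aUp (M' * q) q p x₁ + betaUp (M' * q) q p x₂ := by
  have hp : p.Prime := Fact.out
  have hcop : Nat.Coprime p q := (Nat.coprime_primes hp hq).mpr (Ne.symm hqp)
  obtain ⟨X, hXcard, hXdat⟩ := hS
  have hu0 : u₀ ≠ 0 := by
    rintro rfl
    rw [map_zero] at hmap
    exact (u : (FK (M' * q * q))ˣ).ne_zero hmap.symm
  have hdiv : ∀ P : Place Kb (FK (M' * q * q)),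
      (p : ℤ) ∣ P.ord (toFN0 A (M' * q * q) u₀) := fun P => by
    rw [Fermat.Agent.GL.W3.toFN0_eq_mapK0Bar, hmap]
    exact u.2 P
  have hpI := Fermat.Agent.GE8.SQ2.PInj.pInj_setupK0Thm A hq hqM hA h2 h3 hr hrM hr3 hr4
  obtain ⟨z₁, z₂, f0, hG1, hG2, hz1, hz2, hf00, hU3⟩ :=
    torOld_setupK0Of A hq hqM hA (sK0 A hq) (ssPtsK0 A hq hqM hA h2 h3 hr hrM hr3 hr4)
      (hvalK0 A hq hqM hA h2 h3 (sK0 A hq) (ssPtsK0 A hq hqM hA h2 h3 hr hrM hr3 hr4))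
      (monic_sK0 A hq) h2 h3 hr hrM hr3 hr4 hp.ne_zero hpI.1 hpI.2
      (fun z => ∀ P : Place Kb (FK (M' * q)), (p : ℤ) ∣ P.ord (toFN0 A (M' * q) z))
      (hsurj_setupK0Thm A hq hqM hA h2 h3 hr hrM hr3 hr4 hp hqp X hXcard hXdat)
      u₀ hu0 hU2 hdiv
  have hz10 : z₁ ≠ 0 := ne_zero_of_U2' A hq hqM hA h2 h3 hr hrM hr3 hr4 hz1
  have hz20 : z₂ ≠ 0 := ne_zero_of_U2' A hq hqM hA h2 h3 hr hrM hr3 hr4 hz2
  -- the units over `ℚ̄`
  have hm1 : mapK0Bar A (M' * q) z₁ ≠ 0 := (map_ne_zero (mapK0Bar A (M' * q))).2 hz10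
  have hm2 : mapK0Bar A (M' * q) z₂ ≠ 0 := (map_ne_zero (mapK0Bar A (M' * q))).2 hz20
  have hmf : mapK0Bar A (M' * q * q) f0 ≠ 0 := (map_ne_zero (mapK0Bar A (M' * q * q))).2 hf00
  obtain ⟨Z1, hZ1⟩ : ∃ Z1 : pDivUnits Kb (FK (M' * q)) p,
      (((Z1 : (FK (M' * q))ˣ)) : FK (M' * q)) = mapK0Bar A (M' * q) z₁ :=
    ⟨⟨Units.mk0 _ hm1, fun P => by
      have := hG1 P
      rwa [Fermat.Agent.GL.W3.toFN0_eq_mapK0Bar] at this⟩, rfl⟩
  obtain ⟨Z2, hZ2⟩ : ∃ Z2 : pDivUnits Kb (FK (M' * q)) p,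
      (((Z2 : (FK (M' * q))ˣ)) : FK (M' * q)) = mapK0Bar A (M' * q) z₂ :=
    ⟨⟨Units.mk0 _ hm2, fun P => by
      have := hG2 P
      rwa [Fermat.Agent.GL.W3.toFN0_eq_mapK0Bar] at this⟩, rfl⟩
  obtain ⟨fU, hfU⟩ : ∃ fU : (FK (M' * q * q))ˣ,
      ((fU : (FK (M' * q * q))ˣ) : FK (M' * q * q)) = mapK0Bar A (M' * q * q) f0 :=
    ⟨Units.mk0 _ hmf, rfl⟩
  have hα : mapK0Bar A (M' * q * q) (phi1 A M' q z₁) =
      ((alphaUnits (M' * q) q (Z1 : (FK (M' * q))ˣ) : (FK (M' * q * q))ˣ) : FK (M' * q * q)) := by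
    rw [coe_alphaUnits, hZ1]
    exact mapK0Bar_alphaK0 A (M' * q) q z₁
  have hβ : mapK0Bar A (M' * q * q) (phi2 A M' q z₂) =
      ((betaUnits (M' * q) q (Z2 : (FK (M' * q))ˣ) : (FK (M' * q * q))ˣ) : FK (M' * q * q)) := by
    rw [coe_betaUnits, hZ2]
    exact mapK0Bar_betaK0 A (M' * q) q z₂
  -- the unit `u / (α z₁ · β z₂) · f^p`
  obtain ⟨W, hW⟩ : ∃ W : (FK (M' * q * q))ˣ, W = (u : (FK (M' * q * q))ˣ) /
      (alphaUnits (M' * q) q (Z1 : (FK (M' * q))ˣ) *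
        betaUnits (M' * q) q (Z2 : (FK (M' * q))ˣ)) * fU ^ p := ⟨_, rfl⟩
  have hWmem : W ∈ pDivUnits Kb (FK (M' * q * q)) p := by
    rw [hW]
    exact Subgroup.mul_mem _ (Subgroup.div_mem _ u.2 (Subgroup.mul_mem _
      (alphaUnits_mem (M' * q) q p _ Z1.2) (betaUnits_mem (M' * q) q p _ Z2.2)))
      (pow_mem_pDivUnits Kb (FK (M' * q * q)) p fU)
  have hWval : toFN0 A (M' * q * q) (u₀ / (phi1 A M' q z₁ * phi2 A M' q z₂) * f0 ^ p) =
      ((W : (FK (M' * q * q))ˣ) : FK (M' * q * q)) := by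
    rw [Fermat.Agent.GL.W3.toFN0_eq_mapK0Bar, map_mul, map_div₀, map_mul, map_pow, hmap, hα, hβ,
      ← hfU, hW, Units.val_mul, Units.val_div_eq_div_val, Units.val_mul, Units.val_pow_eq_pow_val]
  have hu30 : u₀ / (phi1 A M' q z₁ * phi2 A M' q z₂) * f0 ^ p ≠ 0 := by
    intro h0
    rw [h0, map_zero] at hWval
    exact W.ne_zero hWval.symm
  obtain ⟨w, hw0, hw⟩ := Fermat.Agent.GL.Final.H5Final.h5FinalK0 A hq hqM hA h2 h3 hr hrM hr3 hr4
    hp.ne_zero hcop _ hu30 hU3 (fun P => by rw [hWval]; exact hWmem P)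
  rw [hWval] at hw
  -- classes
  refine ⟨Additive.ofMul (Kum.mk Z1), Additive.ofMul (Kum.mk Z2), ?_⟩
  rw [aUp_mk, betaUp_mk, ← ofMul_mul, ← map_mul]
  congr 1
  refine (Kum.mk_eq_mk_iff).mpr ⟨fU / Units.mk0 w hw0, ?_⟩
  apply Units.ext
  have hwU : ((W : (FK (M' * q * q))ˣ) : FK (M' * q * q)) =
      (((Units.mk0 w hw0) ^ p : (FK (M' * q * q))ˣ) : FK (M' * q * q)) := by
    rw [Units.val_pow_eq_pow_val, Units.val_mk0]; exact hw
  have hWe : W = (Units.mk0 w hw0) ^ p := Units.ext hwU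
  show ((alphaUnits (M' * q) q (Z1 : (FK (M' * q))ˣ) *
      betaUnits (M' * q) q (Z2 : (FK (M' * q))ˣ) : (FK (M' * q * q))ˣ) : FK (M' * q * q)) =
    (((u : (FK (M' * q * q))ˣ) * (fU / Units.mk0 w hw0) ^ p : (FK (M' * q * q))ˣ) :
      FK (M' * q * q))
  congr 1
  rw [div_pow, ← hWe, hW]
  exact comm_id _ _ _

end Level

/-! ### the closed form -/

/-- **the closed form of the COUNT + DATUM input**, with every fact a good auxiliary level
`L' = M' q` provides. -/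
def SurjInputStmt : Prop :=
  ∀ (p : ℕ) [Fact p.Prime] (_ : p ≠ 2) (M' q : ℕ) [NeZero M'] [NeZero q] (hq : q.Prime)
    (_ : q ≠ p) (hqM : ¬ q ∣ M') (A : ValuationSubring Qb) (_ : A.LiesOverPrime q)
    (hA : (q : Qb) ∈ A.nonunits) (h2 : q = 2 → 3 ∣ M') (h3 : q = 3 → 2 ∣ M')
    (r : ℕ) (hr : r.Prime) (hrM : r ∣ M') (hr3 : r % 3 = 2) (hr4 : r % 4 = 3) (_ : r ≠ q)
    (_ : ∀ N'' : ℕ, r ∣ N'' → nuTwo N'' = 0 ∧ nuThree N'' = 0),
    SurjInput A hq hqM hA h2 h3 hr hrM hr3 hr4 p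

/-- **(TOR-OLD)**: `Stmt.TorOldStmt isTor3` from the COUNT + DATUM input. -/
theorem torOldStmt_of_surjInput (H : SurjInputStmt) : TorOldStmt isTor3 := by
  intro p _ hp2 L' q _ _ hqp hgood A hA y hy _
  have hq : q.Prime := Fact.out
  obtain ⟨hqL, hq2L, ⟨r, hr, hr12, hrq, hrL, hν⟩, h2, h3⟩ := hgood
  obtain ⟨M', hM'⟩ : ∃ M' : ℕ, L' = M' * q := ⟨L' / q, (Nat.div_mul_cancel hqL).symm⟩
  subst hM'
  haveI : NeZero q := ⟨hq.ne_zero⟩
  haveI : NeZero M' := ⟨fun h0 => NeZero.ne (M' * q) (by rw [h0, zero_mul])⟩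
  have hqM : ¬ q ∣ M' := by
    rintro ⟨d, rfl⟩
    exact hq2L ⟨d, by ring⟩
  have hrM : r ∣ M' := by
    rcases (Nat.Prime.dvd_mul hr).mp hrL with h | h
    · exact h
    · exact absurd ((Nat.prime_dvd_prime_iff_eq hr hq).mp h) hrq
  have hr3 : r % 3 = 2 := by omega
  have hr4 : r % 4 = 3 := by omega
  have h2' : q = 2 → 3 ∣ M' := fun hq2 => by
    have h := h2 hq2
    rw [hq2] at h
    exact (Nat.Coprime.dvd_mul_right (by decide : Nat.Coprime 3 2)).mp h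
  have h3' : q = 3 → 2 ∣ M' := fun hq3 => by
    have h := h3 hq3
    rw [hq3] at h
    exact (Nat.Coprime.dvd_mul_right (by decide : Nat.Coprime 2 3)).mp h
  obtain ⟨h, hA', u, u₀, hyu, hmap, o1, o2, o3⟩ := isU2K0_of_isTor3 hA hy
  obtain ⟨x₁, x₂, hx⟩ := torOld_of_surj A hq hqM hA' h2' h3' hr hrM hr3 hr4 hqp
    (H p hp2 M' q hq hqp hqM A hA hA' h2' h3' r hr hrM hr3 hr4 hrq hν) hmap ⟨o1, o2, o3⟩
  exact ⟨x₁, x₂, hyu ▸ hx⟩

end Fermat.Agent.GE8.SQ2.TorOldTop
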