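/-
GATE-E / E8.SQ toric side, the assembly of `TorOldTop.SurjInputStmt` (helper29).

`SurjInputStmt` (the ONE input of `TorOldTop.torOldStmt_of_surjInput`) from

* the COUNT `CountFin.pow_le_card_T0_fin` (helper94/helper68/helper69): `p ^ (#nodes − 1) ≤ #T0`;
* (J7a) `NodesCard.card_TK0'_le_ncard_nodes` (helper9): `#T' ≤ #nodes`;
* (J7b) `NormT0.exists_U2'_of_mem_T0_ord` (helper99): every class of `T0` is the class of a
  normalised `K₀`-rational unit;
* (J5b) `LevelQDatumStmt` (helper92): a normalised unit with `p`-divisible divisor carries a Kummer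
  datum in the chart ring of level `M' q` — the only HYPOTHESIS of this file.

  `torOldStmt_of_levelQDatum : LevelQDatumStmt → Stmt.TorOldStmt isTor3`.
-/
import Fermat.Agent.GE8.SQ2.TorOldTop
import Fermat.Agent.GE8.SQ2.CountFin
import Fermat.Agent.GE8.SQ2.NodesCard
import Fermat.Agent.GE8.SQ2.NormT0

set_option autoImplicit false
set_option linter.unusedSectionVars false
set_option linter.unusedVariables false
set_option linter.style.haveILetI false

noncomputable section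

namespace Fermat.Agent.GE8.SQ2.SurjInputFin

open Polynomial ModularCurve IsLocalRing AlgebraicCurve
open Fermat.Agent.GL Fermat.Agent.GL.H4OfXi
open Fermat.Agent.GJ.KumGroup Fermat.Agent.GJ.Kum.KumType
open Fermat.Agent.GL.TripleBuild Fermat.Agent.GL.BuildInst Fermat.Agent.GL.BuildInstPts
open Fermat.Agent.GL.Val.GaussK0 Fermat.Agent.GL.Val.CuspK0
open Fermat.Agent.GL.Final.TripleInstK0
open Fermat.Agent.Common_helper32
open Fermat.Agent.GE8.SQ2.ToricOldAbs Fermat.Agent.GE8.SQ2.TorOldTop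
open Fermat.Agent.GE8.SQ2.CountStmt
open Fermat.Agent.GB.A3.Ob
open Fermat.Agent.GE8.SQ.Stmt

attribute [local instance 2000] instAlgR0FullC instAlgBK0FullC instAlgR0BK0

/-- **(J5b), closed form**: at a good level `M' q`, a normalised `K₀`-rational unit whose divisor
over `ℚ̄` is divisible by `p` carries a Kummer datum in the chart ring `BK0 A (M' q)`, with a
constant which is a unit at every node. -/
def LevelQDatumStmt : Prop :=
  ∀ (p : ℕ) [Fact p.Prime] (M' q : ℕ) [NeZero M'] [NeZero q] (hq : q.Prime)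
    (_ : q ≠ p) (hqM : ¬ q ∣ M') (A : ValuationSubring Qb) (_ : A.LiesOverPrime q)
    (hA : (q : Qb) ∈ A.nonunits) (h2 : q = 2 → 3 ∣ M') (h3 : q = 3 → 2 ∣ M')
    (r : ℕ) (hr : r.Prime) (hrM : r ∣ M') (hr3 : r % 3 = 2) (hr4 : r % 4 = 3) (_ : r ≠ q)
    (_ : ∀ N'' : ℕ, r ∣ N'' → nuTwo N'' = 0 ∧ nuThree N'' = 0)
    (z : modularFunctionFieldFullC (K0 A) (M' * q)), z ≠ 0 →
    U2' (setupK0Thm A hq hqM hA h2 h3 hr hrM hr3 hr4) z →
    (∀ P : Place Kb (FK (M' * q)), (p : ℤ) ∣ P.ord (toFN0 A (M' * q) z)) →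
    ∃ (g' : modularFunctionFieldFullC (K0 A) (M' * q)) (cB : BK0 A (M' * q)),
      g' ^ p * z = algebraMap (BK0 A (M' * q)) (modularFunctionFieldFullC (K0 A) (M' * q)) cB ∧
        ∀ n', (buildK0 A hq hqM hA (sK0 A hq)
          (ssPtsK0 A hq hqM hA h2 h3 hr hrM hr3 hr4)).χ' n' cB ≠ 0

/-- **`SurjInputStmt` from (J5b).** -/
theorem surjInputStmt_of_levelQDatum (H : LevelQDatumStmt) : SurjInputStmt := by
  intro p _ hp2 M' q _ _ hq hqp hqM A hAL hA h2 h3 r hr hrM hr3 hr4 hrq hν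
  have hp : p.Prime := Fact.out
  haveI : Fact q.Prime := ⟨hq⟩
  obtain ⟨J', hJ, hBT, -⟩ := Fermat.Agent.GL.BRingK0.exists_ideal_K0
    (Fermat.Agent.GL.W3Table.exactDvd_level hq hqM) hqM hAL h2 h3
  have hcount := Fermat.Agent.GE8.SQ2.CountFin.pow_le_card_T0_fin M' q A
    (Fermat.Agent.GL.W3Table.exactDvd_level hq hqM) hqM hAL h2 h3 (hν M' hrM).1 (hν M' hrM).2
    hJ hBT p (Ne.symm hqp) hq hA
  have hnodes := Fermat.Agent.GE8.SQ2.NodesCard.card_TK0'_le_ncard_nodes M' q A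
    (Fermat.Agent.GL.W3Table.exactDvd_level hq hqM) hqM hAL h2 h3 hq hBT
  refine ⟨(T0 (Fermat.Agent.GL.W3Table.exactDvd_level hq hqM) A p : Set _), ?_, ?_⟩
  · exact (Nat.pow_le_pow_right hp.pos (Nat.sub_le_sub_right hnodes 1)).trans hcount
  · intro y hy
    obtain ⟨u, z, hyu, hmap, hU, hz0, hdiv⟩ :=
      Fermat.Agent.GE8.SQ2.NormT0.exists_U2'_of_mem_T0_ord A hq hqM hA h2 h3 hr hrM hr3 hr4
        hp.pos hy
    obtain ⟨g', cB, hg, hc⟩ :=
      H p M' q hq hqp hqM A hAL hA h2 h3 r hr hrM hr3 hr4 hrq hν _ hz0 hU hdiv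
    have hzG : mapU (M := M' * q) A z ∈ pDivUnits Kb (FK (M' * q)) p := by
      rw [hmap]; exact u.2
    refine ⟨z, hzG, ?_, hU, g', cB, hg, hc⟩
    rw [← hyu]
    congr 2
    exact Subtype.ext hmap

/-- **(TOR-OLD) from (J5b).** -/
theorem torOldStmt_of_levelQDatum (H : LevelQDatumStmt) : TorOldStmt isTor3 :=
  torOldStmt_of_surjInput (surjInputStmt_of_levelQDatum H)

end Fermat.Agent.GE8.SQ2.SurjInputFin
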