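/-
GATE-E / E8.SQ toric side, FINAL (helper29): **`torOldStmt : Stmt.TorOldStmt isTor3`, binder-free.**

`SurjInputFin.torOldStmt_of_levelQDatum` fed with helper92's (J5b)
`LevelQDatum.levelQDatum_setupK0Thm`.

Chain of the toric side (all on main): `Approx3K0.isU2K0_of_isTor3` (helper21) →
`ToricOldInst.torOld_setupK0Of` (+ `PInj` helper99, `XiInjInst.hsurj_setupK0Thm` = XI-INJ + COUNT ⟹
SURJ, count = `CountFin` helper94/68/69, `NodesCard` helper9, `NormT0` helper99, `LevelQDatum`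
helper92) → (H5) `H5Final.h5FinalK0` → `α^* x₁ + β^* x₂`.
-/
import Fermat.Agent.GE8.SQ2.SurjInputFin
import Fermat.Agent.GE8.SQ2.LevelQDatum

set_option autoImplicit false

namespace Fermat.Agent.GE8.SQ2.TorOldFin

open Fermat.Agent.GE8.SQ.Stmt Fermat.Agent.GE8.SQ2.SurjInputFin

/-- **(J5b), closed form** (helper92). -/
theorem levelQDatumStmt : LevelQDatumStmt := by
  intro p hpF M' q _ _ hq hqp hqM A hAL hA h2 h3 r hr hrM hr3 hr4 hrq hν z hz0 hU hdiv
  exact Fermat.Agent.GE8.SQ2.LevelQDatum.levelQDatum_setupK0Thm A hq hqM hA h2 h3 hr hrM hr3 hr4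
    hpF.out.ne_zero z hz0 hU hdiv

/-- **(TOR-OLD), binder-free**: an inertia-invariant toric class of level `L' q` (`L'` a good
auxiliary level, `q ∥ L'`) is `α^* x₁ + β^* x₂` with `x₁ x₂ ∈ Kum_p(F_{L'})`. -/
theorem torOldStmt : TorOldStmt isTor3 :=
  torOldStmt_of_levelQDatum levelQDatumStmt

end Fermat.Agent.GE8.SQ2.TorOldFin
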