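/-
GATE-E / E8.2 SQ-ii hedge (helper29), ASSEMBLY in hypothesis form (node (M7) of helper97's
`MP2Gate`, restricted to `p ∤ q - 1`).

`M = L' q`, `V = Kum_p(F_M)`, `V' = Kum_p(F_{L'})`, `Q ≤ V` a submodule on which the old-killer
`t = P(T^M)` (`P(T^{L'}) = 0`) is the identity and an Eisenstein twist `E` acts as a unit scalar `c`
(the `a_ℓ(W)`-eigenspace `eigQ`).  Geometric inputs, as hypotheses:

* `hV`  : `E` maps inertia-invariant classes to inertia-invariant classes with a 3-UNIT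
          representative (`UnitCls`; the valuation identity `W_i (T_ℓ x) = (ℓ+1) W_i x`);
* `hS4` : a norm-killed invariant class of `UnitCls` has `(q-1) • z` TORIC
          (`Tor`; `NormUnit.exists_normalised_unit` + descent plumbing);
* `hTO` : a toric class is OLD: `z = α^* x₁ + β^* x₂` (`aS`, `bS` any two Galois-equivariant maps
          from level `L'`).

Conclusion: `Q ∩ V^{I_A} = 0`, the conclusion of `GE8/SQ/Top.MP2Gate`.  The killer dies on the two
norms (`KillerDies.kumHecke_aeval_dies`) and on the two pull-backs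
(`WCopy.kumHecke_aeval_comp_of_gal`) because EVERY Galois-equivariant map between Kummer groups
commutes with the Hecke polynomials — no Brandt matrices.
-/
import Mathlib
import Fermat.Agent.GB.A.FP
import Fermat.Agent.GB.A.A5.WCopy
import Fermat.Agent.GK.New.KillerDies

set_option autoImplicit false
set_option linter.unusedSectionVars false

noncomputable section

namespace Fermat.Agent.GE8.SQ2.Asm

open AlgebraicCurve ModularCurve
open Fermat.Agent.GJ Fermat.Agent.GJ.KumGroup Fermat.Agent.GJ.Kum.KumType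
open Fermat.Agent.GK.UQ Fermat.Agent.GK.New Fermat.Agent.GK.Tate.KumHecke
open Fermat.Agent.GB.A Fermat.Agent.GB.A.A5.WCopy

local notation "GQ'" => (AlgebraicClosure ℚ ≃ₐ[ℚ] AlgebraicClosure ℚ)

/-! ### the abstract core -/

section Core

variable {R : Type*} [Field R] {V V' : Type*} [AddCommGroup V] [Module R V]
  [AddCommGroup V'] [Module R V']

/-- **the abstract assembly**: `t = id` and `E = c` (a unit) on `Q`; `t` dies under `f₁ f₂` and on
the ranges of `aS bS`; `E` maps `Inv` into `UnitCls ∩ Inv`; norm-killed invariant unit classes are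
toric after multiplication by the unit `d`; toric classes are old.  Then `Q ∩ Inv = 0`. -/
theorem eq_zero_of_core (Q Inv : Submodule R V) (t E : Module.End R V)
    (f₁ f₂ : V →ₗ[R] V') (aS bS : V' →ₗ[R] V)
    (UnitCls Tor : Set V) {c d : R} (hc : c ≠ 0) (hd : d ≠ 0)
    (htQ : ∀ y ∈ Q, t y = y) (hEQ : ∀ y ∈ Q, E y = c • y)
    (hf₁ : ∀ y, f₁ (t y) = 0) (hf₂ : ∀ y, f₂ (t y) = 0)
    (haS : ∀ x, t (aS x) = 0) (hbS : ∀ x, t (bS x) = 0)
    (hV : ∀ y ∈ Inv, E y ∈ UnitCls ∧ E y ∈ Inv)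
    (hS4 : ∀ z ∈ UnitCls, z ∈ Inv → f₁ z = 0 → f₂ z = 0 → d • z ∈ Tor)
    (hTO : ∀ z ∈ Tor, ∃ x₁ x₂, z = aS x₁ + bS x₂)
    {y : V} (hyQ : y ∈ Q) (hyI : y ∈ Inv) : y = 0 := by
  have hty := htQ y hyQ
  have hEy := hEQ y hyQ
  obtain ⟨hU, hI⟩ := hV y hyI
  have h1 : f₁ (E y) = 0 := by
    rw [hEy, map_smul, ← hty, hf₁, smul_zero]
  have h2 : f₂ (E y) = 0 := by
    rw [hEy, map_smul, ← hty, hf₂, smul_zero]
  obtain ⟨x₁, x₂, hz⟩ := hTO _ (hS4 _ hU hI h1 h2)
  have h3 : t (d • E y) = 0 := by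
    rw [hz, map_add, haS, hbS, add_zero]
  rw [hEy, map_smul, map_smul, hty, smul_smul] at h3
  rcases smul_eq_zero.1 h3 with h | h
  · exact absurd h (mul_ne_zero hd hc)
  · exact h

end Core

/-! ### the concrete form on `Kum_p` -/

section Concrete

variable {p : ℕ} [Fact p.Prime] {L' M : ℕ} [NeZero L'] [NeZero M]
  (S : Finset ℕ) (hL'S : ∀ r : ℕ, r.Prime → r ∣ L' → r ∈ S)
  (hMS : ∀ r : ℕ, r.Prime → r ∣ M → r ∈ S) (hpS : p ∈ S)
  {ζ : ℂ} (hζ : IsPrimitiveRoot ζ p)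

local notation "V" => Additive (Kum Kb (FK M) p)
local notation "V'" => Additive (Kum Kb (FK L') p)

include hpS in
/-- **the assembly on `Kum_p`**, in the vocabulary of `GE8/SQ/Top.MP2Gate` (`M = L' q` there):
`P` an old-killer of level `L'` which is the identity on `Q`; `E` any endomorphism acting on `Q`
as the unit scalar `c`; `f₁ f₂` (the two degeneracy norms) and `aS bS` (the two pull-backs)
Galois-equivariant; `(q - 1 : ZMod p) ≠ 0`. -/
theorem eq_zero_of_parts (A : ValuationSubring Kb) (q : ℕ)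
    (P : MvPolynomial (PrimeIdx S) ℤ) (hP0 : MvPolynomial.aeval (TfamH hL'S) P = 0)
    (Q : Submodule (ZMod p) V)
    (hPid : ∀ x ∈ Q, kumHecke M (↑S : Set ℕ) p hζ (MvPolynomial.aeval (TfamH hMS) P) x = x)
    (E : Module.End (ZMod p) V) {c : ZMod p} (hc : c ≠ 0) (hEQ : ∀ y ∈ Q, E y = c • y)
    (f₁ f₂ : V →ₗ[ZMod p] V')
    (hf₁ : ∀ (σ : GQ') x, f₁ (gal M p σ x) = gal L' p σ (f₁ x))
    (hf₂ : ∀ (σ : GQ') x, f₂ (gal M p σ x) = gal L' p σ (f₂ x))
    (aS bS : V' →ₗ[ZMod p] V)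
    (haS : ∀ (σ : GQ') x, aS (gal L' p σ x) = gal M p σ (aS x))
    (hbS : ∀ (σ : GQ') x, bS (gal L' p σ x) = gal M p σ (bS x))
    (UnitCls Tor : Set V)
    (hV : ∀ y ∈ FP.invSub (M := M) A p, E y ∈ UnitCls ∧ E y ∈ FP.invSub (M := M) A p)
    (hq1 : ((q - 1 : ℕ) : ZMod p) ≠ 0)
    (hS4 : ∀ z ∈ UnitCls, z ∈ FP.invSub (M := M) A p → f₁ z = 0 → f₂ z = 0 →
      ((q - 1 : ℕ) : ZMod p) • z ∈ Tor)
    (hTO : ∀ z ∈ Tor, ∃ x₁ x₂, z = aS x₁ + bS x₂) :
    ∀ y ∈ Q, y ∈ FP.invSub (M := M) A p → y = 0 := by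
  have hp : p.Prime := Fact.out
  have hmS : ∀ r : ℕ, r.Prime → r ∣ p → r ∈ S := fun r hr hd =>
    ((Nat.prime_dvd_prime_iff_eq hr hp).1 hd) ▸ hpS
  intro y hyQ hyI
  refine eq_zero_of_core Q (FP.invSub (M := M) A p)
    (kumHecke M (↑S : Set ℕ) p hζ (MvPolynomial.aeval (TfamH hMS) P)) E f₁ f₂ aS bS UnitCls Tor
    hc hq1 hPid hEQ ?_ ?_ ?_ ?_ hV hS4 hTO hyQ hyI
  · exact fun x => kumHecke_aeval_dies S p hζ hMS hL'S hmS f₁ hf₁ P hP0 x
  · exact fun x => kumHecke_aeval_dies S p hζ hMS hL'S hmS f₂ hf₂ P hP0 x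
  · intro x
    rw [← kumHecke_aeval_comp_of_gal S p hζ hL'S hMS hmS aS haS P x, hP0, map_zero,
      LinearMap.zero_apply, map_zero]
  · intro x
    rw [← kumHecke_aeval_comp_of_gal S p hζ hL'S hMS hmS bS hbS P x, hP0, map_zero,
      LinearMap.zero_apply, map_zero]

end Concrete

end Fermat.Agent.GE8.SQ2.Asm
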