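/-
GATE-E / E8.SQ (MP2Gate) / SQ2 hedge of helper29 (board 6958, 7024), node CountLevel **(L3)**
(helper94).

`q ∥ M`, `A | q`, `𝕜 = ResidueField A`, `V = Kum_m(F_M)`, `S₀ = CountL2.S0` (invariant classes with
vanishing obstruction), `K₁₂ = kerRed M A m ⊓ kerRed₂ h A m` (the toric part).

* `exists_root_lift`      : generic (`RedData`): two units of `Rw` whose reductions differ by an
  `m`-th power `w^m` differ, up to an `m`-th power `Wl^m` of `Fˣ`, by a unit reducing to `1`;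
* `sub_mem_kerRed_of_red_eq`, `sub_mem_kerRed₂_of_red_eq`, `sub_mem_K12_of_red_eq` :
  `[red_i u] = [red_i u']` in `Kum_m(𝕜, FresBar M A)` ⟹ `[u'] − [u] ∈ ker r_i`;
* `card_S0_le`            : **(L3)** under `FP.NodeHyp h A m` (= `GB.A4.Main.nodeHyp` at the call
  site): `#S₀ ≤ (#Kum_m(𝕜, FresBar M A))² · #K₁₂`.
-/
import Fermat.Agent.GE8.SQ2.CountL2

set_option autoImplicit false

noncomputable section

namespace Fermat.Agent.GE8.SQ2.CountL3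

open ModularCurve IsLocalRing AlgebraicCurve
open Fermat.Agent.S24 Fermat.Agent.GJ.J1 Fermat.Agent.GJ.J1.Val
open Fermat.Agent.GJ.KumGroup Fermat.Agent.GJ.Kum.KumType
open Fermat.Agent.GK.UqKronecker Fermat.Agent.GK.AL Fermat.Agent.GK.SS
open Fermat.Agent.GB.A.FP Fermat.Agent.GB.A3.Nu Fermat.Agent.GB.A3.Ob
open Fermat.Agent.GE8.SQ2.CountL2

/-! ### generic: lifting an `m`-th root through a reduction datum -/

section Generic

variable {K F k Ft : Type*} [Field K] [Field F] [Algebra K F] [Field k] [Field Ft] [Algebra k Ft]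
  (R : RedData K F k Ft)

theorem coe_ne_zero_of_red_ne_zero' {x : R.Rw} (hx : R.red x ≠ 0) : (x : F) ≠ 0 := by
  intro h0
  have : x = 0 := Subtype.ext h0
  rw [this, map_zero] at hx
  exact hx rfl

theorem inv_mem_of_red_ne_zero' (x : R.Rw) (hx : R.red x ≠ 0) : ((x : F))⁻¹ ∈ R.Rw := by
  have h1 : x ∉ IsLocalRing.maximalIdeal R.Rw := fun hm => hx ((R.red_eq_zero_iff _).mpr hm)
  rw [IsLocalRing.mem_maximalIdeal, mem_nonunits_iff, not_not] at h1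
  obtain ⟨v, hv⟩ := h1.exists_right_inv
  have hv' : (x : F) * (v : F) = 1 := congrArg Subtype.val hv
  rw [← eq_inv_of_mul_eq_one_right hv']
  exact v.2

theorem red_inv_of_red_ne_zero' (x : R.Rw) (hx : R.red x ≠ 0) (h : ((x : F))⁻¹ ∈ R.Rw) :
    R.red ⟨((x : F))⁻¹, h⟩ = (R.red x)⁻¹ := by
  have h1 : x * ⟨((x : F))⁻¹, h⟩ = 1 :=
    Subtype.ext (mul_inv_cancel₀ (coe_ne_zero_of_red_ne_zero' R hx))
  have h2 := congrArg R.red h1
  rw [map_mul, map_one] at h2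
  exact eq_inv_of_mul_eq_one_right h2

/-- **root lifting**: if `red u' = red u · w^m` for units `u, u'` of `Rw` and `w ∈ Ftˣ`, then
`u' / (u · Wl^m)` is a unit of `Rw` reducing to `1` for a suitable `Wl ∈ Fˣ`. -/
theorem exists_root_lift (m : ℕ) (u u' : Fˣ) (hu : (u : F) ∈ R.Rw)
    (hui : ((u⁻¹ : Fˣ) : F) ∈ R.Rw) (hu' : (u' : F) ∈ R.Rw)
    (hui' : ((u'⁻¹ : Fˣ) : F) ∈ R.Rw) (w : Ftˣ)
    (hw : redUnit R u' hu' hui' = redUnit R u hu hui * w ^ m) :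
    ∃ (Wl : Fˣ) (hx : (u' : F) / ((u : F) * (Wl : F) ^ m) ∈ R.Rw),
      R.red ⟨(u' : F) / ((u : F) * (Wl : F) ^ m), hx⟩ = 1 := by
  obtain ⟨Wr, hWr⟩ := R.red_surjective (w : Ft)
  have hWr0 : R.red Wr ≠ 0 := by rw [hWr]; exact w.ne_zero
  have hW0 : (Wr : F) ≠ 0 := coe_ne_zero_of_red_ne_zero' R hWr0
  have hWi : ((Wr : F))⁻¹ ∈ R.Rw := inv_mem_of_red_ne_zero' R Wr hWr0
  have hredc : R.red ⟨((Wr : F))⁻¹, hWi⟩ = (w : Ft)⁻¹ := by
    rw [red_inv_of_red_ne_zero' R Wr hWr0 hWi, hWr]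
  -- the product in `Rw`
  set a' : R.Rw := ⟨(u' : F), hu'⟩ with ha'
  set b : R.Rw := ⟨((u⁻¹ : Fˣ) : F), hui⟩ with hb
  set c : R.Rw := ⟨((Wr : F))⁻¹, hWi⟩ with hc
  set Wl : Fˣ := Units.mk0 (Wr : F) hW0 with hWl
  have hcoe : ((a' * b * c ^ m : R.Rw) : F) = (u' : F) / ((u : F) * (Wl : F) ^ m) := by
    show (u' : F) * ((u⁻¹ : Fˣ) : F) * (((Wr : F))⁻¹) ^ m = (u' : F) / ((u : F) * (Wr : F) ^ m)
    rw [Units.val_inv_eq_inv_val, inv_pow, div_eq_mul_inv, mul_inv, mul_assoc]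
  have hmem : (u' : F) / ((u : F) * (Wl : F) ^ m) ∈ R.Rw := by
    rw [← hcoe]
    exact (a' * b * c ^ m).2
  refine ⟨Wl, hmem, ?_⟩
  · have e : (⟨(u' : F) / ((u : F) * (Wl : F) ^ m), hmem⟩ : R.Rw) = a' * b * c ^ m :=
      Subtype.ext hcoe.symm
    rw [e, map_mul, map_mul, map_pow, hredc]
    have h1 : R.red a' = R.red ⟨(u : F), hu⟩ * (w : Ft) ^ m := by
      have := congrArg (fun z : Ftˣ => (z : Ft)) hw
      simpa [coe_redUnit] using this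
    have h2 : R.red ⟨(u : F), hu⟩ * R.red b = 1 := by
      rw [← map_mul]
      have e2 : (⟨(u : F), hu⟩ * b : R.Rw) = 1 :=
        Subtype.ext (by
          show (u : F) * ((u⁻¹ : Fˣ) : F) = 1
          rw [← Units.val_mul, mul_inv_cancel, Units.val_one])
      rw [e2, map_one]
    rw [h1]
    calc R.red ⟨(u : F), hu⟩ * (w : Ft) ^ m * R.red b * ((w : Ft)⁻¹) ^ m
        = (R.red ⟨(u : F), hu⟩ * R.red b) * ((w : Ft) ^ m * ((w : Ft)⁻¹) ^ m) := by ring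
      _ = 1 := by
        rw [h2, one_mul, ← mul_pow, mul_inv_cancel₀ w.ne_zero, one_pow]

end Generic

/-! ### the concrete statements at `q ∥ M` -/

variable {M : ℕ} [NeZero M] {q : ℕ} (h : ExactDvd q M) (A : ValuationSubring Kb) (m : ℕ)
variable (hq : q.Prime) (hA : (q : Kb) ∈ A.nonunits)

local notation "𝕜" => ResidueField A

variable {h A m} in
/-- equal classes of the first reductions ⟹ the difference of the classes lies in `ker r₁`. -/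
theorem sub_mem_kerRed_of_red_eq (u u' : pDivUnits Kb (FK M) m)
    (hu : BothUnit h A (u : (FK M)ˣ)) (hu' : BothUnit h A (u' : (FK M)ˣ))
    (h1 : redUnit₁ hu ∈ pDivUnits 𝕜 (FresBar M A) m)
    (h1' : redUnit₁ hu' ∈ pDivUnits 𝕜 (FresBar M A) m)
    (e1 : (Kum.mk ⟨redUnit₁ hu, h1⟩ : Kum 𝕜 (FresBar M A) m) = Kum.mk ⟨redUnit₁ hu', h1'⟩) :
    Additive.ofMul (Kum.mk u') - Additive.ofMul (Kum.mk u) ∈ kerRed M A m := by
  obtain ⟨w, hw⟩ := Kum.mk_eq_mk_iff.mp e1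
  obtain ⟨Wl, hx, hred⟩ := exists_root_lift (redDataBar M A) m (u : (FK M)ˣ) (u' : (FK M)ˣ)
    hu.1.1 hu.1.2 hu'.1.1 hu'.1.2 w hw
  -- `[u · Wl^m] = [u]`
  set v : pDivUnits Kb (FK M) m :=
    ⟨(u : (FK M)ˣ) * Wl ^ m, mul_mem u.2 (pow_mem_pDivUnits Kb (FK M) m Wl)⟩ with hv
  have hcls : (Additive.ofMul (Kum.mk u) : Additive (Kum Kb (FK M) m)) =
      Additive.ofMul (Kum.mk v) := ofMul_mk_eq_of Wl rfl
  rw [hcls]
  refine ofMul_sub_mem_kerRedW (W := RingEquiv.refl (FK M)) u' v ?_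
  show IsCPrin (hasGaussFrac_bar M A)
    (((u' : (FK M)ˣ) : FK M) / (((u : (FK M)ˣ) * Wl ^ m : (FK M)ˣ) : FK M))
  rw [Units.val_mul, Units.val_pow_eq_pow_val]
  refine IsPrin.isCPrin ⟨hx, ?_⟩
  exact congrArg (fun z : FresBar M A => (z : LaurentSeries 𝕜)) hred

variable {h A m} in
/-- equal classes of the second reductions ⟹ the difference of the classes lies in `ker r₂`. -/
theorem sub_mem_kerRed₂_of_red_eq (u u' : pDivUnits Kb (FK M) m)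
    (hu : BothUnit h A (u : (FK M)ˣ)) (hu' : BothUnit h A (u' : (FK M)ˣ))
    (h2 : redUnit₂ hu ∈ pDivUnits 𝕜 (FresBar M A) m)
    (h2' : redUnit₂ hu' ∈ pDivUnits 𝕜 (FresBar M A) m)
    (e2 : (Kum.mk ⟨redUnit₂ hu, h2⟩ : Kum 𝕜 (FresBar M A) m) = Kum.mk ⟨redUnit₂ hu', h2'⟩) :
    Additive.ofMul (Kum.mk u') - Additive.ofMul (Kum.mk u) ∈ kerRed₂ h A m := by
  obtain ⟨w, hw⟩ := Kum.mk_eq_mk_iff.mp e2
  obtain ⟨Wl, hx, hred⟩ := exists_root_lift (redData2 M A h) m (u : (FK M)ˣ) (u' : (FK M)ˣ)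
    hu.2.1 hu.2.2 hu'.2.1 hu'.2.2 w hw
  set v : pDivUnits Kb (FK M) m :=
    ⟨(u : (FK M)ˣ) * Wl ^ m, mul_mem u.2 (pow_mem_pDivUnits Kb (FK M) m Wl)⟩ with hv
  have hcls : (Additive.ofMul (Kum.mk u) : Additive (Kum Kb (FK M) m)) =
      Additive.ofMul (Kum.mk v) := ofMul_mk_eq_of Wl rfl
  rw [hcls]
  refine ofMul_sub_mem_kerRedW
    (W := ((wAut h : FK M ≃ₐ[Kb] FK M) : FK M ≃+* FK M)) u' v ?_
  show IsCPrin (hasGaussFrac_bar M A)
    ((wAut h : FK M ≃ₐ[Kb] FK M)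
      (((u' : (FK M)ˣ) : FK M) / (((u : (FK M)ˣ) * Wl ^ m : (FK M)ˣ) : FK M)))
  rw [Units.val_mul, Units.val_pow_eq_pow_val]
  -- `x ∈ Rw₂` means `W_q x ∈ Rw₁`, and `red₂ x = red₁ (W_q x)`
  refine IsPrin.isCPrin ⟨hx, ?_⟩
  exact congrArg (fun z : FresBar M A => (z : LaurentSeries 𝕜)) hred

variable {h A m} in
/-- both reductions have equal classes ⟹ the difference of the classes is toric. -/
theorem sub_mem_K12_of_red_eq (u u' : pDivUnits Kb (FK M) m)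
    (hu : BothUnit h A (u : (FK M)ˣ)) (hu' : BothUnit h A (u' : (FK M)ˣ))
    (h1 : redUnit₁ hu ∈ pDivUnits 𝕜 (FresBar M A) m)
    (h1' : redUnit₁ hu' ∈ pDivUnits 𝕜 (FresBar M A) m)
    (h2 : redUnit₂ hu ∈ pDivUnits 𝕜 (FresBar M A) m)
    (h2' : redUnit₂ hu' ∈ pDivUnits 𝕜 (FresBar M A) m)
    (e1 : (Kum.mk ⟨redUnit₁ hu, h1⟩ : Kum 𝕜 (FresBar M A) m) = Kum.mk ⟨redUnit₁ hu', h1'⟩)
    (e2 : (Kum.mk ⟨redUnit₂ hu, h2⟩ : Kum 𝕜 (FresBar M A) m) = Kum.mk ⟨redUnit₂ hu', h2'⟩) :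
    Additive.ofMul (Kum.mk u') - Additive.ofMul (Kum.mk u) ∈ kerRed M A m ⊓ kerRed₂ h A m :=
  ⟨sub_mem_kerRed_of_red_eq u u' hu hu' h1 h1' e1,
    sub_mem_kerRed₂_of_red_eq u u' hu hu' h2 h2' e2⟩

/-- **(L3)**: `#S₀ ≤ (#Kum_m(𝕜, FresBar M A))² · #K₁₂`, under (A4) `FP.NodeHyp`. -/
theorem card_S0_le [NeZero m] (hnode : NodeHyp h A m) [Finite (Kum 𝕜 (FresBar M A) m)] :
    Nat.card (S0 h A m hq hA) ≤
      Nat.card (Kum 𝕜 (FresBar M A) m) ^ 2 *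
        Nat.card (kerRed M A m ⊓ kerRed₂ h A m : AddSubgroup (Additive (Kum Kb (FK M) m))) := by
  classical
  have := finite_kum (M := M) m
  have : Finite (Additive (Kum Kb (FK M) m)) := Finite.of_equiv _ Additive.ofMul
  have : Finite (kerRed M A m ⊓ kerRed₂ h A m : AddSubgroup (Additive (Kum Kb (FK M) m))) :=
    Subtype.finite
  -- representatives
  have key : ∀ y : S0 h A m hq hA, ∃ u : pDivUnits Kb (FK M) m,
      FixedRep A m (y : Additive (Kum Kb (FK M) m)) u ∧ BothUnit h A (u : (FK M)ˣ) := fun y =>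
    normHyp h A m hq hA y ((mem_S0_iff h A m hq hA _).mp y.2).1
      ((mem_S0_iff h A m hq hA _).mp y.2).2
  choose u hfix hboth using key
  have hdiv := fun y => hnode (u y) (hfix y).2 (hboth y)
  let φ : S0 h A m hq hA → Kum 𝕜 (FresBar M A) m × Kum 𝕜 (FresBar M A) m := fun y =>
    (Kum.mk ⟨redUnit₁ (hboth y), (hdiv y).1⟩, Kum.mk ⟨redUnit₂ (hboth y), (hdiv y).2⟩)
  have hφ : ∀ y y' : S0 h A m hq hA, φ y = φ y' →
      (y : Additive (Kum Kb (FK M) m)) - (y' : Additive (Kum Kb (FK M) m)) ∈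
        (kerRed M A m ⊓ kerRed₂ h A m : AddSubgroup (Additive (Kum Kb (FK M) m))) := by
    intro y y' hyy'
    rw [← (hfix y).1, ← (hfix y').1]
    exact sub_mem_K12_of_red_eq (u y') (u y) (hboth y') (hboth y) (hdiv y').1 (hdiv y).1
      (hdiv y').2 (hdiv y).2 (congrArg Prod.fst hyy').symm (congrArg Prod.snd hyy').symm
  calc Nat.card (S0 h A m hq hA)
      ≤ Nat.card (Kum 𝕜 (FresBar M A) m × Kum 𝕜 (FresBar M A) m) *
          Nat.card (kerRed M A m ⊓ kerRed₂ h A m : AddSubgroup (Additive (Kum Kb (FK M) m))) :=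
        card_le_mul_of_fibres (S0 h A m hq hA) _ φ hφ
    _ = _ := by rw [Nat.card_prod, sq]

end Fermat.Agent.GE8.SQ2.CountL3
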