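/-
GATE-E / E8.2 SQ2, slice (L4'') of helper29's toric side v2 (board 7177 §3) = corollary of
`CountL4.lean` (helper69): the image of `σ - 1` (`σ ∈ I_A`) lies in the INVARIANT toric part.

Same context as `CountL4`: `q ∥ M`, `A | q`, `p ≠ q`, `V = Kum_p(F_M)`.

* `zpow_eq_one_add_zsmul` : a unit `u` of a ring with `(u - 1)² = 0` has `u^k = 1 + k • (u - 1)`
  for every integer `k`;
* `gal_sub_mem_invSub` : `σ y - y ∈ V^{I_A}` for EVERY `σ ∈ I_A` (two-element semistability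
  `(τ' - 1)(σ - 1) = 0` on `Kum_p(F_M)`, from the one-element gate + the tame generator);
* `gal_sub_mem_K12inv` : `σ y - y ∈ (kerRed ⊓ kerRed₂) ⊓ V^{I_A}` for every `σ ∈ I_A`
  (= the hypothesis of helper94's `TorOb.l4Stmt_of_qbar`);
* `card_kum_le_inv` : **(L4'')** `#V ≤ #V^{I_A} * #((kerRed ⊓ kerRed₂) ⊓ V^{I_A})`.
-/
import Mathlib
import Fermat.Agent.GE8.SQ2.CountL4

set_option autoImplicit false
set_option linter.unusedSectionVars false

noncomputable section

namespace Fermat.Agent.GE8.SQ2.CountL4Inv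

open ModularCurve AlgebraicCurve
open Fermat.Agent.GJ Fermat.Agent.GJ.KumGroup Fermat.Agent.GJ.Kum.KumType
open Fermat.Agent.GK.UqKronecker Fermat.Agent.GK.AL Fermat.Agent.GK.Tate
open Fermat.Agent.GB.A.FP Fermat.Agent.GB.A.A6.EigQ Fermat.Agent.GE8.SQ2.CountL4

local notation "GQ'" => (AlgebraicClosure ℚ ≃ₐ[ℚ] AlgebraicClosure ℚ)

/-- a unit `u` with `(u - 1)² = 0` has `u ^ k = 1 + k • (u - 1)` for every integer `k`. -/
theorem zpow_eq_one_add_zsmul {R : Type*} [Ring R] (u : Rˣ)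
    (hu : ((u : R) - 1) * ((u : R) - 1) = 0) (k : ℤ) :
    ((u ^ k : Rˣ) : R) = 1 + k • ((u : R) - 1) := by
  have hpos : ∀ m : ℕ, ((u ^ m : Rˣ) : R) = 1 + m • ((u : R) - 1) := by
    intro m
    have h1 : (u : R) = 1 + ((u : R) - 1) := by abel
    rw [Units.val_pow_eq_pow_val]
    conv_lhs => rw [h1]
    exact one_add_pow_of_sq_zero _ hu m
  rcases Int.eq_nat_or_neg k with ⟨m, rfl | rfl⟩
  · rw [zpow_natCast, natCast_zsmul]; exact hpos m
  · rw [zpow_neg, zpow_natCast, neg_smul, natCast_zsmul]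
    -- the inverse of `1 + m N` is `1 - m N`
    have hmul : ((u ^ m : Rˣ) : R) * (1 + -(m • ((u : R) - 1))) = 1 := by
      rw [hpos m]
      have e : ∀ x : R, (1 + x) * (1 + -x) = 1 - x * x := fun x => by noncomm_ring
      rw [e]
      rw [smul_mul_smul_comm, hu, smul_zero, sub_zero]
    have := Units.inv_eq_of_mul_eq_one_right hmul
    rw [← this]

variable {M : ℕ} [NeZero M] {q : ℕ} (h : ExactDvd q M) (A : ValuationSubring Kb)
  (hA : A.LiesOverPrime q) (p : ℕ) [Fact p.Prime] (hpq : p ≠ q)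

include h hA hpq in
/-- **two-element semistability on `Kum_p(F_M)`**: `σ y - y` is inertia-invariant for every
`σ ∈ I_A`. -/
theorem gal_sub_mem_invSub {σ : GQ'} (hσ : σ ∈ A.inertiaSubgroupIn ℚ)
    (y : Additive (Kum Kb (FK M) p)) : gal M p σ y - y ∈ invSub (M := M) A p := by
  have hp : p.Prime := Fact.out
  have hqp : ¬ q ∣ p := fun hd => hpq ((Nat.prime_dvd_prime_iff_eq h.prime hp).1 hd).symm
  obtain ⟨τ, hτ, hgen⟩ := exists_inertia_generator h A hA p hpq
  have hsq : (gal M p τ - 1) * (gal M p τ - 1) = 0 := ssGate' h hqp A hA τ hτ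
  -- every element of `I_A` acts as `1 + k • (τ - 1)`
  have hform : ∀ σ' ∈ A.inertiaSubgroupIn ℚ, ∃ k : ℤ,
      gal M p σ' = 1 + k • (gal M p τ - 1) := by
    intro σ' hσ'
    obtain ⟨n, hn⟩ := hgen σ' hσ'
    refine ⟨n, ?_⟩
    have := zpow_eq_one_add_zsmul (galU (M := M) p τ) (by rw [coe_galU]; exact hsq) n
    rw [← hn, coe_galU, coe_galU] at this
    exact this
  obtain ⟨k, hk⟩ := hform σ hσ
  intro σ' hσ'
  obtain ⟨k', hk'⟩ := hform σ' hσ'
  have hy : gal M p σ y - y = k • ((gal M p τ - 1) y) := by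
    rw [hk, LinearMap.add_apply, Module.End.one_apply, LinearMap.smul_apply, add_sub_cancel_left]
  have hNN : (gal M p τ - 1) ((gal M p τ - 1) y) = 0 := by
    have := LinearMap.congr_fun hsq y
    rwa [Module.End.mul_apply, LinearMap.zero_apply] at this
  rw [hy, hk', LinearMap.add_apply, Module.End.one_apply, LinearMap.smul_apply, map_zsmul, hNN,
    smul_zero, smul_zero, add_zero]

include hA hpq in
/-- `σ y - y` lies in the invariant toric part, for every `σ ∈ I_A`. -/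
theorem gal_sub_mem_K12inv {σ : GQ'} (hσ : σ ∈ A.inertiaSubgroupIn ℚ)
    (y : Additive (Kum Kb (FK M) p)) :
    gal M p σ y - y ∈ (kerRed M A p ⊓ kerRed₂ h A p) ⊓ (invSub (M := M) A p).toAddSubgroup :=
  ⟨⟨gal_sub_mem_kerRed hσ p y, gal_sub_mem_kerRed₂ h hσ p y⟩,
    gal_sub_mem_invSub h A hA p hpq hσ y⟩

include hA hpq in
/-- **(L4'')** `#Kum_p(F_M) ≤ #V^{I_A} * #((kerRed ⊓ kerRed₂) ⊓ V^{I_A})`. -/
theorem card_kum_le_inv :
    Nat.card (Additive (Kum Kb (FK M) p))
      ≤ Nat.card (invSub (M := M) A p)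
        * Nat.card ↥((kerRed M A p ⊓ kerRed₂ h A p) ⊓ (invSub (M := M) A p).toAddSubgroup) := by
  have : Finite (Additive (Kum Kb (FK M) p)) := finite_kum
  obtain ⟨τ, hτ, hfix⟩ := exists_tame_fixer h A hA p hpq
  exact CountAbs.card_le_mul_of_map_sub
    ((gal M p τ : Module.End (ZMod p) (Additive (Kum Kb (FK M) p))).toAddMonoidHom)
    (invSub (M := M) A p).toAddSubgroup
    ((kerRed M A p ⊓ kerRed₂ h A p) ⊓ (invSub (M := M) A p).toAddSubgroup)
    (fun y => gal_sub_mem_K12inv h A hA p hpq hτ y)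
    (fun y hy => hfix y hy)

end Fermat.Agent.GE8.SQ2.CountL4Inv
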