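/-
GATE-E / E8.SQ toric side, node (B-loc) of helper29's 7177 §3, file 2 — helper68.

Generic inputs of `CountObLoc`:

* `exists_lift_pow_eq_sq` : helper28's `EtaReg.exists_lift_pow_eq` with the TRANSVERSALITY output
  `rd₁ y ∉ P²` (the lift `y ∈ P'₂` of an element of `J ∖ P²`);
* `ord_algebraMap_eq_one` : `a ∈ P ∖ P²` has order `1` at the place with centre `P`;
* `exists_red_eq_pow`     : a `w₁`-unit `u₀'` of `F₀ = K₀(X₀(M))` whose image in `F_M` is
  `v · w ^ p` with `v` a constant times a principal unit (`IsCPrin`) has `red₁ u₀' = t ^ p`.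
-/
import Fermat.Agent.GL.Reg.EtaThick
import Fermat.Agent.S24_helper6.PlaceDict
import Fermat.Agent.GB.A.A4.ChartStep
import Fermat.Agent.GB.A3.Ob

set_option autoImplicit false
set_option linter.unusedSectionVars false

noncomputable section

namespace Fermat.Agent.GE8.SQ2.CountObLocGen

open IsDedekindDomain IsDedekindDomain.HeightOneSpectrum WithZero AlgebraicCurve

/-! ### the lift, with transversality -/

section Lift

variable {B' C : Type*} [CommRing B'] [CommRing C] [IsDedekindDomain C]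

/-- **pointwise thickness with the lift to `B'` and transversality**: some `y ∈ P'₂` has
`rd₁ y ∉ P²`, `y ^ n = g * c`, `rd₁ c ∉ P`. -/
theorem exists_lift_pow_eq_sq (rd1 : B' →+* C) (P2' : Ideal B') {J P : Ideal C} {g : B'} {n : ℕ}
    (hJ : ∀ a ∈ J, ∃ y ∈ P2', rd1 y = a) (hdiv : ∀ z ∈ P2', g ∣ z ^ n)
    (hP : P.IsMaximal) (hJP2 : ¬ J ≤ P ^ 2) (hg : rd1 g ∈ P ^ n) :
    ∃ y ∈ P2', rd1 y ∉ P ^ 2 ∧ ∃ c : B', y ^ n = g * c ∧ rd1 c ∉ P := by
  rw [SetLike.not_le_iff_exists] at hJP2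
  obtain ⟨a, haJ, haP⟩ := hJP2
  obtain ⟨y, hy, rfl⟩ := hJ a haJ
  obtain ⟨c, hc⟩ := hdiv y hy
  refine ⟨y, hy, haP, c, hc, fun hcP => ?_⟩
  apply Fermat.Agent.GL.EtaReg.pow_notMem_pow_succ hP haP n
  rw [← map_pow, hc, map_mul, pow_succ]
  exact Ideal.mul_mem_mul hg hcP

end Lift

/-! ### order one -/

section Ord

open Fermat.Agent.S24_helper6

variable {k Fb C : Type*} [Field k] [Field Fb] [Algebra k Fb] [CommRing C] [IsDedekindDomain C]
  [Algebra k C] [Algebra C Fb] [IsScalarTower k C Fb] [IsFractionRing C Fb]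

/-- an element of `P ∖ P²` has order `1` at the place with centre `P`. -/
theorem ord_algebraMap_eq_one (Q : Place k Fb) (hQ : ContainsB C Q) {a : C}
    (h1 : a ∈ (primeOfPlace Q hQ).asIdeal) (h2 : a ∉ (primeOfPlace Q hQ).asIdeal ^ 2) :
    Q.ord (algebraMap C Fb a) = 1 := by
  have ha0 : a ≠ 0 := fun h0 => h2 (h0 ▸ Ideal.zero_mem _)
  rw [ord_eq_of_containsB Q hQ, valuation_of_algebraMap]
  set v := primeOfPlace Q hQ with hv
  have hne : v.intValuation a ≠ 0 := v.intValuation_ne_zero a ha0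
  have hle1 : v.intValuation a ≤ exp (-((1 : ℕ) : ℤ)) := by
    rw [intValuation_le_pow_iff_mem, pow_one]
    exact h1
  have hle2 : ¬ v.intValuation a ≤ exp (-((2 : ℕ) : ℤ)) := by
    rw [intValuation_le_pow_iff_mem]
    exact h2
  rw [← log_le_iff_le_exp hne] at hle1 hle2
  push_cast at hle1 hle2
  omega

end Ord

/-! ### the first reduction of a class in `ker r₁` is a `p`-th power -/

section Red

open ModularCurve IsLocalRing
open Fermat.Agent.S24 Fermat.Agent.GJ.J1 Fermat.Agent.GJ.J1.Val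
open Fermat.Agent.GJ.KumGroup Fermat.Agent.GK.UqKronecker
open Fermat.Agent.GB.A4.ChartStep

variable {M : ℕ} [NeZero M] (A : ValuationSubring Kb)

/-- a `w₁`-unit `u = v · w ^ p` with `v` a constant times a principal unit has `red₁ u = t ^ p`. -/
theorem exists_red_eq_pow {p : ℕ} (hp : p ≠ 0) (u : (FK M)ˣ)
    (hu : (u : FK M) ∈ (redDataBar M A).Rw) (hu' : ((u : FK M))⁻¹ ∈ (redDataBar M A).Rw)
    (v w : (FK M)ˣ) (hv : IsCPrin (hasGaussFrac_bar M A) (v : FK M)) (hw : u = v * w ^ p) :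
    ∃ t : FresBar M A, t ≠ 0 ∧ (redDataBar M A).red ⟨(u : FK M), hu⟩ = t ^ p := by
  obtain ⟨c, hc0, hprin⟩ := hv
  have hprin' := hprin.inv
  obtain ⟨hx, hred⟩ := hprin
  obtain ⟨hx', -⟩ := hprin'
  have hx0 : (v : FK M) / algebraMap Kb (FK M) c ≠ 0 := IsPrin.ne_zero ⟨hx, hred⟩
  obtain ⟨d, hd⟩ := IsAlgClosed.exists_pow_nat_eq c (Nat.pos_of_ne_zero hp)
  have hcF : algebraMap Kb (FK M) c ≠ 0 :=
    (map_ne_zero_iff _ (algebraMap Kb (FK M)).injective).mpr hc0
  set g : FK M := algebraMap Kb (FK M) d * (w : FK M) with hg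
  have hgx : g ^ p * ((v : FK M) / algebraMap Kb (FK M) c) = (u : FK M) := by
    rw [hg, mul_pow, ← map_pow, hd, hw, Units.val_mul, Units.val_pow_eq_pow_val]
    field_simp
  obtain ⟨hgW, hgW'⟩ := unit_of_pow_mul (redDataBar M A).Rw hp hx0 u.ne_zero hx hx' hu hu' hgx
  have hg0 : g ≠ 0 := by
    rw [hg]
    exact mul_ne_zero ((map_ne_zero_iff _ (algebraMap Kb (FK M)).injective).mpr (by
      rintro rfl
      rw [zero_pow hp] at hd
      exact hc0 hd.symm)) w.ne_zero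
  refine ⟨(redDataBar M A).red ⟨g, hgW⟩, ?_, ?_⟩
  · intro h0
    have h1 : (⟨g, hgW⟩ : (redDataBar M A).Rw) * ⟨g⁻¹, hgW'⟩ = 1 :=
      Subtype.ext (mul_inv_cancel₀ hg0)
    have h2 := congrArg (redDataBar M A).red h1
    rw [map_mul, h0, zero_mul, map_one] at h2
    exact zero_ne_one h2
  · have h1 : (⟨(u : FK M), hu⟩ : (redDataBar M A).Rw) =
        ⟨g, hgW⟩ ^ p * ⟨(v : FK M) / algebraMap Kb (FK M) c, hx⟩ := Subtype.ext hgx.symm
    have h2 : (redDataBar M A).red ⟨(v : FK M) / algebraMap Kb (FK M) c, hx⟩ = 1 :=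
      Subtype.ext hred
    rw [h1, map_mul, map_pow, h2, mul_one]

end Red

end Fermat.Agent.GE8.SQ2.CountObLocGen
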