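/-
GATE-E / E8.SQ toric side, node (B-loc) of helper29's 7177 §3, file 1 — helper68.

**The chart step at a node, with a pole/zero along the SECOND vertical component.**  Twin of
helper84's `GB/A/A4/ChartStep.dvd_ord_of_ufd`.

`N`, `q ∥ N`, `F₀ = K₀(X₀(N))`, `Bj ⊂ F₀` a chart ring with the two-component frame
(`FrameTwo.IsFrameTwo`), `ρ : Rw₁ → F̄` the first reduction, `C ⊂ F̄` a Dedekind coordinate ring of
the first component, `rd : Bj → C` compatible with `ρ`, `Q` a place of `F̄` containing `C`,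
`𝔫 = rd⁻¹ (centre of Q)` a closed point of the chart at which `Bj` is factorial, and `y ∈ Bj` a
LOCAL GENERATOR AT `𝔫` of the second vertical prime `𝔭₂ = {w₂ > 0}` which is a `w₁`-unit.
For `u₀ ∈ F₀ˣ`, a `w₁`-unit whose image in `ℚ̄(X₀(N))` satisfies the Kummer condition `m ∣ div`, and
`ν : ℤ` with `u₀ y^{-ν}` a `w₂`-unit:

  `m ∣ ord_Q (ρ u₀) − ν · ord_Q (rd y)`.

Proof: `u₁ = u₀ y^{-ν}` is a unit at both vertical primes; at a horizontal height-one prime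
`𝔭 ≤ 𝔫`, `y` is a unit (`𝔭₂` is the only height-one prime through `𝔫` containing `y`) and `u₀` is a
unit times an `m`-th power (helper11's `hord_horizontal`).  Hence the Kummer datum
`g ^ m * u₁ * s = c`, `c, s ∈ Bj ∖ 𝔫` (helper47); apply `ρ` and `LocalKummer.dvd_ord_of_datum`.
-/
import Fermat.Agent.GB.A.A4.ChartStep

set_option autoImplicit false
set_option linter.unusedSectionVars false

noncomputable section

namespace Fermat.Agent.GE8.SQ2.CountObLocStep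

open ModularCurve IsLocalRing AlgebraicCurve
open Fermat.Agent.GL.KrullHeightOne Fermat.Agent.GL.Frame.HeightOne Fermat.Agent.GL.Frame.Kummer
open Fermat.Agent.GL.Val.GaussK0 Fermat.Agent.GL.Val.SecondK0 Fermat.Agent.GL.Val.L1eLower
open Fermat.Agent.GL.Local.InertiaField
open Fermat.Agent.GJ.KumGroup
open Fermat.Agent.GL.Frame.HorizDiv Fermat.Agent.GL.Frame.HorizHord
open Fermat.Agent.GK.AL Fermat.Agent.GL.AL
open Fermat.Agent.Common_helper32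
open Fermat.Agent.S24_helper6
open Fermat.Agent.GB.A4.FrameTwo Fermat.Agent.GB.A4.LocalKummer Fermat.Agent.GB.A4.ChartStep

attribute [local instance] Fermat.Agent.GL.Frame.InstK0.algSubringFullC

section Step

variable (A : ValuationSubring Qb) (N : ℕ) [NeZero N] {q : ℕ} (h : ExactDvd q N)
  (hA : A.LiesOverPrime q)

local notation "F0" => modularFunctionFieldFullC (K0 A) N

variable {A N h}

include hA in
/-- **the chart step at a node, with order `ν` along the second component** -/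
theorem dvd_ord_sub_of_ufd {Bj : Subring F0} (hF : IsFrameTwo A N h Bj)
    (hR0 : ∀ c : K0 A, c ∈ R0 A → algebraMap (K0 A) F0 c ∈ Bj)
    {k Fb C : Type*} [Field k] [Field Fb] [Algebra k Fb] [CommRing C] [IsDedekindDomain C]
    [Algebra k C] [Algebra C Fb] [IsScalarTower k C Fb] [IsFractionRing C Fb]
    (ρ : ↥(RwK0 A N) →+* Fb)
    (hρ : ∀ x : ↥(RwK0 A N), ρ x = 0 ↔ (x : F0) ∈ (RwK0 A N).nonunits)
    (rd : Bj →+* C)
    (hrd : ∀ (b : Bj) (hb : (b : F0) ∈ RwK0 A N), algebraMap C Fb (rd b) = ρ ⟨(b : F0), hb⟩)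
    (Q : Place k Fb) (hQ : ContainsB C Q)
    (𝔫 : Ideal Bj) [𝔫.IsPrime] (h𝔫 : ∀ b : Bj, b ∈ 𝔫 ↔ rd b ∈ (primeOfPlace Q hQ).asIdeal)
    [UniqueFactorizationMonoid (Localization.AtPrime 𝔫)]
    (m : ℕ) (u₀ : F0ˣ)
    (hu1 : (u₀ : F0) ∈ RwK0 A N) (hu1' : (u₀ : F0)⁻¹ ∈ RwK0 A N)
    (y : Bj) (ν : ℤ)
    (hq2 : (q : F0) ∈ (redData2K0 A N h).Rw.nonunits)
    (hy1 : (y : F0) ∉ (RwK0 A N).nonunits)
    (hy2 : (y : F0) ∈ (redData2K0 A N h).Rw.nonunits)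
    (hgen : ∀ f : Bj, (f : F0) ∈ (redData2K0 A N h).Rw.nonunits →
      ∃ s : Bj, s ∉ 𝔫 ∧ ∃ b : Bj, s * f = y * b)
    (hu2 : (u₀ : F0) * (y : F0) ^ (-ν) ∈ (redData2K0 A N h).Rw)
    (hu2' : ((u₀ : F0) * (y : F0) ^ (-ν))⁻¹ ∈ (redData2K0 A N h).Rw)
    (hK : Units.map (mapK0Bar A N : _ →* FK N) u₀ ∈ pDivUnits Kb (FK N) m) :
    (m : ℤ) ∣ Q.ord (ρ ⟨(u₀ : F0), hu1⟩) - ν * Q.ord (algebraMap C Fb (rd y)) := by
  obtain ⟨i1, i2, i3, f, hf1, hf2, hf3⟩ := hF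
  have hq : q.Prime := h.prime
  -- `q ∈ Bj`
  have hqR : ((q0 A q : R0 A) : K0 A) ∈ R0 A := (q0 A q).2
  have hqB : (q : F0) ∈ Bj := by
    have := hR0 _ hqR
    rwa [Fermat.Agent.GL.Final.H5UnifK0.algebraMap_q0] at this
  -- `Bj ⊆ W₁`
  have hBW1 : ∀ b : Bj, (b : F0) ∈ RwK0 A N := by
    intro b
    have h1 : (b : F0) ∈ V1 F0 (f 0) := algebraMap_mem_V1 (f 0) b
    rw [hf1 0] at h1
    exact h1
  have hW0 : W2 A N h 0 = RwK0 A N := rfl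
  have hW1 : W2 A N h 1 = (redData2K0 A N h).Rw := rfl
  -- the kernel of `rd` is the first vertical prime
  have hker : ∀ b : Bj, rd b = 0 ↔ b ∈ (f 0).1 := by
    intro b
    rw [hf2 0 b, hW0, ← hρ ⟨(b : F0), hBW1 b⟩, ← hrd b (hBW1 b),
      map_eq_zero_iff _ (IsFractionRing.injective C Fb)]
  have hf0𝔫 : (f 0).1 ≤ 𝔫 := by
    intro b hb
    rw [h𝔫, (hker b).2 hb]
    exact Ideal.zero_mem _
  -- `y` is a `w₁`-unit, nonzero, and generates the second vertical prime at `𝔫`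
  have hyW : (y : F0) ∈ RwK0 A N := hBW1 y
  have hyW' : (y : F0)⁻¹ ∈ RwK0 A N := inv_mem_of_not_mem_nonunits _ hyW hy1
  have hy0 : (y : F0) ≠ 0 := by
    intro h0
    apply hy1
    rw [h0, ValuationSubring.mem_nonunits_iff, map_zero]
    exact zero_lt_one
  have hyB0 : y ≠ 0 := fun h0 => hy0 (by rw [h0]; rfl)
  have hy𝔭₂ : y ∈ (f 1).1 := (hf2 1 y).2 (hW1 ▸ hy2)
  have hgenAt : IsGenAtPrime 𝔫 (f 1).1 y :=
    ⟨hy𝔭₂, fun b hb => hgen b (hW1 ▸ (hf2 1 b).1 hb)⟩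
  have hqf1 : (⟨(q : F0), hqB⟩ : Bj) ∈ (f 1).1 := (hf2 1 _).2 (hW1 ▸ hq2)
  -- the auxiliary unit `u₁ = u₀ y^{-ν}`
  set u₁ : F0 := (u₀ : F0) * (y : F0) ^ (-ν) with hu₁
  have hu₁0 : u₁ ≠ 0 := mul_ne_zero u₀.ne_zero (zpow_ne_zero _ hy0)
  have hyz : (y : F0) ^ (-ν) ∈ RwK0 A N ∧ ((y : F0) ^ (-ν))⁻¹ ∈ RwK0 A N := by
    have h1 : (RwK0 A N).valuation (y : F0) = 1 := valuation_eq_one_of_mem _ hy0 hyW hyW'
    apply mem_of_valuation_eq_one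
    rw [map_zpow₀, h1, one_zpow]
  have hu₁W : u₁ ∈ RwK0 A N := (RwK0 A N).mul_mem _ _ hu1 hyz.1
  have hu₁W' : u₁⁻¹ ∈ RwK0 A N := by
    rw [hu₁, mul_inv]
    exact (RwK0 A N).mul_mem _ _ hu1' hyz.2
  -- the `hord` hypothesis
  have hord : ∀ 𝔭 : HtOne Bj, 𝔭.1 ≤ 𝔫 → ∃ z : F0, z ≠ 0 ∧ UnitAt 𝔭 (u₁ * z ^ m) := by
    intro 𝔭 h𝔭𝔫
    by_cases hq𝔭 : (⟨(q : F0), hqB⟩ : Bj) ∈ 𝔭.1
    · obtain ⟨i, rfl⟩ := hf3 𝔭 ⟨(q : F0), hqB⟩ rfl hq𝔭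
      refine hord_of_unitAt m ?_
      unfold UnitAt
      rw [hf1 i]
      fin_cases i
      · exact ⟨hu₁W, hu₁W'⟩
      · exact ⟨hu2, hu2'⟩
    · have hK0 : ∀ c : K0 A, algebraMap (K0 A) F0 c ∈ V1 F0 𝔭 := by
        refine algebraMap_K0_mem_of_baseRing A hq hA (algebraMap (K0 A) F0) (V1 F0 𝔭) ?_ ?_
        · intro c hc
          exact algebraMap_mem_V1 𝔭 ⟨_, hR0 c hc⟩
        · have h1 := inv_algebraMap_mem_V1 (F := F0) 𝔭 hq𝔭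
          have e : algebraMap Bj F0 (⟨(q : F0), hqB⟩ : Bj) = (q : F0) := rfl
          rw [e] at h1
          exact h1
      obtain ⟨z, hz0, hz⟩ := hord_horizontal A N m u₀ hK 𝔭 hK0
      have hne : f 1 ≠ 𝔭 := fun he => hq𝔭 (he ▸ hqf1)
      have hy𝔭 : y ∉ 𝔭.1 := not_mem_of_isGenAtPrime hgenAt h𝔭𝔫 hne
      have hyU : UnitAt 𝔭 ((y : F0) ^ (-ν)) :=
        (unitAt_algebraMap (F := F0) hy𝔭).zpow (-ν)
      refine ⟨z, hz0, ?_⟩
      have e : u₁ * z ^ m = ((u₀ : F0) * z ^ m) * (y : F0) ^ (-ν) := by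
        rw [hu₁]; ring
      rw [e]
      exact hz.mul hyU
  -- the Kummer datum
  obtain ⟨g₁, c, s, hc, hs, hgcs⟩ := exists_kummer_datum_of_ufd 𝔫 (Localization.AtPrime 𝔫) m
    u₁ hu₁0 hord
  have hsW : (s : F0) ∈ RwK0 A N := hBW1 s
  have hcW : (c : F0) ∈ RwK0 A N := hBW1 c
  have hs' : (s : F0)⁻¹ ∈ RwK0 A N := by
    refine inv_mem_of_not_mem_nonunits _ hsW fun hh => hs (hf0𝔫 ((hf2 0 s).2 (hW0 ▸ hh)))
  have hc' : (c : F0)⁻¹ ∈ RwK0 A N := by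
    refine inv_mem_of_not_mem_nonunits _ hcW fun hh => hc (hf0𝔫 ((hf2 0 c).2 (hW0 ▸ hh)))
  have hs0 : (s : F0) ≠ 0 := fun h0 => hs (by
    have : s = 0 := Subtype.ext h0
    rw [this]; exact Ideal.zero_mem _)
  have hc0 : (c : F0) ≠ 0 := fun h0 => hc (by
    have : c = 0 := Subtype.ext h0
    rw [this]; exact Ideal.zero_mem _)
  obtain ⟨g, hgcs', hg0, hgW, hgW'⟩ : ∃ g : F0, g ^ m * u₁ * (s : F0) = (c : F0) ∧
      g ≠ 0 ∧ g ∈ RwK0 A N ∧ g⁻¹ ∈ RwK0 A N := by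
    by_cases hm : m = 0
    · refine ⟨1, ?_, one_ne_zero, (RwK0 A N).one_mem, by rw [inv_one]; exact (RwK0 A N).one_mem⟩
      have := hgcs
      rw [hm, pow_zero] at this
      rw [hm, pow_zero]
      exact this
    · have hg0 : g₁ ≠ 0 := by
        intro h0
        have := hgcs
        rw [h0, zero_pow hm, zero_mul, zero_mul] at this
        exact hc0 this.symm
      refine ⟨g₁, hgcs, hg0, ?_⟩
      refine unit_of_pow_mul (RwK0 A N) hm (a := u₁ * (s : F0)) (c := (c : F0))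
        (mul_ne_zero hu₁0 hs0) hc0 ((RwK0 A N).mul_mem _ _ hu₁W hsW) ?_ hcW hc' ?_
      · rw [mul_inv]
        exact (RwK0 A N).mul_mem _ _ hu₁W' hs'
      · rw [← mul_assoc]
        exact hgcs
  -- apply `ρ`
  have hprod : (⟨g, hgW⟩ : ↥(RwK0 A N)) ^ m * ⟨u₁, hu₁W⟩ * ⟨(s : F0), hBW1 s⟩ =
      ⟨(c : F0), hBW1 c⟩ := Subtype.ext hgcs'
  have hρeq := congrArg ρ hprod
  rw [map_mul, map_mul, map_pow, ← hrd s (hBW1 s), ← hrd c (hBW1 c)] at hρeq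
  have hub : ρ ⟨u₁, hu₁W⟩ ≠ 0 := by
    rw [Ne, hρ]
    exact not_mem_nonunits_of_mem _ hu₁0 hu₁W hu₁W'
  have hgb : ρ ⟨g, hgW⟩ ≠ 0 := by
    rw [Ne, hρ]
    exact not_mem_nonunits_of_mem _ hg0 hgW hgW'
  have hdvd : (m : ℤ) ∣ Q.ord (ρ ⟨u₁, hu₁W⟩) :=
    dvd_ord_of_datum Q hQ (fun hh => hs ((h𝔫 s).2 hh)) (fun hh => hc ((h𝔫 c).2 hh))
      hub hgb hρeq
  -- `ρ u₁ = ρ u₀ · (ρ y)^{-ν}`
  have hρy0 : ρ ⟨(y : F0), hyW⟩ ≠ 0 := by
    rw [Ne, hρ]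
    exact hy1
  have hρu0 : ρ ⟨(u₀ : F0), hu1⟩ ≠ 0 := by
    rw [Ne, hρ]
    exact not_mem_nonunits_of_mem _ u₀.ne_zero hu1 hu1'
  have hzpow : ∀ n : ℤ, ∀ hn : (y : F0) ^ n ∈ RwK0 A N,
      ρ ⟨(y : F0) ^ n, hn⟩ = (ρ ⟨(y : F0), hyW⟩) ^ n := by
    have hnat : ∀ n : ℕ, ∀ hn : (y : F0) ^ n ∈ RwK0 A N,
        ρ ⟨(y : F0) ^ n, hn⟩ = (ρ ⟨(y : F0), hyW⟩) ^ n := by
      intro n hn
      rw [← map_pow]
      rfl
    intro n hn
    cases n with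
    | ofNat n =>
      have e : (y : F0) ^ (Int.ofNat n) = (y : F0) ^ n := by
        rw [Int.ofNat_eq_natCast, zpow_natCast]
      have hn' : (y : F0) ^ n ∈ RwK0 A N := e ▸ hn
      have e2 : (⟨(y : F0) ^ (Int.ofNat n), hn⟩ : ↥(RwK0 A N)) = ⟨(y : F0) ^ n, hn'⟩ :=
        Subtype.ext e
      rw [e2, hnat n hn', Int.ofNat_eq_natCast, zpow_natCast]
    | negSucc n =>
      have hn' : (y : F0) ^ (n + 1) ∈ RwK0 A N := (RwK0 A N).pow_mem hyW _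
      have hmul : (⟨(y : F0) ^ (Int.negSucc n), hn⟩ : ↥(RwK0 A N)) * ⟨(y : F0) ^ (n + 1), hn'⟩
          = 1 := by
        apply Subtype.ext
        show (y : F0) ^ (Int.negSucc n) * (y : F0) ^ (n + 1) = 1
        rw [zpow_negSucc, inv_mul_cancel₀ (pow_ne_zero _ hy0)]
      have h1 := congrArg ρ hmul
      rw [map_mul, map_one, hnat (n + 1) hn'] at h1
      have e : (ρ ⟨(y : F0), hyW⟩) ^ (Int.negSucc n) = ((ρ ⟨(y : F0), hyW⟩) ^ (n + 1))⁻¹ :=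
        zpow_negSucc _ _
      rw [e]
      exact eq_inv_of_mul_eq_one_left h1
  have hsplit : ρ ⟨u₁, hu₁W⟩ = ρ ⟨(u₀ : F0), hu1⟩ * (ρ ⟨(y : F0), hyW⟩) ^ (-ν) := by
    rw [← hzpow (-ν) hyz.1, ← map_mul]
    rfl
  rw [hsplit, Place.ord_mul _ hρu0 (zpow_ne_zero _ hρy0), Place.ord_zpow, ← hrd y hyW] at hdvd
  have e : Q.ord (ρ ⟨(u₀ : F0), hu1⟩) - ν * Q.ord (algebraMap C Fb (rd y)) =
      Q.ord (ρ ⟨(u₀ : F0), hu1⟩) + -ν * Q.ord (algebraMap C Fb (rd y)) := by ring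
  rw [e]
  exact hdvd

end Step

end Fermat.Agent.GE8.SQ2.CountObLocStep
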