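/-
GATE-E / E8.SQ toric side, node (B-loc) of helper29's 7177 §3, file 3 — helper68.

**The obstruction vanishes on the toric invariant classes — ALL primes `p`, by ONE node.**

Level `N' ℓ`, `ℓ ∤ N'`, `A ∣ ℓ`, the four hypotheses of the η-route, `J'` the ideal of the nodes
(`exists_ideal_K0`) and ONE node `v ⊇ J'`.  For `x ∈ V^{I_A} ∩ ker r₁` (`V = Kum_p(F_{N' ℓ})`):

* `dvd_nu_of_mem_kerRed` : `p ∣ ν(u₀)` for EVERY `K₀`-rational representative `u₀` of `x`;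
* `exists_nu_eq_one`     : some `g ∈ F₀ˣ` has `ν(g) = 1` (a local generator of the second vertical
  prime at the node);
* **`obZero_of_mem_kerRed`** : `Ob.ObZero x`.

Proof (helper29's recipe): normalise `u₀` to a `w₁`-unit `u₀'` (divide by `ℓ^{ord₁ u₀}`), so that
`ν(u₀) = ord₂ u₀' =: ν`; `x ∈ ker r₁` makes `red₁ u₀'` a `p`-th power.  At the node `𝔫 = rd₁⁻¹ v` of
`B_R = BRingK0`, the lift `y ∈ P'₂` of an element of `J' ∖ v²` with `y ^ 12 = η c`, `rd₁ c ∉ v`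
(η-route) generates `P'₂` at `𝔫` (pow trick), `B_{R,𝔫}` is factorial, `ord₂ y = 1`, `ord₁ y = 0`,
`ord_v (rd₁ y) = 1` (TRANSVERSALITY).  The chart step `CountObLocStep.dvd_ord_sub_of_ufd` gives
`p ∣ ord_v (red₁ u₀') − ν · ord_v (rd₁ y) = p · (…) − ν`.
-/
import Fermat.Agent.GE8.SQ2.CountObLocStep
import Fermat.Agent.GE8.SQ2.CountObLocGen
import Fermat.Agent.GB.A.A4.Finite
import Fermat.Agent.GB.A3.Ob
import Fermat.Agent.GL.Thick.PlaceDictC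

set_option autoImplicit false
set_option linter.unusedSectionVars false
set_option linter.style.haveILetI false

noncomputable section

namespace Fermat.Agent.GE8.SQ2.CountObLoc

open ModularCurve IsLocalRing AlgebraicCurve IsDedekindDomain
open Fermat.Agent.S24
open Fermat.Agent.GL.KrullHeightOne Fermat.Agent.GL.Frame.HeightOne Fermat.Agent.GL.Frame.Kummer
open Fermat.Agent.GL.Val.GaussK0 Fermat.Agent.GL.Val.SecondK0 Fermat.Agent.GL.Val.L1eLower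
open Fermat.Agent.GL.Val.RamK0 Fermat.Agent.GL.MultiVal
open Fermat.Agent.GL.Local.InertiaField
open Fermat.Agent.GJ.KumGroup Fermat.Agent.GJ.J1 Fermat.Agent.GJ.J1.Val
open Fermat.Agent.GJ.Kum.KumType
open Fermat.Agent.GK.AL Fermat.Agent.GL.AL Fermat.Agent.GK.QS Fermat.Agent.GK.FrobGlue
open Fermat.Agent.GK.UqKronecker
open Fermat.Agent.Common_helper32
open Fermat.Agent.S24_helper6
open Fermat.Agent.GL.Final.H5UnifK0
open Fermat.Agent.GB.A4.FrameTwo Fermat.Agent.GB.A4.LocalKummer Fermat.Agent.GB.A4.ChartStep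
open Fermat.Agent.GB.A4.Finite
open Fermat.Agent.GL.BRingK0 Fermat.Agent.GL.BRingChart Fermat.Agent.GL.Thick
open Fermat.Agent.GL.EtaK0 Fermat.Agent.GL.EtaInstK0B Fermat.Agent.GL.EtaInstK0Aux
open Fermat.Agent.GB.A.FP Fermat.Agent.GB.A3.Nu Fermat.Agent.GB.A3.Ob Fermat.Agent.GB.A3.OrdUnif
open Fermat.Agent.GE8.SQ2.CountObLocStep Fermat.Agent.GE8.SQ2.CountObLocGen

attribute [local instance] Fermat.Agent.GL.Frame.InstK0.algSubringFullC

variable {A : ValuationSubring Qb} {N' : ℕ} [NeZero N'] {ℓ : ℕ} [Fact ℓ.Prime] [NeZero ℓ]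
  (h : ExactDvd ℓ (N' * ℓ)) (hℓN : ¬ ℓ ∣ N') (hA : A.LiesOverPrime ℓ)

local notation "F0" => modularFunctionFieldFullC (K0 A) (N' * ℓ)
local notation "kA" => IsLocalRing.ResidueField A

/-! ### the η-route lift with transversality -/

/-- helper92's `exists_lift_pow_eq_K0_B` with the transversality output `red₁ y ∉ v²`. -/
theorem exists_lift_pow_eq_K0_sq (h2 : ℓ = 2 → 3 ∣ N') (h3 : ℓ = 3 → 2 ∣ N')
    (hν2 : nuTwo N' = 0) (hν3 : nuThree N' = 0)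
    {J' : Ideal (CRing N' A)} (hJ : fixIdeal (psiC N' ℓ A hℓN hA) ≤ J')
    (hJ' : BT N' ℓ A h = gluedAlg (psiC N' ℓ A hℓN hA) J')
    [IsDedekindDomain (CRing N' A)] (v : HeightOneSpectrum (CRing N' A))
    (hnode : J' ≤ v.asIdeal) :
    ∃ y ∈ P2K0 h hℓN hA, redC1K0 h hℓN hA y ∉ v.asIdeal ^ 2 ∧ ∃ c : BRingK0 N' ℓ A h,
      y ^ 12 = etaBK0 N' ℓ A h (ValuationSubring.nonunits_le hA) * c ∧
        redC1K0 h hℓN hA c ∉ v.asIdeal := by
  have : CharP kA ℓ := charP_residue A Fact.out hA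
  refine exists_lift_pow_eq_sq (redC1K0 h hℓN hA) (P2K0 h hℓN hA)
    (J := J') (P := v.asIdeal) (n := 12)
    (fun a ha => exists_mem_P2K0_redC1K0_eq h hℓN hA hJ' ha)
    (fun z hz => etaBK0_dvd_pow h hℓN hA hz)
    v.isMaximal (not_ideal_le_sq hℓN hA hJ v.asIdeal v.isMaximal) ?_
  rw [Fermat.Agent.GL.EtaInstK0.redC1K0_etaBK0]
  exact ssPolyAll_mem_pow_twelve_B h hℓN hA h2 h3 hν2 hν3 hJ hJ' hnode

/-! ### the node: a local generator of the second vertical prime -/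

section WithDedekind

variable [IsDedekindDomain (CRing N' A)]

set_option maxHeartbeats 1000000 in
/-- **the node data**: a `w₁`-unit `y ∈ B_R` with `w₂ y > 0`, `red₁ y ∈ v ∖ v²`, which generates
the second vertical prime at the node `𝔫 = red₁⁻¹ v`, where `B_R` is factorial. -/
theorem exists_node_gen (h2 : ℓ = 2 → 3 ∣ N') (h3 : ℓ = 3 → 2 ∣ N')
    (hν2 : nuTwo N' = 0) (hν3 : nuThree N' = 0)
    {J' : Ideal (CRing N' A)} (hJ : fixIdeal (psiC N' ℓ A hℓN hA) ≤ J')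
    (hJ' : BT N' ℓ A h = gluedAlg (psiC N' ℓ A hℓN hA) J')
    (hmap : (P2K0 h hℓN hA).map (redC1K0 h hℓN hA) = J')
    (v : HeightOneSpectrum (CRing N' A)) (hnode : J' ≤ v.asIdeal) :
    ∃ y : BRingK0 N' ℓ A h,
      (y : F0) ∈ (redData2K0 A (N' * ℓ) h).Rw.nonunits ∧
      (y : F0) ∉ (RwK0 A (N' * ℓ)).nonunits ∧
      redC1K0 h hℓN hA y ∈ v.asIdeal ∧ redC1K0 h hℓN hA y ∉ v.asIdeal ^ 2 ∧
      UniqueFactorizationMonoid
        (Localization.AtPrime (Ideal.comap (redC1K0 h hℓN hA) v.asIdeal)) ∧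
      (∀ b : BRingK0 N' ℓ A h, (b : F0) ∈ (redData2K0 A (N' * ℓ) h).Rw.nonunits →
        b ∈ Ideal.comap (redC1K0 h hℓN hA) v.asIdeal) ∧
      (∀ f : BRingK0 N' ℓ A h, (f : F0) ∈ (redData2K0 A (N' * ℓ) h).Rw.nonunits →
        ∃ s : BRingK0 N' ℓ A h, s ∉ Ideal.comap (redC1K0 h hℓN hA) v.asIdeal ∧
          ∃ b : BRingK0 N' ℓ A h, s * f = y * b) := by
  have hF := frame_BRingK0 h hA
  -- the second vertical prime lies in the node
  have hnodeB : ∀ b : BRingK0 N' ℓ A h,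
      (b : F0) ∈ (redData2K0 A (N' * ℓ) h).Rw.nonunits →
        b ∈ Ideal.comap (redC1K0 h hℓN hA) v.asIdeal := by
    intro b hb
    rw [Ideal.mem_comap]
    apply hnode
    rw [← hmap]
    exact Ideal.mem_map_of_mem _ ((mem_P2K0_iff h hℓN hA).2 hb)
  obtain ⟨y, hy, hysq, c, hyg, hc⟩ :=
    exists_lift_pow_eq_K0_sq h hℓN hA h2 h3 hν2 hν3 hJ hJ' v hnode
  have hg0 := etaBK0_ne_zero h hℓN hA
  have hc0 : c ≠ 0 := fun h0 => hc (by rw [h0, map_zero]; exact Ideal.zero_mem _)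
  have hy0 : y ≠ 0 := by
    intro h0
    rw [h0, zero_pow (by norm_num)] at hyg
    exact mul_ne_zero hg0 hc0 hyg.symm
  have hy2 : (y : F0) ∈ (redData2K0 A (N' * ℓ) h).Rw.nonunits := (mem_P2K0_iff h hℓN hA).1 hy
  have hy1 : (y : F0) ∉ (RwK0 A (N' * ℓ)).nonunits := by
    intro hh
    have h0 : redC1K0 h hℓN hA y = 0 := (redC1K0_eq_zero_iff h hA hℓN).2 hh
    have h00 : (0 : CRing N' A) ∈ v.asIdeal ^ 2 := Ideal.zero_mem _
    exact hysq (h0.symm ▸ h00)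
  have hc𝔫 : c ∉ Ideal.comap (redC1K0 h hℓN hA) v.asIdeal := hc
  have hdiv : ∀ z : BRingK0 N' ℓ A h, (z : F0) ∈ (redData2K0 A (N' * ℓ) h).Rw.nonunits →
      etaBK0 N' ℓ A h (ValuationSubring.nonunits_le hA) ∣ z ^ 12 := fun z hz =>
    etaBK0_dvd_pow h hℓN hA ((mem_P2K0_iff h hℓN hA).2 hz)
  refine ⟨y, hy2, hy1, hnodeB y hy2, hysq, ?_, hnodeB, ?_⟩
  · refine ufd_node_of_frame hF (redC2K0 h hℓN hA) (redC2K0_surjective hℓN hA h2 h3)
      (fun b => ?_) _ hnodeB (n := 12) (by norm_num) hdiv hy2 hyg hc𝔫 hy0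
    rw [← mem_P2K0_iff h hℓN hA, mem_P2K0]
  · intro f hf
    obtain ⟨i1, i2, i3, -⟩ := hF
    exact exists_mul_eq_of_pow (F := F0) (Ideal.comap (redC1K0 h hℓN hA) v.asIdeal)
      (P := P2K0 h hℓN hA) (n := 12) (by norm_num)
      (fun z hz => etaBK0_dvd_pow h hℓN hA hz) hy hyg hc𝔫 ((mem_P2K0_iff h hℓN hA).2 hf)

/-! ### the orders of the local generator -/

section Ord

variable (hq : ℓ.Prime)

omit [IsDedekindDomain (CRing N' A)] in
/-- `B_R ⊆ Rw₂`. -/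
theorem coe_mem_Rw2 (b : BRingK0 N' ℓ A h) : (b : F0) ∈ (redData2K0 A (N' * ℓ) h).Rw :=
  (mem_BRingK0.1 b.2).2.2

omit [IsDedekindDomain (CRing N' A)] in
/-- `B_R ⊆ Rw₁`. -/
theorem coe_mem_Rw1 (b : BRingK0 N' ℓ A h) : (b : F0) ∈ RwK0 A (N' * ℓ) :=
  (mem_BRingK0.1 b.2).2.1

omit [IsDedekindDomain (CRing N' A)] in
/-- an element of a valuation ring outside the nonunits is in the unit group. -/
theorem mem_unitGroup_of_not_mem_nonunits {F : Type*} [Field F] (W : ValuationSubring F)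
    (x : Fˣ) (hx : (x : F) ∈ W) (hx' : (x : F) ∉ W.nonunits) : x ∈ W.unitGroup := by
  rw [ValuationSubring.mem_unitGroup_iff]
  exact valuation_eq_one_of_mem W x.ne_zero hx (inv_mem_of_not_mem_nonunits W hx hx')

omit [IsDedekindDomain (CRing N' A)] in
include hA in
/-- **a local generator of the second vertical prime at a point of it has `ord₂ = 1`.** -/
theorem ord₂_eq_one_of_gen (𝔫 : Ideal (BRingK0 N' ℓ A h))
    (hnodeB : ∀ b : BRingK0 N' ℓ A h, (b : F0) ∈ (redData2K0 A (N' * ℓ) h).Rw.nonunits → b ∈ 𝔫)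
    (y : BRingK0 N' ℓ A h) (hy0 : (y : F0) ≠ 0)
    (hy2 : (y : F0) ∈ (redData2K0 A (N' * ℓ) h).Rw.nonunits)
    (hgen : ∀ f : BRingK0 N' ℓ A h, (f : F0) ∈ (redData2K0 A (N' * ℓ) h).Rw.nonunits →
      ∃ s : BRingK0 N' ℓ A h, s ∉ 𝔫 ∧ ∃ b : BRingK0 N' ℓ A h, s * f = y * b) :
    ord₂ A (N' * ℓ) h hq hA (Units.mk0 (y : F0) hy0) = 1 := by
  have hU := isUnifOf₂ A (N' * ℓ) h hq hA
  -- `ℓ` as an element of `B_R`
  set qB : BRingK0 N' ℓ A h := ⟨qF A (N' * ℓ) (q := ℓ), algebraMap_mem_BRingK0 N' ℓ A h (q0 A ℓ)⟩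
    with hqB
  have hq2 : (qB : F0) ∈ (redData2K0 A (N' * ℓ) h).Rw.nonunits := hU.mem_nonunits
  obtain ⟨s, hs, b, hsb⟩ := hgen qB hq2
  have hsb' : (s : F0) * qF A (N' * ℓ) (q := ℓ) = (y : F0) * (b : F0) :=
    congrArg Subtype.val hsb
  have hqF0 : qF A (N' * ℓ) (q := ℓ) ≠ 0 := qF_ne_zero A (N' * ℓ) hq
  have hs0 : (s : F0) ≠ 0 := by
    intro h0
    apply hs
    have : s = 0 := Subtype.ext h0
    rw [this]
    exact Ideal.zero_mem _
  have hb0 : (b : F0) ≠ 0 := by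
    intro h0
    rw [h0, mul_zero] at hsb'
    exact mul_ne_zero hs0 hqF0 hsb'
  have hsU : Units.mk0 (s : F0) hs0 ∈ (redData2K0 A (N' * ℓ) h).Rw.unitGroup :=
    mem_unitGroup_of_not_mem_nonunits _ _ (coe_mem_Rw2 h s) (fun hh => hs (hnodeB s hh))
  have e : Units.mk0 (s : F0) hs0 * qU A (N' * ℓ) hq =
      Units.mk0 (y : F0) hy0 * Units.mk0 (b : F0) hb0 := Units.ext hsb'
  have h1 := congrArg (ordZ hU) e
  rw [ordZ_mul, ordZ_mul, ordZ_unif, (ordZ_eq_zero_iff hU _).2 hsU] at h1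
  have hb1 : 0 ≤ ordZ hU (Units.mk0 (b : F0) hb0) := (ordZ_nonneg_iff hU _).2 (coe_mem_Rw2 h b)
  have hy1 : 0 ≤ ordZ hU (Units.mk0 (y : F0) hy0) := (ordZ_nonneg_iff hU _).2 (coe_mem_Rw2 h y)
  have hy3 : ordZ hU (Units.mk0 (y : F0) hy0) ≠ 0 := by
    intro h0
    have h2 := (ordZ_eq_zero_iff hU _).1 h0
    rw [ValuationSubring.mem_unitGroup_iff] at h2
    have h3 := (ValuationSubring.mem_nonunits_iff _).1 hy2
    rw [Units.val_mk0] at h2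
    exact absurd h2 (ne_of_lt h3)
  unfold ord₂
  omega

end Ord

/-! ### the main statement -/

section Main

variable (hq : ℓ.Prime) [IsFractionRing (CRing N' A) (FresBar N' A)]

/-- constants of `ℚ̄` are `p`-divisible units. -/
theorem constB_mem_pDivUnits {M : ℕ} [NeZero M] (p : ℕ) [NeZero p] (c : Kbˣ) :
    constB (M := M) c ∈ pDivUnits Kb (FK M) p := by
  obtain ⟨w, hw⟩ := exists_constB_pow (M := M) p c
  rw [← hw]
  exact pow_mem_pDivUnits Kb (FK M) p w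

set_option maxHeartbeats 1000000 in
/-- **(B-loc), the local statement**: at level `N' ℓ` with ONE node `v`, some `K₀`-rational unit has
`ν = 1`, and `p ∣ ν(u₀)` for every `K₀`-rational `p`-divisible unit `u₀` which is, over `ℚ̄`,
a (constant times a) principal unit times a `p`-th power. -/
theorem dvd_nu_of_node (h2 : ℓ = 2 → 3 ∣ N') (h3 : ℓ = 3 → 2 ∣ N')
    (hν2 : nuTwo N' = 0) (hν3 : nuThree N' = 0)
    {J' : Ideal (CRing N' A)} (hJ : fixIdeal (psiC N' ℓ A hℓN hA) ≤ J')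
    (hJ' : BT N' ℓ A h = gluedAlg (psiC N' ℓ A hℓN hA) J')
    (hmap : (P2K0 h hℓN hA).map (redC1K0 h hℓN hA) = J')
    (v : HeightOneSpectrum (CRing N' A)) (hnode : J' ≤ v.asIdeal) :
    (∃ g : F0ˣ, nu A (N' * ℓ) h hq hA g = 1) ∧
    ∀ (p : ℕ) (_ : p ≠ 0) (u0 : F0ˣ) (vv w : (FK (N' * ℓ))ˣ),
      mapU (M := N' * ℓ) A u0 ∈ pDivUnits Kb (FK (N' * ℓ)) p →
      IsCPrin (hasGaussFrac_bar (N' * ℓ) A) (vv : FK (N' * ℓ)) →
      mapU (M := N' * ℓ) A u0 = vv * w ^ p →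
      (p : ℤ) ∣ nu A (N' * ℓ) h hq hA u0 := by
  obtain ⟨y, hy2, hy1, hyv, hysq, hufd, hnodeB, hgen⟩ :=
    exists_node_gen h hℓN hA h2 h3 hν2 hν3 hJ hJ' hmap v hnode
  have hU1 := isUnifOf₁ A (N' * ℓ) hq hA
  have hU2 := isUnifOf₂ A (N' * ℓ) h hq hA
  have hy0 : (y : F0) ≠ 0 := by
    intro h0
    apply hy1
    rw [h0, ValuationSubring.mem_nonunits_iff, map_zero]
    exact zero_lt_one
  set yU : F0ˣ := Units.mk0 (y : F0) hy0 with hyU
  have hord2y : ordZ hU2 yU = 1 := ord₂_eq_one_of_gen h hA hq _ hnodeB y hy0 hy2 hgen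
  have hord1y : ordZ hU1 yU = 0 :=
    (ordZ_eq_zero_iff hU1 _).2 (mem_unitGroup_of_not_mem_nonunits _ _ (coe_mem_Rw1 h y) hy1)
  refine ⟨⟨yU, ?_⟩, ?_⟩
  · unfold nu ord₁ ord₂
    rw [hord2y, hord1y]
    norm_num
  intro p hp u0 vv w hK hvv hw
  have : NeZero p := ⟨hp⟩
  -- normalisation
  set a : ℤ := ordZ hU1 u0 with ha
  set u0' : F0ˣ := u0 * (qU A (N' * ℓ) hq ^ a)⁻¹ with hu0'
  have h1u : u0' ∈ (RwK0 A (N' * ℓ)).unitGroup := ordZ_spec hU1 u0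
  have hu1 := mem_of_valuation_eq_one (RwK0 A (N' * ℓ))
    ((ValuationSubring.mem_unitGroup_iff _ _).1 h1u)
  set ν : ℤ := ordZ hU2 u0' with hν
  have hνnu : ν = nu A (N' * ℓ) h hq hA u0 := by
    unfold nu ord₁ ord₂
    rw [hν, hu0', ordZ_mul, ordZ_inv, ordZ_zpow, ordZ_unif, ← ha]
    ring
  have h2u : u0' * yU ^ (-ν) ∈ (redData2K0 A (N' * ℓ) h).Rw.unitGroup := by
    rw [← ordZ_eq_zero_iff hU2, ordZ_mul, ordZ_zpow, hord2y, ← hν]
    ring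
  have hu2 := mem_of_valuation_eq_one (redData2K0 A (N' * ℓ) h).Rw
    ((ValuationSubring.mem_unitGroup_iff _ _).1 h2u)
  have hcoe : ((u0' * yU ^ (-ν) : F0ˣ) : F0) = (u0' : F0) * (y : F0) ^ (-ν) := by
    rw [Units.val_mul, Units.val_zpow_eq_zpow_val, hyU, Units.val_mk0]
  rw [hcoe] at hu2
  -- the Kummer condition for `u0'`
  have hmapU : mapU (M := N' * ℓ) A u0' =
      mapU (M := N' * ℓ) A u0 * constB (M := N' * ℓ) ((qB hq ^ a)⁻¹) := by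
    rw [hu0', map_mul, map_inv, map_zpow, mapU_qU]
    unfold constB
    rw [map_inv, map_zpow]
  have hK' : Units.map (mapK0Bar A (N' * ℓ) : _ →* FK (N' * ℓ)) u0' ∈
      pDivUnits Kb (FK (N' * ℓ)) p := by
    have : mapU (M := N' * ℓ) A u0' ∈ pDivUnits Kb (FK (N' * ℓ)) p := by
      rw [hmapU]
      exact mul_mem hK (constB_mem_pDivUnits p _)
    exact this
  -- the place of the node
  set Q : Place kA (FresBar N' A) := placeOfPrime (K := kA) (F := FresBar N' A) v with hQdef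
  have hQ : ContainsB (CRing N' A) Q := containsB_placeOfPrime v
  have hv : primeOfPlace Q hQ = v := primeOfPlace_placeOfPrime v
  have hR0 : ∀ c : K0 A, c ∈ R0 A → algebraMap (K0 A) F0 c ∈ BRingK0 N' ℓ A h :=
    fun c hc => algebraMap_mem_BRingK0 N' ℓ A h ⟨c, hc⟩
  have hq2 : (ℓ : F0) ∈ (redData2K0 A (N' * ℓ) h).Rw.nonunits := by
    have := hU2.mem_nonunits
    rw [coe_qU] at this
    unfold qF at this
    rwa [algebraMap_q0] at this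
  have key := dvd_ord_sub_of_ufd hA (frame_BRingK0 h hA) hR0 (rho1 hℓN hA)
    (rho1_eq_zero_iff hℓN hA) (redC1K0 h hℓN hA) (fun b hb => coe_redC1K0 h hℓN hA b hb) Q hQ
    (Ideal.comap (redC1K0 h hℓN hA) v.asIdeal) (fun b => by rw [hv]; exact Iff.rfl)
    p u0' hu1.1 hu1.2 y ν hq2 hy1 hy2 hgen hu2.1 hu2.2 hK'
  -- transversality
  have hone : Q.ord (algebraMap (CRing N' A) (FresBar N' A) (redC1K0 h hℓN hA y)) = 1 :=
    ord_algebraMap_eq_one Q hQ (by rw [hv]; exact hyv) (by rw [hv]; exact hysq)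
  -- `red₁ u0'` is a `p`-th power
  have hx : mapK0Bar A (N' * ℓ) (u0' : F0) ∈ (redDataBar (N' * ℓ) A).Rw :=
    (Fermat.Agent.GL.Val.SecondK0.mem_Rw1K0_iff A (N' * ℓ) _).1 hu1.1
  have hx' : (mapK0Bar A (N' * ℓ) (u0' : F0))⁻¹ ∈ (redDataBar (N' * ℓ) A).Rw := by
    rw [← map_inv₀]
    exact (Fermat.Agent.GL.Val.SecondK0.mem_Rw1K0_iff A (N' * ℓ) _).1 hu1.2
  have hqa0 : (((qB hq ^ a)⁻¹ : Kbˣ) : Kb) ≠ 0 := Units.ne_zero _
  obtain ⟨t, ht0, ht⟩ := exists_red_eq_pow A hp (mapU (M := N' * ℓ) A u0') hx hx'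
    (vv * constB (M := N' * ℓ) ((qB hq ^ a)⁻¹)) w
    (by
      rw [Units.val_mul, coe_constB]
      exact hvv.mul (isCPrin_algebraMap hqa0))
    (by rw [hmapU, hw]; exact mul_right_comm _ _ _)
  have hrho : rho1 hℓN hA ⟨(u0' : F0), hu1.1⟩ = (fresIncl N' ℓ A hℓN hA t) ^ p := by
    rw [Fermat.Agent.GB.A4.Finite.rho1_apply, rho1K0_apply, ← map_pow, ← ht]
    rfl
  have hit0 : fresIncl N' ℓ A hℓN hA t ≠ 0 :=
    (map_ne_zero_iff _ (fresIncl N' ℓ A hℓN hA).toRingHom.injective).2 ht0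
  rw [hrho, hone, ← zpow_natCast, Place.ord_zpow, mul_one] at key
  rw [← hνnu]
  have := dvd_sub (dvd_mul_right (p : ℤ) (Q.ord (fresIncl N' ℓ A hℓN hA t))) key
  rwa [sub_sub_cancel] at this

/-- `ν` of an integral power. -/
theorem nu_zpow' (g : F0ˣ) (k : ℤ) :
    nu A (N' * ℓ) h hq hA (g ^ k) = k * nu A (N' * ℓ) h hq hA g := by
  unfold nu ord₁ ord₂
  rw [ordZ_zpow, ordZ_zpow]
  ring

/-- **(B-loc)**: with ONE node `v`, the obstruction vanishes on `V^{I_A} ∩ ker r₁` — every `p ≠ 0`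
(instance form). -/
theorem obZero_of_mem_kerRed_aux (h2 : ℓ = 2 → 3 ∣ N') (h3 : ℓ = 3 → 2 ∣ N')
    (hν2 : nuTwo N' = 0) (hν3 : nuThree N' = 0)
    {J' : Ideal (CRing N' A)} (hJ : fixIdeal (psiC N' ℓ A hℓN hA) ≤ J')
    (hJ' : BT N' ℓ A h = gluedAlg (psiC N' ℓ A hℓN hA) J')
    (hmap : (P2K0 h hℓN hA).map (redC1K0 h hℓN hA) = J')
    (v : HeightOneSpectrum (CRing N' A)) (hnode : J' ≤ v.asIdeal)
    {p : ℕ} (hp : p ≠ 0) (x : Additive (Kum Kb (FK (N' * ℓ)) p))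
    (hxI : x ∈ invSub (M := N' * ℓ) A p) (hx1 : x ∈ kerRed (N' * ℓ) A p) :
    ObZero h A p hq hA x := by
  have : NeZero p := ⟨hp⟩
  obtain ⟨u, rfl, hfix⟩ := exists_fixedRep A p x hxI
  obtain ⟨u₀, hu₀⟩ := exists_mapU_of_fixed A (u : (FK (N' * ℓ))ˣ) hfix
  obtain ⟨u', hu'C, hu'x⟩ := mem_kerRed.1 hx1
  have hmk : (Kum.mk u' : Kum Kb (FK (N' * ℓ)) p) = Kum.mk u := Additive.ofMul.injective hu'x
  obtain ⟨w, hw⟩ := Kum.mk_eq_mk_iff.mp hmk
  obtain ⟨⟨g, hg⟩, hdvd⟩ := dvd_nu_of_node h hℓN hA hq h2 h3 hν2 hν3 hJ hJ' hmap v hnode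
  obtain ⟨k, hk⟩ := hdvd p hp u₀ u' w (hu₀ ▸ u.2) hu'C (hu₀.trans hw)
  refine ⟨⟨(u : (FK (N' * ℓ))ˣ) * ((mapU (M := N' * ℓ) A (g ^ k))⁻¹) ^ p,
    mul_mem u.2 (pow_mem_pDivUnits Kb (FK (N' * ℓ)) p _)⟩, u₀ * ((g ^ k) ^ p)⁻¹, ?_, ?_, ?_⟩
  · exact (ofMul_mk_eq_of ((mapU (M := N' * ℓ) A (g ^ k))⁻¹) rfl).symm
  · rw [map_mul, map_inv, map_pow, hu₀]
    show _ = (u : (FK (N' * ℓ))ˣ) * ((mapU (M := N' * ℓ) A (g ^ k))⁻¹) ^ p
    rw [inv_pow]
  · have e1 := nu_mul A (N' * ℓ) h hq hA u₀ (((g ^ k) ^ p)⁻¹)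
    have e2 := nu_inv A (N' * ℓ) h hq hA ((g ^ k) ^ p)
    have e3 := nu_pow A (N' * ℓ) h hq hA (g ^ k) p
    have e4 := nu_zpow' h hA hq g k
    rw [e1, e2, e3, e4, hg, hk]
    ring

end Main

end WithDedekind

/-! ### instance-free forms -/

section Final

variable (hq : ℓ.Prime)

/-- **(B-loc)** `obZero_of_mem_kerRed`: level `N' ℓ`, the four A4 side conditions, the ideal of the
nodes `J'` with the `exists_ideal_K0` data and ONE node `v ⊇ J'`: the obstruction vanishes on the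
inertia-invariant classes in `ker r₁` — EVERY `p ≠ 0`. -/
theorem obZero_of_mem_kerRed (h2 : ℓ = 2 → 3 ∣ N') (h3 : ℓ = 3 → 2 ∣ N')
    (hν2 : nuTwo N' = 0) (hν3 : nuThree N' = 0)
    {J' : Ideal (CRing N' A)} (hJ : fixIdeal (psiC N' ℓ A hℓN hA) ≤ J')
    (hJ' : BT N' ℓ A h = gluedAlg (psiC N' ℓ A hℓN hA) J')
    (hmap : (P2K0 h hℓN hA).map (redC1K0 h hℓN hA) = J')
    (v : HeightOneSpectrum (CRing N' A)) (hnode : J' ≤ v.asIdeal)
    {p : ℕ} (hp : p ≠ 0) (x : Additive (Kum Kb (FK (N' * ℓ)) p))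
    (hxI : x ∈ invSub (M := N' * ℓ) A p) (hx1 : x ∈ kerRed (N' * ℓ) A p) :
    ObZero h A p hq hA x := by
  have : IsDedekindDomain (CRing N' A) :=
    Fermat.Agent.GK.SS.Modular.isDedekindDomain_CRing N' ℓ A hA
  have : IsFractionRing (CRing N' A) (FresBar N' A) :=
    Fermat.Agent.GL.SmallQ.isFractionRing_CRing N' A
  exact obZero_of_mem_kerRed_aux h hℓN hA hq h2 h3 hν2 hν3 hJ hJ' hmap v hnode hp x hxI hx1

/-- the same with a node given as an element of `nodes J'`. -/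
theorem obZero_of_mem_kerRed_of_nodes (h2 : ℓ = 2 → 3 ∣ N') (h3 : ℓ = 3 → 2 ∣ N')
    (hν2 : nuTwo N' = 0) (hν3 : nuThree N' = 0)
    {J' : Ideal (CRing N' A)} (hJ : fixIdeal (psiC N' ℓ A hℓN hA) ≤ J')
    (hJ' : BT N' ℓ A h = gluedAlg (psiC N' ℓ A hℓN hA) J')
    (hmap : (P2K0 h hℓN hA).map (redC1K0 h hℓN hA) = J')
    (hne : (nodes J').Nonempty)
    {p : ℕ} (hp : p ≠ 0) (x : Additive (Kum Kb (FK (N' * ℓ)) p))
    (hxI : x ∈ invSub (M := N' * ℓ) A p) (hx1 : x ∈ kerRed (N' * ℓ) A p) :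
    ObZero h A p hq hA x := by
  obtain ⟨P, hP, hle⟩ := hne
  exact obZero_of_mem_kerRed h hℓN hA hq h2 h3 hν2 hν3 hJ hJ' hmap
    ⟨P, hP.isPrime, Ring.ne_bot_of_isMaximal_of_not_isField hP
      (Fermat.Agent.GK.SS.Modular.not_isField_CRing N' A)⟩ hle hp x hxI hx1

/-- the set-inclusion form: `V^{I_A} ∩ ker r₁ ⊆ S₀` (the classes with vanishing obstruction). -/
theorem invSub_inf_kerRed_le (h2 : ℓ = 2 → 3 ∣ N') (h3 : ℓ = 3 → 2 ∣ N')
    (hν2 : nuTwo N' = 0) (hν3 : nuThree N' = 0)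
    {J' : Ideal (CRing N' A)} (hJ : fixIdeal (psiC N' ℓ A hℓN hA) ≤ J')
    (hJ' : BT N' ℓ A h = gluedAlg (psiC N' ℓ A hℓN hA) J')
    (hmap : (P2K0 h hℓN hA).map (redC1K0 h hℓN hA) = J')
    (hne : (nodes J').Nonempty) {p : ℕ} (hp : p ≠ 0) :
    ∀ x : Additive (Kum Kb (FK (N' * ℓ)) p), x ∈ invSub (M := N' * ℓ) A p →
      x ∈ kerRed (N' * ℓ) A p → x ∈ invSub (M := N' * ℓ) A p ∧ ObZero h A p hq hA x :=
  fun x hxI hx1 => ⟨hxI, obZero_of_mem_kerRed_of_nodes h hℓN hA hq h2 h3 hν2 hν3 hJ hJ' hmap hne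
    hp x hxI hx1⟩

end Final

end Fermat.Agent.GE8.SQ2.CountObLoc
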