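/-
GATE-E (S59) / E8.2 SQ / TOR-OLD leaf (J7b), `SurjInput`-spelling (helper99): `NormT0` in the exact
shape of item (ii) of helper29's `TorOldTop.SurjInput` (board 7449) — the representative is given
as `z : E₀ˣ` together with the proof `hzG` that `mapU z` is a `p`-divisible unit.
-/
import Fermat.Agent.GE8.SQ2.NormT0

set_option autoImplicit false
set_option linter.unusedSectionVars false
set_option linter.unusedVariables false

noncomputable section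

namespace Fermat.Agent.GE8.SQ2.NormT0

open ModularCurve IsLocalRing AlgebraicCurve
open Fermat.Agent.GJ.KumGroup Fermat.Agent.GJ.Kum.KumType
open Fermat.Agent.GL.Val.GaussK0
open Fermat.Agent.GL.Final.TripleInstK0
open Fermat.Agent.GB.A3.Nu Fermat.Agent.GB.A3.Ob
open Fermat.Agent.GE8.SQ2.CountStmt Fermat.Agent.GE8.SQ2.ToricOldAbs

variable (A : ValuationSubring Kb) {M' q : ℕ} [NeZero q] [NeZero M']
  (hq : q.Prime) (hqM : ¬ q ∣ M') (hA : (q : Kb) ∈ A.nonunits)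
  (h2 : q = 2 → 3 ∣ M') (h3 : q = 3 → 2 ∣ M')
  {r : ℕ} (hr : r.Prime) (hrM : r ∣ M') (hr3 : r % 3 = 2) (hr4 : r % 4 = 3)

local notation "E₀" => modularFunctionFieldFullC (K0 A) (M' * q)

/-- **(J7b), `SurjInput` spelling** (item (ii) of board 7449, verbatim). -/
theorem exists_unit_U2'_of_mem_T0 {p : ℕ} (hp : 0 < p)
    {y : Additive (Kum Kb (FK (M' * q)) p)}
    (hy : y ∈ T0 (Fermat.Agent.GL.W3Table.exactDvd_level hq hqM) A p) :
    ∃ (z : (E₀)ˣ) (hzG : mapU (M := M' * q) A z ∈ pDivUnits Kb (FK (M' * q)) p),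
      Additive.ofMul (Kum.mk ⟨mapU (M := M' * q) A z, hzG⟩) = y ∧
        U2' (setupK0Thm A hq hqM hA h2 h3 hr hrM hr3 hr4) ((z : (E₀)ˣ) : E₀) := by
  obtain ⟨u, z, hyu, hmap, hU⟩ :=
    exists_U2'_of_mem_T0 A hq hqM hA h2 h3 hr hrM hr3 hr4 hp hy
  have hzG : mapU (M := M' * q) A z ∈ pDivUnits Kb (FK (M' * q)) p := by
    rw [hmap]; exact u.2
  refine ⟨z, hzG, ?_, hU⟩
  rw [← hyu]
  congr 2
  exact Subtype.ext hmap

/-- the same with the place-divisibility hypothesis of (J5b) for `z`. -/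
theorem exists_unit_U2'_of_mem_T0_ord {p : ℕ} (hp : 0 < p)
    {y : Additive (Kum Kb (FK (M' * q)) p)}
    (hy : y ∈ T0 (Fermat.Agent.GL.W3Table.exactDvd_level hq hqM) A p) :
    ∃ (z : (E₀)ˣ) (hzG : mapU (M := M' * q) A z ∈ pDivUnits Kb (FK (M' * q)) p),
      Additive.ofMul (Kum.mk ⟨mapU (M := M' * q) A z, hzG⟩) = y ∧
        U2' (setupK0Thm A hq hqM hA h2 h3 hr hrM hr3 hr4) ((z : (E₀)ˣ) : E₀) ∧
        ((z : (E₀)ˣ) : E₀) ≠ 0 ∧
        ∀ P : Place Kb (FK (M' * q)), (p : ℤ) ∣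
          P.ord (Fermat.Agent.GL.Val.CuspK0.toFN0 A (M' * q) ((z : (E₀)ˣ) : E₀)) := by
  obtain ⟨z, hzG, hyz, hU⟩ :=
    exists_unit_U2'_of_mem_T0 A hq hqM hA h2 h3 hr hrM hr3 hr4 hp hy
  exact ⟨z, hzG, hyz, hU, z.ne_zero,
    dvd_ord_toFN0_of_mapU A ⟨mapU (M := M' * q) A z, hzG⟩ z rfl⟩

end Fermat.Agent.GE8.SQ2.NormT0
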