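/-
GATE-E / E8.2 SQ-ii hedge (helper29), node (S4): **the normalised representative of a class that
ALREADY has a unit representative along the three vertical components — NO loss `p^c`**.

`GL/Chain/NormaliseCop.exists_normalised'` is  [`VertStep.exists_unit_rep` : the vertical step,
which costs the factor `p^c ∥ q+1` (the component group)]  +  [a TAIL: reductions of the two norms
⟹ `u0^(q-1) = g^m · u2` with `u2` TORIC (`rd_i u2 = 1`) and the norms of `u2` still `m`-th powers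
up to constants].  The tail loses nothing and works for EVERY exponent `m ≠ 0` prime to `q`.

`exists_normalised_unit` is that tail as a statement of its own: hypothesis
`W1 u = W2 u = W3 u = 1`; used after the Eisenstein twist `T_ℓ - (ℓ+1)`, which produces such a
representative (the valuation identity `W_i (T_ℓ x) = (ℓ+1) W_i x`).
-/
import Mathlib
import Fermat.Agent.GL.Chain.NormaliseCop

set_option autoImplicit false

namespace Fermat.Agent.GE8.SQ2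

open Fermat.Agent.GK.MultiVal Fermat.Agent.GL.Chain

section NormUnit

variable {L F E : Type*} [Field L] [Field F] [Field E] [Algebra L E]
  {k : Type*} [Field k] [IsAlgClosed k]
  {k1 k2 k3 k1' k2' : Type*} [Field k1] [Field k2] [Field k3] [Field k1'] [Field k2']
  [Algebra k k1] [Algebra k k2] [Algebra k k3] [Algebra k k1'] [Algebra k k2']

/-- **(S4) the normalised representative, UNIT form**: if `u` is a unit along `W1 W2 W3` and both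
norms of `u` are `m`-th powers up to constants (`gcd(q, m) = 1`), then `u^(q-1) = g^m · u2` with
`u2` toric (unit along the three components with reductions `1`), and the norms of `u2` are again
`m`-th powers up to constants.  No constant, no loss in the exponent. -/
theorem exists_normalised_unit (q : ℕ) [Fact q.Prime]
    {W1 W2 W3 : ValuationSubring F} {A1 A2 : ValuationSubring E} {q0 : L}
    (hdA1 : IsDiscAt A1 (algebraMap L E q0)) (hdA2 : IsDiscAt A2 (algebraMap L E q0))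
    (hW : Incomparable ![W1, W2, W3])
    (rd1 : W1 →+* k1) (rd2 : W2 →+* k2) (rd3 : W3 →+* k3)
    (hs1 : Function.Surjective rd1) (hs2 : Function.Surjective rd2)
    (hs3 : Function.Surjective rd3)
    (hker1 : ∀ x : W1, rd1 x = 0 ↔ W1.valuation (x : F) < 1)
    (hker2 : ∀ x : W2, rd2 x = 0 ↔ W2.valuation (x : F) < 1)
    (hker3 : ∀ x : W3, rd3 x = 0 ↔ W3.valuation (x : F) < 1)
    (rd1' : A1 →+* k1') (rd2' : A2 →+* k2')
    (hker1' : ∀ x : A1, rd1' x = 0 ↔ A1.valuation (x : E) < 1)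
    (hker2' : ∀ x : A2, rd2' x = 0 ↔ A2.valuation (x : E) < 1)
    (hLval : ∀ c : L, c ≠ 0 → ∃ n : ℤ,
      A1.valuation (algebraMap L E c) = A1.valuation (algebraMap L E q0) ^ n ∧
      A2.valuation (algebraMap L E c) = A2.valuation (algebraMap L E q0) ^ n)
    (hLred1 : ∀ (c : L) (hc : algebraMap L E c ∈ A1), ∃ a : k,
      rd1' ⟨algebraMap L E c, hc⟩ = algebraMap k k1' a)
    (hLred2 : ∀ (c : L) (hc : algebraMap L E c ∈ A2), ∃ a : k,
      rd2' ⟨algebraMap L E c, hc⟩ = algebraMap k k2' a)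
    (j11 : k1' →ₐ[k] k1) (hj11 : Function.Surjective j11)
    (j13 : k1' →ₐ[k] k3)
    (j22 : k2' →ₐ[k] k2) (j11' : k1' →ₐ[k] k1)
    (Nm Nm' : F →*₀ E)
    (hπ13 : ∀ (u : F) (h1 : u ∈ W1) (h3 : u ∈ W3), ∃ hN : Nm u ∈ A1, ∃ y1 y3 : k1',
      j11 y1 = rd1 ⟨u, h1⟩ ∧ j13 y3 = rd3 ⟨u, h3⟩ ∧ rd1' ⟨Nm u, hN⟩ = y1 * y3 ^ (q - 1))
    (hπ2 : ∀ (u : F) (h2 : u ∈ W2), ∃ hN : Nm u ∈ A2,
      j22 (rd2' ⟨Nm u, hN⟩) = rd2 ⟨u, h2⟩ ^ q)
    (hπ'1 : ∀ (u : F) (h1 : u ∈ W1), ∃ hN : Nm' u ∈ A1,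
      j11' (rd1' ⟨Nm' u, hN⟩) = rd1 ⟨u, h1⟩ ^ q)
    {m : ℕ} (hm : m ≠ 0) (hqm : Nat.Coprime q m) {u : F}
    (hv1 : W1.valuation u = 1) (hv2 : W2.valuation u = 1) (hv3 : W3.valuation u = 1)
    (e₁ : IsCstPow L m (Nm u)) (e₂ : IsCstPow L m (Nm' u)) :
    ∃ (g u2 : F), g ≠ 0 ∧
      u ^ (q - 1) = g ^ m * u2 ∧
      W1.valuation u2 = 1 ∧ W2.valuation u2 = 1 ∧ W3.valuation u2 = 1 ∧
      (∃ (g1 : u2 ∈ W1) (g2 : u2 ∈ W2) (g3 : u2 ∈ W3),
        rd1 ⟨u2, g1⟩ = 1 ∧ rd2 ⟨u2, g2⟩ = 1 ∧ rd3 ⟨u2, g3⟩ = 1) ∧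
      IsCstPow L m (Nm u2) ∧ IsCstPow L m (Nm' u2) := by
  have m01 : u ∈ W1 := (W1.valuation_le_one_iff _).mp hv1.le
  have m02 : u ∈ W2 := (W2.valuation_le_one_iff _).mp hv2.le
  have m03 : u ∈ W3 := (W3.valuation_le_one_iff _).mp hv3.le
  -- (b)
  obtain ⟨d₁, H₁, hd₁, hH₁, E₁⟩ := e₁
  obtain ⟨d₂, H₂, hd₂, hH₂, E₂⟩ := e₂
  obtain ⟨s1, s2, s3⟩ := red_isCstPow' (k := k) q hdA1 hdA2 rd1 rd2 rd3 hker1 hker2 hker3 rd1' rd2'
    hker1' hker2' (fun d hd => (hLval d hd).imp fun _ h => h.1)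
    (fun d hd => (hLval d hd).imp fun _ h => h.2) hLred1 hLred2 j11 hj11 j13 j22 j11'
    Nm Nm' hπ13 hπ2 hπ'1 hqm m01 m02 m03 hv1 hv2 hv3 hd₁ hd₂ hH₁ hH₂ E₁ E₂
  -- `u1 := u ^ (q-1)`
  set u1 : F := u ^ (q - 1) with hu1
  have m11 : u1 ∈ W1 := pow_mem m01 _
  have m12 : u1 ∈ W2 := pow_mem m02 _
  have m13 : u1 ∈ W3 := pow_mem m03 _
  have t1 : rd1 ⟨u1, m11⟩ = rd1 ⟨u, m01⟩ ^ (q - 1) := by
    rw [← map_pow]; congr 1
  have t2 : rd2 ⟨u1, m12⟩ = rd2 ⟨u, m02⟩ ^ (q - 1) := by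
    rw [← map_pow]; congr 1
  have t3 : rd3 ⟨u1, m13⟩ = rd3 ⟨u, m03⟩ ^ (q - 1) := by
    rw [← map_pow]; congr 1
  obtain ⟨V1, hV1, eV1⟩ := (s1.pow (q - 1)).exists_pow_eq hm
  obtain ⟨V2, hV2, eV2⟩ := (s2.pow (q - 1)).exists_pow_eq hm
  obtain ⟨V3, hV3, eV3⟩ := s3.exists_pow_eq hm
  -- APPROX
  obtain ⟨β, hβ0, b1, b2, b3, g1, g2, g3, r1, r2, r3⟩ := exists_one_mod_rad hW rd1 rd2 rd3
    hs1 hs2 hs3 hker1 hker2 hker3 m m11 m12 m13 hV1 hV2 hV3 (t1.trans eV1) (t2.trans eV2)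
    (t3.trans eV3)
  refine ⟨β, u1 * β⁻¹ ^ m, hβ0, ?_, ?_, ?_, ?_, ⟨g1, g2, g3, r1, r2, r3⟩, ?_, ?_⟩
  · rw [mul_comm, mul_assoc, ← mul_pow, inv_mul_cancel₀ hβ0, one_pow, mul_one]
  · simp only [hu1, map_mul, map_pow, map_inv₀, hv1, b1, inv_one, one_pow, mul_one]
  · simp only [hu1, map_mul, map_pow, map_inv₀, hv2, b2, inv_one, one_pow, mul_one]
  · simp only [hu1, map_mul, map_pow, map_inv₀, hv3, b3, inv_one, one_pow, mul_one]
  · have h := (IsCstPow.pow ⟨d₁, H₁, hd₁, hH₁, E₁⟩ (q - 1)).mul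
      (IsCstPow.pow_self (k := L) (m := m) ((map_ne_zero Nm).mpr (inv_ne_zero hβ0)))
    simpa only [hu1, map_mul, map_pow] using h
  · have h := (IsCstPow.pow ⟨d₂, H₂, hd₂, hH₂, E₂⟩ (q - 1)).mul
      (IsCstPow.pow_self (k := L) (m := m) ((map_ne_zero Nm').mpr (inv_ne_zero hβ0)))
    simpa only [hu1, map_mul, map_pow] using h

end NormUnit

end Fermat.Agent.GE8.SQ2
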